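import Fermat.Agent.S27.GapEch

set_option autoImplicit false
set_option linter.style.haveILetI false
set_option linter.deprecated false
set_option linter.unusedSectionVars false

/-! Base change of `GapAlg`. -/

namespace Fermat.Agent.S27

open Module TensorProduct

namespace GapAlg

section bc

variable {R B : Type*} [CommRing R] [CommRing B] [Algebra R B] {S : AddSubmonoid ℕ}
  (G : GapAlg R B S)

/-- base change of the adapted basis -/
noncomputable def baseChange (R' : Type*) [CommRing R'] [Algebra R R'] :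
    GapAlg R' (R' ⊗[R] B) S where
  e := Algebra.TensorProduct.basis R' G.e
  e_zero := by
    rw [Algebra.TensorProduct.basis_apply, G.e_zero]; rfl
  e_mul s t := by
    rw [Algebra.TensorProduct.basis_apply, Algebra.TensorProduct.basis_apply,
      Algebra.TensorProduct.basis_apply, Algebra.TensorProduct.tmul_mul_tmul, one_mul,
      ← TensorProduct.tmul_sub]
    have key : ∀ x ∈ Submodule.span R (G.e '' {u | u < s + t}), (1 : R') ⊗ₜ[R] x ∈
        Submodule.span R' ((Algebra.TensorProduct.basis R' G.e) '' {u | u < s + t}) := by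
      intro x hx
      induction hx using Submodule.span_induction with
      | mem x hx =>
        obtain ⟨u, hu, rfl⟩ := hx
        apply Submodule.subset_span
        exact ⟨u, hu, by rw [Algebra.TensorProduct.basis_apply]⟩
      | zero => rw [TensorProduct.tmul_zero]; exact Submodule.zero_mem _
      | add x y _ _ hx hy => rw [TensorProduct.tmul_add]; exact Submodule.add_mem _ hx hy
      | smul c x _ hx =>
        have : (1 : R') ⊗ₜ[R] (c • x) = algebraMap R R' c • ((1 : R') ⊗ₜ[R] x) := by
          rw [TensorProduct.tmul_smul, algebraMap_smul]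
        rw [this]
        exact Submodule.smul_mem _ _ hx
    exact key _ (G.e_mul s t)

theorem baseChange_e (R' : Type*) [CommRing R'] [Algebra R R'] (s : S) :
    (G.baseChange R').e s = (1 : R') ⊗ₜ[R] G.e s :=
  Algebra.TensorProduct.basis_apply _ _

theorem coeff_tmul (R' : Type*) [CommRing R'] [Algebra R R'] (n : ℕ) (r : R') (b : B) :
    (G.baseChange R').coeff n (r ⊗ₜ[R] b) = r * algebraMap R R' (G.coeff n b) := by
  by_cases hn : n ∈ S
  · rw [GapAlg.coeff_of_mem _ hn, GapAlg.coeff_of_mem _ hn]
    show (Algebra.TensorProduct.basis R' G.e).repr (r ⊗ₜ[R] b) ⟨n, hn⟩ = _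
    rw [Algebra.TensorProduct.basis_repr_tmul]
    simp
  · rw [GapAlg.coeff_of_notMem _ hn, GapAlg.coeff_of_notMem _ hn, map_zero, mul_zero]

/-- functoriality map -/
noncomputable def bcMap (B : Type*) [CommRing B] [Algebra R B] {R' R'' : Type*} [CommRing R']
    [Algebra R R'] [CommRing R''] [Algebra R R''] (f : R' →ₐ[R] R'') :
    R' ⊗[R] B →ₐ[R] R'' ⊗[R] B :=
  Algebra.TensorProduct.map f (AlgHom.id R B)

theorem bcMap_tmul {R' R'' : Type*} [CommRing R']
    [Algebra R R'] [CommRing R''] [Algebra R R''] (f : R' →ₐ[R] R'') (r : R') (b : B) :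
    bcMap B f (r ⊗ₜ b) = f r ⊗ₜ b := rfl

theorem coeff_bcMap {R' R'' : Type*} [CommRing R']
    [Algebra R R'] [CommRing R''] [Algebra R R''] (f : R' →ₐ[R] R'') (n : ℕ) (x : R' ⊗[R] B) :
    (G.baseChange R'').coeff n (bcMap B f x) = f ((G.baseChange R').coeff n x) := by
  induction x using TensorProduct.induction_on with
  | zero => simp
  | tmul r b => rw [bcMap_tmul, coeff_tmul, coeff_tmul, map_mul, AlgHom.commutes]
  | add x y hx hy => rw [map_add, map_add, hx, hy, map_add, map_add]

theorem bcMap_surjective {R' R'' : Type*} [CommRing R']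
    [Algebra R R'] [CommRing R''] [Algebra R R''] {f : R' →ₐ[R] R''}
    (hf : Function.Surjective f) : Function.Surjective (bcMap B f) := by
  intro x
  induction x using TensorProduct.induction_on with
  | zero => exact ⟨0, map_zero _⟩
  | tmul r b =>
    obtain ⟨r', rfl⟩ := hf r
    exact ⟨r' ⊗ₜ b, rfl⟩
  | add x y hx hy =>
    obtain ⟨x', rfl⟩ := hx
    obtain ⟨y', rfl⟩ := hy
    exact ⟨x' + y', map_add _ _ _⟩

theorem bcMap_injective {R' R'' : Type*} [CommRing R']
    [Algebra R R'] [CommRing R''] [Algebra R R''] {f : R' →ₐ[R] R''}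
    (hf : Function.Injective f) (G : GapAlg R B S) : Function.Injective (bcMap B f) := by
  intro x y hxy
  apply (G.baseChange R').ext_coeff
  intro n
  apply hf
  rw [← G.coeff_bcMap, ← G.coeff_bcMap, hxy]

theorem deg_bcMap_le {R' R'' : Type*} [CommRing R']
    [Algebra R R'] [CommRing R''] [Algebra R R''] (f : R' →ₐ[R] R'') (x : R' ⊗[R] B) :
    (G.baseChange R'').deg (bcMap B f x) ≤ (G.baseChange R').deg x := by
  rw [GapAlg.deg_le_iff]
  intro m hm
  rw [coeff_bcMap, GapAlg.coeff_eq_zero_of_deg_lt _ hm, map_zero]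

theorem deg_bcMap {R' R'' : Type*} [CommRing R']
    [Algebra R R'] [CommRing R''] [Algebra R R''] {f : R' →ₐ[R] R''}
    (hf : Function.Injective f) (x : R' ⊗[R] B) :
    (G.baseChange R'').deg (bcMap B f x) = (G.baseChange R').deg x := by
  apply le_antisymm (G.deg_bcMap_le f x)
  rw [GapAlg.deg_le_iff]
  intro m hm
  apply hf
  rw [← G.coeff_bcMap, GapAlg.coeff_eq_zero_of_deg_lt _ hm, map_zero]

/-- the ring isomorphism induced by an isomorphism of the base -/
noncomputable def bcEquiv (B : Type*) [CommRing B] [Algebra R B] {R' R'' : Type*} [CommRing R']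
    [Algebra R R'] [CommRing R''] [Algebra R R''] (f : R' ≃ₐ[R] R'') :
    R' ⊗[R] B ≃ₐ[R] R'' ⊗[R] B :=
  Algebra.TensorProduct.congr f AlgEquiv.refl

theorem bcEquiv_apply {R' R'' : Type*} [CommRing R']
    [Algebra R R'] [CommRing R''] [Algebra R R''] (f : R' ≃ₐ[R] R'') (x : R' ⊗[R] B) :
    bcEquiv B f x = bcMap B (f : R' →ₐ[R] R'') x := rfl

/-- a linear combination of basis vectors with prescribed coefficients -/
theorem exists_of_coeff (R' : Type*) [CommRing R'] [Algebra R R'] (c : ℕ → R') (N : ℕ)
    (hN : ∀ n, N < n → c n = 0) (hS : ∀ n, n ∉ S → c n = 0) :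
    ∃ x : R' ⊗[R] B, ∀ n, (G.baseChange R').coeff n x = c n := by
  classical
  refine ⟨∑ n ∈ Finset.range (N + 1), if h : n ∈ S then c n • (G.baseChange R').e ⟨n, h⟩ else 0,
    fun n => ?_⟩
  rw [map_sum]
  have : ∀ m ∈ Finset.range (N + 1), (G.baseChange R').coeff n
      (if h : m ∈ S then c m • (G.baseChange R').e ⟨m, h⟩ else 0) = if n = m then c n else 0 := by
    intro m _
    by_cases h : m ∈ S
    · rw [dif_pos h, map_smul, GapAlg.coeff_e, smul_eq_mul]
      by_cases hnm : n = m
      · subst hnm; simp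
      · simp [hnm]
    · rw [dif_neg h, map_zero]
      split_ifs with hnm
      · subst hnm; rw [hS _ h]
      · rfl
  rw [Finset.sum_congr rfl this, Finset.sum_ite_eq]
  split_ifs with h
  · rfl
  · rw [hN]; simpa using h

end bc

section field

variable {R B : Type*} [CommRing R] [CommRing B] [Algebra R B] {S : AddSubmonoid ℕ}
  (G : GapAlg R B S)

theorem semi_bcEquiv {k k' : Type*} [Field k] [Algebra R k] [Field k'] [Algebra R k']
    (f : k ≃ₐ[R] k') :
    Semi (G.baseChange k) (G.baseChange k') (f : k ≃+* k') (bcEquiv B f : k ⊗[R] B ≃+* k' ⊗[R] B) :=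
  ⟨fun n b => G.coeff_bcMap (f : k →ₐ[R] k') n b⟩

end field

end GapAlg

end Fermat.Agent.S27
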