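import Fermat.Agent.S27.Gap

set_option autoImplicit false
set_option linter.style.haveILetI false
set_option linter.deprecated false

namespace Fermat.Agent.S27

open Module

namespace GapAlg

section field

variable {k B : Type*} [Field k] [CommRing B] [Algebra k B] {S : AddSubmonoid ℕ}
  (G : GapAlg k B S)

include G in
theorem mul_ne_zero' {a b : B} (ha : a ≠ 0) (hb : b ≠ 0) : a * b ≠ 0 := by
  intro h
  have := G.coeff_mul_deg a b
  rw [h, map_zero] at this
  exact mul_ne_zero (G.coeff_deg_ne_zero ha) (G.coeff_deg_ne_zero hb) this.symm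

theorem deg_mul {a b : B} (ha : a ≠ 0) (hb : b ≠ 0) : G.deg (a * b) = G.deg a + G.deg b :=
  le_antisymm (G.deg_mul_le a b) (by
    by_contra h
    push Not at h
    have := G.coeff_eq_zero_of_deg_lt h
    rw [G.coeff_mul_deg] at this
    exact mul_ne_zero (G.coeff_deg_ne_zero ha) (G.coeff_deg_ne_zero hb) this)

include G in
theorem nontrivial : Nontrivial B := by
  refine ⟨⟨1, 0, ?_⟩⟩
  rw [← G.e_zero]
  exact G.e.ne_zero 0

include G in
theorem isDomain : IsDomain B := by
  haveI := G.nontrivial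
  haveI : NoZeroDivisors B := ⟨fun {a b} h => by
    by_contra hab
    push Not at hab
    exact G.mul_ne_zero' hab.1 hab.2 h⟩
  exact NoZeroDivisors.to_isDomain B

theorem deg_one : G.deg (1 : B) = 0 := by
  rw [← G.e_zero, G.deg_e]; rfl

theorem deg_algebraMap (c : k) : G.deg (algebraMap k B c) = 0 := by
  rw [Algebra.algebraMap_eq_smul_one]
  have := G.deg_smul_le c (1 : B)
  rw [G.deg_one] at this
  omega

theorem deg_smul {c : k} (hc : c ≠ 0) (b : B) : G.deg (c • b) = G.deg b := by
  apply le_antisymm (G.deg_smul_le c b)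
  have := G.deg_smul_le c⁻¹ (c • b)
  rwa [smul_smul, inv_mul_cancel₀ hc, one_smul] at this

theorem eq_zero_or_deg_lt {b : B} {n : ℕ} (h : G.deg b ≤ n) (h0 : G.coeff n b = 0) :
    b = 0 ∨ G.deg b < n := by
  by_cases hb : b = 0
  · exact Or.inl hb
  · right
    refine lt_of_le_of_ne h fun h' => ?_
    subst h'
    exact G.coeff_deg_ne_zero hb h0

/-- reduction of `a` by `b` in the same degree -/
theorem exists_sub_smul {a b : B} {n : ℕ} (ha : G.deg a ≤ n) (hb : b ≠ 0) (hbn : G.deg b = n) :
    ∃ c : k, c = G.coeff n a / G.coeff n b ∧ (a - c • b = 0 ∨ G.deg (a - c • b) < n) := by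
  refine ⟨_, rfl, ?_⟩
  apply G.eq_zero_or_deg_lt
  · refine (G.deg_sub_le _ _).trans (max_le ha ?_)
    exact (G.deg_smul_le _ _).trans hbn.le
  · rw [map_sub, map_smul, smul_eq_mul, div_mul_cancel₀, sub_self]
    rw [← hbn]
    exact G.coeff_deg_ne_zero hb

theorem eq_algebraMap_of_deg_eq_zero {b : B} (h : G.deg b = 0) : ∃ c : k, b = algebraMap k B c := by
  obtain ⟨c, -, hc⟩ := G.exists_sub_smul (a := b) (b := 1) (n := 0) h.le
    (by haveI := G.nontrivial; exact one_ne_zero) G.deg_one
  rcases hc with hc | hc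
  · exact ⟨c, by rw [Algebra.algebraMap_eq_smul_one]; exact sub_eq_zero.mp hc⟩
  · omega

include G in
theorem isUnit_iff {b : B} : IsUnit b ↔ b ≠ 0 ∧ G.deg b = 0 := by
  haveI := G.nontrivial
  constructor
  · rintro ⟨u, rfl⟩
    refine ⟨u.ne_zero, ?_⟩
    have h := G.deg_mul u.ne_zero (u⁻¹).ne_zero
    rw [Units.mul_inv, G.deg_one] at h
    omega
  · rintro ⟨h0, h⟩
    obtain ⟨c, rfl⟩ := G.eq_algebraMap_of_deg_eq_zero h
    have hc : c ≠ 0 := by rintro rfl; simp at h0
    exact (isUnit_iff_ne_zero.mpr hc).map (algebraMap k B)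

/-- degrees of nonzero elements -/
def degSet (V : Submodule k B) : Set ℕ := {n | ∃ v ∈ V, v ≠ 0 ∧ G.deg v = n}

theorem degSet_subset (V : Submodule k B) : G.degSet V ⊆ S := by
  rintro n ⟨v, -, -, rfl⟩
  exact G.deg_mem v

theorem degSet_mono {V W : Submodule k B} (h : V ≤ W) : G.degSet V ⊆ G.degSet W := by
  rintro n ⟨v, hv, h0, rfl⟩
  exact ⟨v, h hv, h0, rfl⟩

/-- complement spanned by basis vectors -/
def cpl (V : Submodule k B) : Submodule k B :=
  Submodule.span k (G.e '' {s : S | (s : ℕ) ∉ G.degSet V})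

theorem coeff_eq_zero_of_mem_cpl {V : Submodule k B} {b : B} (hb : b ∈ G.cpl V) {n : ℕ}
    (hn : n ∈ G.degSet V) : G.coeff n b = 0 := by
  have hS := G.degSet_subset V hn
  rw [G.coeff_of_mem hS]
  rw [cpl, Basis.mem_span_image] at hb
  by_contra hne
  have := hb (Finsupp.mem_support_iff.mpr hne)
  exact this hn

theorem isCompl_cpl (V : Submodule k B) : IsCompl V (G.cpl V) := by
  constructor
  · rw [Submodule.disjoint_def]
    intro b hb hb'
    by_contra h0
    exact G.coeff_deg_ne_zero h0 (G.coeff_eq_zero_of_mem_cpl hb' ⟨b, hb, h0, rfl⟩)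
  · rw [codisjoint_iff, eq_top_iff]
    have key : ∀ n, ∀ b : B, G.deg b ≤ n → b ∈ V ⊔ G.cpl V := by
      intro n
      induction n using Nat.strong_induction_on with
      | _ n ih =>
      intro b hbn
      by_cases hb0 : b = 0
      · subst hb0; exact Submodule.zero_mem _
      by_cases hn : n ∈ G.degSet V
      · obtain ⟨v, hv, hv0, hvn⟩ := hn
        obtain ⟨c, -, hc⟩ := G.exists_sub_smul hbn hv0 hvn
        have hmem : b - c • v ∈ V ⊔ G.cpl V := by
          rcases hc with hc | hc
          · rw [hc]; exact Submodule.zero_mem _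
          · exact ih _ hc _ le_rfl
        have := Submodule.add_mem _ hmem (Submodule.mem_sup_left (Submodule.smul_mem _ c hv))
        simpa using this
      · by_cases hS : n ∈ S
        · obtain ⟨c, -, hc⟩ := G.exists_sub_smul hbn (G.e.ne_zero ⟨n, hS⟩) (G.deg_e ⟨n, hS⟩)
          have hmem : b - c • G.e ⟨n, hS⟩ ∈ V ⊔ G.cpl V := by
            rcases hc with hc | hc
            · rw [hc]; exact Submodule.zero_mem _
            · exact ih _ hc _ le_rfl
          have h2 : G.e ⟨n, hS⟩ ∈ G.cpl V :=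
            Submodule.subset_span ⟨⟨n, hS⟩, hn, rfl⟩
          have := Submodule.add_mem _ hmem (Submodule.mem_sup_right (Submodule.smul_mem _ c h2))
          simpa using this
        · have hlt : G.deg b < n := lt_of_le_of_ne hbn (fun h => hS (h ▸ G.deg_mem b))
          exact ih _ hlt _ le_rfl
    intro b _
    exact key _ b le_rfl

/-- codimension of a subspace -/
noncomputable def codim (V : Submodule k B) : ℕ := Module.finrank k (B ⧸ V)

/-- basis of `B ⧸ V` -/
noncomputable def quotBasis (V : Submodule k B) :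
    Basis {s : S | (s : ℕ) ∉ G.degSet V} k (B ⧸ V) :=
  ((Basis.span (v := fun s : {s : S | (s : ℕ) ∉ G.degSet V} => G.e s)
    (G.e.linearIndependent.comp _ Subtype.val_injective)).map
    (LinearEquiv.ofEq _ _ (by
      rw [cpl, Set.image_eq_range]))).map
    (Submodule.quotientEquivOfIsCompl _ _ (G.isCompl_cpl V)).symm

theorem codim_eq_ncard (V : Submodule k B) :
    codim V = {n : ℕ | n ∈ S ∧ n ∉ G.degSet V}.ncard := by
  rw [codim, Module.finrank_eq_nat_card_basis (G.quotBasis V), Nat.card_coe_set_eq]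
  rw [← Set.ncard_image_of_injective _ (Subtype.val_injective (p := fun n => n ∈ S))]
  congr 1
  ext n
  simp only [Set.mem_image, Set.mem_setOf_eq, Subtype.exists, exists_and_right, exists_eq_right]
  constructor
  · rintro ⟨h, h'⟩; exact ⟨h, h'⟩
  · rintro ⟨h, h'⟩; exact ⟨h, h'⟩

theorem finite_iff (V : Submodule k B) :
    Module.Finite k (B ⧸ V) ↔ {n : ℕ | n ∈ S ∧ n ∉ G.degSet V}.Finite := by
  have h1 : {n : ℕ | n ∈ S ∧ n ∉ G.degSet V} =
      Subtype.val '' {s : S | (s : ℕ) ∉ G.degSet V} := by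
    ext n
    simp only [Set.mem_image, Set.mem_setOf_eq, Subtype.exists, exists_and_right, exists_eq_right]
    constructor
    · rintro ⟨h, h'⟩; exact ⟨h, h'⟩
    · rintro ⟨h, h'⟩; exact ⟨h, h'⟩
  rw [h1, Set.finite_image_iff Subtype.val_injective.injOn]
  constructor
  · intro h
    have := Module.Finite.finite_basis (G.quotBasis V)
    exact Set.toFinite _
  · intro h
    haveI := h.to_subtype
    exact Module.Finite.of_basis (G.quotBasis V)

theorem setOf_notMem_degSet (V : Submodule k B) :
    {n : ℕ | n ∉ G.degSet V} = {n | n ∉ S} ∪ {n : ℕ | n ∈ S ∧ n ∉ G.degSet V} := by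
  ext n
  simp only [Set.mem_setOf_eq, Set.mem_union]
  constructor
  · intro h
    by_cases hS : n ∈ S
    · exact Or.inr ⟨hS, h⟩
    · exact Or.inl hS
  · rintro (h | h)
    · exact fun h' => h (G.degSet_subset V h')
    · exact h.2

theorem finite_notMem_degSet [Cofin S] (V : Submodule k B) [Module.Finite k (B ⧸ V)] :
    {n : ℕ | n ∉ G.degSet V}.Finite := by
  rw [G.setOf_notMem_degSet]
  exact Cofin.fin.union ((G.finite_iff V).mp inferInstance)

theorem ncard_notMem_degSet [Cofin S] (V : Submodule k B) [Module.Finite k (B ⧸ V)] :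
    {n : ℕ | n ∉ G.degSet V}.ncard = gaps S + codim V := by
  rw [G.setOf_notMem_degSet, Set.ncard_union_eq _ Cofin.fin ((G.finite_iff V).mp inferInstance),
    G.codim_eq_ncard V]
  · rfl
  · rw [Set.disjoint_left]
    intro n h1 h2
    exact h1 h2.1

theorem eq_of_le_of_degSet_eq {V W : Submodule k B} (h : V ≤ W) (hd : G.degSet W ⊆ G.degSet V) :
    V = W := by
  apply le_antisymm h
  intro w hw
  have : w ∈ V ⊔ G.cpl V := by rw [(G.isCompl_cpl V).sup_eq_top]; trivial
  obtain ⟨v, hv, c, hc, rfl⟩ := Submodule.mem_sup.mp this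
  have hcW : c ∈ W := by
    have := W.sub_mem hw (h hv)
    simpa using this
  have hc0 : c = 0 := by
    by_contra h0
    exact G.coeff_deg_ne_zero h0 (G.coeff_eq_zero_of_mem_cpl hc (hd ⟨c, hcW, h0, rfl⟩))
  rw [hc0, add_zero]
  exact hv

include G in
theorem eq_of_le_of_codim_eq {V W : Submodule k B} (h : V ≤ W) [Module.Finite k (B ⧸ V)]
    (hc : codim V ≤ codim W) : V = W := by
  apply G.eq_of_le_of_degSet_eq h
  rw [G.codim_eq_ncard, G.codim_eq_ncard] at hc
  have hfin := (G.finite_iff V).mp inferInstance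
  have hsub : {n : ℕ | n ∈ S ∧ n ∉ G.degSet W} ⊆ {n : ℕ | n ∈ S ∧ n ∉ G.degSet V} :=
    fun n hn => ⟨hn.1, fun h' => hn.2 (G.degSet_mono h h')⟩
  have heq := Set.eq_of_subset_of_ncard_le hsub hc hfin
  intro n hn
  by_contra h'
  have : n ∈ {n : ℕ | n ∈ S ∧ n ∉ G.degSet W} := by
    rw [heq]; exact ⟨G.degSet_subset W hn, h'⟩
  exact this.2 hn

/-- codimension is monotone -/
theorem finite_of_le {V W : Submodule k B} (h : V ≤ W) [Module.Finite k (B ⧸ V)] :
    Module.Finite k (B ⧸ W) :=
  Module.Finite.of_surjective (Submodule.factor h) (Submodule.factor_surjective h)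

theorem codim_anti {V W : Submodule k B} (h : V ≤ W) [Module.Finite k (B ⧸ V)] :
    codim W ≤ codim V :=
  LinearMap.finrank_le_finrank_of_surjective (f := Submodule.factor h) (Submodule.factor_surjective h)

/-! ### principal ideals -/

theorem degSet_span_singleton {a : B} (ha : a ≠ 0) :
    G.degSet ((Ideal.span {a}).restrictScalars k) = {n | ∃ s ∈ S, n = G.deg a + s} := by
  ext n
  constructor
  · rintro ⟨v, hv, hv0, rfl⟩
    obtain ⟨c, rfl⟩ := Ideal.mem_span_singleton'.mp hv
    have hc : c ≠ 0 := by rintro rfl; simp at hv0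
    exact ⟨G.deg c, G.deg_mem c, by rw [G.deg_mul hc ha, add_comm]⟩
  · rintro ⟨s, hs, rfl⟩
    refine ⟨a * G.e ⟨s, hs⟩, Ideal.mul_mem_right _ _ (Ideal.subset_span rfl), ?_, ?_⟩
    · exact G.mul_ne_zero' ha (G.e.ne_zero _)
    · rw [G.deg_mul ha (G.e.ne_zero _), G.deg_e]

theorem shift_compl (d : ℕ) : {n : ℕ | n ∉ {n | ∃ s ∈ S, n = d + s}} =
    ((Finset.range d : Finset ℕ) : Set ℕ) ∪ (fun n => d + n) '' {n | n ∉ S} := by
  ext n
  simp only [Set.mem_setOf_eq, not_exists, not_and, Finset.coe_range, Set.mem_union, Set.mem_Iio,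
    Set.mem_image]
  constructor
  · intro h
    by_cases hn : n < d
    · exact Or.inl hn
    · right
      refine ⟨n - d, fun hS => h _ hS (by omega), by omega⟩
  · rintro (h | ⟨m, hm, rfl⟩) s hs heq
    · omega
    · apply hm
      have : m = s := by omega
      rwa [this]

theorem ncard_shift_compl [Cofin S] (d : ℕ) :
    {n : ℕ | n ∉ {n | ∃ s ∈ S, n = d + s}}.Finite ∧
    {n : ℕ | n ∉ {n | ∃ s ∈ S, n = d + s}}.ncard = d + gaps S := by
  rw [shift_compl]
  have hfin : ((fun n => d + n) '' {n | n ∉ S}).Finite := Cofin.fin.image _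
  refine ⟨(Finset.finite_toSet _).union hfin, ?_⟩
  rw [Set.ncard_union_eq _ (Finset.finite_toSet _) hfin, Set.ncard_coe_finset, Finset.card_range,
    Set.ncard_image_of_injective _ (add_right_injective d)]
  · rfl
  · rw [Set.disjoint_left]
    rintro n h1 ⟨m, -, rfl⟩
    simp at h1

include G in
theorem finite_span_singleton [Cofin S] {a : B} (ha : a ≠ 0) :
    Module.Finite k (B ⧸ (Ideal.span {a}).restrictScalars k) := by
  rw [G.finite_iff]
  have := (ncard_shift_compl (S := S) (G.deg a)).1
  refine this.subset ?_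
  intro n hn
  have h2 := hn.2
  rwa [G.degSet_span_singleton ha] at h2

theorem codim_span_singleton [Cofin S] {a : B} (ha : a ≠ 0) :
    codim ((Ideal.span {a}).restrictScalars k) = G.deg a := by
  haveI := G.finite_span_singleton ha
  have h1 := G.ncard_notMem_degSet ((Ideal.span {a}).restrictScalars k)
  have h2 := (ncard_shift_compl (S := S) (G.deg a)).2
  rw [G.degSet_span_singleton ha, h2] at h1
  omega

include G in
theorem finite_ideal [Cofin S] {I : Ideal B} (hI : I ≠ ⊥) :
    Module.Finite k (B ⧸ I.restrictScalars k) := by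
  obtain ⟨a, ha, ha0⟩ := Submodule.exists_mem_ne_zero_of_ne_bot hI
  haveI := G.finite_span_singleton ha0
  exact finite_of_le (V := (Ideal.span {a}).restrictScalars k)
    (fun x hx => (Ideal.span_singleton_le_iff_mem I).mpr ha hx)

theorem codim_le_deg [Cofin S] {I : Ideal B} {a : B} (ha : a ∈ I) (ha0 : a ≠ 0) :
    codim (I.restrictScalars k) ≤ G.deg a := by
  haveI := G.finite_span_singleton ha0
  rw [← G.codim_span_singleton ha0]
  exact codim_anti (fun x hx => (Ideal.span_singleton_le_iff_mem I).mpr ha hx)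

theorem eq_span_of_deg_le [Cofin S] {I : Ideal B} {a : B} (ha : a ∈ I) (ha0 : a ≠ 0)
    (h : G.deg a ≤ codim (I.restrictScalars k)) : I = Ideal.span {a} := by
  haveI := G.finite_span_singleton ha0
  have h1 : (Ideal.span {a}).restrictScalars k = I.restrictScalars k := by
    apply G.eq_of_le_of_codim_eq
      (fun x hx => (Ideal.span_singleton_le_iff_mem I).mpr ha hx)
    rwa [G.codim_span_singleton ha0]
  exact (Submodule.restrictScalars_injective k B B h1).symm

/-- Principal criterion. -/
theorem isPrincipal_iff [Cofin S] {I : Ideal B} (hI : I ≠ ⊥) :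
    I.IsPrincipal ↔ ∃ a ∈ I, a ≠ 0 ∧ G.deg a ≤ codim (I.restrictScalars k) := by
  constructor
  · rintro ⟨a, rfl⟩
    have ha0 : a ≠ 0 := by rintro rfl; exact hI (by simp)
    exact ⟨a, Submodule.mem_span_singleton_self a, ha0, (G.codim_span_singleton ha0).ge⟩
  · rintro ⟨a, ha, ha0, h⟩
    exact ⟨a, G.eq_span_of_deg_le ha ha0 h⟩

include G in
/-- codimension zero means everything -/
theorem codim_eq_zero_iff [Cofin S] {I : Ideal B} (hI : I ≠ ⊥) :
    codim (I.restrictScalars k) = 0 ↔ I = ⊤ := by
  haveI := G.finite_ideal hI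
  constructor
  · intro h
    have : I.restrictScalars k = ⊤ := by
      apply G.eq_of_le_of_codim_eq le_top
      rw [h]; exact Nat.zero_le _
    exact (Submodule.restrictScalars_eq_top_iff k B B).mp this
  · rintro rfl
    rw [codim, Module.finrank_eq_zero_iff_of_free]
    rw [Submodule.restrictScalars_top]
    infer_instance

/-! ### Noetherian, dimension one -/

include G in
theorem isNoetherianRing [Cofin S] : IsNoetherianRing B := by
  rw [isNoetherianRing_iff_ideal_fg]
  intro I
  by_cases hI : I = ⊥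
  · subst hI; exact Submodule.fg_bot
  obtain ⟨a, ha, ha0⟩ := Submodule.exists_mem_ne_zero_of_ne_bot hI
  haveI := G.finite_span_singleton ha0
  have hfin : Module.Finite k (B ⧸ Ideal.span {a}) :=
    Module.Finite.equiv (Submodule.Quotient.restrictScalarsEquiv k (Ideal.span {a}))
  haveI : IsNoetherian k (B ⧸ Ideal.span {a}) := inferInstance
  haveI : IsNoetherian B (B ⧸ Ideal.span {a}) := isNoetherian_of_tower k inferInstance
  refine Submodule.fg_of_fg_map_of_fg_inf_ker (Submodule.mkQ (Ideal.span {a})) ?_ ?_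
  · exact IsNoetherian.noetherian _
  · rw [Submodule.ker_mkQ]
    have : I ⊓ Ideal.span {a} = Ideal.span {a} :=
      inf_eq_right.mpr ((Ideal.span_singleton_le_iff_mem I).mpr ha)
    rw [this]
    exact ⟨{a}, by simp⟩

include G in
theorem isMaximal_of_isPrime [Cofin S] {P : Ideal B} (hP : P ≠ ⊥) [P.IsPrime] : P.IsMaximal := by
  haveI := G.finite_ideal hP
  have hfin : Module.Finite k (B ⧸ P) :=
    Module.Finite.equiv (Submodule.Quotient.restrictScalarsEquiv k P)
  apply Ideal.Quotient.maximal_of_isField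
  haveI : Algebra.IsIntegral k (B ⧸ P) := Algebra.IsIntegral.of_finite k _
  exact isField_of_isIntegral_of_isField' (R := k) (Field.toIsField k)

include G in
theorem dimensionLEOne [Cofin S] : Ring.DimensionLEOne B :=
  ⟨fun hp _ => G.isMaximal_of_isPrime hp⟩

include G in
theorem isDedekindDomain [Cofin S] [IsIntegrallyClosed B] : IsDedekindDomain B := by
  haveI := G.isDomain
  haveI := G.isNoetherianRing
  haveI := G.dimensionLEOne
  haveI : IsDedekindRing B := { }
  exact { }

end field

end GapAlg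

end Fermat.Agent.S27
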