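import Mathlib
import Fermat.Agent.S27.GapBC
import Fermat.Agent.S27.GapField

set_option autoImplicit false
set_option linter.unusedSectionVars false
set_option linter.style.haveILetI false

/-!
# Ring of definition of a `GapAlg`
-/

namespace Fermat.Agent.S27

open Module TensorProduct

section abs

variable {R K B : Type*} [CommRing R] [CommRing K] [Algebra R K] [CommRing B] [Algebra R B]
  {S : AddSubmonoid ℕ} (cf : ℕ → B →ₗ[R] K) (v : S → B)

/-- hypotheses for a triangular family to define a `GapAlg` -/
structure Tri (cf : ℕ → B →ₗ[R] K) (v : S → B) : Prop where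
  inj : Function.Injective (algebraMap R K)
  ext : ∀ b, (∀ n, cf n b = 0) → b = 0
  fin : ∀ b, ∃ N, ∀ n, N ≤ n → cf n b = 0
  out : ∀ b n, n ∉ S → cf n b = 0
  range : ∀ b n, ∃ r : R, algebraMap R K r = cf n b
  one : ∀ s : S, cf s (v s) = 1
  gt : ∀ (s : S) (m : ℕ), (s : ℕ) < m → cf m (v s) = 0
  v_zero : v 0 = 1
  mul : ∀ (s t : S) (m : ℕ), (s + t : ℕ) ≤ m → cf m (v s * v t - v (s + t)) = 0

variable {cf v}

theorem Tri.mem_span (h : Tri cf v) (n : ℕ) (b : B) (hb : ∀ m, n ≤ m → cf m b = 0) :
    b ∈ Submodule.span R (v '' {u | (u : ℕ) < n}) := by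
  induction n generalizing b with
  | zero => rw [h.ext b (fun m => hb m (Nat.zero_le m))]; exact Submodule.zero_mem _
  | succ n ih =>
    by_cases hn : n ∈ S
    · obtain ⟨r, hr⟩ := h.range b n
      have h1 : b - r • v ⟨n, hn⟩ ∈ Submodule.span R (v '' {u | (u : ℕ) < n}) := by
        apply ih
        intro m hm
        rw [map_sub, map_smul, Algebra.smul_def, hr]
        rcases hm.eq_or_lt with rfl | hlt
        · rw [h.one ⟨n, hn⟩, mul_one, sub_self]
        · rw [hb m hlt, h.gt ⟨n, hn⟩ m hlt, mul_zero, sub_self]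
      have h2 : r • v ⟨n, hn⟩ ∈ Submodule.span R (v '' {u | (u : ℕ) < n + 1}) :=
        Submodule.smul_mem _ _ (Submodule.subset_span ⟨⟨n, hn⟩, Nat.lt_succ_self n, rfl⟩)
      have h3 : Submodule.span R (v '' {u | (u : ℕ) < n}) ≤
          Submodule.span R (v '' {u | (u : ℕ) < n + 1}) :=
        Submodule.span_mono (Set.image_mono (fun u hu => Nat.lt_succ_of_lt hu))
      have := Submodule.add_mem _ (h3 h1) h2
      rwa [sub_add_cancel] at this
    · refine Submodule.span_mono (Set.image_mono (fun u hu => Nat.lt_succ_of_lt hu)) (ih b ?_)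
      intro m hm
      rcases hm.eq_or_lt with rfl | hlt
      · exact h.out b _ hn
      · exact hb m hlt

theorem Tri.linearIndependent (h : Tri cf v) : LinearIndependent R v := by
  classical
  rw [linearIndependent_iff]
  intro l hl
  by_contra hl0
  have hne : l.support.Nonempty := Finsupp.support_nonempty_iff.2 hl0
  set s := l.support.max' hne with hs
  have h1 := congrArg (cf s) hl
  rw [Finsupp.linearCombination_apply, Finsupp.sum, map_sum, map_zero,
    Finset.sum_eq_single_of_mem s (Finset.max'_mem _ hne)] at h1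
  · rw [map_smul, h.one, Algebra.smul_def, mul_one] at h1
    have h2 : l s = 0 := h.inj (by rw [h1, map_zero])
    exact Finsupp.mem_support_iff.1 (Finset.max'_mem _ hne) h2
  · intro t ht hts
    have h2 : t < s := lt_of_le_of_ne (Finset.le_max' _ t ht) hts
    rw [map_smul, h.gt t s h2, smul_zero]

/-- the `GapAlg` of a triangular family -/
noncomputable def Tri.gapAlg (h : Tri cf v) : GapAlg R B S where
  e := Basis.mk h.linearIndependent (by
    intro b _
    obtain ⟨N, hN⟩ := h.fin b
    exact Submodule.span_mono (Set.image_subset_range _ _) (h.mem_span N b hN))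
  e_zero := by rw [Basis.mk_apply]; exact h.v_zero
  e_mul s t := by
    rw [Basis.mk_apply, Basis.mk_apply, Basis.mk_apply, Basis.coe_mk]
    exact h.mem_span (s + t : ℕ) _ (fun m hm => h.mul s t m hm)

theorem Tri.gapAlg_e (h : Tri cf v) (s : S) : h.gapAlg.e s = v s := by
  unfold Tri.gapAlg
  rw [Basis.mk_apply]

end abs

namespace GapAlg

section restrict

variable {K A : Type*} [Field K] [CommRing A] [Algebra K A] {S : AddSubmonoid ℕ}
  (G : GapAlg K A S) (R : Subalgebra ℤ K)

/-- elements with coefficients in `R` -/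
def IntC (R : Subalgebra ℤ K) (b : A) : Prop := ∀ n, G.coeff n b ∈ R

variable {G R}

theorem IntC.zero : G.IntC R 0 := fun n => by rw [map_zero]; exact zero_mem _

theorem IntC.add {a b : A} (ha : G.IntC R a) (hb : G.IntC R b) : G.IntC R (a + b) := fun n => by
  rw [map_add]; exact add_mem (ha n) (hb n)

theorem IntC.sum {ι : Type*} {s : Finset ι} {f : ι → A} (h : ∀ i ∈ s, G.IntC R (f i)) :
    G.IntC R (∑ i ∈ s, f i) := fun n => by
  rw [map_sum]; exact sum_mem (fun i hi => h i hi n)

theorem IntC.smul {c : K} (hc : c ∈ R) {b : A} (hb : G.IntC R b) : G.IntC R (c • b) := fun n => by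
  rw [map_smul, smul_eq_mul]; exact mul_mem hc (hb n)

theorem IntC.e (s : S) : G.IntC R (G.e s) := fun n => by
  rw [G.coeff_e]; split_ifs
  · exact one_mem _
  · exact zero_mem _

theorem IntC.repr_mem {b : A} (hb : G.IntC R b) (s : S) : G.e.repr b s ∈ R := by
  have := hb s
  rwa [G.coeff_of_mem s.2] at this

/-- property which holds for multiplication -/
theorem IntC.mul_left_of {a : A} (ha : ∀ s, G.IntC R (a * G.e s)) {b : A} (hb : G.IntC R b) :
    G.IntC R (a * b) := by
  rw [G.eq_sum b, Finset.mul_sum]
  refine IntC.sum fun s _ => ?_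
  rw [mul_smul_comm]
  exact IntC.smul (hb.repr_mem s) (ha s)

theorem IntC.mul (hR : ∀ s t, G.IntC R (G.e s * G.e t)) {a b : A} (ha : G.IntC R a)
    (hb : G.IntC R b) : G.IntC R (a * b) := by
  refine IntC.mul_left_of (fun s => ?_) hb
  rw [mul_comm]
  refine IntC.mul_left_of (fun t => hR s t) ha

variable (G R) in
/-- the `R`-form -/
def form (hR : ∀ s t, G.IntC R (G.e s * G.e t)) : Subalgebra R A where
  carrier := {b | G.IntC R b}
  mul_mem' ha hb := IntC.mul hR ha hb
  add_mem' ha hb := IntC.add ha hb
  algebraMap_mem' r := by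
    have h1 : algebraMap R A r = (r : K) • (1 : A) := by
      rw [← Algebra.algebraMap_eq_smul_one]; rfl
    change G.IntC R (algebraMap R A r)
    rw [h1, ← G.e_zero]
    exact IntC.smul r.2 (IntC.e 0)

variable (hR : ∀ s t, G.IntC R (G.e s * G.e t))

/-- coefficients on the form -/
noncomputable def formCoeff (n : ℕ) : form G R hR →ₗ[R] K where
  toFun b := G.coeff n b
  map_add' a b := map_add _ _ _
  map_smul' r b := by
    have h1 : ((r • b : form G R hR) : A) = (r : K) • (b : A) := rfl
    rw [h1, map_smul]
    rfl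

theorem form_tri : Tri (formCoeff hR) (fun s => (⟨G.e s, IntC.e s⟩ : form G R hR)) where
  inj := Subtype.val_injective
  ext b hb := by
    apply Subtype.ext
    apply G.ext_coeff
    intro n
    rw [show ((0 : form G R hR) : A) = 0 from rfl, map_zero]
    exact hb n
  fin b := ⟨G.deg (b : A) + 1, fun n hn => G.coeff_eq_zero_of_deg_lt (by omega)⟩
  out b n hn := G.coeff_of_notMem hn _
  range b n := ⟨⟨G.coeff n b, b.2 n⟩, rfl⟩
  one s := by
    change G.coeff s (G.e s) = 1
    rw [G.coeff_e, if_pos rfl]
  gt s m hm := by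
    change G.coeff m (G.e s) = 0
    rw [G.coeff_e, if_neg (by omega)]
  v_zero := Subtype.ext G.e_zero
  mul s t m hm := by
    change G.coeff m (G.e s * G.e t - G.e (s + t)) = 0
    apply G.deg_le_of_mem_span (s := (s + t : ℕ)) _ m hm
    refine Submodule.span_mono (Set.image_mono ?_) (G.e_mul s t)
    intro u hu
    exact hu

/-- `GapAlg` structure on the form -/
noncomputable def formGap : GapAlg R (form G R hR) S := (form_tri hR).gapAlg

theorem formGap_e (s : S) : ((formGap hR).e s : A) = G.e s := by
  unfold formGap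
  rw [Tri.gapAlg_e]

/-- comparison map -/
noncomputable def formMap : K ⊗[R] form G R hR →ₐ[K] A :=
  Algebra.TensorProduct.lift (Algebra.ofId K A) (form G R hR).val (fun _ _ => Commute.all _ _)

theorem formMap_tmul (c : K) (b : form G R hR) : formMap hR (c ⊗ₜ b) = c • (b : A) := by
  unfold formMap
  rw [Algebra.TensorProduct.lift_tmul, Algebra.smul_def]
  rfl

theorem formMap_e (s : S) : formMap hR (((formGap hR).baseChange K).e s) = G.e s := by
  rw [baseChange_e, formMap_tmul, one_smul, formGap_e]

theorem formMap_bijective : Function.Bijective (formMap hR) := by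
  have h1 : (formMap hR).toLinearMap =
      (((formGap hR).baseChange K).e.equiv G.e (Equiv.refl S)).toLinearMap := by
    apply ((formGap hR).baseChange K).e.ext
    intro s
    rw [AlgHom.toLinearMap_apply, formMap_e]
    simp
  have h2 : (formMap hR : K ⊗[R] form G R hR → A) =
      (((formGap hR).baseChange K).e.equiv G.e (Equiv.refl S)) := by
    funext x
    exact congrArg (fun f => f x) h1
  rw [h2]
  exact LinearEquiv.bijective _

end restrict

end GapAlg

end Fermat.Agent.S27
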