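import Mathlib
import Fermat.Agent.S27.Model

set_option autoImplicit false
set_option linter.unusedSectionVars false
set_option linter.style.haveILetI false

/-!
# Ring of definition of a `GapAlg`: a good basis
-/

namespace Fermat.Agent.S27

open Module TensorProduct

namespace GapAlg

section comb

variable {S : AddSubmonoid ℕ} {d : ℕ}

/-- the least element of `S` congruent to `n` modulo `d` -/
noncomputable def am (S : AddSubmonoid ℕ) (d n : ℕ) : ℕ := sInf {s | s ∈ S ∧ s % d = n % d}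

theorem am_mem {n : ℕ} (hn : n ∈ S) : am S d n ∈ S ∧ am S d n % d = n % d :=
  Nat.sInf_mem (s := {s | s ∈ S ∧ s % d = n % d}) ⟨n, hn, rfl⟩

theorem am_le {n : ℕ} (hn : n ∈ S) : am S d n ≤ n :=
  Nat.sInf_le (s := {s | s ∈ S ∧ s % d = n % d}) ⟨hn, rfl⟩

theorem am_add (n k : ℕ) : am S d (n + d * k) = am S d n := by
  unfold am
  rw [Nat.add_mul_mod_self_left]

theorem am_mod (n : ℕ) : am S d (n % d) = am S d n := by
  unfold am
  rw [Nat.mod_mod]

theorem am_am {n : ℕ} (hn : n ∈ S) : am S d (am S d n) = am S d n := by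
  conv_rhs => rw [← am_mod]
  rw [← am_mod, (am_mem hn).2]

theorem am_zero : am S d 0 = 0 := Nat.le_zero.1 (am_le S.zero_mem)

/-- the number of times `d` -/
noncomputable def qm (S : AddSubmonoid ℕ) (d n : ℕ) : ℕ := (n - am S d n) / d

theorem qm_eq (hd : 0 < d) {n : ℕ} (hn : n ∈ S) : d * qm S d n + am S d n = n := by
  have h1 : d ∣ n - am S d n := by
    rw [← Nat.modEq_iff_dvd' (am_le hn)]
    exact (am_mem hn).2
  unfold qm
  rw [Nat.mul_div_cancel' h1]
  exact Nat.sub_add_cancel (am_le hn)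

theorem qm_add (hd : 0 < d) {n : ℕ} (hdS : d ∈ S) (hn : n ∈ S) (k : ℕ) :
    qm S d (n + d * k) = qm S d n + k := by
  have hn' : n + d * k ∈ S := by
    rw [mul_comm]
    exact S.add_mem hn (by rw [← smul_eq_mul]; exact S.nsmul_mem hdS k)
  have h1 := qm_eq hd hn
  have h2 := qm_eq hd hn'
  rw [am_add] at h2
  have h3 : d * qm S d (n + d * k) = d * (qm S d n + k) := by rw [mul_add]; omega
  exact Nat.eq_of_mul_eq_mul_left hd h3

end comb

section good

variable {K A : Type*} [Field K] [CommRing A] [Algebra K A] {S : AddSubmonoid ℕ}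
  (G : GapAlg K A S) {d : ℕ}

/-- monic elements of degree `n` -/
def Mon (n : ℕ) (a : A) : Prop := G.deg a = n ∧ G.coeff n a = 1

theorem Mon.mul {m n : ℕ} {a b : A} (ha : G.Mon m a) (hb : G.Mon n b) : G.Mon (m + n) (a * b) := by
  have ha0 : a ≠ 0 := by rintro rfl; have := ha.2; rw [map_zero] at this; exact zero_ne_one this
  have hb0 : b ≠ 0 := by rintro rfl; have := hb.2; rw [map_zero] at this; exact zero_ne_one this
  refine ⟨by rw [G.deg_mul ha0 hb0, ha.1, hb.1], ?_⟩
  have := G.coeff_mul_deg a b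
  rwa [ha.1, hb.1, ha.2, hb.2, mul_one] at this

theorem mon_e (s : S) : G.Mon s (G.e s) := ⟨G.deg_e s, by rw [G.coeff_e, if_pos rfl]⟩

theorem mon_one : G.Mon 0 (1 : A) := by
  rw [← G.e_zero]; exact G.mon_e 0

theorem Mon.pow {m : ℕ} {a : A} (ha : G.Mon m a) (n : ℕ) : G.Mon (m * n) (a ^ n) := by
  induction n with
  | zero => rw [pow_zero, mul_zero]; exact G.mon_one
  | succ n ih => rw [pow_succ, mul_add, mul_one]; exact Mon.mul G ih ha

variable (hdS : d ∈ S)

/-- the good basis -/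
noncomputable def gv (s : S) : A := G.e ⟨d, hdS⟩ ^ qm S d s * G.e ⟨am S d s, (am_mem s.2).1⟩

theorem mon_gv (hd : 0 < d) (s : S) : G.Mon s (G.gv hdS s) := by
  have h := Mon.mul G (Mon.pow G (G.mon_e ⟨d, hdS⟩) (qm S d s))
    (G.mon_e ⟨am S d s, (am_mem s.2).1⟩)
  simp only at h
  rw [qm_eq hd s.2] at h
  exact h

theorem gv_zero : G.gv hdS 0 = 1 := by
  unfold gv
  have h1 : qm S d ((0 : S) : ℕ) = 0 := by
    unfold qm
    rw [show ((0 : S) : ℕ) = 0 from rfl, am_zero, Nat.sub_zero, Nat.zero_div]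
  have h2 : (⟨am S d ((0 : S) : ℕ), (am_mem (0 : S).2).1⟩ : S) = 0 := Subtype.ext am_zero
  rw [h1, pow_zero, one_mul, h2, G.e_zero]

theorem gv_tri (hd : 0 < d) : Tri (fun n => G.coeff n) (G.gv hdS) where
  inj := fun _ _ h => h
  ext b hb := by
    apply G.ext_coeff
    intro n
    rw [map_zero]
    exact hb n
  fin b := ⟨G.deg b + 1, fun n hn => G.coeff_eq_zero_of_deg_lt (by omega)⟩
  out b n hn := G.coeff_of_notMem hn _
  range b n := ⟨_, rfl⟩
  one s := (G.mon_gv hdS hd s).2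
  gt s m hm := G.coeff_eq_zero_of_deg_lt (by rw [(G.mon_gv hdS hd s).1]; exact hm)
  v_zero := G.gv_zero hdS
  mul s t m hm := by
    have h1 := Mon.mul G (G.mon_gv hdS hd s) (G.mon_gv hdS hd t)
    have h2 := G.mon_gv hdS hd (s + t)
    change G.coeff m (G.gv hdS s * G.gv hdS t - G.gv hdS (s + t)) = 0
    rw [map_sub]
    rcases hm.eq_or_lt with rfl | hlt
    · rw [h1.2]
      have h3 := h2.2
      rw [show ((s + t : S) : ℕ) = (s : ℕ) + t from rfl] at h3
      rw [h3, sub_self]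
    · rw [G.coeff_eq_zero_of_deg_lt (by rw [h1.1]; exact hlt),
        G.coeff_eq_zero_of_deg_lt (by rw [h2.1]; exact hlt), sub_self]

/-- `GapAlg` with the good basis -/
noncomputable def good (hd : 0 < d) : GapAlg K A S := (G.gv_tri hdS hd).gapAlg

theorem good_e (hd : 0 < d) (s : S) : (G.good hdS hd).e s = G.gv hdS s :=
  (G.gv_tri hdS hd).gapAlg_e s

/-- multiplication by `e_d` -/
theorem mul_gv (hd : 0 < d) (s : S) (k : ℕ) (h : (s : ℕ) + d * k ∈ S) :
    G.e ⟨d, hdS⟩ ^ k * G.gv hdS s = G.gv hdS ⟨s + d * k, h⟩ := by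
  unfold gv
  have h1 : qm S d ((⟨s + d * k, h⟩ : S) : ℕ) = qm S d s + k := qm_add hd hdS s.2 k
  have h2 : (⟨am S d ((⟨s + d * k, h⟩ : S) : ℕ), (am_mem (⟨s + d * k, h⟩ : S).2).1⟩ : S) =
      ⟨am S d s, (am_mem s.2).1⟩ := Subtype.ext (am_add _ _)
  rw [h1, h2, pow_add]
  ring

theorem gv_eq (hd : 0 < d) (s : S) :
    G.gv hdS s = G.e ⟨d, hdS⟩ ^ qm S d s * G.gv hdS ⟨am S d s, (am_mem s.2).1⟩ := by
  rw [G.mul_gv hdS hd]
  · congr 1
    apply Subtype.ext
    have := qm_eq hd s.2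
    simp only
    omega
  · have := qm_eq hd s.2
    simp only
    rw [add_comm, this]
    exact s.2

end good

section main

variable {K A : Type*} [Field K] [CommRing A] [Algebra K A] {S : AddSubmonoid ℕ}
  (G : GapAlg K A S) {d : ℕ} (hdS : d ∈ S) (hd : 0 < d)

/-- the finite set of structure constants -/
def scSet : Set K :=
  {c | ∃ s t : S, (s : ℕ) = am S d s ∧ (t : ℕ) = am S d t ∧ ∃ n,
    c = (G.good hdS hd).coeff n (G.gv hdS s * G.gv hdS t)}

theorem scSet_finite : (scSet G hdS hd).Finite := by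
  have hT : {s : S | (s : ℕ) = am S d s}.Finite := by
    apply Set.Finite.of_finite_image (f := fun s : S => (s : ℕ) % d)
    · apply (Set.finite_Iio d).subset
      rintro _ ⟨s, -, rfl⟩
      exact Nat.mod_lt _ hd
    · intro s hs t ht hst
      apply Subtype.ext
      have hs' : (s : ℕ) = am S d s := hs
      have ht' : (t : ℕ) = am S d t := ht
      rw [hs', ht', ← am_mod, ← am_mod (n := (t : ℕ))]
      have : (s : ℕ) % d = (t : ℕ) % d := hst
      rw [this]
  have h1 : ∀ s t : S, {c : K | ∃ n,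
      c = (G.good hdS hd).coeff n (G.gv hdS s * G.gv hdS t)}.Finite := by
    intro s t
    apply ((Set.finite_Iic ((G.good hdS hd).deg (G.gv hdS s * G.gv hdS t))).image
      (fun n => (G.good hdS hd).coeff n (G.gv hdS s * G.gv hdS t))).union
      (Set.finite_singleton (0 : K)) |>.subset
    rintro _ ⟨n, rfl⟩
    by_cases hn : n ≤ (G.good hdS hd).deg (G.gv hdS s * G.gv hdS t)
    · exact Or.inl ⟨n, hn, rfl⟩
    · right
      rw [Set.mem_singleton_iff]
      exact GapAlg.coeff_eq_zero_of_deg_lt _ (by omega)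
  have h2 := (hT.prod hT).biUnion (t := fun p : S × S => {c : K | ∃ n,
      c = (G.good hdS hd).coeff n (G.gv hdS p.1 * G.gv hdS p.2)}) (fun p _ => h1 p.1 p.2)
  apply h2.subset
  rintro c ⟨s, t, hs, ht, n, rfl⟩
  rw [Set.mem_iUnion₂]
  exact ⟨(s, t), ⟨hs, ht⟩, n, rfl⟩

variable (R : Subalgebra ℤ K) (hR : scSet G hdS hd ⊆ R)

include hR in
theorem good_intC (s t : S) :
    (G.good hdS hd).IntC R ((G.good hdS hd).e s * (G.good hdS hd).e t) := by
  have hx : ∀ b : A, (G.good hdS hd).IntC R b → ∀ k : ℕ,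
      (G.good hdS hd).IntC R (G.e ⟨d, hdS⟩ ^ k * b) := by
    intro b hb k
    refine IntC.mul_left_of (fun u => ?_) hb
    have hu : (u : ℕ) + d * k ∈ S := by
      rw [mul_comm]
      exact S.add_mem u.2 (by rw [← smul_eq_mul]; exact S.nsmul_mem hdS k)
    rw [good_e, G.mul_gv hdS hd u k hu, ← G.good_e hdS hd]
    exact IntC.e _
  rw [good_e, good_e, G.gv_eq hdS hd s, G.gv_eq hdS hd t]
  have h1 : G.e ⟨d, hdS⟩ ^ qm S d s * G.gv hdS ⟨am S d s, (am_mem s.2).1⟩ *
      (G.e ⟨d, hdS⟩ ^ qm S d t * G.gv hdS ⟨am S d t, (am_mem t.2).1⟩) =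
      G.e ⟨d, hdS⟩ ^ (qm S d s + qm S d t) * (G.gv hdS ⟨am S d s, (am_mem s.2).1⟩ *
        G.gv hdS ⟨am S d t, (am_mem t.2).1⟩) := by
    rw [pow_add]; ring
  rw [h1]
  apply hx
  intro n
  apply hR
  exact ⟨⟨am S d s, (am_mem s.2).1⟩, ⟨am S d t, (am_mem t.2).1⟩, (am_am s.2).symm,
    (am_am t.2).symm, n, rfl⟩

theorem form_finiteType : Algebra.FiniteType R
    (form (G.good hdS hd) R (G.good_intC hdS hd R hR)) := by
  classical
  set hR' := G.good_intC hdS hd R hR with hR'_def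
  have hT : {s : S | (s : ℕ) = am S d s}.Finite := by
    apply Set.Finite.of_finite_image (f := fun s : S => (s : ℕ) % d)
    · apply (Set.finite_Iio d).subset
      rintro _ ⟨s, -, rfl⟩
      exact Nat.mod_lt _ hd
    · intro s hs t ht hst
      apply Subtype.ext
      have hs' : (s : ℕ) = am S d s := hs
      have ht' : (t : ℕ) = am S d t := ht
      rw [hs', ht', ← am_mod, ← am_mod (n := (t : ℕ))]
      have : (s : ℕ) % d = (t : ℕ) % d := hst
      rw [this]
  let w : S → form (G.good hdS hd) R hR' := fun s => (formGap hR').e s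
  have hgen : Algebra.adjoin R ((w '' {s : S | (s : ℕ) = am S d s}) ∪ {w ⟨d, hdS⟩}) = ⊤ := by
    rw [eq_top_iff]
    intro b _
    rw [(formGap hR').eq_sum b]
    refine Subalgebra.sum_mem _ fun s _ => Subalgebra.smul_mem _ ?_ _
    have h1 : (formGap hR').e s =
        w ⟨d, hdS⟩ ^ qm S d s * w ⟨am S d s, (am_mem s.2).1⟩ := by
      apply Subtype.ext
      have hd1 : G.gv hdS ⟨d, hdS⟩ = G.e ⟨d, hdS⟩ := by
        have h2 := G.mul_gv hdS hd 0 1 (by rw [mul_one]; change 0 + d ∈ S; rwa [zero_add])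
        rw [pow_one, G.gv_zero, mul_one] at h2
        rw [h2]
        congr 1
        apply Subtype.ext
        change d = 0 + d * 1
        omega
      change ((formGap hR').e s : A) = ((w ⟨d, hdS⟩ : form (G.good hdS hd) R hR') : A) ^ qm S d s *
        (w ⟨am S d s, (am_mem s.2).1⟩ : form (G.good hdS hd) R hR')
      rw [formGap_e, formGap_e, formGap_e, good_e, good_e, good_e, hd1]
      exact G.gv_eq hdS hd s
    rw [h1]
    apply Subalgebra.mul_mem
    · apply Subalgebra.pow_mem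
      exact Algebra.subset_adjoin (Or.inr rfl)
    · exact Algebra.subset_adjoin (Or.inl ⟨_, (am_am s.2).symm, rfl⟩)
  refine ⟨⟨((hT.image w).union (Set.finite_singleton (w ⟨d, hdS⟩))).toFinset, ?_⟩⟩
  rw [Set.Finite.coe_toFinset]
  exact hgen

end main

end GapAlg

/-- **ring of definition** -/
theorem exists_model {K A : Type*} [Field K] [CommRing A] [Algebra K A] {S : AddSubmonoid ℕ}
    [Cofin S] (G : GapAlg K A S) (T : Set K) (hT : T.Finite) :
    ∃ (R : Subalgebra ℤ K) (B : Subalgebra R A) (_ : GapAlg R B S),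
      R.FG ∧ T ⊆ R ∧ Algebra.FiniteType R B ∧ Algebra.FinitePresentation R B ∧
      Nonempty (K ⊗[R] B ≃ₐ[K] A) := by
  classical
  obtain ⟨d, hdS, hd⟩ : ∃ d ∈ S, 0 < d := by
    by_contra h
    push Not at h
    have h1 : (Set.Ioi (0 : ℕ)) ⊆ {n : ℕ | n ∉ S} := by
      intro n hn hS
      have := h n hS
      have : (0 : ℕ) < n := hn
      omega
    exact (Set.Ioi_infinite (0 : ℕ)) (Cofin.fin.subset h1)
  have hfin := GapAlg.scSet_finite G hdS hd
  set R : Subalgebra ℤ K := Algebra.adjoin ℤ (GapAlg.scSet G hdS hd ∪ T) with hRdef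
  have hR : GapAlg.scSet G hdS hd ⊆ R := Set.subset_union_left.trans Algebra.subset_adjoin
  have hFG : R.FG := ⟨(hfin.union hT).toFinset, by rw [Set.Finite.coe_toFinset]⟩
  haveI : Algebra.FiniteType ℤ R := (Subalgebra.fg_iff_finiteType _).1 hFG
  haveI : IsNoetherianRing R := Algebra.FiniteType.isNoetherianRing ℤ R
  have hft := GapAlg.form_finiteType G hdS hd R hR
  refine ⟨R, GapAlg.form (G.good hdS hd) R (G.good_intC hdS hd R hR),
    GapAlg.formGap (G.good_intC hdS hd R hR), hFG,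
    Set.subset_union_right.trans Algebra.subset_adjoin, hft,
    Algebra.FinitePresentation.of_finiteType.1 hft,
    ⟨AlgEquiv.ofBijective _ (GapAlg.formMap_bijective (G.good_intC hdS hd R hR))⟩⟩

end Fermat.Agent.S27
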