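import Mathlib

/-!
# S27: the abstract zeta package

`ZetaPackage G φ q g` is the output of the counting of Frobenius-stable ideals in a
one-point Dedekind domain of genus `g` over the algebraic closure of a finite field.
-/

set_option autoImplicit false

namespace Fermat.Agent.S27

/-- The output of the counting of Frobenius-stable ideals, as an abstract package on the
class group `G` with Frobenius `φ`. -/
structure ZetaPackage (G : Type*) [CommGroup G] (φ : MulAut G) (q g : ℕ) where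
  hq : 1 < q
  locfin : ∀ x : G, ∃ m, 0 < m ∧ (φ ^ m) x = x
  fin : ∀ m, 0 < m → {x : G | (φ ^ m) x = x}.Finite
  /-- `D c` = the set of codimensions of ideals in the class `c` -/
  D : G → Set ℕ
  D_compl : ∀ c, (D c)ᶜ.ncard = g
  D_large : ∀ c n, 2 * g ≤ n → n ∈ D c
  D_can : 1 ≤ g → ∃ c₀ : G, φ c₀ = c₀ ∧ 2 * g - 1 ∉ D c₀ ∧ ∀ c, c ≠ c₀ → 2 * g - 1 ∈ D c
  /-- `b m χ n` = sum of `χ(I)` over `φ^m`-stable ideals of codimension `n` -/
  b : ℕ → (G →* ℂ) → ℕ → ℂ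
  /-- `Y m χ k` = sum over `φ^(m*k)`-fixed maximal ideals `P` of `χ (∏_{i<k} φ^(m*i) P)` -/
  Y : ℕ → (G →* ℂ) → ℕ → ℂ
  b_zero : ∀ m χ, 0 < m → (∀ x, χ ((φ ^ m) x) = χ x) → b m χ 0 = 1
  recur : ∀ m χ, 0 < m → (∀ x, χ ((φ ^ m) x) = χ x) → ∀ n : ℕ,
    (n : ℂ) * b m χ n = ∑ k ∈ Finset.range n, Y m χ (k + 1) * b m χ (n - 1 - k)
  count : ∀ m χ, (hm : 0 < m) → (∀ x, χ ((φ ^ m) x) = χ x) → ∀ n : ℕ,
    b m χ n = ∑ c ∈ (fin m hm).toFinset, χ c *
      (open Classical in if n ∈ D c then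
        ((q : ℂ) ^ m) ^ ((Finset.range n).filter (fun i => i ∈ D c)).card else 0)
  Y_one : ∀ m k, 0 < m → 0 < k → Y m 1 k = Y 1 1 (m * k)
  Y_tors : ∀ m χ ℓ k, 0 < m → (∀ x, χ ((φ ^ m) x) = χ x) → (∀ x, χ x ^ ℓ = 1) → ℓ ∣ k → 0 < k →
    Y m χ k = Y m 1 k

end Fermat.Agent.S27
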