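import Mathlib

set_option autoImplicit false

/-!
# Combinatorial Euler product

`X` a type (of points), `τ` a permutation, `D : X →₀ ℕ` effective divisors.
-/

namespace Fermat.Agent.S27

namespace Comb

open Finset

variable {X : Type*} (τ : Equiv.Perm X)

/-- `∑_{i<j} τ^i x` -/
noncomputable def E (x : X) (j : ℕ) : X →₀ ℕ := ∑ i ∈ range j, Finsupp.single ((τ ^ i) x) 1

theorem E_apply [DecidableEq X] (x y : X) (j : ℕ) :
    E τ x j y = ((range j).filter (fun i => (τ ^ i) x = y)).card := by
  unfold E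
  rw [Finsupp.finsetSum_apply]
  simp only [Finsupp.single_apply]
  rw [Finset.card_filter]

/-- degree of a divisor -/
noncomputable def degr (D : X →₀ ℕ) : ℕ := D.sum fun _ n => n

theorem degr_add (D D' : X →₀ ℕ) : degr (D + D') = degr D + degr D' :=
  Finsupp.sum_add_index' (fun _ => rfl) (fun _ _ _ => rfl)

theorem degr_single (x : X) (n : ℕ) : degr (Finsupp.single x n) = n := by
  simp [degr]

theorem degr_zero : degr (0 : X →₀ ℕ) = 0 := by simp [degr]

theorem degr_E (x : X) (j : ℕ) : degr (E τ x j) = j := by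
  induction j with
  | zero => simp [E, degr_zero]
  | succ j ih =>
    have : E τ x (j + 1) = E τ x j + Finsupp.single ((τ ^ j) x) 1 := by
      unfold E; rw [Finset.sum_range_succ]
    rw [this, degr_add, ih, degr_single]

/-- invariant divisors -/
def Inv (D : X →₀ ℕ) : Prop := ∀ x, D (τ x) = D x

variable {τ}

theorem Inv.pow {D : X →₀ ℕ} (h : Inv τ D) (i : ℕ) (x : X) : D ((τ ^ i) x) = D x := by
  induction i with
  | zero => rfl
  | succ i ih => rw [pow_succ', Equiv.Perm.mul_apply, h, ih]

theorem inv_E {x : X} {j : ℕ} (h : (τ ^ j) x = x) : Inv τ (E τ x j) := by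
  classical
  intro y
  rcases Nat.eq_zero_or_pos j with rfl | hj
  · simp [E]
  rw [E_apply, E_apply]
  -- bijection i ↦ i - 1 (mod j)
  refine Finset.card_bij' (fun i _ => if i = 0 then j - 1 else i - 1)
    (fun i _ => if i + 1 = j then 0 else i + 1) ?_ ?_ ?_ ?_
  · intro i hi
    rw [Finset.mem_filter, Finset.mem_range] at hi ⊢
    split_ifs with h0
    · refine ⟨by omega, ?_⟩
      subst h0
      apply τ.injective
      rw [← Equiv.Perm.mul_apply, ← pow_succ', Nat.sub_add_cancel hj, h]
      exact hi.2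
    · refine ⟨by omega, ?_⟩
      apply τ.injective
      rw [← Equiv.Perm.mul_apply, ← pow_succ', Nat.sub_add_cancel (by omega)]
      exact hi.2
  · intro i hi
    rw [Finset.mem_filter, Finset.mem_range] at hi ⊢
    split_ifs with h0
    · refine ⟨hj, ?_⟩
      rw [← hi.2, ← Equiv.Perm.mul_apply, ← pow_succ', h0, h]; rfl
    · refine ⟨by omega, ?_⟩
      rw [← hi.2, ← Equiv.Perm.mul_apply, ← pow_succ']
  · intro i hi
    rw [Finset.mem_filter, Finset.mem_range] at hi
    by_cases h0 : i = 0
    · subst h0; simp only [if_true]; rw [if_pos (by omega)]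
    · simp only [if_neg h0]; rw [if_neg (by omega)]; omega
  · intro i hi
    rw [Finset.mem_filter, Finset.mem_range] at hi
    by_cases h0 : i + 1 = j
    · simp only [if_pos h0, if_true]; omega
    · simp only [if_neg h0]; rw [if_neg (by omega)]; omega

theorem apply_le_degr (D : X →₀ ℕ) (E : X →₀ ℕ) (h : E ≤ D) : degr E ≤ degr D := by
  obtain ⟨D', rfl⟩ := exists_add_of_le h
  rw [degr_add]; omega

theorem pow_eq_iff {x : X} {δ : ℕ} (hδ : δ = Function.minimalPeriod τ x) {i j : ℕ} :
    (τ ^ i) x = (τ ^ j) x ↔ i ≡ j [MOD δ] := by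
  rw [hδ]
  have h1 : ∀ n : ℕ, (τ ^ n) x = τ^[n] x := fun n => by rw [Equiv.Perm.iterate_eq_pow]
  rw [h1, h1]
  wlog hij : i ≤ j with H
  · have h2 := H hδ h1 (le_of_not_ge hij)
    exact ⟨fun h => (h2.1 h.symm).symm, fun h => (h2.2 h.symm).symm⟩
  obtain ⟨d, rfl⟩ := Nat.exists_eq_add_of_le hij
  have h2 : τ^[i + d] x = τ^[i] (τ^[d] x) := by rw [Function.iterate_add_apply]
  rw [h2]
  constructor
  · intro h
    have h3 : τ^[d] x = x := ((τ.injective.iterate i) h).symm
    have h4 : Function.minimalPeriod τ x ∣ d := Function.IsPeriodicPt.minimalPeriod_dvd h3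
    obtain ⟨e, rfl⟩ := h4
    exact (Nat.modEq_iff_dvd' (Nat.le_add_right _ _)).2 ⟨e, by omega⟩
  · intro h
    have h5 := (Nat.modEq_iff_dvd' (Nat.le_add_right _ _)).1 h
    rw [Nat.add_sub_cancel_left] at h5
    have h6 : τ^[d] x = x := (Function.isPeriodicPt_iff_minimalPeriod_dvd.2 h5)
    rw [h6]

/-- the key count -/
theorem card_key [DecidableEq X] {D : X →₀ ℕ} (hD : Inv τ D) (x : X) (n : ℕ)
    (hn : degr D = n) :
    ((Finset.Icc 1 n).filter (fun j => (τ ^ j) x = x ∧ E τ x j ≤ D)).card = D x := by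
  set δ := Function.minimalPeriod τ x with hδ
  have hper : ∀ j, (τ ^ j) x = x ↔ δ ∣ j := by
    intro j
    have := pow_eq_iff (τ := τ) hδ (i := j) (j := 0)
    rw [pow_zero, Equiv.Perm.one_apply] at this
    rw [this, Nat.modEq_zero_iff_dvd]
  rcases Nat.eq_zero_or_pos δ with h0 | hpos
  · -- infinite orbit
    have hDx : D x = 0 := by
      by_contra hne
      have hinj : Function.Injective (fun i : ℕ => (τ ^ i) x) := by
        intro i j hij
        have := (pow_eq_iff (τ := τ) hδ).1 hij
        rw [h0] at this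
        exact Nat.modEq_zero_iff.1 this
      have hsub : Set.range (fun i : ℕ => (τ ^ i) x) ⊆ (D.support : Set X) := by
        rintro _ ⟨i, rfl⟩
        simp only [Finset.mem_coe, Finsupp.mem_support_iff]
        rw [hD.pow]; exact hne
      exact (Set.infinite_range_of_injective hinj) (D.support.finite_toSet.subset hsub)
    rw [hDx, Finset.card_eq_zero, Finset.filter_eq_empty_iff]
    rintro j hj ⟨h1, -⟩
    rw [hper, h0, zero_dvd_iff] at h1
    rw [Finset.mem_Icc] at hj
    omega
  · -- finite orbit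
    have hEle : ∀ t : ℕ, E τ x (δ * t) ≤ D ↔ t ≤ D x := by
      intro t
      have hcount : ∀ a : ℕ, E τ x (δ * t) ((τ ^ a) x) = t := by
        intro a
        rw [E_apply]
        have h1 : (range (δ * t)).filter (fun i => (τ ^ i) x = (τ ^ a) x) =
            (range (δ * t)).filter (fun i => i ≡ a [MOD δ]) :=
          Finset.filter_congr fun i _ => pow_eq_iff (τ := τ) hδ
        rw [h1, ← Nat.count_eq_card_filter_range, Nat.count_modEq_card _ hpos,
          Nat.mul_div_cancel_left t hpos, Nat.mul_mod_right, if_neg (by omega), add_zero]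
      constructor
      · intro h
        have := h x
        have h2 := hcount 0
        rw [pow_zero, Equiv.Perm.one_apply] at h2
        rwa [h2] at this
      · intro h y
        by_cases hy : ∃ a : ℕ, (τ ^ a) x = y
        · obtain ⟨a, rfl⟩ := hy
          rw [hcount, hD.pow]; exact h
        · have : E τ x (δ * t) y = 0 := by
            rw [E_apply, Finset.card_eq_zero, Finset.filter_eq_empty_iff]
            intro i _ hi
            exact hy ⟨i, hi⟩
          rw [this]; exact Nat.zero_le _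
    have : ((Finset.Icc 1 n).filter (fun j => (τ ^ j) x = x ∧ E τ x j ≤ D)) =
        (Finset.Icc 1 (D x)).image (fun t => δ * t) := by
      ext j
      rw [Finset.mem_filter, Finset.mem_image, Finset.mem_Icc]
      constructor
      · rintro ⟨⟨h1, h2⟩, h3, h4⟩
        rw [hper] at h3
        obtain ⟨t, rfl⟩ := h3
        refine ⟨t, ?_, rfl⟩
        rw [Finset.mem_Icc]
        refine ⟨?_, (hEle t).1 h4⟩
        rcases Nat.eq_zero_or_pos t with rfl | ht
        · omega
        · exact ht
      · rintro ⟨t, ht, rfl⟩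
        rw [Finset.mem_Icc] at ht
        have h4 := (hEle t).2 ht.2
        refine ⟨⟨?_, ?_⟩, ?_, h4⟩
        · exact Nat.mul_pos hpos ht.1
        · have := apply_le_degr D _ h4
          rw [degr_E] at this
          omega
        · rw [hper]; exact Dvd.intro _ rfl
    rw [this, Finset.card_image_of_injective _ (fun a b h => Nat.eq_of_mul_eq_mul_left hpos h),
      Nat.card_Icc]
    omega

/-- the weight of a divisor -/
noncomputable def wt (ω : X → ℂ) (D : X →₀ ℕ) : ℂ := D.prod fun x n => ω x ^ n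

theorem wt_add (ω : X → ℂ) (D D' : X →₀ ℕ) : wt ω (D + D') = wt ω D * wt ω D' :=
  Finsupp.prod_add_index' (fun _ => pow_zero _) (fun _ _ _ => pow_add _ _ _)

theorem wt_zero (ω : X → ℂ) : wt ω 0 = 1 := by simp [wt]

theorem wt_single (ω : X → ℂ) (x : X) (n : ℕ) : wt ω (Finsupp.single x n) = ω x ^ n := by
  simp [wt]

theorem wt_E (ω : X → ℂ) (x : X) (j : ℕ) : wt ω (E τ x j) = ∏ i ∈ range j, ω ((τ ^ i) x) := by
  induction j with
  | zero => simp [E, wt_zero]
  | succ j ih =>
    have : E τ x (j + 1) = E τ x j + Finsupp.single ((τ ^ j) x) 1 := by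
      unfold E; rw [Finset.sum_range_succ]
    rw [this, wt_add, ih, wt_single, pow_one, Finset.prod_range_succ]

/-- **the recursion** -/
theorem recursion (ω : X → ℂ) (hS : ∀ n, {D : X →₀ ℕ | degr D = n ∧ Inv τ D}.Finite)
    (hX : ∀ j, 0 < j → {x : X | (τ ^ j) x = x}.Finite) (n : ℕ) :
    (n : ℂ) * ∑ D ∈ (hS n).toFinset, wt ω D =
      ∑ j ∈ (Finset.Icc 1 n).attach,
        (∑ x ∈ (hX j.1 (Finset.mem_Icc.1 j.2).1).toFinset, ∏ i ∈ range j.1, ω ((τ ^ i) x)) *
          ∑ D ∈ (hS (n - j.1)).toFinset, wt ω D := by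
  classical
  -- LHS
  have h1 : (n : ℂ) * ∑ D ∈ (hS n).toFinset, wt ω D =
      ∑ D ∈ (hS n).toFinset, ∑ j ∈ (Finset.Icc 1 n).attach,
        ∑ x ∈ (hX j.1 (Finset.mem_Icc.1 j.2).1).toFinset,
          if E τ x j.1 ≤ D then wt ω D else 0 := by
    rw [Finset.mul_sum]
    apply Finset.sum_congr rfl
    intro D hD
    rw [Set.Finite.mem_toFinset] at hD
    obtain ⟨hDn, hDi⟩ := hD
    -- the sum over j, x counts pairs
    have h2 : ∀ j : {x // x ∈ Finset.Icc 1 n},
        (∑ x ∈ (hX j.1 (Finset.mem_Icc.1 j.2).1).toFinset,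
          if E τ x j.1 ≤ D then wt ω D else 0) =
        ∑ x ∈ D.support, if ((τ ^ j.1) x = x ∧ E τ x j.1 ≤ D) then wt ω D else 0 := by
      intro j
      have hj1 : 1 ≤ j.1 := (Finset.mem_Icc.1 j.2).1
      rw [← Finset.sum_filter, ← Finset.sum_filter]
      apply Finset.sum_congr _ (fun _ _ => rfl)
      ext x
      simp only [Finset.mem_filter, Set.Finite.mem_toFinset, Finsupp.mem_support_iff]
      constructor
      · rintro ⟨ha, hb⟩
        refine ⟨?_, ha, hb⟩
        have h3 := hb x
        have h4 : 1 ≤ E τ x j.1 x := by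
          rw [E_apply, Nat.one_le_iff_ne_zero, Finset.card_ne_zero]
          exact ⟨0, by simp; omega⟩
        have : E τ x j.1 x ≤ D x := h3
        omega
      · rintro ⟨_, ha, hb⟩
        exact ⟨ha, hb⟩
    simp_rw [h2]
    rw [Finset.sum_comm]
    have h5 : ∀ x ∈ D.support, (∑ j ∈ (Finset.Icc 1 n).attach,
        if ((τ ^ j.1) x = x ∧ E τ x j.1 ≤ D) then wt ω D else 0) = D x * wt ω D := by
      intro x _
      rw [Finset.sum_attach (Finset.Icc 1 n)
        (fun j => if ((τ ^ j) x = x ∧ E τ x j ≤ D) then wt ω D else 0), ← Finset.sum_filter,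
        Finset.sum_const, card_key hDi x n hDn, nsmul_eq_mul]
    rw [Finset.sum_congr rfl h5, ← Finset.sum_mul]
    congr 1
    rw [← hDn, degr, Finsupp.sum]
    push_cast
    rfl
  rw [h1, Finset.sum_comm]
  apply Finset.sum_congr rfl
  intro j _
  rw [Finset.sum_comm, Finset.sum_mul]
  apply Finset.sum_congr rfl
  intro x hx
  rw [Set.Finite.mem_toFinset] at hx
  have hx' : (τ ^ j.1) x = x := hx
  obtain ⟨hj1, hj2⟩ := Finset.mem_Icc.1 j.2
  rw [← Finset.sum_filter, Finset.mul_sum, ← wt_E]
  symm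
  apply Finset.sum_bij' (fun D _ => E τ x j.1 + D) (fun D _ => D - E τ x j.1)
  · intro D hD
    rw [Set.Finite.mem_toFinset] at hD
    rw [Finset.mem_filter, Set.Finite.mem_toFinset]
    refine ⟨⟨?_, ?_⟩, le_self_add⟩
    · rw [degr_add, degr_E, hD.1]; omega
    · intro y; rw [Finsupp.add_apply, Finsupp.add_apply, inv_E hx' y, hD.2 y]
  · intro D hD
    rw [Finset.mem_filter, Set.Finite.mem_toFinset] at hD
    obtain ⟨⟨ha, hb⟩, hc⟩ := hD
    obtain ⟨D', rfl⟩ := exists_add_of_le hc
    rw [Set.Finite.mem_toFinset, add_tsub_cancel_left]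
    rw [degr_add, degr_E] at ha
    refine ⟨by omega, ?_⟩
    intro y
    have := hb y
    rw [Finsupp.add_apply, Finsupp.add_apply, inv_E hx' y] at this
    omega
  · intro D _; exact add_tsub_cancel_left _ _
  · intro D hD
    rw [Finset.mem_filter] at hD
    exact add_tsub_cancel_of_le hD.2
  · intro D _
    rw [wt_add]

end Comb

end Fermat.Agent.S27
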