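import Mathlib
import Fermat.Agent.S27.Comb

set_option autoImplicit false
set_option linter.unusedSectionVars false

/-!
# Action of ring automorphisms on primes, divisors and ideal classes
-/

namespace Fermat.Agent.S27

open IsDedekindDomain nonZeroDivisors

section

variable {B : Type*} [CommRing B]

/-- image of an ideal under a ring automorphism -/
def actI (Φ : RingAut B) (I : Ideal B) : Ideal B := I.map ((Φ : B ≃+* B) : B →+* B)

theorem mem_actI {Φ : RingAut B} {I : Ideal B} {x : B} : Φ x ∈ actI Φ I ↔ x ∈ I := by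
  constructor
  · intro hb
    obtain ⟨c, hc, hcb⟩ := (Ideal.mem_map_iff_of_surjective ((Φ : B ≃+* B) : B →+* B)
      Φ.surjective).mp hb
    have : c = x := Φ.injective hcb
    rwa [this] at hc
  · intro hb; exact Ideal.mem_map_of_mem _ hb

theorem mem_actI' {Φ : RingAut B} {I : Ideal B} {x : B} :
    x ∈ actI Φ I ↔ Φ.symm x ∈ I := by
  conv_lhs => rw [← Φ.apply_symm_apply x]
  exact mem_actI

theorem actI_one (I : Ideal B) : actI 1 I = I := by
  ext x; rw [mem_actI']; rfl

theorem actI_mul (Φ Ψ : RingAut B) (I : Ideal B) : actI (Φ * Ψ) I = actI Φ (actI Ψ I) := by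
  ext x; rw [mem_actI', mem_actI', mem_actI']; rfl

theorem actI_inv_actI (Φ : RingAut B) (I : Ideal B) : actI Φ⁻¹ (actI Φ I) = I := by
  rw [← actI_mul, inv_mul_cancel, actI_one]

theorem actI_actI_inv (Φ : RingAut B) (I : Ideal B) : actI Φ (actI Φ⁻¹ I) = I := by
  rw [← actI_mul, mul_inv_cancel, actI_one]

theorem actI_injective (Φ : RingAut B) : Function.Injective (actI Φ) :=
  Function.LeftInverse.injective (actI_inv_actI Φ)

theorem actI_mul_ideal (Φ : RingAut B) (I J : Ideal B) : actI Φ (I * J) = actI Φ I * actI Φ J :=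
  Ideal.map_mul _ _ _

theorem actI_bot (Φ : RingAut B) : actI Φ (⊥ : Ideal B) = ⊥ := Ideal.map_bot

theorem actI_top (Φ : RingAut B) : actI Φ (⊤ : Ideal B) = ⊤ := Ideal.map_top _

theorem actI_ideal_one (Φ : RingAut B) : actI Φ (1 : Ideal B) = 1 := by
  rw [Ideal.one_eq_top, actI_top]

theorem actI_span (Φ : RingAut B) (x : B) : actI Φ (Ideal.span {x}) = Ideal.span {Φ x} := by
  unfold actI; rw [Ideal.map_span, Set.image_singleton]; rfl

theorem actI_ne_bot {Φ : RingAut B} {I : Ideal B} (h : I ≠ ⊥) : actI Φ I ≠ ⊥ := by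
  intro h2
  apply h
  apply actI_injective Φ
  rw [h2, actI_bot]

theorem actI_isPrime {Φ : RingAut B} {P : Ideal B} (h : P.IsPrime) : (actI Φ P).IsPrime := by
  constructor
  · intro h2
    apply h.ne_top
    apply actI_injective Φ
    rw [h2, actI_top]
  · intro x y hxy
    rw [mem_actI', map_mul] at hxy
    rw [mem_actI', mem_actI']
    exact h.mem_or_mem hxy

/-- action on height one primes -/
def actX : RingAut B →* Equiv.Perm (HeightOneSpectrum B) where
  toFun Φ :=
    { toFun := fun P => ⟨actI Φ P.asIdeal, actI_isPrime P.isPrime, actI_ne_bot P.ne_bot⟩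
      invFun := fun P => ⟨actI Φ⁻¹ P.asIdeal, actI_isPrime P.isPrime, actI_ne_bot P.ne_bot⟩
      left_inv := fun P => HeightOneSpectrum.ext (actI_inv_actI Φ _)
      right_inv := fun P => HeightOneSpectrum.ext (actI_actI_inv Φ _) }
  map_one' := by
    ext P : 1
    exact HeightOneSpectrum.ext (actI_one _)
  map_mul' Φ Ψ := by
    ext P : 1
    exact HeightOneSpectrum.ext (actI_mul Φ Ψ _)

theorem actX_asIdeal (Φ : RingAut B) (P : HeightOneSpectrum B) :
    (actX Φ P).asIdeal = actI Φ P.asIdeal := rfl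

end

section

variable {B : Type*} [CommRing B] [IsDedekindDomain B]

/-- the ideal of an effective divisor -/
noncomputable def idl (D : HeightOneSpectrum B →₀ ℕ) : Ideal B := D.prod fun P n => P.asIdeal ^ n

theorem idl_add (D D' : HeightOneSpectrum B →₀ ℕ) : idl (D + D') = idl D * idl D' :=
  Finsupp.prod_add_index' (fun _ => pow_zero _) (fun _ _ _ => pow_add _ _ _)

theorem idl_zero : idl (0 : HeightOneSpectrum B →₀ ℕ) = 1 := by simp [idl]

theorem idl_single (P : HeightOneSpectrum B) (n : ℕ) :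
    idl (Finsupp.single P n) = P.asIdeal ^ n := by simp [idl]

theorem idl_eq_prod (D : HeightOneSpectrum B →₀ ℕ) :
    idl D = ((Finsupp.toMultiset D).map (fun P => P.asIdeal)).prod := by
  induction D using Finsupp.induction with
  | zero => simp [idl_zero]
  | single_add P n D _ _ ih =>
    rw [idl_add, idl_single, map_add, Multiset.map_add, Multiset.prod_add, ih,
      Finsupp.toMultiset_single, Multiset.map_nsmul, Multiset.prod_nsmul,
      Multiset.map_singleton, Multiset.prod_singleton]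

theorem normalizedFactors_idl (D : HeightOneSpectrum B →₀ ℕ) :
    UniqueFactorizationMonoid.normalizedFactors (idl D) =
      (Finsupp.toMultiset D).map (fun P => P.asIdeal) := by
  rw [idl_eq_prod]
  apply UniqueFactorizationMonoid.normalizedFactors_prod_of_prime
  intro p hp
  rw [Multiset.mem_map] at hp
  obtain ⟨P, -, rfl⟩ := hp
  exact P.prime

theorem idl_injective : Function.Injective (idl (B := B)) := by
  intro D D' h
  have h1 := congrArg UniqueFactorizationMonoid.normalizedFactors h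
  rw [normalizedFactors_idl, normalizedFactors_idl] at h1
  have h2 : Function.Injective (fun P : HeightOneSpectrum B => P.asIdeal) :=
    fun P Q h => HeightOneSpectrum.ext h
  classical
  have h3 := Multiset.map_injective h2 h1
  have h4 := congrArg Multiset.toFinsupp h3
  rwa [Finsupp.toMultiset_toFinsupp, Finsupp.toMultiset_toFinsupp] at h4

theorem idl_ne_bot (D : HeightOneSpectrum B →₀ ℕ) : idl D ≠ ⊥ := by
  rw [idl_eq_prod]
  intro h
  have h' : ((Finsupp.toMultiset D).map (fun P => P.asIdeal)).prod = 0 := h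
  rw [Multiset.prod_eq_zero_iff, Multiset.mem_map] at h'
  obtain ⟨P, -, hP⟩ := h'
  exact P.ne_bot hP

theorem exists_idl {I : Ideal B} (hI : I ≠ ⊥) : ∃ D, idl D = I := by
  have h1 : ∀ P ∈ UniqueFactorizationMonoid.normalizedFactors I, P.IsPrime ∧ P ≠ ⊥ := by
    intro P hP
    have := UniqueFactorizationMonoid.prime_of_normalized_factor P hP
    exact ⟨Ideal.isPrime_of_prime this, this.ne_zero⟩
  let m : Multiset (HeightOneSpectrum B) :=
    (UniqueFactorizationMonoid.normalizedFactors I).attach.map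
      (fun P => ⟨P.1, (h1 P.1 P.2).1, (h1 P.1 P.2).2⟩)
  classical
  refine ⟨Multiset.toFinsupp m, ?_⟩
  rw [idl_eq_prod, Multiset.toFinsupp_toMultiset, Multiset.map_map]
  have : ((UniqueFactorizationMonoid.normalizedFactors I).attach.map
      ((fun P : HeightOneSpectrum B => P.asIdeal) ∘ fun P => ⟨P.1, (h1 P.1 P.2).1, (h1 P.1 P.2).2⟩)) =
      UniqueFactorizationMonoid.normalizedFactors I := by
    conv_rhs => rw [← Multiset.attach_map_val (UniqueFactorizationMonoid.normalizedFactors I)]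
    rfl
  rw [this]
  exact Ideal.prod_normalizedFactors_eq_self hI

/-- the action on divisors -/
theorem idl_mapDomain (Φ : RingAut B) (D : HeightOneSpectrum B →₀ ℕ) :
    idl (D.mapDomain (actX Φ)) = actI Φ (idl D) := by
  induction D using Finsupp.induction with
  | zero => rw [Finsupp.mapDomain_zero, idl_zero, actI_ideal_one]
  | single_add P n D _ _ ih =>
    rw [Finsupp.mapDomain_add, idl_add, idl_add, actI_mul_ideal, ih, Finsupp.mapDomain_single,
      idl_single, idl_single]
    congr 1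
    unfold actI
    rw [Ideal.map_pow]
    rfl

theorem inv_iff (Φ : RingAut B) (D : HeightOneSpectrum B →₀ ℕ) :
    Comb.Inv (actX Φ) D ↔ actI Φ (idl D) = idl D := by
  rw [← idl_mapDomain, idl_injective.eq_iff]
  have key : ∀ P, D.mapDomain (actX Φ) (actX Φ P) = D P := fun P =>
    Finsupp.mapDomain_apply (actX Φ).injective D P
  constructor
  · intro h
    ext P
    obtain ⟨Q, rfl⟩ := (actX Φ).surjective P
    rw [key, h]
  · intro h P
    rw [← key P, h]

/-- class of the ideal of a divisor -/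
theorem ne_zero_mem {I : Ideal B} (h : I ≠ ⊥) : I ∈ (Ideal B)⁰ := mem_nonZeroDivisors_of_ne_zero h

noncomputable def clsI (I : Ideal B) (h : I ≠ ⊥) : ClassGroup B := ClassGroup.mk0 ⟨I, ne_zero_mem h⟩

theorem clsI_congr {I J : Ideal B} (hI : I ≠ ⊥) (hJ : J ≠ ⊥) (h : I = J) : clsI I hI = clsI J hJ := by
  subst h; rfl

theorem clsI_mul {I J : Ideal B} (hI : I ≠ ⊥) (hJ : J ≠ ⊥) (hIJ : I * J ≠ ⊥) :
    clsI (I * J) hIJ = clsI I hI * clsI J hJ := by
  unfold clsI; rw [← map_mul]; rfl

theorem clsI_one (h : (1 : Ideal B) ≠ ⊥) : clsI (1 : Ideal B) h = 1 := by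
  unfold clsI
  rw [← map_one (ClassGroup.mk0 (R := B))]
  rfl

noncomputable def clsP (P : HeightOneSpectrum B) : ClassGroup B := clsI P.asIdeal P.ne_bot

theorem clsI_pow {I : Ideal B} (hI : I ≠ ⊥) (n : ℕ) (h : I ^ n ≠ ⊥) :
    clsI (I ^ n) h = clsI I hI ^ n := by
  unfold clsI
  rw [← map_pow]
  rfl

theorem wt_eq (χ : ClassGroup B →* ℂ) (D : HeightOneSpectrum B →₀ ℕ) :
    Comb.wt (fun P => χ (clsP P)) D = χ (clsI (idl D) (idl_ne_bot D)) := by
  induction D using Finsupp.induction with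
  | zero =>
    rw [Comb.wt_zero, clsI_congr (idl_ne_bot 0) (J := 1) (by rw [Ideal.one_eq_top]; exact top_ne_bot)
      idl_zero, clsI_one, map_one]
  | single_add P n D _ _ ih =>
    have h1 : idl (Finsupp.single P n) ≠ ⊥ := idl_ne_bot _
    rw [Comb.wt_add, ih, Comb.wt_single, clsI_congr (idl_ne_bot (Finsupp.single P n + D))
      (J := idl (Finsupp.single P n) * idl D) (mul_ne_zero h1 (idl_ne_bot D)) (idl_add _ _),
      clsI_mul h1 (idl_ne_bot D), map_mul, clsI_congr h1 (J := P.asIdeal ^ n)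
      (pow_ne_zero n P.ne_bot) (idl_single P n), clsI_pow P.ne_bot, map_pow]
    rfl

theorem clsI_eq_iff {I J : Ideal B} (hI : I ≠ ⊥) (hJ : J ≠ ⊥) : clsI I hI = clsI J hJ ↔
    ∃ x y : B, x ≠ 0 ∧ y ≠ 0 ∧ Ideal.span {x} * I = Ideal.span {y} * J := by
  unfold clsI
  rw [ClassGroup.mk0_eq_mk0_iff]
  constructor
  · rintro ⟨x, y, hx, hy, h⟩; exact ⟨x, y, hx, hy, h⟩
  · rintro ⟨x, y, hx, hy, h⟩; exact ⟨x, y, hx, hy, h⟩

theorem exists_clsI (c : ClassGroup B) : ∃ (I : Ideal B) (hI : I ≠ ⊥), clsI I hI = c := by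
  obtain ⟨I, rfl⟩ := ClassGroup.mk0_surjective c
  exact ⟨I, nonZeroDivisors.coe_ne_zero I, rfl⟩

/-- action on classes -/
noncomputable def actCfun (Φ : RingAut B) (c : ClassGroup B) : ClassGroup B :=
  clsI (actI Φ (exists_clsI c).choose) (actI_ne_bot (exists_clsI c).choose_spec.choose)

theorem actCfun_clsI (Φ : RingAut B) {I : Ideal B} (hI : I ≠ ⊥) :
    actCfun Φ (clsI I hI) = clsI (actI Φ I) (actI_ne_bot hI) := by
  unfold actCfun
  have h1 := (exists_clsI (clsI I hI)).choose_spec.choose_spec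
  rw [clsI_eq_iff] at h1
  obtain ⟨x, y, hx, hy, h⟩ := h1
  rw [clsI_eq_iff]
  refine ⟨Φ x, Φ y, (map_ne_zero_iff _ Φ.injective).2 hx, (map_ne_zero_iff _ Φ.injective).2 hy, ?_⟩
  have h2 := congrArg (actI Φ) h
  rwa [actI_mul_ideal, actI_mul_ideal, actI_span, actI_span] at h2

theorem actCfun_one (c : ClassGroup B) : actCfun 1 c = c := by
  obtain ⟨I, hI, rfl⟩ := exists_clsI c
  rw [actCfun_clsI]
  exact clsI_congr _ _ (actI_one I)

theorem actCfun_mul (Φ Ψ : RingAut B) (c : ClassGroup B) :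
    actCfun (Φ * Ψ) c = actCfun Φ (actCfun Ψ c) := by
  obtain ⟨I, hI, rfl⟩ := exists_clsI c
  rw [actCfun_clsI, actCfun_clsI, actCfun_clsI]
  exact clsI_congr _ _ (actI_mul Φ Ψ I)

theorem actCfun_map_mul (Φ : RingAut B) (c d : ClassGroup B) :
    actCfun Φ (c * d) = actCfun Φ c * actCfun Φ d := by
  obtain ⟨I, hI, rfl⟩ := exists_clsI c
  obtain ⟨J, hJ, rfl⟩ := exists_clsI d
  have hIJ : I * J ≠ ⊥ := mul_ne_zero hI hJ
  rw [← clsI_mul hI hJ hIJ, actCfun_clsI, actCfun_clsI, actCfun_clsI, ← clsI_mul]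
  · exact clsI_congr _ (mul_ne_zero (actI_ne_bot hI) (actI_ne_bot hJ)) (actI_mul_ideal Φ I J)

/-- action on the class group -/
noncomputable def actC : RingAut B →* MulAut (ClassGroup B) where
  toFun Φ :=
    { toFun := actCfun Φ
      invFun := actCfun Φ⁻¹
      left_inv := fun c => by rw [← actCfun_mul, inv_mul_cancel, actCfun_one]
      right_inv := fun c => by rw [← actCfun_mul, mul_inv_cancel, actCfun_one]
      map_mul' := actCfun_map_mul Φ }
  map_one' := by ext c; exact actCfun_one c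
  map_mul' Φ Ψ := by ext c; exact actCfun_mul Φ Ψ c

theorem actC_clsI (Φ : RingAut B) {I : Ideal B} (hI : I ≠ ⊥) :
    actC Φ (clsI I hI) = clsI (actI Φ I) (actI_ne_bot hI) := actCfun_clsI Φ hI

theorem actC_clsP (Φ : RingAut B) (P : HeightOneSpectrum B) :
    actC Φ (clsP P) = clsP (actX Φ P) := actC_clsI Φ _

end

end Fermat.Agent.S27
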