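import Fermat.Agent.S27.GapField

set_option autoImplicit false
set_option linter.style.haveILetI false
set_option linter.deprecated false
set_option linter.unusedSectionVars false

namespace Fermat.Agent.S27

open Module nonZeroDivisors

namespace GapAlg

section lin

variable {k B : Type*} [Field k] [AddCommGroup B] [Module k B]

theorem finrank_quot_succ {V W : Submodule k B} {x : B} (hW : W = V ⊔ Submodule.span k {x})
    (hx : x ∉ V) [Module.Finite k (B ⧸ V)] :
    Module.finrank k (B ⧸ V) = Module.finrank k (B ⧸ W) + 1 := by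
  have hVW : V ≤ W := by rw [hW]; exact le_sup_left
  have h1 := Submodule.finrank_quotient_add_finrank (W.map V.mkQ)
  have h2 : Module.finrank k ((B ⧸ V) ⧸ W.map V.mkQ) = Module.finrank k (B ⧸ W) :=
    (Submodule.quotientQuotientEquivQuotient V W hVW).finrank_eq
  have h3 : W.map V.mkQ = Submodule.span k {V.mkQ x} := by
    rw [hW, Submodule.map_sup, Submodule.mkQ_map_self, bot_sup_eq, Submodule.map_span,
      Set.image_singleton]
  have h4 : Module.finrank k (Submodule.span k {V.mkQ x}) = 1 := by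
    apply finrank_span_singleton
    simpa using hx
  rw [h3, h4] at h1
  rw [← h1, ← h2, h3]

end lin

section ded

variable {k B : Type*} [Field k] [IsAlgClosed k] [CommRing B] [Algebra k B] {S : AddSubmonoid ℕ}
  [Cofin S] (G : GapAlg k B S)

include G in
theorem exists_sub_mem_of_isMaximal {P : Ideal B} (hP : P.IsMaximal) (hP0 : P ≠ ⊥) (b : B) :
    ∃ c : k, b - algebraMap k B c ∈ P := by
  haveI := G.finite_ideal hP0
  haveI hfin : Module.Finite k (B ⧸ P) :=
    Module.Finite.equiv (Submodule.Quotient.restrictScalarsEquiv k P)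
  haveI : IsDomain (B ⧸ P) := Ideal.Quotient.isDomain P
  haveI : Algebra.IsIntegral k (B ⧸ P) := Algebra.IsIntegral.of_finite k _
  obtain ⟨c, hc⟩ := (IsAlgClosed.algebraMap_bijective_of_isIntegral (k := k)
    (K := B ⧸ P)).2 (Ideal.Quotient.mk P b)
  refine ⟨c, ?_⟩
  rw [← Ideal.Quotient.eq_zero_iff_mem, map_sub, sub_eq_zero, ← hc]
  rfl

include G in
theorem codim_prime_mul [IsDedekindDomain B] {P I : Ideal B} (hP : Prime P) (hI : I ≠ ⊥) :
    codim ((P * I).restrictScalars k) = codim (I.restrictScalars k) + 1 := by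
  have hP0 : P ≠ ⊥ := hP.ne_zero
  have hPp : P.IsPrime := Ideal.isPrime_of_prime hP
  have hPm : P.IsMaximal := hPp.isMaximal hP0
  have hPI : P * I ≠ ⊥ := mul_ne_zero hP0 hI
  have hle : P * I ≤ I := Ideal.mul_le_right
  have hne : ¬ I ≤ P * I := by
    intro h
    have h1 : P * I = I := le_antisymm hle h
    have h2 : P * I = 1 * I := by rw [h1, one_mul]
    exact hP.not_unit (by rw [mul_right_cancel₀ hI h2]; exact isUnit_one)
  obtain ⟨x, hxI, hx⟩ := Set.not_subset.mp hne
  have hsup : P * I ⊔ Ideal.span {x} = I := by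
    have hJI : P * I ⊔ Ideal.span {x} ≤ I :=
      sup_le hle ((Ideal.span_singleton_le_iff_mem I).mpr hxI)
    obtain ⟨J', hJ'⟩ := Ideal.dvd_iff_le.mpr hJI
    have h1 : I * J' ∣ I * P := by
      rw [← hJ', mul_comm I P]
      exact Ideal.dvd_iff_le.mpr le_sup_left
    have h2 : J' ∣ P := (mul_dvd_mul_iff_left hI).mp h1
    rcases hP.irreducible.dvd_iff.mp h2 with h3 | h3
    · rw [hJ', Ideal.isUnit_iff.mp h3, Ideal.mul_top]
    · exfalso
      apply hx
      have h4 : I * J' = P * I := by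
        rw [← associated_iff_eq.mp h3, mul_comm]
      have : x ∈ P * I ⊔ Ideal.span {x} := Ideal.mem_sup_right (Ideal.mem_span_singleton_self x)
      rw [hJ', h4] at this
      exact this
  haveI := G.finite_ideal hPI
  refine finrank_quot_succ (x := x) ?_ hx
  apply le_antisymm
  · intro y hy
    have hy' : y ∈ P * I ⊔ Ideal.span {x} := by rw [hsup]; exact hy
    obtain ⟨z, hz, w, hw, rfl⟩ := Submodule.mem_sup.mp hy'
    obtain ⟨b, rfl⟩ := Ideal.mem_span_singleton'.mp hw
    obtain ⟨c, hc⟩ := G.exists_sub_mem_of_isMaximal hPm hP0 b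
    have : z + b * x = (z + (b - algebraMap k B c) * x) + c • x := by
      rw [Algebra.smul_def]; ring
    rw [this]
    refine Submodule.add_mem _ (Submodule.mem_sup_left ?_)
      (Submodule.mem_sup_right (Submodule.smul_mem _ _ (Submodule.mem_span_singleton_self x)))
    exact Ideal.add_mem _ hz (Ideal.mul_mem_mul hc hxI)
  · refine sup_le (fun y hy => hle hy) ?_
    rw [Submodule.span_singleton_le_iff_mem]
    exact hxI

include G in
theorem codim_mul [IsDedekindDomain B] {I J : Ideal B} (hI : I ≠ ⊥) (hJ : J ≠ ⊥) :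
    codim ((I * J).restrictScalars k) =
      codim (I.restrictScalars k) + codim (J.restrictScalars k) := by
  revert hI
  refine UniqueFactorizationMonoid.induction_on_prime I ?_ ?_ ?_
  · intro h; exact absurd rfl h
  · intro u hu _
    rw [Ideal.isUnit_iff.mp hu, Ideal.top_mul, (G.codim_eq_zero_iff top_ne_bot).mpr rfl, zero_add]
  · intro a P ha hP ih _
    rw [mul_assoc, G.codim_prime_mul hP (mul_ne_zero ha hJ), G.codim_prime_mul hP ha, ih ha]
    ring

include G in
theorem codim_pow [IsDedekindDomain B] {I : Ideal B} (hI : I ≠ ⊥) (n : ℕ) :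
    codim ((I ^ n).restrictScalars k) = n * codim (I.restrictScalars k) := by
  induction n with
  | zero =>
    rw [pow_zero, zero_mul, Ideal.one_eq_top]
    exact (G.codim_eq_zero_iff (by haveI := G.nontrivial; exact top_ne_bot)).mpr rfl
  | succ n ih =>
    rw [pow_succ, G.codim_mul (pow_ne_zero _ hI) hI, ih]; ring

/-- the set of codimensions of the ideals in a class -/
def D (_G : GapAlg k B S) [IsDedekindDomain B] (c : ClassGroup B) : Set ℕ :=
  {n | ∃ I : (Ideal B)⁰, ClassGroup.mk0 I = c ∧ codim ((I : Ideal B).restrictScalars k) = n}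

theorem exists_inv_class [IsDedekindDomain B] (c : ClassGroup B) :
    ∃ J : (Ideal B)⁰, ClassGroup.mk0 J = c⁻¹ := ClassGroup.mk0_surjective _

theorem ne_bot_of_nzd [IsDedekindDomain B] (I : (Ideal B)⁰) : (I : Ideal B) ≠ ⊥ :=
  nonZeroDivisors.coe_ne_zero I

/-- ideals in the class `c` correspond to elements of `J`, `[J] = c⁻¹`. -/
theorem exists_mul_eq_span [IsDedekindDomain B] {c : ClassGroup B} {I J : (Ideal B)⁰}
    (hI : ClassGroup.mk0 I = c) (hJ : ClassGroup.mk0 J = c⁻¹) :
    ∃ x ∈ (J : Ideal B), x ≠ 0 ∧ (I : Ideal B) * J = Ideal.span {x} ∧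
      G.deg x = codim ((I : Ideal B).restrictScalars k) + codim ((J : Ideal B).restrictScalars k) := by
  have h1 : ClassGroup.mk0 (I * J) = 1 := by rw [map_mul, hI, hJ, mul_inv_cancel]
  rw [ClassGroup.mk0_eq_one_iff] at h1
  obtain ⟨x, hx⟩ := h1
  have hx' : (I : Ideal B) * J = Ideal.span {x} := by simpa using hx
  have hx0 : x ≠ 0 := by
    rintro rfl
    have : (I : Ideal B) * J = ⊥ := by rw [hx']; simp
    exact mul_ne_zero (ne_bot_of_nzd I) (ne_bot_of_nzd J) this
  refine ⟨x, ?_, hx0, hx', ?_⟩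
  · have : x ∈ (I : Ideal B) * J := by rw [hx']; exact Ideal.mem_span_singleton_self x
    exact Ideal.mul_le_right this
  · rw [← G.codim_mul (ne_bot_of_nzd I) (ne_bot_of_nzd J), hx', G.codim_span_singleton hx0]

theorem exists_ideal_of_mem [IsDedekindDomain B] {c : ClassGroup B} {J : (Ideal B)⁰}
    (hJ : ClassGroup.mk0 J = c⁻¹) {x : B} (hx : x ∈ (J : Ideal B)) (hx0 : x ≠ 0) :
    ∃ I : (Ideal B)⁰, ClassGroup.mk0 I = c ∧ (I : Ideal B) * J = Ideal.span {x} ∧
      G.deg x = codim ((I : Ideal B).restrictScalars k) + codim ((J : Ideal B).restrictScalars k) := by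
  obtain ⟨I, hI⟩ := Ideal.dvd_iff_le.mpr ((Ideal.span_singleton_le_iff_mem (J : Ideal B)).mpr hx)
  have hI0 : I ≠ ⊥ := by
    rintro rfl
    rw [Ideal.mul_bot, Ideal.span_singleton_eq_bot] at hI
    exact hx0 hI
  refine ⟨⟨I, mem_nonZeroDivisors_iff_ne_zero.mpr hI0⟩, ?_, ?_, ?_⟩
  · have h1 : ClassGroup.mk0 (⟨I, mem_nonZeroDivisors_iff_ne_zero.mpr hI0⟩ * J) = 1 := by
      rw [ClassGroup.mk0_eq_one_iff]
      refine ⟨x, ?_⟩
      rw [Submonoid.coe_mul, mul_comm]
      exact hI.symm
    rw [map_mul, hJ, mul_inv_eq_one] at h1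
    exact h1
  · rw [mul_comm]; exact hI.symm
  · rw [← G.codim_mul hI0 (ne_bot_of_nzd J), mul_comm, ← hI, G.codim_span_singleton hx0]

theorem mem_D_iff [IsDedekindDomain B] {c : ClassGroup B} {J : (Ideal B)⁰}
    (hJ : ClassGroup.mk0 J = c⁻¹) (n : ℕ) :
    n ∈ G.D c ↔ n + codim ((J : Ideal B).restrictScalars k) ∈
      G.degSet ((J : Ideal B).restrictScalars k) := by
  constructor
  · rintro ⟨I, hI, rfl⟩
    obtain ⟨x, hx, hx0, -, hd⟩ := G.exists_mul_eq_span hI hJ
    exact ⟨x, hx, hx0, hd⟩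
  · rintro ⟨x, hx, hx0, hd⟩
    obtain ⟨I, hI, -, hd'⟩ := G.exists_ideal_of_mem hJ hx hx0
    exact ⟨I, hI, by omega⟩

theorem compl_D_aux [IsDedekindDomain B] {c : ClassGroup B} {J : (Ideal B)⁰}
    (hJ : ClassGroup.mk0 J = c⁻¹) :
    {n : ℕ | n ∉ G.degSet ((J : Ideal B).restrictScalars k)} =
      ((Finset.range (codim ((J : Ideal B).restrictScalars k)) : Finset ℕ) : Set ℕ) ∪
      (fun n => n + codim ((J : Ideal B).restrictScalars k)) '' {n | n ∉ G.D c} := by
  ext n
  simp only [Set.mem_setOf_eq, Finset.coe_range, Set.mem_union, Set.mem_Iio, Set.mem_image]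
  constructor
  · intro h
    by_cases hn : n < codim ((J : Ideal B).restrictScalars k)
    · exact Or.inl hn
    · right
      refine ⟨n - codim ((J : Ideal B).restrictScalars k), ?_, by omega⟩
      rw [G.mem_D_iff hJ]
      rwa [Nat.sub_add_cancel (by omega)]
  · rintro (h | ⟨m, hm, rfl⟩)
    · rintro ⟨x, hx, hx0, rfl⟩
      have := G.codim_le_deg (I := (J : Ideal B)) hx hx0
      omega
    · rwa [G.mem_D_iff hJ] at hm

theorem finite_compl_D [IsDedekindDomain B] (c : ClassGroup B) : {n | n ∉ G.D c}.Finite := by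
  obtain ⟨J, hJ⟩ := exists_inv_class c
  haveI := G.finite_ideal (ne_bot_of_nzd J)
  have h1 := G.finite_notMem_degSet ((J : Ideal B).restrictScalars k)
  rw [G.compl_D_aux hJ] at h1
  exact Set.Finite.of_finite_image (h1.subset Set.subset_union_right)
    (fun a _ b _ h => by simpa using h)

theorem ncard_compl_D [IsDedekindDomain B] (c : ClassGroup B) :
    {n | n ∉ G.D c}.ncard = gaps S := by
  obtain ⟨J, hJ⟩ := exists_inv_class c
  haveI := G.finite_ideal (ne_bot_of_nzd J)
  have h1 := G.ncard_notMem_degSet ((J : Ideal B).restrictScalars k)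
  rw [G.compl_D_aux hJ, Set.ncard_union_eq _ (Finset.finite_toSet _)
    ((G.finite_compl_D c).image _), Set.ncard_coe_finset, Finset.card_range,
    Set.ncard_image_of_injective _ (add_left_injective _)] at h1
  · omega
  · rw [Set.disjoint_left]
    rintro n h1 ⟨m, -, rfl⟩
    simp at h1

theorem zero_mem_D_iff [IsDedekindDomain B] (c : ClassGroup B) : 0 ∈ G.D c ↔ c = 1 := by
  constructor
  · rintro ⟨I, hI, h0⟩
    rw [G.codim_eq_zero_iff (ne_bot_of_nzd I)] at h0
    rw [← hI, ClassGroup.mk0_eq_one_iff, h0]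
    exact ⟨1, by simp⟩
  · rintro rfl
    refine ⟨1, map_one _, ?_⟩
    exact (G.codim_eq_zero_iff (by simp)).mpr (by simp)

include G in
theorem add_mem_D [IsDedekindDomain B] {c c' : ClassGroup B} {m n : ℕ} (hm : m ∈ G.D c)
    (hn : n ∈ G.D c') : m + n ∈ G.D (c * c') := by
  obtain ⟨I, rfl, rfl⟩ := hm
  obtain ⟨J, rfl, rfl⟩ := hn
  exact ⟨I * J, map_mul _ _ _, G.codim_mul (ne_bot_of_nzd I) (ne_bot_of_nzd J)⟩

theorem cover_aux [IsDedekindDomain B] {c c' : ClassGroup B} {n : ℕ} (hn : n ∉ G.D (c * c')) :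
    (Finset.range (n + 1) : Set ℕ) ⊆ ({i | i ∉ G.D c} ∩ Finset.range (n + 1)) ∪
      (fun i => n - i) '' ({i | i ∉ G.D c'} ∩ Finset.range (n + 1)) := by
  intro i hi
  simp only [Finset.coe_range, Set.mem_Iio] at hi
  by_cases h : i ∈ G.D c
  · right
    refine ⟨n - i, ⟨?_, ?_⟩, by simp; omega⟩
    · intro h'
      apply hn
      have := G.add_mem_D h h'
      rwa [Nat.add_sub_cancel' (by omega)] at this
    · simp
  · left
    exact ⟨h, by simpa using hi⟩

/-- Riemann–Roch for large degree: every `n ≥ 2g` is the codimension of an ideal in any class. -/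
theorem mem_D_of_le [IsDedekindDomain B] (c : ClassGroup B) {n : ℕ} (hn : 2 * gaps S ≤ n) :
    n ∈ G.D c := by
  by_contra h
  have h' : n ∉ G.D (c * 1) := by rwa [mul_one]
  have h1 := G.cover_aux h'
  have hf1 := G.finite_compl_D c
  have hf2 := G.finite_compl_D (1 : ClassGroup B)
  have h2 := Set.ncard_le_ncard h1 ((hf1.inter_of_left _).union ((hf2.inter_of_left _).image _))
  rw [Set.ncard_coe_finset, Finset.card_range] at h2
  have h3 := Set.ncard_union_le ({i | i ∉ G.D c} ∩ ((Finset.range (n + 1) : Finset ℕ) : Set ℕ))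
    ((fun i => n - i) '' ({i | i ∉ G.D 1} ∩ ((Finset.range (n + 1) : Finset ℕ) : Set ℕ)))
  have h4 := Set.ncard_image_le (f := fun i => n - i)
    (hf2.inter_of_left ((Finset.range (n + 1) : Finset ℕ) : Set ℕ))
  have h5 := Set.ncard_inter_le_ncard_left {i | i ∉ G.D c}
    ((Finset.range (n + 1) : Finset ℕ) : Set ℕ) hf1
  have h6 := Set.ncard_inter_le_ncard_left {i | i ∉ G.D 1}
    ((Finset.range (n + 1) : Finset ℕ) : Set ℕ) hf2
  rw [G.ncard_compl_D] at h5 h6
  omega

/-- duality for a class `κ` with `2g-1 ∉ D κ`. -/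
theorem mem_D_iff_dual [IsDedekindDomain B] {κ c c' : ClassGroup B} (hcc : c * c' = κ)
    (hκ : 2 * gaps S - 1 ∉ G.D κ) (hg : 0 < gaps S) {i : ℕ} (hi : i ≤ 2 * gaps S - 1) :
    i ∈ G.D c ↔ 2 * gaps S - 1 - i ∉ G.D c' := by
  set n := 2 * gaps S - 1 with hn
  constructor
  · intro h1 h2
    apply hκ
    rw [← hcc]
    have := G.add_mem_D h1 h2
    rwa [Nat.add_sub_cancel' hi] at this
  · intro h1
    by_contra h2
    -- then the covering is not disjoint
    have h' : n ∉ G.D (c * c') := by rwa [hcc]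
    have h0 := G.cover_aux h'
    have hf1 := G.finite_compl_D c
    have hf2 := G.finite_compl_D c'
    set A := ({i | i ∉ G.D c} ∩ ((Finset.range (n + 1) : Finset ℕ) : Set ℕ)) with hA
    set A' := ((fun i => n - i) '' ({i | i ∉ G.D c'} ∩ ((Finset.range (n + 1) : Finset ℕ) : Set ℕ)))
      with hA'
    have hfA : A.Finite := hf1.inter_of_left _
    have hfA' : A'.Finite := (hf2.inter_of_left _).image _
    have h3 := Set.ncard_le_ncard h0 (hfA.union hfA')
    rw [Set.ncard_coe_finset, Finset.card_range] at h3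
    have h4 := Set.ncard_union_add_ncard_inter A A' hfA hfA'
    have h5 : 0 < (A ∩ A').ncard := by
      rw [Set.ncard_pos (hfA.inter_of_left _)]
      refine ⟨i, ⟨h2, by simp; omega⟩, ⟨n - i, ⟨h1, by simp⟩, by simp; omega⟩⟩
    have h6 : A.ncard ≤ gaps S := by
      rw [← G.ncard_compl_D c]
      exact Set.ncard_inter_le_ncard_left _ _ hf1
    have h7 : A'.ncard ≤ gaps S := by
      rw [← G.ncard_compl_D c']
      exact (Set.ncard_image_le (hf2.inter_of_left _)).trans
        (Set.ncard_inter_le_ncard_left _ _ hf2)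
    omega

theorem kappa_unique [IsDedekindDomain B] {κ κ' : ClassGroup B}
    (hκ : 2 * gaps S - 1 ∉ G.D κ) (hκ' : 2 * gaps S - 1 ∉ G.D κ') (hg : 0 < gaps S) : κ = κ' := by
  have h := (G.mem_D_iff_dual (c := κ / κ') (c' := κ') (κ := κ) (by simp) hκ hg
    (i := 0) (by omega)).mpr (by simpa using hκ')
  rw [G.zero_mem_D_iff, div_eq_one] at h
  exact h

/-- The ideal of minimal codimension in a class is unique. -/
theorem eq_of_minimal [IsDedekindDomain B] {I I' : (Ideal B)⁰}
    (hc : ClassGroup.mk0 I = ClassGroup.mk0 I')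
    (hd : codim ((I : Ideal B).restrictScalars k) = codim ((I' : Ideal B).restrictScalars k))
    (hmin : ∀ n ∈ G.D (ClassGroup.mk0 I), codim ((I : Ideal B).restrictScalars k) ≤ n) :
    I = I' := by
  obtain ⟨J, hJ⟩ := exists_inv_class (ClassGroup.mk0 I)
  obtain ⟨x, hx, hx0, hIx, hdx⟩ := G.exists_mul_eq_span rfl hJ
  obtain ⟨y, hy, hy0, hIy, hdy⟩ := G.exists_mul_eq_span hc.symm hJ
  obtain ⟨c, hc0, hlt⟩ := G.exists_sub_smul (a := x) (b := y) (n := G.deg y) (by omega) hy0 rfl
  have hxy : x - c • y = 0 := by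
    rcases hlt with h | h
    · exact h
    · by_contra hne
      have hmem : x - c • y ∈ (J : Ideal B) := by
        rw [Algebra.smul_def]
        exact Ideal.sub_mem _ hx (Ideal.mul_mem_left _ _ hy)
      obtain ⟨I'', hI'', -, hd''⟩ := G.exists_ideal_of_mem hJ hmem hne
      have := hmin _ ⟨I'', hI'', rfl⟩
      omega
  have hcne : c ≠ 0 := by
    rintro rfl
    apply hx0
    simpa using hxy
  have hspan : Ideal.span {x} = Ideal.span {y} := by
    rw [sub_eq_zero.mp hxy, Algebra.smul_def]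
    exact Ideal.span_singleton_mul_left_unit
      ((isUnit_iff_ne_zero.mpr hcne).map (algebraMap k B)) y
  apply Subtype.ext
  have : (I : Ideal B) * J = (I' : Ideal B) * J := by rw [hIx, hIy, hspan]
  exact mul_right_cancel₀ (ne_bot_of_nzd J) this

theorem exists_minimal [IsDedekindDomain B] (c : ClassGroup B) :
    ∃ I : (Ideal B)⁰, ClassGroup.mk0 I = c ∧
      ∀ n ∈ G.D c, codim ((I : Ideal B).restrictScalars k) ≤ n := by
  classical
  have hne : ∃ n, n ∈ G.D c := ⟨_, G.mem_D_of_le c le_rfl⟩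
  obtain ⟨I, hI, hd⟩ := Nat.find_spec hne
  refine ⟨I, hI, fun n hn => ?_⟩
  rw [hd]
  exact Nat.find_min' hne hn

end ded

end GapAlg

end Fermat.Agent.S27
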