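import Fermat.Agent.S27.GapDed

set_option autoImplicit false
set_option linter.style.haveILetI false
set_option linter.deprecated false
set_option linter.unusedSectionVars false

/-! Reduced echelon bases and semilinear automorphisms. -/

namespace Fermat.Agent.S27

open Module nonZeroDivisors

namespace GapAlg

section ech

variable {k B : Type*} [Field k] [CommRing B] [Algebra k B] {S : AddSubmonoid ℕ}
  (G : GapAlg k B S)

/-- an element of `V` whose coefficients on `degSet V` vanish is zero -/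
theorem eq_zero_of_coeff {V : Submodule k B} {v : B} (hv : v ∈ V)
    (h : ∀ n ∈ G.degSet V, G.coeff n v = 0) : v = 0 := by
  by_contra h0
  exact G.coeff_deg_ne_zero h0 (h _ ⟨v, hv, h0, rfl⟩)

theorem eq_of_coeff {V : Submodule k B} {v w : B} (hv : v ∈ V) (hw : w ∈ V)
    (h : ∀ n ∈ G.degSet V, G.coeff n v = G.coeff n w) : v = w := by
  rw [← sub_eq_zero]
  apply G.eq_zero_of_coeff (V.sub_mem hv hw)
  intro n hn
  rw [map_sub, h n hn, sub_self]

theorem exists_ech (V : Submodule k B) (n : ℕ) :
    ∃ v ∈ V, ∀ m ∈ G.degSet V, G.coeff m v = if m = n then 1 else 0 := by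
  classical
  by_cases hn : n ∈ S
  · have : G.e ⟨n, hn⟩ ∈ V ⊔ G.cpl V := by rw [(G.isCompl_cpl V).sup_eq_top]; trivial
    obtain ⟨v, hv, c, hc, hvc⟩ := Submodule.mem_sup.mp this
    refine ⟨v, hv, fun m hm => ?_⟩
    have h1 := G.coeff_eq_zero_of_mem_cpl hc hm
    have h2 : v = G.e ⟨n, hn⟩ - c := by rw [← hvc]; simp
    rw [h2, map_sub, h1, G.coeff_e, sub_zero]
  · refine ⟨0, V.zero_mem, fun m hm => ?_⟩
    rw [map_zero, if_neg]
    rintro rfl
    exact hn (G.degSet_subset V hm)

/-- reduced echelon basis vector of `V` with leading degree `n` (if `n ∈ degSet V`) -/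
noncomputable def ech (V : Submodule k B) (n : ℕ) : B := (G.exists_ech V n).choose

theorem ech_mem (V : Submodule k B) (n : ℕ) : G.ech V n ∈ V := (G.exists_ech V n).choose_spec.1

theorem coeff_ech (V : Submodule k B) (n : ℕ) {m : ℕ} (hm : m ∈ G.degSet V) :
    G.coeff m (G.ech V n) = if m = n then 1 else 0 := (G.exists_ech V n).choose_spec.2 m hm

theorem ech_ne_zero {V : Submodule k B} {n : ℕ} (hn : n ∈ G.degSet V) : G.ech V n ≠ 0 := by
  intro h
  have := G.coeff_ech V n hn
  rw [h, map_zero, if_pos rfl] at this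
  exact zero_ne_one this

theorem deg_ech {V : Submodule k B} {n : ℕ} (hn : n ∈ G.degSet V) : G.deg (G.ech V n) = n := by
  have h0 := G.ech_ne_zero hn
  have h1 := G.coeff_deg_ne_zero h0
  have h2 := G.coeff_ech V n (m := G.deg (G.ech V n)) ⟨_, G.ech_mem V n, h0, rfl⟩
  rw [h2] at h1
  by_contra h
  rw [if_neg h] at h1
  exact h1 rfl

theorem coeff_ech_eq_zero_of_lt {V : Submodule k B} {n m : ℕ} (hn : n ∈ G.degSet V) (h : n < m) :
    G.coeff m (G.ech V n) = 0 :=
  G.coeff_eq_zero_of_deg_lt (by rwa [G.deg_ech hn])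

theorem ech_unique {V : Submodule k B} {n : ℕ} {v : B} (hv : v ∈ V)
    (h : ∀ m ∈ G.degSet V, G.coeff m v = if m = n then 1 else 0) : v = G.ech V n :=
  G.eq_of_coeff hv (G.ech_mem V n) fun m hm => by rw [h m hm, G.coeff_ech V n hm]

/-- any finitely supported family of coefficients on `degSet V` comes from `V`. -/
theorem exists_coeff (V : Submodule k B) (T : Finset ℕ) (f : ℕ → k) :
    ∃ v ∈ V, ∀ m ∈ G.degSet V, G.coeff m v = if m ∈ T then f m else 0 := by
  classical
  refine ⟨∑ n ∈ T, f n • G.ech V n, Submodule.sum_mem _ fun n _ =>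
    V.smul_mem _ (G.ech_mem V n), fun m hm => ?_⟩
  rw [map_sum]
  simp only [map_smul, G.coeff_ech V _ hm, smul_eq_mul, mul_ite, mul_one, mul_zero,
    Finset.sum_ite_eq]

/-- expansion of an element of `V` in the echelon basis -/
theorem eq_sum_ech {V : Submodule k B} {v : B} (hv : v ∈ V) :
    v = ∑ n ∈ Finset.range (G.deg v + 1), (open Classical in if n ∈ G.degSet V then
      G.coeff n v • G.ech V n else 0) := by
  classical
  apply G.eq_of_coeff hv
  · refine Submodule.sum_mem _ fun n _ => ?_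
    split_ifs
    · exact V.smul_mem _ (G.ech_mem V n)
    · exact V.zero_mem
  · intro m hm
    rw [map_sum]
    have : ∀ n ∈ Finset.range (G.deg v + 1), G.coeff m (if n ∈ G.degSet V then
      G.coeff n v • G.ech V n else 0) = if m = n then G.coeff m v else 0 := by
      intro n hn
      by_cases h : n ∈ G.degSet V
      · rw [if_pos h, map_smul, G.coeff_ech V n hm, smul_eq_mul]
        by_cases hmn : m = n
        · subst hmn; simp
        · simp [hmn]
      · rw [if_neg h, map_zero, if_neg]
        rintro rfl; exact h hm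
    rw [Finset.sum_congr rfl this, Finset.sum_ite_eq]
    split_ifs with h
    · rfl
    · apply G.coeff_eq_zero_of_deg_lt
      simp at h; omega

end ech

section semilinear

variable {k B k' B' : Type*} [Field k] [CommRing B] [Algebra k B] {S : AddSubmonoid ℕ}
  (G : GapAlg k B S) [Field k'] [CommRing B'] [Algebra k' B'] (G' : GapAlg k' B' S)

/-- A ring isomorphism acting on coefficients through a field isomorphism. -/
structure Semi (σ : k ≃+* k') (φ : B ≃+* B') : Prop where
  coeff : ∀ n b, G'.coeff n (φ b) = σ (G.coeff n b)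

variable {G G'} {σ : k ≃+* k'} {φ : B ≃+* B'}

namespace Semi

theorem deg (h : Semi G G' σ φ) (b : B) : G'.deg (φ b) = G.deg b := by
  apply le_antisymm
  · rw [G'.deg_le_iff]
    intro m hm
    rw [h.coeff, G.coeff_eq_zero_of_deg_lt hm, map_zero]
  · rw [G.deg_le_iff]
    intro m hm
    have := G'.coeff_eq_zero_of_deg_lt hm
    rw [h.coeff] at this
    simpa using this

theorem smul (h : Semi G G' σ φ) (c : k) (b : B) : φ (c • b) = σ c • φ b := by
  apply G'.ext_coeff
  intro n
  rw [h.coeff, (G.coeff n).map_smul, (G'.coeff n).map_smul, h.coeff, smul_eq_mul, smul_eq_mul,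
    map_mul]

theorem e (h : Semi G G' σ φ) (s : S) : φ (G.e s) = G'.e s := by
  apply G'.ext_coeff
  intro n
  rw [h.coeff, G.coeff_e, G'.coeff_e]
  split_ifs <;> simp

theorem map_algebraMap (h : Semi G G' σ φ) (c : k) :
    φ (algebraMap k B c) = algebraMap k' B' (σ c) := by
  rw [Algebra.algebraMap_eq_smul_one, Algebra.algebraMap_eq_smul_one, h.smul, map_one]

theorem symm (h : Semi G G' σ φ) : Semi G' G σ.symm φ.symm := by
  refine ⟨fun n b => ?_⟩
  have := h.coeff n (φ.symm b)
  rw [RingEquiv.apply_symm_apply] at this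
  rw [this, RingEquiv.symm_apply_apply]

theorem trans {k'' B'' : Type*} [Field k''] [CommRing B''] [Algebra k'' B'']
    {G'' : GapAlg k'' B'' S} {σ' : k' ≃+* k''} {φ' : B' ≃+* B''}
    (h : Semi G G' σ φ) (h' : Semi G' G'' σ' φ') : Semi G G'' (σ.trans σ') (φ.trans φ') := by
  refine ⟨fun n b => ?_⟩
  rw [RingEquiv.trans_apply, h'.coeff, h.coeff]; rfl

theorem refl : Semi G G (RingEquiv.refl k) (RingEquiv.refl B) := ⟨fun _ _ => rfl⟩

/-- degree sets are preserved -/
theorem degSet_eq (h : Semi G G' σ φ) {V : Submodule k B} {V' : Submodule k' B'}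
    (hV : ∀ b, b ∈ V ↔ φ b ∈ V') : G'.degSet V' = G.degSet V := by
  ext n
  constructor
  · rintro ⟨v, hv, hv0, rfl⟩
    refine ⟨φ.symm v, ?_, ?_, ?_⟩
    · rw [hV]; simpa using hv
    · simpa using hv0
    · rw [h.symm.deg]
  · rintro ⟨v, hv, hv0, rfl⟩
    exact ⟨φ v, (hV v).mp hv, by simpa using hv0, h.deg v⟩

theorem codim_eq (h : Semi G G' σ φ) {V : Submodule k B} {V' : Submodule k' B'}
    (hV : ∀ b, b ∈ V ↔ φ b ∈ V') : codim V' = codim V := by
  rw [G.codim_eq_ncard, G'.codim_eq_ncard, h.degSet_eq hV]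

theorem ech_eq (h : Semi G G' σ φ) {V : Submodule k B} {V' : Submodule k' B'}
    (hV : ∀ b, b ∈ V ↔ φ b ∈ V') (n : ℕ) : φ (G.ech V n) = G'.ech V' n := by
  apply G'.ech_unique ((hV _).mp (G.ech_mem V n))
  intro m hm
  rw [h.degSet_eq hV] at hm
  rw [h.coeff, G.coeff_ech V n hm]
  split_ifs <;> simp

theorem mem_map_ideal {I : Ideal B} (b : B) : b ∈ I ↔ φ b ∈ I.map (φ : B →+* B') := by
  constructor
  · intro hb; exact Ideal.mem_map_of_mem _ hb
  · intro hb
    obtain ⟨c, hc, hcb⟩ := (Ideal.mem_map_iff_of_surjective (φ : B →+* B') φ.surjective).mp hb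
    have : c = b := φ.injective hcb
    rwa [this] at hc

theorem codim_map (h : Semi G G' σ φ) (I : Ideal B) :
    codim ((I.map (φ : B →+* B')).restrictScalars k') = codim (I.restrictScalars k) :=
  h.codim_eq (V := I.restrictScalars k) (V' := (I.map (φ : B →+* B')).restrictScalars k')
    (fun b => mem_map_ideal b)

end Semi

end semilinear

end GapAlg

end Fermat.Agent.S27
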