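import Fermat.Agent.S27.GapFrac

set_option autoImplicit false
set_option linter.style.haveILetI false
set_option linter.deprecated false
set_option linter.unusedSectionVars false

/-! Existence of the canonical class. -/

namespace Fermat.Agent.S27

open Module nonZeroDivisors

namespace GapAlg

section kappa

variable {k B F : Type*} [Field k] [CommRing B] [Algebra k B] {S : AddSubmonoid ℕ} [Cofin S]
  (G : GapAlg k B S) [Field F] [Algebra B F] [IsFractionRing B F] [Algebra k F]
  [IsScalarTower k B F]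

theorem exists_ne_zero_of_range {k V W : Type*} [Field k] [AddCommGroup V] [Module k V]
    [AddCommGroup W] [Module k W] [Module.Finite k V] (W' : Submodule k W)
    [Module.Finite k W'] (f : V →ₗ[k] W) (hf : ∀ v, f v ∈ W')
    (h : Module.finrank k W' < Module.finrank k V) : ∃ v, v ≠ 0 ∧ f v = 0 := by
  have hker : LinearMap.ker (f.codRestrict W' hf) ≠ ⊥ := LinearMap.ker_ne_bot_of_finrank_lt h
  obtain ⟨p, hp, hp0⟩ := Submodule.exists_mem_ne_zero_of_ne_bot hker
  rw [LinearMap.mem_ker] at hp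
  exact ⟨p, hp0, congrArg Subtype.val hp⟩

theorem exists_ne_zero_of_dual {k V W : Type*} [Field k] [AddCommGroup V] [Module k V]
    [AddCommGroup W] [Module k W] [Module.Finite k V] (W' : Submodule k W)
    [Module.Finite k (W ⧸ W')] (f : V →ₗ[k] Module.Dual k W) (hf : ∀ v, f v ∈ W'.dualAnnihilator)
    (h : Module.finrank k (W ⧸ W') < Module.finrank k V) : ∃ v, v ≠ 0 ∧ f v = 0 := by
  have hlt : Module.finrank k W'.dualAnnihilator < Module.finrank k V := by
    rw [← (Submodule.dualQuotEquivDualAnnihilator W').finrank_eq, Subspace.dual_finrank_eq]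
    exact h
  haveI : Module.Finite k W'.dualAnnihilator :=
    Module.Finite.equiv (Submodule.dualQuotEquivDualAnnihilator W')
  exact exists_ne_zero_of_range W'.dualAnnihilator f hf hlt

/-- `Φ (b, c) x = l₀ (b x) + l (c x)` -/
noncomputable def pairMap (l₀ l : F →ₗ[k] k) (N : ℕ) :
    ((G.le N) × (G.le N)) →ₗ[k] Module.Dual k F :=
  (((LinearMap.mul k F).compr₂ l₀).comp ((IsScalarTower.toAlgHom k B F).toLinearMap.comp
    (G.le N).subtype)).comp (LinearMap.fst k _ _) +
  (((LinearMap.mul k F).compr₂ l).comp ((IsScalarTower.toAlgHom k B F).toLinearMap.comp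
    (G.le N).subtype)).comp (LinearMap.snd k _ _)

theorem pairMap_apply (l₀ l : F →ₗ[k] k) (N : ℕ) (p : (G.le N) × (G.le N)) (x : F) :
    G.pairMap l₀ l N p x = l₀ (algebraMap B F p.1 * x) + l (algebraMap B F p.2 * x) := by
  simp [pairMap]

theorem mul_mem_FL {b : B} {N : ℕ} (hb : G.deg b ≤ N) {x : F} {M : ℤ}
    (hx : x ∈ (G.FL M : Submodule k F)) : algebraMap B F b * x ∈ (G.FL (M + N) : Submodule k F) := by
  by_cases hb0 : b = 0
  · subst hb0; rw [map_zero, zero_mul]; exact Submodule.zero_mem _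
  by_cases hx0 : x = 0
  · subst hx0; rw [mul_zero]; exact Submodule.zero_mem _
  right
  rw [G.fdeg_mul (G.algebraMap_ne_zero hb0) hx0, G.fdeg_algebraMap hb0]
  rcases hx with h | h
  · exact absurd h hx0
  · omega

theorem pairMap_mem (l₀ l : F →ₗ[k] k) (N : ℕ) {m₀ m : ℤ}
    (h1 : ∀ b : B, l₀ (algebraMap B F b) = 0) (h2 : ∀ x ∈ (G.FL m₀ : Submodule k F), l₀ x = 0)
    (h3 : ∀ b : B, l (algebraMap B F b) = 0) (h4 : ∀ x ∈ (G.FL m : Submodule k F), l x = 0)
    {M : ℤ} (hM : M + N ≤ m₀) (hM' : M + N ≤ m) (p : (G.le N) × (G.le N)) :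
    G.pairMap l₀ l N p ∈ (G.BF F ⊔ G.FL M).dualAnnihilator := by
  rw [Submodule.mem_dualAnnihilator]
  intro x hx
  obtain ⟨y, hy, w, hw, rfl⟩ := Submodule.mem_sup.mp hx
  obtain ⟨b, rfl⟩ := G.mem_BF.mp hy
  have e1 : G.pairMap l₀ l N p (algebraMap B F b) = 0 := by
    rw [pairMap_apply, ← map_mul, ← map_mul, h1, h3, add_zero]
  have e2 : G.pairMap l₀ l N p w = 0 := by
    rw [pairMap_apply, h2 _ (G.FL_mono hM (G.mul_mem_FL p.1.2 hw)),
      h4 _ (G.FL_mono hM' (G.mul_mem_FL p.2.2 hw)), add_zero]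
  rw [map_add, e1, e2, add_zero]

theorem exists_pair (l₀ l : F →ₗ[k] k) {m₀ m : ℤ}
    (h1 : ∀ b : B, l₀ (algebraMap B F b) = 0) (h2 : ∀ x ∈ (G.FL m₀ : Submodule k F), l₀ x = 0)
    (h3 : ∀ b : B, l (algebraMap B F b) = 0) (h4 : ∀ x ∈ (G.FL m : Submodule k F), l x = 0) :
    ∃ b c : B, (b ≠ 0 ∨ c ≠ 0) ∧ ∀ x : F, l₀ (algebraMap B F b * x) + l (algebraMap B F c * x) = 0 := by
  obtain ⟨N, hN⟩ : ∃ N : ℕ, N = 3 * gaps S + (-m₀).toNat + (-m).toNat + 1 := ⟨_, rfl⟩
  obtain ⟨M, hM⟩ : ∃ M : ℤ, M = -(N : ℤ) - (-m₀).toNat - (-m).toNat := ⟨_, rfl⟩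
  have hfin := G.finite_quot_aux F M
  haveI := hfin.1
  haveI := G.finite_le N
  have hlt : Module.finrank k (F ⧸ (G.BF F ⊔ (G.FL M : Submodule k F))) <
      Module.finrank k ((G.le N) × (G.le N)) := by
    rw [Module.finrank_prod]
    have h5 := G.le_finrank_le N
    have h6 := hfin.2
    omega
  obtain ⟨p, hp0, hp'⟩ := exists_ne_zero_of_dual (G.BF F ⊔ (G.FL M : Submodule k F))
    (G.pairMap l₀ l N)
    (fun p => G.pairMap_mem l₀ l N h1 h2 h3 h4 (by omega) (by omega) p) hlt
  refine ⟨p.1, p.2, ?_, fun x => ?_⟩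
  · by_contra h
    push Not at h
    apply hp0
    ext
    · simpa using h.1
    · simpa using h.2
  · have := congrArg (fun f : Module.Dual k F => f x) hp'
    simpa [pairMap_apply] using this

/-- For a functional `l₀` of order `-1`, every admissible degree occurs in
`W = {w | ∀ b, l₀ (w b) = 0}`. -/
theorem exists_mem_W (l₀ : F →ₗ[k] k) (h1 : ∀ b : B, l₀ (algebraMap B F b) = 0)
    (h2 : ∀ x ∈ (G.FL (-1) : Submodule k F), l₀ x = 0)
    (h2' : ∀ x : F, x ≠ 0 → G.fdeg x = -1 → l₀ x ≠ 0) {n : ℤ} (hn : ∀ s ∈ S, (s : ℤ) ≠ -1 - n) :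
    ∃ w : F, w ≠ 0 ∧ G.fdeg w = n ∧ ∀ b : B, l₀ (w * algebraMap B F b) = 0 := by
  obtain ⟨l, h3, h4, h5⟩ := G.exists_functional F hn
  obtain ⟨b, c, hbc, hx⟩ := G.exists_pair l₀ l h1 h2 h3 h4
  have hc : c ≠ 0 := by
    rintro rfl
    have hb : b ≠ 0 := by simpa using hbc
    obtain ⟨z, hz0, hz⟩ := G.exists_fdeg_eq F (-1)
    have hb' := G.algebraMap_ne_zero (F := F) hb
    have := hx (z / algebraMap B F b)
    rw [map_zero, zero_mul, map_zero, add_zero, mul_div_cancel₀ _ hb'] at this
    exact h2' z hz0 hz this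
  have hc' := G.algebraMap_ne_zero (F := F) hc
  set w : F := -(algebraMap B F b / algebraMap B F c) with hw
  have hlw : ∀ x, l x = l₀ (w * x) := by
    intro x
    have := hx (x / algebraMap B F c)
    rw [mul_div_cancel₀ _ hc'] at this
    have h6 : w * x = -(algebraMap B F b * (x / algebraMap B F c)) := by
      rw [hw]; field_simp
    rw [h6, map_neg]
    linear_combination this
  obtain ⟨z, hz0, hz⟩ := G.exists_fdeg_eq F (-1 - n)
  have hlz := h5 z hz0 hz
  have hw0 : w ≠ 0 := by
    rintro h0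
    rw [hlw, h0, zero_mul, map_zero] at hlz
    exact hlz rfl
  refine ⟨w, hw0, ?_, fun b => ?_⟩
  · by_contra hne
    rcases lt_or_gt_of_ne hne with h | h
    · apply hlz
      rw [hlw]
      apply h2
      right
      rw [G.fdeg_mul hw0 hz0, hz]; omega
    · obtain ⟨y, hy0, hy⟩ := G.exists_fdeg_eq F (-1 - G.fdeg w)
      have e1 : l y = 0 := h4 y (Or.inr (by omega))
      rw [hlw] at e1
      refine h2' _ (mul_ne_zero hw0 hy0) ?_ e1
      rw [G.fdeg_mul hw0 hy0, hy]; ring
  · rw [← hlw, h3]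

end kappa

section main

variable {k B : Type*} [Field k] [IsAlgClosed k] [CommRing B] [Algebra k B] {S : AddSubmonoid ℕ}
  [Cofin S] (G : GapAlg k B S)

theorem exists_kappa [IsDedekindDomain B] (hg : 0 < gaps S) :
    ∃ κ : ClassGroup B, 2 * gaps S - 1 ∉ G.D κ := by
  classical
  let F := FractionRing B
  obtain ⟨l₀, h1, h2, h2'⟩ := G.exists_functional F (m := -1) (fun s _ => by omega)
  have hW := fun n hn => G.exists_mem_W l₀ h1 h2 h2' (n := n) hn
  -- degrees in W
  have hdW : ∀ w : F, w ≠ 0 → (∀ b : B, l₀ (w * algebraMap B F b) = 0) →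
      ∀ s ∈ S, (s : ℤ) ≠ -1 - G.fdeg w := by
    intro w hw0 hw s hs hsw
    have hes := G.algebraMap_ne_zero (F := F) (G.e.ne_zero ⟨s, hs⟩)
    refine h2' _ (mul_ne_zero hw0 hes) ?_ (hw (G.e ⟨s, hs⟩))
    rw [G.fdeg_mul hw0 hes, G.fdeg_algebraMap (G.e.ne_zero _), G.deg_e, hsw]; ring
  obtain ⟨N₀, hN₀⟩ := exists_bound_cofin S
  choose! w hw0 hwd hwW using hW
  -- clear denominators
  obtain ⟨⟨a, haM⟩, ha'⟩ := IsLocalization.exist_integer_multiples_of_finset (M := B⁰) (S := F)
    ((Finset.Icc (-(N₀ : ℤ) - 1) N₀).image w)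
  have ha0 : a ≠ 0 := nonZeroDivisors.ne_zero haM
  have haF := G.algebraMap_ne_zero (F := F) ha0
  have key : ∀ n : ℕ, ∀ x : F, (∀ b : B, l₀ (x * algebraMap B F b) = 0) →
      x ∈ (G.FL (-(N₀ : ℤ) - 1 + n) : Submodule k F) → ∃ y : B, algebraMap B F y = algebraMap B F a * x := by
    intro n
    induction n with
    | zero =>
      intro x hx hxn
      have hx0 : x = 0 := by
        by_contra h0
        rcases hxn with h | h
        · exact h0 h
        · have := hdW x h0 hx (-1 - G.fdeg x).toNat (hN₀ _ (by omega))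
          omega
      exact ⟨0, by rw [hx0]; simp⟩
    | succ n ih =>
      intro x hx hxn
      have hxn' : x ∈ (G.FL ((-(N₀ : ℤ) - 1 + n) + 1) : Submodule k F) := by
        convert hxn using 2; push_cast; ring
      by_cases hS : ∃ s ∈ S, (s : ℤ) = -(N₀ : ℤ) - 1 + n
      · obtain ⟨s, hs, hsn⟩ := hS
        have hes := G.algebraMap_ne_zero (F := F) (G.e.ne_zero ⟨s, hs⟩)
        obtain ⟨c, hc⟩ := G.exists_sub_smul_mem_FL hxn' (z := algebraMap B F (G.e ⟨s, hs⟩)) hes
          (by rw [G.fdeg_algebraMap (G.e.ne_zero _), G.deg_e]; exact hsn)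
        obtain ⟨y, hy⟩ := ih _ (fun b => by
          rw [sub_mul, map_sub, hx b, smul_mul_assoc, map_smul, ← map_mul, h1]; simp) hc
        refine ⟨y + c • (a * G.e ⟨s, hs⟩), ?_⟩
        rw [map_add, hy, Algebra.smul_def, Algebra.smul_def, map_mul, map_mul,
          ← IsScalarTower.algebraMap_apply]
        ring
      · push Not at hS
        by_cases hT : ∀ s ∈ S, (s : ℤ) ≠ -1 - (-(N₀ : ℤ) - 1 + n)
        · have hmem : (-(N₀ : ℤ) - 1 + n) ∈ Finset.Icc (-(N₀ : ℤ) - 1) N₀ := by
            rw [Finset.mem_Icc]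
            refine ⟨by omega, ?_⟩
            by_contra hlt
            push Not at hlt
            exact hS (-(N₀ : ℤ) - 1 + n).toNat (hN₀ _ (by omega)) (by omega)
          obtain ⟨c, hc⟩ := G.exists_sub_smul_mem_FL hxn' (hw0 _ hT) (hwd _ hT)
          obtain ⟨y, hy⟩ := ih _ (fun b => by
            rw [sub_mul, map_sub, hx b, smul_mul_assoc, map_smul, hwW _ hT]; simp) hc
          obtain ⟨y', hy'⟩ := ha' _ (Finset.mem_image_of_mem w hmem)
          refine ⟨y + c • y', ?_⟩
          have hy'' : algebraMap B F y' = algebraMap B F a * w (-(N₀ : ℤ) - 1 + n) := by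
            rw [hy', Algebra.smul_def]
          rw [map_add, hy, Algebra.smul_def, Algebra.smul_def, map_mul, hy'',
            ← IsScalarTower.algebraMap_apply]
          ring
        · -- no element of `W` of this degree
          have hx' : x ∈ (G.FL (-(N₀ : ℤ) - 1 + n) : Submodule k F) := by
            by_cases hx0 : x = 0
            · exact Or.inl hx0
            rcases hxn' with h | h
            · exact Or.inl h
            · right
              refine lt_of_le_of_ne (by omega) ?_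
              intro heq
              apply hT
              rw [← heq]
              exact hdW x hx0 hx
          exact ih x hx hx'
  have hint : ∀ x : F, (∀ b : B, l₀ (x * algebraMap B F b) = 0) →
      ∃ y : B, algebraMap B F y = algebraMap B F a * x := by
    intro x hx
    apply key (G.fdeg x + 1 + N₀ + 1).toNat x hx
    right
    omega
  -- the ideal
  let J : Ideal B :=
    { carrier := {y | ∀ b : B, l₀ (algebraMap B F y / algebraMap B F a * algebraMap B F b) = 0}
      zero_mem' := by intro b; simp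
      add_mem' := by
        intro x y hx hy b
        rw [map_add, add_div, add_mul, map_add, hx b, hy b, add_zero]
      smul_mem' := by
        intro c x hx b
        have := hx (c * b)
        rw [smul_eq_mul, map_mul (algebraMap B F)]
        rw [map_mul (algebraMap B F)] at this
        rw [← this]
        congr 1
        ring }
  have hJmem : ∀ y, y ∈ J ↔ ∀ b : B, l₀ (algebraMap B F y / algebraMap B F a * algebraMap B F b) = 0 :=
    fun y => Iff.rfl
  have haJ : a ∈ J := by
    rw [hJmem]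
    intro b
    rw [div_self haF, one_mul, h1]
  have hJ0 : J ≠ ⊥ := by
    intro h
    rw [h] at haJ
    exact ha0 (by simpa using haJ)
  -- degrees of `J`
  have hdeg : ∀ n : ℕ, n ∈ G.degSet (J.restrictScalars k) ↔ ∀ s ∈ S, (s : ℤ) ≠ -1 - (n - G.deg a) := by
    intro n
    constructor
    · rintro ⟨y, hy, hy0, rfl⟩
      have h3 := hdW (algebraMap B F y / algebraMap B F a)
        (div_ne_zero (G.algebraMap_ne_zero hy0) haF) ((hJmem y).mp hy)
      rwa [G.fdeg_div hy0 ha0] at h3
    · intro hn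
      obtain ⟨y, hy⟩ := hint (w (n - G.deg a)) (hwW _ hn)
      have hy0 : y ≠ 0 := by
        rintro rfl
        rw [map_zero] at hy
        exact mul_ne_zero haF (hw0 _ hn) hy.symm
      refine ⟨y, ?_, hy0, ?_⟩
      · show y ∈ J
        rw [hJmem, hy, mul_div_cancel_left₀ _ haF]
        exact hwW _ hn
      · have h3 := congrArg G.fdeg hy
        rw [G.fdeg_algebraMap hy0, G.fdeg_mul haF (hw0 _ hn), G.fdeg_algebraMap ha0, hwd _ hn] at h3
        omega
  have hbig : ∀ n : ℕ, G.deg a ≤ n → n ∈ S := by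
    intro n hn
    by_contra hnS
    have hn' : ∀ s ∈ S, (s : ℤ) ≠ -1 - ((-1 - n + G.deg a : ℤ) - G.deg a) := by
      intro s hs h
      apply hnS
      have : s = n := by omega
      rwa [← this]
    obtain ⟨y, hy⟩ := hint (w ((-1 - n + G.deg a : ℤ) - G.deg a)) (hwW _ hn')
    have hy0 : y ≠ 0 := by
      rintro rfl
      rw [map_zero] at hy
      exact mul_ne_zero haF (hw0 _ hn') hy.symm
    have h3 := congrArg G.fdeg hy
    rw [G.fdeg_algebraMap hy0, G.fdeg_mul haF (hw0 _ hn'), G.fdeg_algebraMap ha0, hwd _ hn'] at h3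
    omega
  -- counting
  haveI := G.finite_ideal hJ0
  have hcount := G.ncard_notMem_degSet (J.restrictScalars k)
  have hset : {n : ℕ | n ∉ G.degSet (J.restrictScalars k)} =
      (fun s => G.deg a - 1 - s) '' {s | s ∈ S ∧ s < G.deg a} := by
    ext n
    rw [Set.mem_setOf_eq, hdeg]
    push Not
    constructor
    · rintro ⟨s, hs, hsn⟩
      exact ⟨s, ⟨hs, by omega⟩, by simp only; omega⟩
    · rintro ⟨s, ⟨hs, hlt⟩, rfl⟩
      exact ⟨s, hs, by simp only; omega⟩
  have hc2 : {s | s ∈ S ∧ s < G.deg a}.ncard + gaps S = G.deg a := by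
    have h3 : ((Finset.range (G.deg a) : Finset ℕ) : Set ℕ) =
        {s | s ∈ S ∧ s < G.deg a} ∪ {n | n ∉ S} := by
      ext n
      simp only [Finset.coe_range, Set.mem_Iio, Set.mem_union, Set.mem_setOf_eq]
      constructor
      · intro h
        by_cases hn : n ∈ S
        · exact Or.inl ⟨hn, h⟩
        · exact Or.inr hn
      · rintro (h | h)
        · exact h.2
        · by_contra hlt
          exact h (hbig n (by omega))
    have h4 := congrArg Set.ncard h3
    rw [Set.ncard_coe_finset, Finset.card_range, Set.ncard_union_eq _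
      ((Set.finite_Iio (G.deg a)).subset (fun n hn => hn.2)) Cofin.fin] at h4
    · exact h4.symm
    · rw [Set.disjoint_left]
      rintro n h5 h6
      exact h6 h5.1
  rw [hset, Set.ncard_image_of_injOn] at hcount
  · -- conclusion
    have hDeq : G.deg a = codim (J.restrictScalars k) + 2 * gaps S := by omega
    refine ⟨(ClassGroup.mk0 ⟨J, mem_nonZeroDivisors_iff_ne_zero.mpr hJ0⟩)⁻¹, ?_⟩
    rw [G.mem_D_iff (J := ⟨J, mem_nonZeroDivisors_iff_ne_zero.mpr hJ0⟩) (by rw [inv_inv])]
    rw [hdeg]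
    push Not
    refine ⟨0, S.zero_mem, ?_⟩
    push_cast
    omega
  · rintro s ⟨_, hs⟩ t ⟨_, ht⟩ hst
    simp only at hst
    omega

end main

end GapAlg

end Fermat.Agent.S27
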