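import Mathlib
import Fermat.Agent.S27.Act
import Fermat.Agent.S27.GapEch
import Fermat.Agent.S27.GapDed
import Fermat.Agent.S27.GapKappa

set_option autoImplicit false
set_option linter.unusedSectionVars false
set_option linter.style.haveILetI false

/-!
# Counting Frobenius-stable ideals
-/

namespace Fermat.Agent.S27

open IsDedekindDomain nonZeroDivisors

namespace GapAlg

section field

variable {k B : Type*} [Field k] [CommRing B] [Algebra k B] {S : AddSubmonoid ℕ}
  {G : GapAlg k B S} {σ : RingAut k} {Φ : RingAut B}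

theorem semi_one : Semi G G (1 : RingAut k) (1 : RingAut B) := ⟨fun _ _ => rfl⟩

theorem Semi.mul {σ' : RingAut k} {Φ' : RingAut B} (h : Semi G G σ Φ) (h' : Semi G G σ' Φ') :
    Semi G G (σ * σ' : RingAut k) (Φ * Φ' : RingAut B) :=
  ⟨fun n b => by rw [RingAut.mul_apply, h.coeff, h'.coeff]; rfl⟩

theorem Semi.pow (h : Semi G G σ Φ) (m : ℕ) : Semi G G (σ ^ m : RingAut k) (Φ ^ m : RingAut B) := by
  induction m with
  | zero => rw [pow_zero, pow_zero]; exact semi_one
  | succ m ih => rw [pow_succ, pow_succ]; exact ih.mul h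

theorem mem_iff_of_actI_eq {I : Ideal B} (hI : actI Φ I = I) (b : B) : b ∈ I ↔ Φ b ∈ I := by
  conv_rhs => rw [← hI]
  exact mem_actI.symm

/-- the set of fixed vectors of degree at most `M` is finite -/
theorem finite_fix_le (h : Semi G G σ Φ) (hfin : {c : k | σ c = c}.Finite) (M : ℕ) :
    {x : B | Φ x = x ∧ G.deg x ≤ M}.Finite := by
  apply Set.Finite.of_finite_image (f := fun x : B => fun m : Fin (M + 1) => G.coeff m x)
  · apply Set.Finite.subset (Set.Finite.pi' (fun _ : Fin (M + 1) => hfin))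
    rintro _ ⟨x, ⟨hx, -⟩, rfl⟩ m
    change σ (G.coeff m x) = G.coeff m x
    rw [← h.coeff, hx]
  · intro x hx y hy hxy
    apply G.ext_coeff
    intro n
    by_cases hn : n < M + 1
    · exact congrFun hxy ⟨n, hn⟩
    · rw [G.coeff_eq_zero_of_deg_lt (by have := hx.2; omega),
        G.coeff_eq_zero_of_deg_lt (by have := hy.2; omega)]

theorem ech_fixed (h : Semi G G σ Φ) {I : Ideal B} (hI : actI Φ I = I) (n : ℕ) :
    Φ (G.ech (I.restrictScalars k) n) = G.ech (I.restrictScalars k) n :=
  h.ech_eq (V := I.restrictScalars k) (V' := I.restrictScalars k)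
    (fun b => mem_iff_of_actI_eq hI b) n

/-- monic fixed elements of given degree in a stable ideal -/
def monicFix (G : GapAlg k B S) (Φ : RingAut B) (J : Ideal B) (N : ℕ) : Set B :=
  {x | x ∈ J ∧ Φ x = x ∧ G.deg x = N ∧ G.coeff N x = 1}

open Classical in
theorem ncard_monicFix (h : Semi G G σ Φ) {J : Ideal B} (hJ : actI Φ J = J) {N : ℕ}
    (hN : N ∈ G.degSet (J.restrictScalars k)) :
    (monicFix G Φ J N).ncard = {c : k | σ c = c}.ncard ^
      ((Finset.range N).filter (fun m => m ∈ G.degSet (J.restrictScalars k))).card := by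
  set T := (Finset.range N).filter (fun m => m ∈ G.degSet (J.restrictScalars k)) with hT
  have e : monicFix G Φ J N ≃ (T → {c : k | σ c = c}) := by
    refine Equiv.ofBijective (fun x m => ⟨G.coeff m x.1, by
      change σ (G.coeff m x.1) = G.coeff m x.1
      rw [← h.coeff, x.2.2.1]⟩) ⟨?_, ?_⟩
    · rintro ⟨x, hx⟩ ⟨y, hy⟩ hxy
      apply Subtype.ext
      change x = y
      apply G.eq_of_coeff (V := J.restrictScalars k) hx.1 hy.1
      intro n hn
      rcases lt_trichotomy n N with hnN | hnN | hnN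
      · have := congrFun hxy ⟨n, by rw [hT, Finset.mem_filter, Finset.mem_range]; exact ⟨hnN, hn⟩⟩
        exact congrArg Subtype.val this
      · rw [hnN, hx.2.2.2, hy.2.2.2]
      · rw [G.coeff_eq_zero_of_deg_lt (by rw [hx.2.2.1]; exact hnN),
          G.coeff_eq_zero_of_deg_lt (by rw [hy.2.2.1]; exact hnN)]
    · intro f
      obtain ⟨v, hv, hvc⟩ := G.exists_coeff (J.restrictScalars k) (insert N T)
        (fun m => if hm : m ∈ T then (f ⟨m, hm⟩ : k) else 1)
      have hNT : N ∉ T := by
        rw [hT, Finset.mem_filter, Finset.mem_range]; omega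
      have hvN : G.coeff N v = 1 := by
        rw [hvc N hN, if_pos (Finset.mem_insert_self N T), dif_neg hNT]
      have hv0 : v ≠ 0 := by
        rintro rfl
        rw [map_zero] at hvN
        exact zero_ne_one hvN
      have hdeg : G.deg v = N := by
        apply le_antisymm
        · by_contra hlt
          push Not at hlt
          have h1 := hvc (G.deg v) ⟨v, hv, hv0, rfl⟩
          rw [if_neg] at h1
          · exact G.coeff_deg_ne_zero hv0 h1
          · rw [Finset.mem_insert, not_or]
            refine ⟨by omega, ?_⟩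
            rw [hT, Finset.mem_filter, Finset.mem_range]; omega
        · by_contra hlt
          push Not at hlt
          rw [G.coeff_eq_zero_of_deg_lt hlt] at hvN
          exact zero_ne_one hvN
      have hfix : Φ v = v := by
        apply G.eq_of_coeff (V := J.restrictScalars k) ((mem_iff_of_actI_eq hJ v).1 hv) hv
        intro m hm
        rw [h.coeff, hvc m hm]
        split_ifs with h1 h2
        · exact (f ⟨m, h2⟩).2
        · exact map_one σ
        · exact map_zero σ
      refine ⟨⟨v, hv, hfix, hdeg, hvN⟩, ?_⟩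
      ext ⟨m, hm⟩
      change G.coeff m v = _
      rw [hvc m (by rw [hT, Finset.mem_filter] at hm; exact hm.2),
        if_pos (Finset.mem_insert_of_mem hm), dif_pos hm]
  rw [← Nat.card_coe_set_eq, Nat.card_congr e, Nat.card_fun, Nat.card_coe_set_eq,
    Nat.card_eq_fintype_card, Fintype.card_coe]

end field

section ded

variable {k B : Type*} [Field k] [IsAlgClosed k] [CommRing B] [Algebra k B] {S : AddSubmonoid ℕ}
  [Cofin S] {G : GapAlg k B S} {σ : RingAut k} {Φ : RingAut B} [IsDedekindDomain B]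

/-- stable ideals of class `c` and codimension `n` -/
def stab (k : Type*) {B : Type*} [Field k] [CommRing B] [Algebra k B] [IsDedekindDomain B]
    (Φ : RingAut B) (c : ClassGroup B) (n : ℕ) : Set (Ideal B) :=
  {I | ∃ h : I ≠ ⊥, clsI I h = c ∧ actI Φ I = I ∧ codim (I.restrictScalars k) = n}

theorem exists_monic_gen (h : Semi G G σ Φ) {c : ClassGroup B} {J : Ideal B} (hJ0 : J ≠ ⊥)
    (hJc : clsI J hJ0 = c⁻¹) (hJ : actI Φ J = J) {n : ℕ} {I : Ideal B} (hI : I ∈ stab k Φ c n) :
    ∃ x ∈ monicFix G Φ J (n + codim (J.restrictScalars k)), I * J = Ideal.span {x} := by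
  obtain ⟨hI0, hIc, hIΦ, hIn⟩ := hI
  obtain ⟨x, hxJ, hx0, hx, hdeg⟩ := G.exists_mul_eq_span (I := ⟨I, ne_zero_mem hI0⟩)
    (J := ⟨J, ne_zero_mem hJ0⟩) hIc hJc
  simp only at hxJ hx hdeg
  rw [hIn] at hdeg
  set N := n + codim (J.restrictScalars k) with hN
  have hlead : G.coeff N x ≠ 0 := by rw [← hdeg]; exact G.coeff_deg_ne_zero hx0
  set a : k := (G.coeff N x)⁻¹ with ha
  have ha0 : a ≠ 0 := inv_ne_zero hlead
  set y : B := a • x with hy
  have hy0 : y ≠ 0 := smul_ne_zero ha0 hx0
  have hyspan : I * J = Ideal.span {y} := by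
    rw [hx, hy, Algebra.smul_def]
    exact (Ideal.span_singleton_mul_left_unit
      ((isUnit_iff_ne_zero.mpr ha0).map (algebraMap k B)) x).symm
  have hydeg : G.deg y = N := by rw [hy, G.deg_smul ha0, hdeg]
  have hyN : G.coeff N y = 1 := by
    rw [hy, map_smul, smul_eq_mul, ha, inv_mul_cancel₀ hlead]
  refine ⟨y, ⟨?_, ?_, hydeg, hyN⟩, hyspan⟩
  · have : y ∈ I * J := by rw [hyspan]; exact Ideal.mem_span_singleton_self y
    exact Ideal.mul_le_right this
  · have hyIJ : y ∈ I * J := by rw [hyspan]; exact Ideal.mem_span_singleton_self y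
    have hstab : actI Φ (I * J) = I * J := by rw [actI_mul_ideal, hIΦ, hJ]
    have hyIJ' : Φ y ∈ I * J := (mem_iff_of_actI_eq hstab y).1 hyIJ
    have hcod : codim ((I * J).restrictScalars k) = N := by
      rw [G.codim_mul hI0 hJ0, hIn]
    by_contra hne
    have hne' : Φ y - y ≠ 0 := sub_ne_zero.2 hne
    have h1 := G.codim_le_deg (I := I * J) (Ideal.sub_mem _ hyIJ' hyIJ) hne'
    rw [hcod] at h1
    have h2 : G.deg (Φ y - y) ≤ N := by
      refine (G.deg_sub_le _ _).trans (max_le ?_ hydeg.le)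
      rw [h.deg, hydeg]
    have h3 : G.coeff N (Φ y - y) = 0 := by
      rw [map_sub, h.coeff, hyN, map_one, sub_self]
    have h4 := G.coeff_deg_ne_zero hne'
    rw [le_antisymm h2 h1] at h4
    exact h4 h3

theorem ncard_stab_eq (h : Semi G G σ Φ) {c : ClassGroup B} {J : Ideal B} (hJ0 : J ≠ ⊥)
    (hJc : clsI J hJ0 = c⁻¹) (hJ : actI Φ J = J) (n : ℕ) :
    (stab k Φ c n).ncard = (monicFix G Φ J (n + codim (J.restrictScalars k))).ncard := by
  refine Set.ncard_congr (fun I hI => (exists_monic_gen h hJ0 hJc hJ hI).choose) ?_ ?_ ?_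
  · intro I hI
    exact (exists_monic_gen h hJ0 hJc hJ hI).choose_spec.1
  · intro I I' hI hI' heq
    have h1 := (exists_monic_gen h hJ0 hJc hJ hI).choose_spec.2
    have h2 := (exists_monic_gen h hJ0 hJc hJ hI').choose_spec.2
    rw [heq, ← h2] at h1
    exact mul_right_cancel₀ hJ0 h1
  · intro x hx
    have hx0 : x ≠ 0 := by
      rintro rfl
      have := hx.2.2.2
      rw [map_zero] at this
      exact zero_ne_one this
    obtain ⟨I, hIc, hIx, hdeg⟩ := G.exists_ideal_of_mem (J := ⟨J, ne_zero_mem hJ0⟩) hJc hx.1 hx0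
    simp only at hIx hdeg
    have hI0 : (I : Ideal B) ≠ ⊥ := ne_bot_of_nzd I
    have hI : (I : Ideal B) ∈ stab k Φ c n := by
      refine ⟨hI0, hIc, ?_, ?_⟩
      · apply mul_right_cancel₀ hJ0
        conv_lhs => rw [← hJ]
        rw [← actI_mul_ideal, hIx, actI_span, hx.2.1]
      · have := hx.2.2.1
        omega
    refine ⟨I, hI, ?_⟩
    have h1 := (exists_monic_gen h hJ0 hJc hJ hI).choose_spec.2
    have h2 := (exists_monic_gen h hJ0 hJc hJ hI).choose_spec.1
    set y := (exists_monic_gen h hJ0 hJc hJ hI).choose with hy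
    by_contra hne
    have hne' : y - x ≠ 0 := sub_ne_zero.2 hne
    have hyI : y ∈ (I : Ideal B) * J := by rw [h1]; exact Ideal.mem_span_singleton_self y
    have hxI : x ∈ (I : Ideal B) * J := by rw [hIx]; exact Ideal.mem_span_singleton_self x
    have h3 := G.codim_le_deg (I := (I : Ideal B) * J) (Ideal.sub_mem _ hyI hxI) hne'
    rw [hIx, G.codim_span_singleton hx0] at h3
    have h4 : G.deg (y - x) ≤ n + codim (J.restrictScalars k) := by
      refine (G.deg_sub_le _ _).trans (max_le ?_ ?_)
      · rw [h2.2.2.1]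
      · rw [hx.2.2.1]
    have h5 : G.coeff (n + codim (J.restrictScalars k)) (y - x) = 0 := by
      rw [map_sub, h2.2.2.2, hx.2.2.2, sub_self]
    have h6 := G.coeff_deg_ne_zero hne'
    rw [hx.2.2.1] at h3
    rw [le_antisymm h4 h3] at h6
    exact h6 h5

theorem actI_codim (h : Semi G G σ Φ) (I : Ideal B) :
    codim ((actI Φ I).restrictScalars k) = codim (I.restrictScalars k) := h.codim_map I

/-- each fixed class contains a stable ideal -/
theorem exists_stable_of_fixed (h : Semi G G σ Φ) {c : ClassGroup B} (hc : actC Φ c = c) :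
    ∃ (J : Ideal B) (hJ : J ≠ ⊥), clsI J hJ = c ∧ actI Φ J = J := by
  obtain ⟨I, hIc, hmin⟩ := G.exists_minimal c
  have hI0 := ne_bot_of_nzd I
  refine ⟨I, hI0, hIc, ?_⟩
  have h1 : ClassGroup.mk0 I = ClassGroup.mk0 (⟨actI Φ I, ne_zero_mem (actI_ne_bot hI0)⟩ : (Ideal B)⁰) := by
    have h2 : actC Φ (clsI (I : Ideal B) hI0) = clsI (actI Φ I) (actI_ne_bot hI0) := actC_clsI Φ hI0
    have h3 : clsI (I : Ideal B) hI0 = c := hIc
    rw [h3, hc] at h2
    rw [hIc]
    exact h2
  have h2 := G.eq_of_minimal h1 (by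
    simp only
    rw [actI_codim h]) (by rw [hIc]; exact hmin)
  exact (congrArg (fun x : (Ideal B)⁰ => (x : Ideal B)) h2).symm

open Classical in
/-- the number of stable ideals of codimension `n` in a fixed class `c` -/
theorem ncard_stab (h : Semi G G σ Φ) {c : ClassGroup B} (hc : actC Φ c = c) (n : ℕ) :
    (stab k Φ c n).ncard = if n ∈ G.D c then {c : k | σ c = c}.ncard ^
      ((Finset.range n).filter (fun m => m ∈ G.D c)).card else 0 := by
  obtain ⟨J, hJ0, hJc, hJ⟩ := exists_stable_of_fixed (G := G) h (c := c⁻¹) (by rw [map_inv, hc])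
  split_ifs with hn
  · have hn' := (G.mem_D_iff (J := ⟨J, ne_zero_mem hJ0⟩) hJc n).1 hn
    rw [ncard_stab_eq h hJ0 hJc hJ, ncard_monicFix h hJ hn']
    congr 1
    symm
    refine Finset.card_bij (fun i _ => i + codim (J.restrictScalars k)) ?_ ?_ ?_
    · intro i hi
      rw [Finset.mem_filter, Finset.mem_range] at hi ⊢
      exact ⟨Nat.add_lt_add_right hi.1 _, (G.mem_D_iff (J := ⟨J, ne_zero_mem hJ0⟩) hJc i).1 hi.2⟩
    · intro i _ j _ hij
      omega
    · intro m hm
      rw [Finset.mem_filter, Finset.mem_range] at hm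
      obtain ⟨x, hx, hx0, hxd⟩ := hm.2
      have h1 := G.codim_le_deg (I := J) hx hx0
      rw [hxd] at h1
      have hm1 : m < n + codim (J.restrictScalars k) := hm.1
      refine ⟨m - codim (J.restrictScalars k), ?_, Nat.sub_add_cancel h1⟩
      rw [Finset.mem_filter, Finset.mem_range]
      refine ⟨by omega, ?_⟩
      rw [G.mem_D_iff (J := ⟨J, ne_zero_mem hJ0⟩) hJc]
      simp only
      rw [Nat.sub_add_cancel h1]
      exact hm.2
  · convert Set.ncard_empty (Ideal B)
    ext I
    constructor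
    · rintro ⟨hI0, hIc, -, hIn⟩
      exact hn ⟨⟨I, ne_zero_mem hI0⟩, hIc, hIn⟩
    · intro h; exact absurd h (Set.notMem_empty I)

end ded

end GapAlg

end Fermat.Agent.S27
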