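import Mathlib
import Fermat.Agent.S27.Count
import Fermat.Agent.S27.Basic

set_option autoImplicit false
set_option linter.unusedSectionVars false
set_option linter.style.haveILetI false

/-!
# Finiteness of the set of Frobenius-stable ideals
-/

namespace Fermat.Agent.S27

open IsDedekindDomain nonZeroDivisors

namespace GapAlg

section ded

variable {k B : Type*} [Field k] [IsAlgClosed k] [CommRing B] [Algebra k B] {S : AddSubmonoid ℕ}
  [Cofin S] {G : GapAlg k B S} {σ : RingAut k} {Φ : RingAut B} [IsDedekindDomain B]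

theorem exists_pos_mem (S : AddSubmonoid ℕ) [Cofin S] : ∃ d ∈ S, 0 < d := by
  by_contra h
  push Not at h
  have h1 : (Set.Ioi (0 : ℕ)) ⊆ {n : ℕ | n ∉ S} := by
    intro n hn hS
    have := h n hS
    have : (0 : ℕ) < n := hn
    omega
  exact (Set.Ioi_infinite (0 : ℕ)) (Cofin.fin.subset h1)

theorem mem_degSet_of_le_ded {I : Ideal B} (hI : I ≠ ⊥) {m : ℕ}
    (hm : 2 * gaps S + codim (I.restrictScalars k) ≤ m) : m ∈ G.degSet (I.restrictScalars k) := by
  have h := (G.mem_D_iff (c := (ClassGroup.mk0 ⟨I, ne_zero_mem hI⟩)⁻¹) (J := ⟨I, ne_zero_mem hI⟩)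
    (by rw [inv_inv]) (m - codim (I.restrictScalars k))).1 (G.mem_D_of_le _ (by omega))
  simp only at h
  rwa [Nat.sub_add_cancel (by omega)] at h

/-- an ideal is generated by its elements of bounded degree -/
theorem span_ech_eq {I : Ideal B} (hI : I ≠ ⊥) {M d : ℕ} (hd : d ∈ S) (hd0 : 0 < d)
    (hM : 2 * gaps S + codim (I.restrictScalars k) + d ≤ M) :
    Ideal.span {x | ∃ m, m ≤ M ∧ m ∈ G.degSet (I.restrictScalars k) ∧
      x = G.ech (I.restrictScalars k) m} = I := by
  set J := Ideal.span {x | ∃ m, m ≤ M ∧ m ∈ G.degSet (I.restrictScalars k) ∧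
      x = G.ech (I.restrictScalars k) m} with hJ
  have hle : J ≤ I := by
    rw [hJ, Ideal.span_le]
    rintro x ⟨m, -, -, rfl⟩
    exact G.ech_mem (I.restrictScalars k) m
  have hdeg : ∀ m, m ∈ G.degSet (I.restrictScalars k) → m ∈ G.degSet (J.restrictScalars k) := by
    intro m
    induction m using Nat.strong_induction_on with
    | _ m ih =>
      intro hm
      by_cases hmM : m ≤ M
      · exact ⟨G.ech (I.restrictScalars k) m, Ideal.subset_span ⟨m, hmM, hm, rfl⟩,
          G.ech_ne_zero hm, G.deg_ech hm⟩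
      · have h1 : m - d ∈ G.degSet (I.restrictScalars k) := mem_degSet_of_le_ded hI (by omega)
        obtain ⟨y, hy, hy0, hyd⟩ := ih (m - d) (by omega) h1
        have he0 : G.e ⟨d, hd⟩ ≠ 0 := G.e.ne_zero _
        refine ⟨G.e ⟨d, hd⟩ * y, J.mul_mem_left _ hy, G.mul_ne_zero' he0 hy0, ?_⟩
        rw [G.deg_mul he0 hy0, G.deg_e, hyd]
        simp only
        omega
  have h2 := G.eq_of_le_of_degSet_eq (V := J.restrictScalars k) (W := I.restrictScalars k)
    (fun x hx => hle hx) (fun m hm => hdeg m hm)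
  exact le_antisymm hle (fun x hx => by
    have : x ∈ I.restrictScalars k := hx
    rwa [← h2] at this)

/-- finiteness of the set of stable ideals of given codimension -/
theorem finite_stable (h : Semi G G σ Φ) (hfin : {c : k | σ c = c}.Finite) (n : ℕ) :
    {I : Ideal B | I ≠ ⊥ ∧ actI Φ I = I ∧ codim (I.restrictScalars k) = n}.Finite := by
  obtain ⟨d, hd, hd0⟩ := exists_pos_mem S
  set M := 2 * gaps S + n + d with hM
  have hF := finite_fix_le h hfin M
  apply Set.Finite.of_finite_image (f := fun I : Ideal B => {x : B | x ∈ I ∧ Φ x = x ∧ G.deg x ≤ M})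
  · apply hF.finite_subsets.subset
    rintro _ ⟨I, -, rfl⟩
    intro x hx
    exact hx.2
  · intro I hI I' hI' heq
    have key : ∀ I : Ideal B, (I ≠ ⊥ ∧ actI Φ I = I ∧ codim (I.restrictScalars k) = n) →
        Ideal.span {x : B | x ∈ I ∧ Φ x = x ∧ G.deg x ≤ M} = I := by
      intro I hI
      apply le_antisymm
      · rw [Ideal.span_le]
        intro x hx
        exact hx.1
      · conv_lhs => rw [← span_ech_eq (G := G) (k := k) (M := M) hI.1 hd hd0 (by rw [hI.2.2])]
        apply Ideal.span_mono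
        rintro x ⟨m, hm, hm', rfl⟩
        refine ⟨G.ech_mem (I.restrictScalars k) m, ech_fixed h hI.2.1 m, ?_⟩
        rw [G.deg_ech hm']
        exact hm
    rw [← key I hI, ← key I' hI']
    exact congrArg Ideal.span heq

/-- codimension of the ideal of a divisor -/
theorem codim_idl (G : GapAlg k B S) (D : HeightOneSpectrum B →₀ ℕ) :
    codim ((idl D).restrictScalars k) = Comb.degr D := by
  have htop : codim ((1 : Ideal B).restrictScalars k) = 0 := by
    rw [Ideal.one_eq_top]
    exact (G.codim_eq_zero_iff top_ne_bot).mpr rfl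
  induction D using Finsupp.induction with
  | zero => rw [idl_zero, Comb.degr_zero, htop]
  | single_add P n D _ _ ih =>
    have hP : P.asIdeal ≠ ⊥ := P.ne_bot
    have h1 := G.codim_prime_mul (P := P.asIdeal) (I := 1) P.prime
      (by rw [Ideal.one_eq_top]; exact top_ne_bot)
    rw [mul_one, htop, zero_add] at h1
    rw [idl_add, G.codim_mul (idl_ne_bot _) (idl_ne_bot _), ih, idl_single, G.codim_pow hP,
      Comb.degr_add, Comb.degr_single, h1, mul_one]

theorem finite_inv (h : Semi G G σ Φ) (hfin : {c : k | σ c = c}.Finite) (n : ℕ) :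
    {D : HeightOneSpectrum B →₀ ℕ | Comb.degr D = n ∧ Comb.Inv (actX Φ) D}.Finite := by
  apply Set.Finite.of_finite_image (f := idl) _ idl_injective.injOn
  apply (finite_stable h hfin n).subset
  rintro _ ⟨D, ⟨hD, hD'⟩, rfl⟩
  exact ⟨idl_ne_bot D, (inv_iff Φ D).1 hD', by rw [codim_idl G, hD]⟩

theorem finite_fixX (h : Semi G G σ Φ) (hfin : {c : k | σ c = c}.Finite) :
    {P : HeightOneSpectrum B | actX Φ P = P}.Finite := by
  apply Set.Finite.of_finite_image (f := fun P => Finsupp.single P 1)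
    _ (Finsupp.single_left_injective one_ne_zero).injOn
  apply (finite_inv h hfin 1).subset
  rintro _ ⟨P, hP, rfl⟩
  refine ⟨Comb.degr_single P 1, ?_⟩
  rw [inv_iff]
  rw [idl_single, pow_one]
  exact congrArg HeightOneSpectrum.asIdeal hP

theorem finite_fixC (h : Semi G G σ Φ) (hfin : {c : k | σ c = c}.Finite) :
    {c : ClassGroup B | actC Φ c = c}.Finite := by
  classical
  have hF := finite_stable h hfin (2 * gaps S)
  -- choose for each class a stable ideal of codimension 2g
  have hpos : 0 < {c : k | σ c = c}.ncard := by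
    rw [Set.ncard_pos hfin]
    exact ⟨0, map_zero σ⟩
  have key : ∀ c ∈ {c : ClassGroup B | actC Φ c = c},
      ∃ I ∈ {I : Ideal B | I ≠ ⊥ ∧ actI Φ I = I ∧ codim (I.restrictScalars k) = 2 * gaps S},
      ∃ h : I ≠ ⊥, clsI I h = c := by
    intro c hc
    have h1 := ncard_stab (G := G) h hc (2 * gaps S)
    rw [if_pos (G.mem_D_of_le c le_rfl)] at h1
    have h2 : (stab k Φ c (2 * gaps S)).Nonempty := by
      apply Set.nonempty_of_ncard_ne_zero
      rw [h1]
      exact (pow_pos hpos _).ne'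
    obtain ⟨I, hI0, hIc, hIΦ, hIn⟩ := h2
    exact ⟨I, ⟨hI0, hIΦ, hIn⟩, hI0, hIc⟩
  let f : Ideal B → ClassGroup B := fun I => if h : I ≠ ⊥ then clsI I h else 1
  apply (hF.image f).subset
  intro c hc
  obtain ⟨I, hI, hI0, hIc⟩ := key c hc
  refine ⟨I, hI, ?_⟩
  change (if h : I ≠ ⊥ then clsI I h else 1) = c
  rw [dif_pos hI0, hIc]

theorem D_actC (h : Semi G G σ Φ) (c : ClassGroup B) : G.D (actC Φ c) = G.D c := by
  have key : ∀ (Φ : RingAut B) (σ : RingAut k) (h : Semi G G σ Φ) (c : ClassGroup B),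
      G.D c ⊆ G.D (actC Φ c) := by
    rintro Φ σ h c n ⟨I, rfl, rfl⟩
    have hI0 := ne_bot_of_nzd I
    refine ⟨⟨actI Φ I, ne_zero_mem (actI_ne_bot hI0)⟩, ?_, actI_codim h I⟩
    exact (actC_clsI Φ hI0).symm
  apply Set.Subset.antisymm
  · have h1 := key Φ⁻¹ σ⁻¹ h.symm (actC Φ c)
    rw [map_inv] at h1
    have h2 : (actC Φ)⁻¹ (actC Φ c) = c := by
      rw [← MulAut.mul_apply, inv_mul_cancel, MulAut.one_apply]
    rwa [h2] at h1
  · exact key Φ σ h c

end ded

end GapAlg

end Fermat.Agent.S27
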