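import Mathlib
import Fermat.Agent.S27.Count2

set_option autoImplicit false
set_option linter.unusedSectionVars false
set_option linter.style.haveILetI false

/-!
# The zeta package of a `GapAlg` with Frobenius
-/

namespace Fermat.Agent.S27

open IsDedekindDomain nonZeroDivisors

theorem ringAut_pow_fix {R : Type*} [Semiring R] (σ : RingAut R) {x : R} {m : ℕ}
    (h : (σ ^ m) x = x) (j : ℕ) : (σ ^ (m * j)) x = x := by
  induction j with
  | zero => rfl
  | succ j ih => rw [Nat.mul_succ, pow_add, RingAut.mul_apply, h, ih]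

theorem ringAut_pow_fix_dvd {R : Type*} [Semiring R] (σ : RingAut R) {x : R} {m n : ℕ}
    (h : (σ ^ m) x = x) (hmn : m ∣ n) : (σ ^ n) x = x := by
  obtain ⟨j, rfl⟩ := hmn
  exact ringAut_pow_fix σ h j

/-- class of a divisor -/
noncomputable def clsD {B : Type*} [CommRing B] [IsDedekindDomain B]
    (D : HeightOneSpectrum B →₀ ℕ) : ClassGroup B := clsI (idl D) (idl_ne_bot D)

namespace GapAlg

section ded

variable {k B : Type*} [Field k] [IsAlgClosed k] [CommRing B] [Algebra k B] {S : AddSubmonoid ℕ}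
  [Cofin S] {G : GapAlg k B S} {σ : RingAut k} {Φ : RingAut B} [IsDedekindDomain B]

theorem pow_apply_frob {q : ℕ} (hσ : ∀ x, σ x = x ^ q) (m : ℕ) (x : k) :
    (σ ^ m) x = x ^ (q ^ m) := by
  induction m with
  | zero => simp
  | succ m ih => rw [pow_succ', RingAut.mul_apply, ih, hσ, ← pow_mul, ← pow_succ]

theorem fix_frob {p f : ℕ} [Fact p.Prime] [CharP k p] (hf : 0 < f)
    (hσ : ∀ x, σ x = x ^ (p ^ f)) {m : ℕ} (hm : 0 < m) :
    {c : k | (σ ^ m) c = c}.Finite ∧ {c : k | (σ ^ m) c = c}.ncard = (p ^ f) ^ m := by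
  classical
  have hp : 1 < p := (Fact.out : p.Prime).one_lt
  set Q := (p ^ f) ^ m with hQ
  have hQ1 : 1 < Q := by
    rw [hQ, ← pow_mul]
    exact Nat.one_lt_pow (Nat.mul_pos hf hm).ne' hp
  have hpQ : p ∣ Q := by
    rw [hQ, ← pow_mul]
    exact dvd_pow_self p (Nat.mul_pos hf hm).ne'
  have hset : {c : k | (σ ^ m) c = c} = (Polynomial.X ^ Q - Polynomial.X : Polynomial k).rootSet k := by
    ext c
    rw [Set.mem_ofPred_eq, pow_apply_frob hσ, Polynomial.mem_rootSet]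
    simp only [map_sub, map_pow, Polynomial.aeval_X, sub_eq_zero]
    rw [← hQ]
    constructor
    · intro h
      refine ⟨?_, h⟩
      have := FiniteField.X_pow_card_sub_X_ne_zero k hQ1
      intro h0
      exact this (by simpa using h0)
    · exact fun h => h.2
  have hcard := Polynomial.card_rootSet_eq_natDegree (K := k)
    (galois_poly_separable (K := k) p Q hpQ) (IsAlgClosed.splits _)
  rw [FiniteField.X_pow_card_sub_X_natDegree_eq k hQ1] at hcard
  refine ⟨by rw [hset]; exact Set.toFinite _, ?_⟩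
  rw [hset, ← Nat.card_coe_set_eq, Nat.card_eq_fintype_card, hcard]

theorem exists_fix_elt (h : Semi G G σ Φ) (halg : ∀ x : k, ∃ m, 0 < m ∧ (σ ^ m) x = x) (b : B) :
    ∃ m, 0 < m ∧ (Φ ^ m) b = b := by
  choose m hm0 hm using halg
  refine ⟨∏ n ∈ Finset.range (G.deg b + 1), m (G.coeff n b),
    Finset.prod_pos (fun n _ => hm0 _), ?_⟩
  apply G.ext_coeff
  intro n
  rw [(h.pow _).coeff]
  by_cases hn : n < G.deg b + 1
  · exact ringAut_pow_fix_dvd σ (hm _) (Finset.dvd_prod_of_mem _ (Finset.mem_range.2 hn))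
  · rw [G.coeff_eq_zero_of_deg_lt (by omega), map_zero]

theorem exists_fix_ideal (h : Semi G G σ Φ) (halg : ∀ x : k, ∃ m, 0 < m ∧ (σ ^ m) x = x)
    (I : Ideal B) : ∃ m, 0 < m ∧ actI (Φ ^ m) I = I := by
  haveI := G.isNoetherianRing
  obtain ⟨s, rfl⟩ := (isNoetherianRing_iff_ideal_fg B).1 inferInstance I
  choose m hm0 hm using exists_fix_elt h halg
  refine ⟨∏ x ∈ s, m x, Finset.prod_pos (fun n _ => hm0 _), ?_⟩
  unfold actI
  rw [Ideal.map_span]
  congr 1
  have key : ∀ x ∈ s, (Φ ^ (∏ x ∈ s, m x)) x = x := fun x hx =>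
    ringAut_pow_fix_dvd Φ (hm _) (Finset.dvd_prod_of_mem _ hx)
  ext y
  constructor
  · rintro ⟨x, hx, rfl⟩
    have : (((Φ ^ (∏ x ∈ s, m x) : RingAut B) : B ≃+* B) : B →+* B) x = x := key x hx
    rw [this]
    exact hx
  · intro hy
    exact ⟨y, hy, key y hy⟩

theorem exists_fix_class (h : Semi G G σ Φ) (halg : ∀ x : k, ∃ m, 0 < m ∧ (σ ^ m) x = x)
    (c : ClassGroup B) : ∃ m, 0 < m ∧ (actC Φ ^ m) c = c := by
  obtain ⟨I, hI, rfl⟩ := exists_clsI c
  obtain ⟨m, hm, hmI⟩ := exists_fix_ideal h halg I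
  refine ⟨m, hm, ?_⟩
  rw [← map_pow, actC_clsI]
  exact clsI_congr _ _ hmI

theorem degr_eq_zero {D : HeightOneSpectrum B →₀ ℕ} (h : Comb.degr D = 0) : D = 0 := by
  ext P
  by_contra hP
  have h1 : P ∈ D.support := Finsupp.mem_support_iff.2 hP
  unfold Comb.degr at h
  rw [Finsupp.sum, Finset.sum_eq_zero_iff] at h
  exact hP (h P h1)

/-- `b` -/
noncomputable def bF (Φ : RingAut B) (m : ℕ) (χ : ClassGroup B →* ℂ) (n : ℕ) : ℂ :=
  ∑ᶠ (D : HeightOneSpectrum B →₀ ℕ) (_ : D ∈ {D | Comb.degr D = n ∧ Comb.Inv (actX (Φ ^ m)) D}),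
    Comb.wt (fun P => χ (clsP P)) D

/-- `Y` -/
noncomputable def YF (Φ : RingAut B) (m : ℕ) (χ : ClassGroup B →* ℂ) (n : ℕ) : ℂ :=
  ∑ᶠ (P : HeightOneSpectrum B) (_ : P ∈ {P | (actX (Φ ^ m) ^ n) P = P}),
    ∏ i ∈ Finset.range n, χ (clsP ((actX (Φ ^ m) ^ i) P))

theorem bF_eq {m : ℕ} (h : Semi G G (σ ^ m : RingAut k) (Φ ^ m : RingAut B))
    (hfin : {c : k | (σ ^ m) c = c}.Finite) (χ : ClassGroup B →* ℂ) (n : ℕ) :
    bF Φ m χ n = ∑ D ∈ (finite_inv h hfin n).toFinset, Comb.wt (fun P => χ (clsP P)) D :=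
  finsum_mem_eq_finite_toFinset_sum _ _

theorem finite_fixX' (h : Semi G G σ Φ) (hfin : ∀ m, 0 < m → {c : k | (σ ^ m) c = c}.Finite)
    {m j : ℕ} (hm : 0 < m) (hj : 0 < j) :
    {P : HeightOneSpectrum B | (actX (Φ ^ m) ^ j) P = P}.Finite := by
  have h1 := finite_fixX (h.pow (m * j)) (hfin (m * j) (Nat.mul_pos hm hj))
  rwa [pow_mul, map_pow] at h1

theorem YF_eq (h : Semi G G σ Φ) (hfin : ∀ m, 0 < m → {c : k | (σ ^ m) c = c}.Finite)
    {m j : ℕ} (hm : 0 < m) (hj : 0 < j) (χ : ClassGroup B →* ℂ) :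
    YF Φ m χ j = ∑ P ∈ (finite_fixX' h hfin hm hj).toFinset,
      ∏ i ∈ Finset.range j, χ (clsP ((actX (Φ ^ m) ^ i) P)) :=
  finsum_mem_eq_finite_toFinset_sum _ _

theorem recur (h : Semi G G σ Φ) (hfin : ∀ m, 0 < m → {c : k | (σ ^ m) c = c}.Finite)
    {m : ℕ} (hm : 0 < m) (χ : ClassGroup B →* ℂ) (n : ℕ) :
    (n : ℂ) * bF Φ m χ n =
      ∑ j ∈ Finset.range n, YF Φ m χ (j + 1) * bF Φ m χ (n - 1 - j) := by
  have h1 := Comb.recursion (τ := actX (Φ ^ m)) (fun P => χ (clsP P))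
    (fun n => finite_inv (h.pow m) (hfin m hm) n) (fun j hj => finite_fixX' h hfin hm hj) n
  rw [bF_eq (h.pow m) (hfin m hm), h1]
  have h2 : ∀ j : {x // x ∈ Finset.Icc 1 n},
      (∑ x ∈ (finite_fixX' h hfin hm (Finset.mem_Icc.1 j.2).1).toFinset,
        ∏ i ∈ Finset.range j.1, χ (clsP ((actX (Φ ^ m) ^ i) x))) *
        ∑ D ∈ (finite_inv (h.pow m) (hfin m hm) (n - j.1)).toFinset,
          Comb.wt (fun P => χ (clsP P)) D = YF Φ m χ j.1 * bF Φ m χ (n - j.1) := by
    intro j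
    rw [YF_eq h hfin hm (Finset.mem_Icc.1 j.2).1, bF_eq (h.pow m) (hfin m hm)]
  rw [Finset.sum_congr rfl (fun j _ => h2 j)]
  rw [Finset.sum_attach (Finset.Icc 1 n) (fun j => YF Φ m χ j * bF Φ m χ (n - j))]
  symm
  refine Finset.sum_bij (fun j _ => j + 1) ?_ ?_ ?_ ?_
  · intro j hj
    rw [Finset.mem_range] at hj
    rw [Finset.mem_Icc]
    omega
  · intro i _ j _ hij
    omega
  · intro j hj
    rw [Finset.mem_Icc] at hj
    exact ⟨j - 1, by rw [Finset.mem_range]; omega, by omega⟩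
  · intro j hj
    rw [Nat.sub_sub, Nat.add_comm 1 j]

open Classical in
theorem count (h : Semi G G σ Φ) (hfin : ∀ m, 0 < m → {c : k | (σ ^ m) c = c}.Finite) {q : ℕ}
    (hcard : ∀ m, 0 < m → {c : k | (σ ^ m) c = c}.ncard = q ^ m)
    {m : ℕ} (hm : 0 < m) (χ : ClassGroup B →* ℂ) (n : ℕ)
    (hF : {x : ClassGroup B | (actC Φ ^ m) x = x}.Finite) :
    bF Φ m χ n = ∑ c ∈ hF.toFinset, χ c *
      (if n ∈ G.D c then
        ((q : ℂ) ^ m) ^ ((Finset.range n).filter (fun i => i ∈ G.D c)).card else 0) := by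
  rw [bF_eq (h.pow m) (hfin m hm)]
  have h1 : ∀ D ∈ (finite_inv (h.pow m) (hfin m hm) n).toFinset, clsD D ∈ hF.toFinset := by
    intro D hD
    rw [Set.Finite.mem_toFinset] at hD ⊢
    rw [Set.mem_ofPred_eq, ← map_pow]
    unfold clsD
    rw [actC_clsI]
    exact clsI_congr _ _ ((inv_iff _ _).1 hD.2)
  rw [← Finset.sum_fiberwise_of_maps_to h1]
  refine Finset.sum_congr rfl (fun c hc => ?_)
  rw [Set.Finite.mem_toFinset, Set.mem_ofPred_eq, ← map_pow] at hc
  have h2 : ∀ D ∈ (finite_inv (h.pow m) (hfin m hm) n).toFinset.filter (fun D => clsD D = c),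
      Comb.wt (fun P => χ (clsP P)) D = χ c := by
    intro D hD
    rw [Finset.mem_filter] at hD
    rw [wt_eq, ← hD.2]
    rfl
  rw [Finset.sum_congr rfl h2, Finset.sum_const, nsmul_eq_mul, mul_comm]
  congr 1
  have h3 := ncard_stab (G := G) (h.pow m) hc n
  have h4 : (((finite_inv (h.pow m) (hfin m hm) n).toFinset.filter
      (fun D => clsD D = c)).card) = (stab k (Φ ^ m) c n).ncard := by
    rw [← Finset.card_image_of_injective _ (idl_injective (B := B)), ← Set.ncard_coe_finset]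
    congr 1
    ext I
    rw [Finset.coe_image, Set.mem_image]
    constructor
    · rintro ⟨D, hD, rfl⟩
      rw [Finset.mem_coe, Finset.mem_filter, Set.Finite.mem_toFinset] at hD
      exact ⟨idl_ne_bot D, hD.2, (inv_iff _ _).1 hD.1.2, by rw [codim_idl G, hD.1.1]⟩
    · rintro ⟨hI0, hIc, hIΦ, hIn⟩
      obtain ⟨D, rfl⟩ := exists_idl hI0
      refine ⟨D, ?_, rfl⟩
      rw [Finset.mem_coe, Finset.mem_filter, Set.Finite.mem_toFinset]
      exact ⟨⟨by rw [← codim_idl G, hIn], (inv_iff _ _).2 hIΦ⟩, hIc⟩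
  rw [h4, h3, hcard m hm]
  split_ifs <;> push_cast <;> rfl

theorem apply_clsP_pow {m : ℕ} {χ : ClassGroup B →* ℂ} (hχ : ∀ x, χ ((actC Φ ^ m) x) = χ x)
    (P : HeightOneSpectrum B) (i : ℕ) : χ (clsP ((actX (Φ ^ m) ^ i) P)) = χ (clsP P) := by
  induction i with
  | zero => rfl
  | succ i ih =>
    rw [pow_succ', Equiv.Perm.mul_apply, ← actC_clsP, map_pow, hχ, ih]

/-- The zeta package. -/
noncomputable def zetaPackage (h : Semi G G σ Φ) {p f : ℕ} [Fact p.Prime] [CharP k p] (hf : 0 < f)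
    (hσ : ∀ x, σ x = x ^ (p ^ f)) (halg : ∀ x : k, ∃ m, 0 < m ∧ (σ ^ m) x = x) :
    ZetaPackage (ClassGroup B) (actC Φ) (p ^ f) (gaps S) where
  hq := Nat.one_lt_pow hf.ne' (Fact.out : p.Prime).one_lt
  locfin := exists_fix_class h halg
  fin m hm := by
    have h1 := finite_fixC (h.pow m) (fix_frob hf hσ hm).1
    rwa [map_pow] at h1
  D := G.D
  D_compl c := G.ncard_compl_D c
  D_large c n hn := G.mem_D_of_le c hn
  D_can hg := by
    obtain ⟨κ, hκ⟩ := G.exists_kappa hg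
    refine ⟨κ, ?_, hκ, ?_⟩
    · apply G.kappa_unique _ hκ hg
      rw [D_actC h]
      exact hκ
    · intro c hc
      by_contra h'
      exact hc (G.kappa_unique h' hκ hg)
  b := bF Φ
  Y := YF Φ
  b_zero m χ hm _ := by
    rw [bF_eq (h.pow m) (fix_frob hf hσ hm).1]
    have h1 : (finite_inv (h.pow m) (fix_frob hf hσ hm).1 0).toFinset = {0} := by
      ext D
      rw [Set.Finite.mem_toFinset, Finset.mem_singleton]
      constructor
      · intro hD; exact degr_eq_zero hD.1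
      · rintro rfl
        exact ⟨Comb.degr_zero, fun _ => rfl⟩
    rw [h1, Finset.sum_singleton, Comb.wt_zero]
  recur m χ hm _ n := recur h (fun m hm => (fix_frob hf hσ hm).1) hm χ n
  count m χ hm _ n := by
    have := count h (fun m hm => (fix_frob hf hσ hm).1) (fun m hm => (fix_frob hf hσ hm).2) hm χ n
      (by
        have h1 := finite_fixC (h.pow m) (fix_frob hf hσ hm).1
        rwa [map_pow] at h1)
    exact this
  Y_one m j hm hj := by
    unfold YF
    simp only [MonoidHom.one_apply, Finset.prod_const_one]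
    rw [pow_one, pow_mul, ← map_pow]
    simp only [map_pow]
  Y_tors m χ ℓ j hm hχ hχℓ hℓj hj := by
    unfold YF
    have h1 : ∀ P : HeightOneSpectrum B,
        ∏ i ∈ Finset.range j, χ (clsP ((actX (Φ ^ m) ^ i) P)) = 1 := by
      intro P
      rw [Finset.prod_congr rfl (fun i _ => apply_clsP_pow hχ P i), Finset.prod_const,
        Finset.card_range]
      obtain ⟨i, rfl⟩ := hℓj
      rw [pow_mul, hχℓ, one_pow]
    simp only [h1, MonoidHom.one_apply, Finset.prod_const_one]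

end ded

end GapAlg

end Fermat.Agent.S27
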