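import Mathlib

set_option autoImplicit false
set_option linter.style.haveILetI false

/-! `TorsCount A n N`: the class group of `A` has exactly `N` elements killed by `n`. -/

namespace Fermat.Agent.S27

open nonZeroDivisors

/-- `A` has exactly `N` ideal classes killed by `n`, phrased with ideals. -/
def TorsCount (A : Type*) [CommRing A] (n N : ℕ) : Prop :=
  ∃ I : Fin N → Ideal A, (∀ r, I r ≠ ⊥) ∧ (∀ r, (I r ^ n).IsPrincipal) ∧
    (∀ r s, r ≠ s → ¬ (I r * I s ^ (n - 1)).IsPrincipal) ∧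
    ∀ J : Ideal A, J ≠ ⊥ → (J ^ n).IsPrincipal → ∃ r, (J * I r ^ (n - 1)).IsPrincipal

section

variable {A : Type*} [CommRing A] [IsDedekindDomain A] {n : ℕ}

theorem mk0_pow_eq_one_iff (I : (Ideal A)⁰) :
    ClassGroup.mk0 I ^ n = 1 ↔ ((I : Ideal A) ^ n).IsPrincipal := by
  rw [← map_pow, ClassGroup.mk0_eq_one_iff]
  simp

theorem mk0_mul_pow_eq_one_iff (I J : (Ideal A)⁰) (m : ℕ) :
    ClassGroup.mk0 I * ClassGroup.mk0 J ^ m = 1 ↔ ((I : Ideal A) * (J : Ideal A) ^ m).IsPrincipal := by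
  rw [← map_pow, ← map_mul, ClassGroup.mk0_eq_one_iff]
  simp

theorem mul_pow_pred_eq_one_iff {G : Type*} [CommGroup G] {x y : G} (hn : 0 < n)
    (hy : y ^ n = 1) : x * y ^ (n - 1) = 1 ↔ x = y := by
  have h : y ^ (n - 1) = y⁻¹ := by
    rw [eq_inv_iff_mul_eq_one, ← pow_succ, Nat.sub_add_cancel hn, hy]
  rw [h, mul_inv_eq_one]

theorem torsCount_iff (hn : 0 < n) (N : ℕ) (hN : 0 < N) :
    TorsCount A n N ↔ Nat.card {x : ClassGroup A // x ^ n = 1} = N := by
  constructor
  · rintro ⟨I, h0, h1, h2, h3⟩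
    let I' : Fin N → (Ideal A)⁰ := fun r => ⟨I r, mem_nonZeroDivisors_iff_ne_zero.mpr (h0 r)⟩
    have hI' : ∀ r, ClassGroup.mk0 (I' r) ^ n = 1 := fun r => (mk0_pow_eq_one_iff _).mpr (h1 r)
    let f : Fin N → {x : ClassGroup A // x ^ n = 1} := fun r => ⟨ClassGroup.mk0 (I' r), hI' r⟩
    have hf : Function.Bijective f := by
      constructor
      · intro r s hrs
        by_contra hne
        apply h2 r s hne
        have : ClassGroup.mk0 (I' r) = ClassGroup.mk0 (I' s) := congrArg Subtype.val hrs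
        exact (mk0_mul_pow_eq_one_iff (I' r) (I' s) (n - 1)).mp
          ((mul_pow_pred_eq_one_iff hn (hI' s)).mpr this)
      · rintro ⟨x, hx⟩
        obtain ⟨J, rfl⟩ := ClassGroup.mk0_surjective x
        obtain ⟨r, hr⟩ := h3 J (nonZeroDivisors.coe_ne_zero J) ((mk0_pow_eq_one_iff _).mp hx)
        refine ⟨r, Subtype.ext ?_⟩
        have := (mk0_mul_pow_eq_one_iff J (I' r) (n - 1)).mpr hr
        exact ((mul_pow_pred_eq_one_iff hn (hI' r)).mp this).symm
    rw [← Nat.card_congr (Equiv.ofBijective f hf), Nat.card_fin]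
  · intro h
    haveI : Finite {x : ClassGroup A // x ^ n = 1} := Nat.finite_of_card_ne_zero (by omega)
    let e := (Finite.equivFinOfCardEq h).symm
    choose I' hI' using fun r : Fin N => ClassGroup.mk0_surjective (e r : ClassGroup A)
    refine ⟨fun r => (I' r : Ideal A), fun r => nonZeroDivisors.coe_ne_zero _, fun r => ?_,
      fun r s hrs hp => ?_, fun J hJ hJn => ?_⟩
    · rw [← mk0_pow_eq_one_iff, hI']
      exact (e r).2
    · have := (mk0_mul_pow_eq_one_iff (I' r) (I' s) (n - 1)).mpr hp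
      rw [mul_pow_pred_eq_one_iff hn (by rw [hI']; exact (e s).2), hI', hI'] at this
      exact hrs (e.injective (Subtype.ext this))
    · let J' : (Ideal A)⁰ := ⟨J, mem_nonZeroDivisors_iff_ne_zero.mpr hJ⟩
      have hJ' : ClassGroup.mk0 J' ^ n = 1 := (mk0_pow_eq_one_iff J').mpr hJn
      obtain ⟨r, hr⟩ := e.surjective ⟨ClassGroup.mk0 J', hJ'⟩
      refine ⟨r, ?_⟩
      have : ClassGroup.mk0 J' = ClassGroup.mk0 (I' r) := by rw [hI', hr]
      exact (mk0_mul_pow_eq_one_iff J' (I' r) (n - 1)).mp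
        ((mul_pow_pred_eq_one_iff hn (by rw [← this]; exact hJ')).mpr this)

end

end Fermat.Agent.S27
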