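import Mathlib

set_option autoImplicit false

namespace Fermat.Agent.S27

/-- The `ℓ^v`-torsion of a finite abelian group has `ℓ^v` elements, `v` the `ℓ`-adic
valuation of the order. -/
theorem card_primary {H : Type*} [AddCommGroup H] [Finite H] (ℓ : ℕ) [hℓ : Fact ℓ.Prime] :
    Nat.card {x : H // (ℓ ^ padicValNat ℓ (Nat.card H)) • x = 0} =
      ℓ ^ padicValNat ℓ (Nat.card H) := by
  set v := padicValNat ℓ (Nat.card H) with hv
  have hH : Nat.card H ≠ 0 := Nat.card_pos.ne'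
  obtain ⟨n, hn⟩ : ℓ ^ v ∣ Nat.card H := pow_padicValNat_dvd
  have hℓn : ¬ ℓ ∣ n := by
    rintro ⟨m, rfl⟩
    have h1 : ℓ ^ (v + 1) ∣ Nat.card H := ⟨m, by rw [hn]; ring⟩
    exact pow_succ_padicValNat_not_dvd hH h1
  let μ : H →+ H := nsmulAddMonoidHom (ℓ ^ v)
  have hμ : ∀ x, μ x = ℓ ^ v • x := fun x => rfl
  have hcard : Nat.card μ.range * Nat.card μ.ker = Nat.card H := by
    have h1 := AddSubgroup.card_eq_card_quotient_mul_card_addSubgroup μ.ker
    have h2 := Nat.card_congr (QuotientAddGroup.quotientKerEquivRange μ).toEquiv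
    rw [h1, h2]
  have hker : Nat.card {x : H // (ℓ ^ v) • x = 0} = Nat.card μ.ker :=
    Nat.card_congr (Equiv.subtypeEquivRight fun x => by rw [AddMonoidHom.mem_ker, hμ])
  rw [hker]
  -- the range has order prime to `ℓ`
  have hrange : ¬ ℓ ∣ Nat.card μ.range := by
    intro hd
    obtain ⟨y, hy⟩ := exists_prime_addOrderOf_dvd_card' ℓ hd
    obtain ⟨x, hx⟩ := y.2
    have h3 : n • (y : H) = 0 := by
      rw [← hx, hμ, ← mul_nsmul, ← hn]
      exact card_nsmul_eq_zero' 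
    have h4 : n • y = 0 := Subtype.ext (by simpa using h3)
    have h5 := addOrderOf_dvd_of_nsmul_eq_zero h4
    rw [hy] at h5
    exact hℓn h5
  have hkpos : Nat.card μ.ker ≠ 0 := Nat.card_pos.ne'
  have hpow : Nat.card μ.ker = ℓ ^ (Nat.card μ.ker).primeFactorsList.length := by
    apply Nat.eq_prime_pow_of_unique_prime_dvd hkpos
    intro p hp hd
    have : Fact p.Prime := ⟨hp⟩
    obtain ⟨y, hy⟩ := exists_prime_addOrderOf_dvd_card' p hd
    have h3 : ℓ ^ v • (y : H) = 0 := y.2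
    have h4 : ℓ ^ v • y = 0 := Subtype.ext h3
    have h5 := addOrderOf_dvd_of_nsmul_eq_zero h4
    rw [hy] at h5
    exact (Nat.prime_dvd_prime_iff_eq hp hℓ.out).1 (hp.dvd_of_dvd_pow h5)
  set a := (Nat.card μ.ker).primeFactorsList.length with ha
  have hcop : Nat.Coprime (ℓ ^ v) (Nat.card μ.range) :=
    Nat.Coprime.pow_left v ((Nat.Prime.coprime_iff_not_dvd hℓ.out).2 hrange)
  have h6 : ℓ ^ v ∣ Nat.card μ.ker := by
    apply hcop.dvd_of_dvd_mul_left
    rw [hcard]; exact pow_padicValNat_dvd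
  have h7 : ℓ ^ a ∣ Nat.card H := by rw [← hpow, ← hcard]; exact Dvd.intro_left _ rfl
  have h8 : a ≤ v := (padicValNat_dvd_iff_le hH).1 h7
  rw [hpow] at h6
  have h9 : v ≤ a := (Nat.pow_dvd_pow_iff_le_right hℓ.out.one_lt).1 h6
  rw [hpow, le_antisymm h8 h9]


section

variable {A : Type*} [AddCommGroup A] (f : Module.End ℤ A) (ℓ : ℕ)

/-- fixed points of `f ^ m` -/
def HH (m : ℕ) : Submodule ℤ A := LinearMap.ker (f ^ m - 1)

theorem mem_HH {m : ℕ} {x : A} : x ∈ HH f m ↔ (f ^ m) x = x := by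
  rw [HH, LinearMap.mem_ker, LinearMap.sub_apply, sub_eq_zero]; rfl

theorem HH_mul_right (m s : ℕ) : HH f m ≤ HH f (m * s) := by
  intro x hx
  rw [mem_HH] at hx ⊢
  rw [pow_mul]
  induction s with
  | zero => simp
  | succ s ih => rw [pow_succ, Module.End.mul_apply, hx, ih]

theorem HH_dvd {m m' : ℕ} (h : m ∣ m') : HH f m ≤ HH f m' := by
  obtain ⟨s, rfl⟩ := h; exact HH_mul_right f m s

/-- the `ℓ`-power torsion -/
def TT (A : Type*) [AddCommGroup A] (ℓ : ℕ) : Submodule ℤ A where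
  carrier := {x | ∃ j : ℕ, (ℓ ^ j) • x = 0}
  add_mem' := by
    rintro a b ⟨i, hi⟩ ⟨j, hj⟩
    have h1 : (ℓ ^ (i + j)) • a = ℓ ^ j • (ℓ ^ i • a) := by rw [← mul_smul, ← pow_add, add_comm]
    have h2 : (ℓ ^ (i + j)) • b = ℓ ^ i • (ℓ ^ j • b) := by rw [← mul_smul, ← pow_add]
    refine ⟨i + j, ?_⟩
    rw [smul_add, h1, h2, hi, hj, smul_zero, smul_zero, add_zero]
  zero_mem' := ⟨0, by simp⟩
  smul_mem' := by
    rintro c x ⟨j, hj⟩
    exact ⟨j, by rw [smul_comm, hj, smul_zero]⟩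

theorem mem_TT {x : A} : x ∈ TT A ℓ ↔ ∃ j : ℕ, (ℓ ^ j) • x = 0 := Iff.rfl

/-- the `ℓ`-primary part of the fixed points -/
def KK (m : ℕ) : Submodule ℤ A := HH f m ⊓ TT A ℓ


theorem card_KK (m : ℕ) [hℓ : Fact ℓ.Prime] [Finite (HH f m)] :
    Nat.card (KK f ℓ m) = ℓ ^ padicValNat ℓ (Nat.card (HH f m)) := by
  rw [← card_primary (H := HH f m) ℓ]
  set v := padicValNat ℓ (Nat.card (HH f m)) with hv
  apply Nat.card_congr
  refine
    { toFun := fun x => ⟨⟨x.1, x.2.1⟩, ?_⟩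
      invFun := fun x => ⟨x.1.1, ⟨x.1.2, ⟨v, ?_⟩⟩⟩
      left_inv := fun x => rfl
      right_inv := fun x => rfl }
  · obtain ⟨x, hx1, j, hj⟩ := x
    set y : HH f m := ⟨x, hx1⟩ with hy
    have h1 : ℓ ^ j • y = 0 := Subtype.ext (by simpa using hj)
    have h2 := addOrderOf_dvd_of_nsmul_eq_zero h1
    obtain ⟨i, hi, hi2⟩ := (Nat.dvd_prime_pow hℓ.out).1 h2
    have h3 : ℓ ^ i ∣ Nat.card (HH f m) := by rw [← hi2]; exact addOrderOf_dvd_natCard y
    have h4 : i ≤ v := (padicValNat_dvd_iff_le Nat.card_pos.ne').1 h3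
    obtain ⟨t, ht⟩ := pow_dvd_pow ℓ h4
    rw [ht, mul_comm, mul_smul, ← hi2, addOrderOf_nsmul_eq_zero, smul_zero]
  · have h1 : ((ℓ ^ v • x.1 : HH f m) : A) = ((0 : HH f m) : A) := by rw [x.2]
    exact h1

/-- the hypotheses on valuations of the numbers of fixed points -/
structure ValHyp (r : ℕ) : Prop where
  loc : ∀ x : A, ∃ m, 0 < m ∧ (f ^ m) x = x
  fin : ∀ m, 0 < m → Finite (HH f m)
  val : ∃ m₀ : ℕ, 0 < m₀ ∧ ∀ m, 0 < m → m₀ ∣ m →
      padicValNat ℓ (Nat.card (HH f (m * ℓ))) = padicValNat ℓ (Nat.card (HH f m)) + r ∧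
      ∀ s, 0 < s → ¬ ℓ ∣ s →
        padicValNat ℓ (Nat.card (HH f (m * s))) = padicValNat ℓ (Nat.card (HH f m))

variable {f ℓ}

theorem exists_linear_lt_two_pow (a b : ℕ) : ∃ k, a + b * k < 2 ^ k := by
  refine ⟨2 * (a + 2 * b), ?_⟩
  set t := a + 2 * b with ht
  have h1 : t + 1 ≤ 2 ^ t := Nat.lt_two_pow_self
  have h2 : (t + 1) * (t + 1) ≤ 2 ^ t * 2 ^ t := Nat.mul_le_mul h1 h1
  have h3 : 2 ^ (2 * t) = 2 ^ t * 2 ^ t := by rw [two_mul, pow_add]
  rw [h3]
  refine lt_of_lt_of_le ?_ h2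
  nlinarith [Nat.zero_le a, Nat.zero_le b, Nat.zero_le t]

theorem ValHyp.finite_torsion {r : ℕ} [hℓ : Fact ℓ.Prime] (h : ValHyp f ℓ r) :
    Finite {x : A // ℓ • x = 0} := by
  obtain ⟨m₀, hm₀, hval⟩ := h.val
  have hℓ1 : 1 < ℓ := hℓ.out.one_lt
  have hℓ0 : 0 < ℓ := hℓ.out.pos
  set c := padicValNat ℓ (Nat.card (HH f m₀)) with hc
  have hpos : ∀ k, 0 < m₀ * ℓ ^ k := fun k => Nat.mul_pos hm₀ (pow_pos hℓ0 k)
  have hvk : ∀ k, padicValNat ℓ (Nat.card (HH f (m₀ * ℓ ^ k))) = c + r * k := by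
    intro k
    induction k with
    | zero => simp [hc]
    | succ k ih =>
      have := (hval (m₀ * ℓ ^ k) (hpos k) (Dvd.intro _ rfl)).1
      rw [pow_succ, ← mul_assoc, this, ih]; ring
  have hKcard : ∀ k, Nat.card (KK f ℓ (m₀ * ℓ ^ k)) = ℓ ^ (c + r * k) := by
    intro k
    have := h.fin _ (hpos k)
    rw [card_KK, hvk]
  have hKfin : ∀ m, 0 < m → Finite (KK f ℓ m) := by
    intro m hm
    have := h.fin m hm
    exact Finite.of_injective (fun x : KK f ℓ m => (⟨x.1, x.2.1⟩ : HH f m))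
      (fun x y hxy => Subtype.ext (congrArg (fun z : HH f m => (z : A)) hxy))
  -- all `ℓ`-power torsion fixed by `m₀ ℓ^k s` is fixed by `m₀ ℓ^k`
  have hKs : ∀ k s, 0 < s → ¬ ℓ ∣ s → KK f ℓ (m₀ * ℓ ^ k * s) ≤ KK f ℓ (m₀ * ℓ ^ k) := by
    intro k s hs hd
    have hle : KK f ℓ (m₀ * ℓ ^ k) ≤ KK f ℓ (m₀ * ℓ ^ k * s) :=
      inf_le_inf_right _ (HH_mul_right f _ s)
    have hp2 : 0 < m₀ * ℓ ^ k * s := Nat.mul_pos (hpos k) hs
    have f1 := h.fin _ (hpos k)
    have f2 := h.fin _ hp2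
    have f3 := hKfin _ hp2
    have h1 := (hval (m₀ * ℓ ^ k) (hpos k) (Dvd.intro _ rfl)).2 s hs hd
    have h2 : Nat.card (KK f ℓ (m₀ * ℓ ^ k * s)) = Nat.card (KK f ℓ (m₀ * ℓ ^ k)) := by
      rw [card_KK, card_KK, h1]
    have h3 : ((KK f ℓ (m₀ * ℓ ^ k) : Submodule ℤ A) : Set A) = KK f ℓ (m₀ * ℓ ^ k * s) := by
      apply Set.eq_of_subset_of_ncard_le hle
      rw [← Nat.card_coe_set_eq, ← Nat.card_coe_set_eq]
      exact h2.le
    exact (SetLike.coe_injective h3).ge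
  have hmem : ∀ x : A, ℓ • x = 0 → ∃ k, x ∈ KK f ℓ (m₀ * ℓ ^ k) := by
    intro x hx
    obtain ⟨m, hm, hmx⟩ := h.loc x
    obtain ⟨k, s, hs, rfl⟩ := Nat.exists_eq_pow_mul_and_not_dvd hm.ne' ℓ hℓ1.ne'
    have hs0 : 0 < s := Nat.pos_of_ne_zero (by rintro rfl; exact hs (dvd_zero _))
    refine ⟨k, hKs k s hs0 hs ⟨?_, ⟨1, by simpa using hx⟩⟩⟩
    apply HH_dvd f (m := ℓ ^ k * s)
    · exact ⟨m₀, by ring⟩
    · exact (mem_HH f).2 hmx
  -- the nilpotent operator
  set ε : Module.End ℤ A := f ^ m₀ - 1 with hε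
  let V : ℕ → Submodule ℤ A := fun j => Submodule.torsionBy ℤ A (ℓ : ℤ) ⊓ LinearMap.ker (ε ^ j)
  have hVdef : ∀ j x, x ∈ V j ↔ (ℓ • x = 0 ∧ (ε ^ j) x = 0) := by
    intro j x
    simp [V]
  have hVmono : Monotone V := by
    apply monotone_nat_of_le_succ
    intro j x hx
    rw [hVdef] at hx ⊢
    exact ⟨hx.1, by rw [pow_succ', Module.End.mul_apply, hx.2, map_zero]⟩
  have hVeq : ∀ k x, ℓ • x = 0 → (x ∈ V (ℓ ^ k) ↔ x ∈ HH f (m₀ * ℓ ^ k)) := by
    intro k x hx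
    have hcomm : Commute (f ^ m₀ - 1) (1 : Module.End ℤ A) := Commute.one_right _
    obtain ⟨w, hw⟩ := hcomm.exists_add_pow_prime_pow_eq hℓ.out k
    rw [sub_add_cancel, one_pow, ← pow_mul, mul_one, mul_assoc] at hw
    rw [hVdef, mem_HH, hw]
    have h5 : ∀ w : Module.End ℤ A, ((ℓ : Module.End ℤ A) * w) x = 0 := by
      intro w
      have : (ℓ : Module.End ℤ A) * w = w * (ℓ : Module.End ℤ A) := (Nat.cast_commute ℓ w)
      rw [this, Module.End.mul_apply]
      have h6 : (ℓ : Module.End ℤ A) x = ℓ • x := by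
        rw [Module.End.natCast_apply]
      rw [h6, hx, map_zero]
    have h7 : ((f ^ m₀ - 1) ^ ℓ ^ k + 1 + (ℓ : Module.End ℤ A) * ((f ^ m₀ - 1) * w)) x =
        (ε ^ ℓ ^ k) x + x := by
      rw [LinearMap.add_apply, LinearMap.add_apply, h5, add_zero]; rfl
    rw [h7]
    constructor
    · rintro ⟨-, h8⟩; rw [h8, zero_add]
    · intro h8; exact ⟨hx, by simpa using h8⟩
  have hVfin : ∀ k, Finite (V (ℓ ^ k)) ∧ Nat.card (V (ℓ ^ k)) ≤ ℓ ^ (c + r * k) := by
    intro k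
    have f3 := hKfin _ (hpos k)
    have hle : V (ℓ ^ k) ≤ KK f ℓ (m₀ * ℓ ^ k) := by
      intro x hx
      have h9 := (hVdef _ _).1 hx
      exact ⟨(hVeq k x h9.1).1 hx, ⟨1, by simpa using h9.1⟩⟩
    have hinj : Function.Injective (Submodule.inclusion hle) := Submodule.inclusion_injective hle
    refine ⟨Finite.of_injective _ hinj, ?_⟩
    rw [← hKcard k]
    exact Nat.card_le_card_of_injective _ hinj
  obtain ⟨k, hk⟩ : ∃ k, ℓ ^ (c + r * k) < 2 ^ (ℓ ^ k) := by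
    obtain ⟨k, hk⟩ := exists_linear_lt_two_pow (ℓ * c) (ℓ * r)
    refine ⟨k, ?_⟩
    calc ℓ ^ (c + r * k) ≤ (2 ^ ℓ) ^ (c + r * k) := Nat.pow_le_pow_left (Nat.lt_two_pow_self).le _
      _ = 2 ^ (ℓ * c + ℓ * r * k) := by rw [← pow_mul]; congr 1; ring
      _ < 2 ^ (2 ^ k) := Nat.pow_lt_pow_right (by norm_num) hk
      _ ≤ 2 ^ (ℓ ^ k) := Nat.pow_le_pow_right (by norm_num) (Nat.pow_le_pow_left hℓ1 k)
  have hVfin' : ∀ j, j ≤ ℓ ^ k → Finite (V j) := by
    intro j hj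
    have := (hVfin k).1
    exact Finite.of_injective _ (Submodule.inclusion_injective (hVmono hj))
  -- stabilisation
  obtain ⟨j, hj, hjeq⟩ : ∃ j, j < ℓ ^ k ∧ V j = V (j + 1) := by
    by_contra hcon
    push Not at hcon
    have : ∀ j, j ≤ ℓ ^ k → 2 ^ j ≤ Nat.card (V j) := by
      intro j
      induction j with
      | zero =>
        intro hj
        rw [pow_zero]
        have := hVfin' 0 hj
        exact Nat.card_pos
      | succ j ih =>
        intro hj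
        have h1 := ih (by omega)
        have hne := hcon j (by omega)
        have hlt : V j < V (j + 1) := lt_of_le_of_ne (hVmono (Nat.le_succ j)) hne
        have hfinS : Finite (V (j + 1)) := hVfin' _ hj
        have hdvd : Nat.card (V j) ∣ Nat.card (V (j + 1)) :=
          AddSubgroup.card_dvd_of_le (H := (V j).toAddSubgroup) (K := (V (j + 1)).toAddSubgroup)
            hlt.le
        obtain ⟨t, ht⟩ := hdvd
        have hpos1 : 0 < Nat.card (V (j + 1)) := Nat.card_pos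
        have ht2 : 2 ≤ t := by
          by_contra ht3
          have : t = 0 ∨ t = 1 := by omega
          rcases this with rfl | rfl
          · omega
          · apply hne
            apply SetLike.coe_injective
            apply Set.eq_of_subset_of_ncard_le hlt.le
            rw [← Nat.card_coe_set_eq, ← Nat.card_coe_set_eq]
            exact (by simpa using ht : Nat.card (V (j + 1)) = Nat.card (V j)).le
        rw [ht, pow_succ]
        exact Nat.mul_le_mul h1 ht2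
    have h2 := this _ le_rfl
    have h3 := (hVfin k).2
    omega
  have hstab : ∀ i, V (j + i) = V j := by
    intro i
    induction i with
    | zero => rfl
    | succ i ih =>
      apply le_antisymm
      · intro x hx
        rw [hVdef] at hx
        have h1 : ε x ∈ V (j + i) := by
          rw [hVdef]
          refine ⟨by rw [← map_nsmul, hx.1, map_zero], ?_⟩
          rw [← Module.End.mul_apply, ← pow_succ]; exact hx.2
        rw [ih, hVdef] at h1
        have h2 : x ∈ V (j + 1) := by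
          rw [hVdef]; refine ⟨hx.1, ?_⟩
          rw [pow_succ, Module.End.mul_apply]; exact h1.2
        rw [hjeq]; exact h2
      · exact hVmono (by omega)
  have hall : ∀ x : A, ℓ • x = 0 → x ∈ V (ℓ ^ k) := by
    intro x hx
    obtain ⟨k', hk'⟩ := hmem x hx
    have h1 : x ∈ V (ℓ ^ k') := (hVeq k' x hx).2 hk'.1
    rcases le_or_gt (ℓ ^ k') j with h2 | h2
    · exact hVmono (h2.trans hj.le) h1
    · obtain ⟨i, hi⟩ := Nat.exists_eq_add_of_lt h2
      rw [hi, add_assoc, hstab] at h1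
      exact hVmono hj.le h1
  have := (hVfin k).1
  exact Finite.of_injective (fun x : {x : A // ℓ • x = 0} => (⟨x.1, hall x.1 x.2⟩ : V (ℓ ^ k)))
    (fun x y hxy => Subtype.ext (congrArg (fun z : V (ℓ ^ k) => (z : A)) hxy))

end

end Fermat.Agent.S27
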