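import Mathlib
import Fermat.Agent.S27.Grp

set_option autoImplicit false

namespace Fermat.Agent.S27

variable {A : Type*} [AddCommGroup A] {f : Module.End ℤ A} {ℓ : ℕ}

/-- torsion of a divisible group -/
theorem card_torsion_pow (hdiv : ∀ x : A, ∃ y : A, ℓ • y = x) [Finite {x : A // ℓ • x = 0}]
    (j : ℕ) : Finite {x : A // (ℓ ^ j) • x = 0} ∧
      Nat.card {x : A // (ℓ ^ j) • x = 0} = Nat.card {x : A // ℓ • x = 0} ^ j := by
  induction j with
  | zero =>
    have : ∀ x : A, (ℓ ^ 0) • x = 0 ↔ x = 0 := by intro x; simp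
    have e : {x : A // (ℓ ^ 0) • x = 0} ≃ Unit :=
      { toFun := fun _ => ()
        invFun := fun _ => ⟨0, by simp⟩
        left_inv := fun x => Subtype.ext ((this x.1).1 x.2).symm
        right_inv := fun _ => rfl }
    exact ⟨Finite.of_equiv _ e.symm, by rw [Nat.card_congr e]; simp⟩
  | succ j ih =>
    obtain ⟨hf, hc⟩ := ih
    choose g hg using hdiv
    have e : {x : A // (ℓ ^ (j + 1)) • x = 0} ≃
        {x : A // (ℓ ^ j) • x = 0} × {x : A // ℓ • x = 0} :=
      { toFun := fun x => (⟨ℓ • x.1, by rw [← mul_smul, ← pow_succ]; exact x.2⟩,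
          ⟨x.1 - g (ℓ • x.1), by rw [smul_sub, hg, sub_self]⟩)
        invFun := fun y => ⟨y.2.1 + g y.1.1, by
          rw [smul_add, pow_succ, mul_smul, mul_smul, y.2.2, hg, smul_zero, zero_add]
          exact y.1.2⟩
        left_inv := fun x => Subtype.ext (by simp)
        right_inv := fun y => by
          have h1 : ℓ • (y.2.1 + g y.1.1) = y.1.1 := by rw [smul_add, y.2.2, hg, zero_add]
          refine Prod.ext (Subtype.ext ?_) (Subtype.ext ?_)
          · exact h1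
          · simp only [h1]; abel }
    refine ⟨Finite.of_equiv _ e.symm, ?_⟩
    rw [Nat.card_congr e, Nat.card_prod, hc, pow_succ]

/-- a common period for a finite set -/
theorem exists_period (loc : ∀ x : A, ∃ m, 0 < m ∧ (f ^ m) x = x) (s : Set A) (hs : s.Finite)
    (m₀ : ℕ) (hm₀ : 0 < m₀) : ∃ m, 0 < m ∧ m₀ ∣ m ∧ ∀ x ∈ s, (f ^ m) x = x := by
  induction s, hs using Set.Finite.induction_on with
  | empty => exact ⟨m₀, hm₀, dvd_rfl, by simp⟩
  | insert _ _ ih =>
    rename_i a s _ _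
    obtain ⟨m, hm, hd, h⟩ := ih
    obtain ⟨m', hm', h'⟩ := loc a
    refine ⟨m * m', Nat.mul_pos hm hm', hd.trans (Dvd.intro _ rfl), ?_⟩
    intro x hx
    rcases Set.mem_insert_iff.1 hx with rfl | hx
    · exact (mem_HH f).1 (HH_dvd f (Dvd.intro_left _ rfl) ((mem_HH f).2 h'))
    · exact (mem_HH f).1 (HH_dvd f (Dvd.intro _ rfl) ((mem_HH f).2 (h x hx)))

theorem poly_identity (ℓ : ℕ) : ∃ w : Polynomial ℤ,
    (1 + (ℓ : Polynomial ℤ) ^ 2 * Polynomial.X) ^ ℓ =
      1 + (ℓ : Polynomial ℤ) ^ 3 * Polynomial.X *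
        (1 + (ℓ : Polynomial ℤ) * (Polynomial.X * w)) := by
  obtain ⟨k, hk⟩ := Polynomial.powAddExpansion (1 : Polynomial ℤ)
    ((ℓ : Polynomial ℤ) ^ 2 * Polynomial.X) ℓ
  refine ⟨k, ?_⟩
  rw [hk]
  ring

theorem ValHyp.card_torsion {r : ℕ} [hℓ : Fact ℓ.Prime] (h : ValHyp f ℓ r)
    (hdiv : ∀ x : A, ∃ y : A, ℓ • y = x) : Nat.card {x : A // ℓ • x = 0} = ℓ ^ r := by
  have hfin1 := h.finite_torsion
  have hℓ0 : 0 < ℓ := hℓ.out.pos
  obtain ⟨hfin2, -⟩ := card_torsion_pow hdiv 2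
  obtain ⟨m₀, hm₀, hval⟩ := h.val
  obtain ⟨m, hm, hd, hper⟩ := exists_period h.loc {x : A | (ℓ ^ 2) • x = 0} hfin2 m₀ hm₀
  have hdiv2 : Function.Surjective (fun y : A => (ℓ ^ 2) • y) := by
    intro x
    obtain ⟨y, hy⟩ := hdiv x
    obtain ⟨z, hz⟩ := hdiv y
    exact ⟨z, by simp only [pow_two, mul_smul, hz, hy]⟩
  set ψ : Module.End ℤ A := f ^ m with hψ
  have hkill : ∀ x : A, (ℓ ^ 2) • x = 0 → (ψ - 1) x = 0 := by
    intro x hx
    rw [LinearMap.sub_apply, hper x hx]; exact sub_self x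
  -- the operator `ε`
  obtain ⟨g, hg⟩ := hdiv2.hasRightInverse
  have hg' : ∀ x, (ℓ ^ 2) • g x = x := hg
  let ε : Module.End ℤ A :=
    { toFun := fun x => (ψ - 1) (g x)
      map_add' := fun x y => by
        rw [← map_add, ← sub_eq_zero, ← map_sub]
        apply hkill
        rw [smul_sub, smul_add, hg', hg', hg', sub_self]
      map_smul' := fun c x => by
        rw [RingHom.id_apply, ← map_smul, ← sub_eq_zero, ← map_sub]
        apply hkill
        rw [smul_sub, smul_comm, hg', hg', sub_self] }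
  have hε : ψ = 1 + (ℓ : Module.End ℤ A) ^ 2 * ε := by
    ext x
    rw [LinearMap.add_apply, Module.End.mul_apply, ← Nat.cast_pow, Module.End.natCast_apply]
    have h1 : (ℓ ^ 2) • ε x = (ψ - 1) x := by
      show (ℓ ^ 2) • (ψ - 1) (g x) = (ψ - 1) x
      rw [← map_nsmul, hg']
    rw [h1, LinearMap.sub_apply]; simp
  obtain ⟨w, hw⟩ := poly_identity ℓ
  set ζ : Module.End ℤ A := Polynomial.aeval ε (Polynomial.X * w) with hζ
  have hcomm : Commute ε ζ := by
    have h1 : Commute (Polynomial.aeval ε (Polynomial.X : Polynomial ℤ)) ζ := by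
      rw [hζ]; exact (Commute.all _ _).map (Polynomial.aeval ε)
    rwa [Polynomial.aeval_X] at h1
  have hψℓ : ψ ^ ℓ = 1 + (ℓ : Module.End ℤ A) ^ 3 * ε * (1 + (ℓ : Module.End ℤ A) * ζ) := by
    have := congrArg (Polynomial.aeval ε) hw
    simp only [map_add, map_mul, map_pow, map_one, map_natCast, Polynomial.aeval_X] at this
    rw [hε, this, hζ, map_mul, Polynomial.aeval_X]
  have hψℓ' : ∀ x, (ψ ^ ℓ) x - x =
      ℓ • ((ψ - 1) ((1 + (ℓ : Module.End ℤ A) * ζ : Module.End ℤ A) x)) := by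
    intro x
    have h1 : ψ - 1 = (ℓ : Module.End ℤ A) ^ 2 * ε := by rw [hε]; abel
    have h2 : (ψ ^ ℓ) x = x + ((ℓ : Module.End ℤ A) * ((ℓ : Module.End ℤ A) ^ 2 * ε) *
        (1 + (ℓ : Module.End ℤ A) * ζ) : Module.End ℤ A) x := by
      rw [hψℓ, LinearMap.add_apply, pow_succ' _ 2, mul_assoc (ℓ : Module.End ℤ A)]; rfl
    rw [h2, h1, Module.End.mul_apply, Module.End.mul_apply, Module.End.natCast_apply]
    abel
  -- `u = 1 + ℓ ζ` is bijective on the `ℓ`-power torsion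
  set u : Module.End ℤ A := 1 + (ℓ : Module.End ℤ A) * ζ with hu
  have hux : ∀ x, u x = x + ℓ • ζ x := by
    intro x
    rw [hu, LinearMap.add_apply, Module.End.mul_apply, Module.End.natCast_apply]; rfl
  have hpow : ∀ j x, (((ℓ : Module.End ℤ A) * ζ) ^ j) x = (ζ ^ j) (ℓ ^ j • x) := by
    intro j x
    have hc : Commute (ℓ : Module.End ℤ A) ζ := Nat.cast_commute ℓ ζ
    rw [hc.mul_pow, (hc.pow_pow j j).eq, Module.End.mul_apply, ← Nat.cast_pow,
      Module.End.natCast_apply]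
  have huinj : ∀ x ∈ TT A ℓ, u x = 0 → x = 0 := by
    rintro x ⟨j, hj⟩ hx
    have h1 : x = -((ℓ : Module.End ℤ A) * ζ) x := by
      rw [hux] at hx
      rw [Module.End.mul_apply, Module.End.natCast_apply]
      exact eq_neg_of_add_eq_zero_left hx
    have h2 : ∀ i, x = ((-((ℓ : Module.End ℤ A) * ζ)) ^ i) x := by
      intro i
      induction i with
      | zero => rfl
      | succ i ih =>
        rw [pow_succ, Module.End.mul_apply, LinearMap.neg_apply, ← h1]
        exact ih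
    rw [h2 j, neg_pow, Module.End.mul_apply, hpow, hj, map_zero, map_zero]
  have husurj : ∀ y ∈ TT A ℓ, ∃ x ∈ TT A ℓ, u x = y := by
    rintro y ⟨j, hj⟩
    refine ⟨(∑ i ∈ Finset.range j, (-((ℓ : Module.End ℤ A) * ζ)) ^ i) y, ⟨j, ?_⟩, ?_⟩
    · rw [← map_nsmul, hj, map_zero]
    · have h1 : u * ∑ i ∈ Finset.range j, (-((ℓ : Module.End ℤ A) * ζ)) ^ i =
          1 - (-((ℓ : Module.End ℤ A) * ζ)) ^ j := by
        rw [← mul_neg_geom_sum, sub_neg_eq_add, hu]
      rw [← Module.End.mul_apply, h1, LinearMap.sub_apply, neg_pow, Module.End.mul_apply, hpow, hj,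
        map_zero, map_zero, sub_zero]; rfl
  have huT : ∀ x ∈ TT A ℓ, u x ∈ TT A ℓ := by
    rintro x ⟨j, hj⟩
    exact ⟨j, by rw [← map_nsmul, hj, map_zero]⟩
  -- the set `E`
  let E : Type _ := {x : A // x ∈ TT A ℓ ∧ ℓ • ((ψ - 1) x) = 0}
  have hfinm := h.fin m hm
  have hfinmℓ := h.fin (m * ℓ) (Nat.mul_pos hm hℓ0)
  have hc1 : Nat.card (KK f ℓ (m * ℓ)) = Nat.card E := by
    apply Nat.card_congr
    have hmem : ∀ x : A, x ∈ KK f ℓ (m * ℓ) ↔ (x ∈ TT A ℓ ∧ ℓ • ((ψ - 1) (u x)) = 0) := by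
      intro x
      rw [KK, Submodule.mem_inf, mem_HH, pow_mul, and_comm]
      apply and_congr_right
      intro _
      rw [← hψℓ', sub_eq_zero]
    refine Equiv.ofBijective (fun x => (⟨u x.1, huT _ ((hmem _).1 x.2).1,
      ((hmem _).1 x.2).2⟩ : E)) ⟨?_, ?_⟩
    · rintro ⟨x, hx⟩ ⟨y, hy⟩ hxy
      have h1 : u x = u y := congrArg Subtype.val hxy
      have h2 : x - y = 0 := huinj _ (Submodule.sub_mem _ ((hmem _).1 hx).1 ((hmem _).1 hy).1)
        (by rw [map_sub, h1, sub_self])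
      exact Subtype.ext (sub_eq_zero.1 h2)
    · rintro ⟨y, hy, hy2⟩
      obtain ⟨x, hx, hx2⟩ := husurj y hy
      exact ⟨⟨x, (hmem x).2 ⟨hx, by rw [hx2]; exact hy2⟩⟩, Subtype.ext hx2⟩
  have hc2 : Nat.card E = Nat.card (KK f ℓ m) * Nat.card {x : A // ℓ • x = 0} := by
    rw [← Nat.card_prod]
    choose d hdd using hdiv
    apply Nat.card_congr
    have hdT : ∀ x, x ∈ TT A ℓ → d x ∈ TT A ℓ := by
      rintro x ⟨j, hj⟩
      exact ⟨j + 1, by rw [pow_succ, mul_smul, hdd, hj]⟩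
    have h1T : ∀ x : A, ℓ • x = 0 → x ∈ TT A ℓ := fun x hx => ⟨1, by simpa using hx⟩
    have hmem : ∀ x : A, x ∈ KK f ℓ m ↔ (x ∈ TT A ℓ ∧ (ψ - 1) x = 0) := by
      intro x
      rw [KK, Submodule.mem_inf, mem_HH, and_comm]
      apply and_congr_right
      intro _
      rw [LinearMap.sub_apply, sub_eq_zero]; rfl
    exact
      { toFun := fun x => (⟨ℓ • x.1, (hmem _).2 ⟨Submodule.smul_of_tower_mem _ _ x.2.1,
            by rw [map_nsmul]; exact x.2.2⟩⟩,
          ⟨x.1 - d (ℓ • x.1), by rw [smul_sub, hdd, sub_self]⟩)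
        invFun := fun y => ⟨y.2.1 + d y.1.1, Submodule.add_mem _ (h1T _ y.2.2)
            (hdT _ ((hmem _).1 y.1.2).1), by
          rw [← map_nsmul, smul_add, y.2.2, hdd, zero_add]
          exact ((hmem _).1 y.1.2).2⟩
        left_inv := fun x => Subtype.ext (by simp)
        right_inv := fun y => by
          have h1 : ℓ • (y.2.1 + d y.1.1) = y.1.1 := by rw [smul_add, y.2.2, hdd, zero_add]
          refine Prod.ext (Subtype.ext ?_) (Subtype.ext ?_)
          · exact h1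
          · simp only [h1]; abel }
  have hv := (hval m hm hd).1
  rw [card_KK, hv, pow_add] at hc1
  rw [card_KK, ← hc1] at hc2
  exact (Nat.eq_of_mul_eq_mul_left (pow_pos hℓ0 _) hc2).symm

end Fermat.Agent.S27
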