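import Mathlib
import Fermat.Agent.S27.Grp2

set_option autoImplicit false

namespace Fermat.Agent.S27

variable {A : Type*} [AddCommGroup A] {f : Module.End ℤ A} {ℓ : ℕ}

/-- multiples of `ℓ` -/
def mulRange (A : Type*) [AddCommGroup A] (ℓ : ℕ) : AddSubgroup A := (nsmulAddMonoidHom (α := A) ℓ).range

theorem mem_mulRange {x : A} : x ∈ mulRange A ℓ ↔ ∃ y, ℓ • y = x := Iff.rfl

/-- for a finite group, `|H / ℓ H| = |H[ℓ]|` -/
theorem card_quot_mulRange (H : Type*) [AddCommGroup H] [Finite H] (ℓ : ℕ) :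
    Nat.card (H ⧸ mulRange H ℓ) = Nat.card {x : H // ℓ • x = 0} := by
  let μ : H →+ H := nsmulAddMonoidHom ℓ
  have h1 := AddSubgroup.card_eq_card_quotient_mul_card_addSubgroup μ.ker
  have h2 := Nat.card_congr (QuotientAddGroup.quotientKerEquivRange μ).toEquiv
  have h3 := AddSubgroup.card_eq_card_quotient_mul_card_addSubgroup (mulRange H ℓ)
  have h4 : Nat.card μ.ker = Nat.card {x : H // ℓ • x = 0} :=
    Nat.card_congr (Equiv.subtypeEquivRight fun x => by rw [AddMonoidHom.mem_ker]; rfl)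
  rw [h2, h3, h4, mul_comm] at h1
  exact Nat.eq_of_mul_eq_mul_left (Nat.card_pos (α := mulRange H ℓ)) h1

theorem finite_quot_mulRange (loc : ∀ x : A, ∃ m, 0 < m ∧ (f ^ m) x = x)
    (hfin : ∀ m, 0 < m → Finite (HH f m)) (htors : Finite {x : A // ℓ • x = 0}) :
    Finite (A ⧸ mulRange A ℓ) := by
  by_contra hinf
  rw [not_finite_iff_infinite] at hinf
  obtain ⟨s, hs⟩ := Infinite.exists_subset_card_eq (A ⧸ mulRange A ℓ)
    (Nat.card {x : A // ℓ • x = 0} + 1)
  obtain ⟨g, hg⟩ := (QuotientAddGroup.mk_surjective (s := mulRange A ℓ)).hasRightInverse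
  obtain ⟨m, hm, -, hper⟩ := exists_period loc (g '' (s : Set (A ⧸ mulRange A ℓ)))
    (s.finite_toSet.image g) 1 one_pos
  have hf := hfin m hm
  -- the classes in `s` come from `HH f m`
  let π : (HH f m ⧸ mulRange (HH f m) ℓ) → A ⧸ mulRange A ℓ :=
    QuotientAddGroup.map _ _ ((HH f m).subtype.toAddMonoidHom) (by
      rintro x ⟨y, hy⟩
      refine ⟨(y : A), ?_⟩
      rw [← hy]
      rfl)
  have hsub : (s : Set (A ⧸ mulRange A ℓ)) ⊆ Set.range π := by
    intro x hx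
    have h1 : g x ∈ HH f m := (mem_HH f).2 (hper _ ⟨x, hx, rfl⟩)
    refine ⟨QuotientAddGroup.mk (⟨g x, h1⟩ : HH f m), ?_⟩
    show (QuotientAddGroup.mk (g x) : A ⧸ mulRange A ℓ) = x
    exact hg x
  have h2 : s.card ≤ Nat.card (HH f m ⧸ mulRange (HH f m) ℓ) := by
    rw [← Set.ncard_coe_finset]
    refine (Set.ncard_le_ncard hsub (Set.finite_range π)).trans ?_
    rw [← Nat.card_coe_set_eq]
    exact Finite.card_range_le π
  rw [card_quot_mulRange, hs] at h2
  have h3 : Nat.card {x : HH f m // ℓ • x = 0} ≤ Nat.card {x : A // ℓ • x = 0} := by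
    apply Nat.card_le_card_of_injective
      (fun x : {x : HH f m // ℓ • x = 0} => (⟨x.1.1, congrArg Subtype.val x.2⟩ : {x : A // ℓ • x = 0}))
    intro x y hxy
    have : x.1.1 = y.1.1 := congrArg (fun z : {x : A // ℓ • x = 0} => z.1) hxy
    exact Subtype.ext (Subtype.ext this)
  omega

/-- if `A` is not `ℓ`-divisible there is an `f^m`-invariant character of order `ℓ` which is
nontrivial on the fixed points of `f^m`. -/
theorem exists_char (loc : ∀ x : A, ∃ m, 0 < m ∧ (f ^ m) x = x)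
    (hfin : ∀ m, 0 < m → Finite (HH f m)) (htors : Finite {x : A // ℓ • x = 0})
    (hnd : ∃ x : A, ∀ y : A, ℓ • y ≠ x) :
    ∃ m, 0 < m ∧ ∃ χ : AddChar A ℂ, (∀ x, χ ((f ^ m) x) = χ x) ∧ (∀ x, χ x ^ ℓ = 1) ∧
      ∃ x, (f ^ m) x = x ∧ χ x ≠ 1 := by
  have hQ := finite_quot_mulRange loc hfin htors
  obtain ⟨x₀, hx₀⟩ := hnd
  obtain ⟨g, hg⟩ := (QuotientAddGroup.mk_surjective (s := mulRange A ℓ)).hasRightInverse
  obtain ⟨m, hm, -, hper⟩ := exists_period loc (Set.range g) (Set.finite_range g) 1 one_pos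
  have hne : (QuotientAddGroup.mk x₀ : A ⧸ mulRange A ℓ) ≠ 0 := by
    intro h
    rw [QuotientAddGroup.eq_zero_iff] at h
    obtain ⟨y, hy⟩ := h
    exact hx₀ y hy
  obtain ⟨ψ, hψ⟩ := AddChar.exists_apply_ne_zero.2 hne
  refine ⟨m, hm, ψ.compAddMonoidHom (QuotientAddGroup.mk' (mulRange A ℓ)), ?_, ?_, ?_⟩
  · intro x
    rw [AddChar.compAddMonoidHom_apply, AddChar.compAddMonoidHom_apply]
    congr 1
    rw [QuotientAddGroup.mk'_apply, QuotientAddGroup.mk'_apply]
    -- x = g (mk x) + ℓ y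
    have h1 : (QuotientAddGroup.mk (g (QuotientAddGroup.mk x)) : A ⧸ mulRange A ℓ) =
      QuotientAddGroup.mk x := hg _
    rw [QuotientAddGroup.eq] at h1 ⊢
    obtain ⟨y, hy⟩ := h1
    have hy' : x = g (QuotientAddGroup.mk x) + ℓ • y := by
      have : ℓ • y = -g (QuotientAddGroup.mk x) + x := hy
      rw [this]; abel
    have h2 : (f ^ m) x = g (QuotientAddGroup.mk x) + ℓ • (f ^ m) y := by
      conv_lhs => rw [hy']
      rw [map_add, hper _ ⟨_, rfl⟩, map_nsmul]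
    refine ⟨y - (f ^ m) y, ?_⟩
    show ℓ • (y - (f ^ m) y) = -(f ^ m) x + x
    rw [h2]
    conv_rhs => rw [hy']
    rw [smul_sub]
    have h3 : (QuotientAddGroup.mk (g (QuotientAddGroup.mk x) + ℓ • y) : A ⧸ mulRange A ℓ) =
      QuotientAddGroup.mk x := by rw [← hy']
    rw [h3]
    abel
  · intro x
    rw [AddChar.compAddMonoidHom_apply, ← AddChar.map_nsmul_eq_pow, ← map_nsmul]
    have : (QuotientAddGroup.mk' (mulRange A ℓ)) (ℓ • x) = 0 := by
      rw [QuotientAddGroup.mk'_apply, QuotientAddGroup.eq_zero_iff]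
      exact ⟨x, rfl⟩
    rw [this, AddChar.map_zero_eq_one]
  · refine ⟨g (QuotientAddGroup.mk x₀), hper _ ⟨_, rfl⟩, ?_⟩
    rw [AddChar.compAddMonoidHom_apply, QuotientAddGroup.mk'_apply, hg]
    exact hψ

end Fermat.Agent.S27
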