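import Mathlib

set_option autoImplicit false

namespace Fermat.Agent.S27

open PowerSeries

/-- `α / (1 - α T)` -/
noncomputable def geo (α : ℂ) : PowerSeries ℂ := PowerSeries.mk fun k => α ^ (k + 1)

/-- `∏ (1 - α T)` -/
noncomputable def rp (s : Multiset ℂ) : Polynomial ℂ :=
  (s.map fun α => (1 - Polynomial.C α * Polynomial.X)).prod

@[simp] theorem rp_zero : rp 0 = 1 := by simp [rp]

theorem rp_cons (α : ℂ) (s : Multiset ℂ) :
    rp (α ::ₘ s) = (1 - Polynomial.C α * Polynomial.X) * rp s := by simp [rp]

theorem one_sub_mul_geo (α : ℂ) :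
    ((1 - Polynomial.C α * Polynomial.X : Polynomial ℂ) : PowerSeries ℂ) * geo α
      = PowerSeries.C α := by
  ext n
  rw [Polynomial.coe_sub, Polynomial.coe_mul, Polynomial.coe_one, Polynomial.coe_C,
    Polynomial.coe_X, sub_mul, one_mul, mul_assoc, map_sub, PowerSeries.coeff_C_mul]
  cases n with
  | zero => simp [geo]
  | succ n =>
    rw [PowerSeries.coeff_succ_X_mul]
    simp [geo, PowerSeries.coeff_C]
    ring

theorem deriv_rp (s : Multiset ℂ) :
    PowerSeries.derivative ℂ (rp s : PowerSeries ℂ) = -(s.map geo).sum * (rp s : PowerSeries ℂ) := by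
  induction s using Multiset.induction_on with
  | empty => simp
  | cons α s ih =>
    rw [rp_cons, Polynomial.coe_mul, Derivation.leibniz, ih, Multiset.map_cons, Multiset.sum_cons]
    have h1 : PowerSeries.derivative ℂ
        ((1 - Polynomial.C α * Polynomial.X : Polynomial ℂ) : PowerSeries ℂ)
        = - PowerSeries.C α := by
      rw [PowerSeries.derivative_coe]
      simp
    rw [h1, ← one_sub_mul_geo α]
    simp only [smul_eq_mul]
    ring

theorem ode_unique (f h u : PowerSeries ℂ) (hf : PowerSeries.derivative ℂ f = u * f)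
    (hh : PowerSeries.derivative ℂ h = u * h)
    (h0 : PowerSeries.coeff 0 f = PowerSeries.coeff 0 h) : f = h := by
  ext n
  induction n using Nat.strong_induction_on with
  | _ n ih =>
    cases n with
    | zero => exact h0
    | succ n =>
      have e1 := congrArg (PowerSeries.coeff n) hf
      have e2 := congrArg (PowerSeries.coeff n) hh
      rw [PowerSeries.coeff_derivative, PowerSeries.coeff_mul] at e1 e2
      have e3 : (PowerSeries.coeff (n + 1)) f * ((n : ℂ) + 1)
          = (PowerSeries.coeff (n + 1)) h * ((n : ℂ) + 1) := by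
        rw [e1, e2]
        apply Finset.sum_congr rfl
        rintro ⟨i, j⟩ hij
        have : i + j = n := by simpa using hij
        rw [ih j (by omega)]
      have hn : ((n : ℂ) + 1) ≠ 0 := by exact_mod_cast Nat.succ_ne_zero n
      exact mul_right_cancel₀ hn e3


theorem rp_coeff_zero (s : Multiset ℂ) : (rp s).coeff 0 = 1 := by
  induction s using Multiset.induction_on with
  | empty => rw [rp_zero, Polynomial.coeff_one_zero]
  | cons α s ih =>
    rw [rp_cons, Polynomial.mul_coeff_zero, ih, Polynomial.coeff_sub, Polynomial.mul_coeff_zero,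
      Polynomial.coeff_X_zero, Polynomial.coeff_one_zero]
    ring

theorem rp_eval (s : Multiset ℂ) (x : ℂ) : (rp s).eval x = (s.map fun α => 1 - α * x).prod := by
  induction s using Multiset.induction_on with
  | empty => simp
  | cons α s ih => rw [rp_cons, Polynomial.eval_mul, ih]; simp

theorem reverse_X_sub_C (α : ℂ) :
    (Polynomial.X - Polynomial.C α : Polynomial ℂ).reverse = 1 - Polynomial.C α * Polynomial.X := by
  have hnd : (Polynomial.X - Polynomial.C α : Polynomial ℂ).natDegree = 1 :=
    Polynomial.natDegree_X_sub_C α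
  ext n
  rw [Polynomial.coeff_reverse, hnd]
  rcases n with _ | _ | n
  · have : Polynomial.revAt 1 0 = 1 := by decide
    rw [this]; simp [Polynomial.coeff_C]
  · have : Polynomial.revAt 1 (0 + 1) = 0 := by decide
    rw [this]; simp [Polynomial.coeff_one]
  · have : Polynomial.revAt 1 (n + 1 + 1) = n + 1 + 1 :=
      Polynomial.revAt_eq_self_of_lt (by omega)
    rw [this]; simp [Polynomial.coeff_X, Polynomial.coeff_C, Polynomial.coeff_one]

theorem reverse_prod (s : Multiset ℂ) :
    ((s.map fun α => Polynomial.X - Polynomial.C α).prod : Polynomial ℂ).reverse = rp s := by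
  induction s using Multiset.induction_on with
  | empty =>
    rw [Multiset.map_zero, Multiset.prod_zero, rp_zero, ← Polynomial.C_1, Polynomial.reverse_C]
  | cons α s ih =>
    rw [Multiset.map_cons, Multiset.prod_cons, Polynomial.reverse_mul_of_domain, ih,
      reverse_X_sub_C, rp_cons]

theorem reverse_reverse (P : Polynomial ℂ) (h : P.coeff 0 ≠ 0) : P.reverse.reverse = P := by
  have hd : P.reverse.natDegree = P.natDegree := by
    rw [Polynomial.reverse_natDegree, Polynomial.natTrailingDegree_eq_zero.2 (Or.inr h)]; rfl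
  ext n
  rw [Polynomial.coeff_reverse, Polynomial.coeff_reverse, hd, Polynomial.revAt_invol]

theorem exists_rp (P : Polynomial ℂ) (h : P.coeff 0 = 1) :
    ∃ s : Multiset ℂ, P = rp s ∧ P.reverse = (s.map fun α => Polynomial.X - Polynomial.C α).prod
      ∧ Multiset.card s = P.natDegree := by
  have hP0 : P.coeff 0 ≠ 0 := by rw [h]; exact one_ne_zero
  have hrr := reverse_reverse P hP0
  have htr : P.natTrailingDegree = 0 := Polynomial.natTrailingDegree_eq_zero.2 (Or.inr hP0)
  have hmon : P.reverse.Monic := by
    rw [Polynomial.Monic, Polynomial.reverse_leadingCoeff, Polynomial.trailingCoeff, htr, h]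
  have hprod : P.reverse = (P.reverse.roots.map fun α => Polynomial.X - Polynomial.C α).prod :=
    ((IsAlgClosed.splits P.reverse).eq_prod_roots_of_monic hmon)
  refine ⟨P.reverse.roots, ?_, hprod, ?_⟩
  · conv_lhs => rw [← hrr, hprod]
    rw [reverse_prod]
  · rw [← (IsAlgClosed.splits P.reverse).natDegree_eq_card_roots, Polynomial.reverse_natDegree, htr]
    rfl

theorem rp_add (s t : Multiset ℂ) : rp (s + t) = rp s * rp t := by simp [rp]

end Fermat.Agent.S27
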