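import Mathlib
import Fermat.Agent.S27.Basic
import Fermat.Agent.S27.Series

set_option autoImplicit false

namespace Fermat.Agent.S27

open Finset

namespace ZetaPackage

variable {G : Type*} [CommGroup G] {φ : MulAut G} {q g : ℕ} (Z : ZetaPackage G φ q g)

/-- number of elements of `D c` below `n` -/
noncomputable def cnt (c : G) (n : ℕ) : ℕ :=
  open Classical in ((Finset.range n).filter (fun i => i ∈ Z.D c)).card

theorem cnt_zero (c : G) : Z.cnt c 0 = 0 := by simp [cnt]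

theorem cnt_succ_of_mem {c : G} {n : ℕ} (h : n ∈ Z.D c) : Z.cnt c (n + 1) = Z.cnt c n + 1 := by
  classical
  unfold cnt
  rw [Finset.range_add_one, Finset.filter_insert, if_pos h, Finset.card_insert_of_notMem]
  simp

theorem cnt_succ_of_notMem {c : G} {n : ℕ} (h : n ∉ Z.D c) : Z.cnt c (n + 1) = Z.cnt c n := by
  classical
  unfold cnt
  rw [Finset.range_add_one, Finset.filter_insert, if_neg h]

theorem cnt_large {c : G} {n : ℕ} (hn : 2 * g ≤ n) : Z.cnt c n + g = n := by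
  classical
  have h1 : ((Finset.range n).filter (fun i => ¬ i ∈ Z.D c)).card = g := by
    refine Eq.trans ?_ (Z.D_compl c)
    rw [← Set.ncard_coe_finset]
    congr 1
    ext i
    simp only [Finset.coe_filter, Finset.mem_range, Set.mem_ofPred_eq, Set.mem_compl_iff]
    refine ⟨fun h => h.2, fun h => ⟨?_, h⟩⟩
    by_contra h2
    exact h (Z.D_large c i (by omega))
  have h2 := Finset.card_filter_add_card_filter_not (s := Finset.range n) (fun i => i ∈ Z.D c)
  rw [h1, Finset.card_range] at h2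
  unfold cnt
  exact h2

/-- `[n ∈ D c] Q ^ cnt` -/
noncomputable def v (Q : ℂ) (c : G) (n : ℕ) : ℂ :=
  open Classical in if n ∈ Z.D c then Q ^ Z.cnt c n else 0

theorem v_mul (Q : ℂ) (c : G) (n : ℕ) :
    Z.v Q c n * (Q - 1) = Q ^ Z.cnt c (n + 1) - Q ^ Z.cnt c n := by
  classical
  unfold v
  split_ifs with h
  · rw [Z.cnt_succ_of_mem h, pow_succ]; ring
  · rw [Z.cnt_succ_of_notMem h]; ring

theorem sum_v_mul (Q : ℂ) (c : G) (n : ℕ) :
    (∑ i ∈ range n, Z.v Q c i) * (Q - 1) = Q ^ Z.cnt c n - 1 := by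
  rw [Finset.sum_mul, Finset.sum_congr rfl (fun i _ => Z.v_mul Q c i),
    Finset.sum_range_sub (fun i => Q ^ Z.cnt c i), Z.cnt_zero, pow_zero]

theorem v_large {Q : ℂ} {c : G} {n : ℕ} (hn : 2 * g ≤ n) : Z.v Q c n = Q ^ (n - g) := by
  classical
  unfold v
  rw [if_pos (Z.D_large c n hn)]
  congr 1
  have := Z.cnt_large (c := c) hn
  omega

theorem count' {m : ℕ} {χ : G →* ℂ} (hm : 0 < m) (hχ : ∀ x, χ ((φ ^ m) x) = χ x) (n : ℕ) :
    Z.b m χ n = ∑ c ∈ (Z.fin m hm).toFinset, χ c * Z.v ((q : ℂ) ^ m) c n :=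
  Z.count m χ hm hχ n

/-- number of fixed classes -/
noncomputable def N (_Z : ZetaPackage G φ q g) (m : ℕ) : ℕ := Nat.card {x : G | (φ ^ m) x = x}

theorem N_eq {m : ℕ} (hm : 0 < m) : Z.N m = (Z.fin m hm).toFinset.card := by
  rw [N, Nat.card_coe_set_eq, Set.ncard_eq_toFinset_card _ (Z.fin m hm)]

theorem N_pos {m : ℕ} (hm : 0 < m) : 0 < Z.N m := by
  rw [Z.N_eq hm, Finset.card_pos]
  exact ⟨1, by simp⟩

include Z in
theorem one_lt_Q {m : ℕ} (hm : 0 < m) : 1 < (q : ℝ) ^ m :=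
  one_lt_pow₀ (by exact_mod_cast Z.hq) hm.ne'

include Z in
theorem Q_ne_one {m : ℕ} (hm : 0 < m) : (q : ℂ) ^ m ≠ 1 := by
  intro h
  have h1 := Z.one_lt_Q hm
  have h2 : (q : ℝ) ^ m = 1 := by exact_mod_cast h
  linarith

include Z in
theorem Q_ne_zero (m : ℕ) : (q : ℂ) ^ m ≠ 0 := by
  have := Z.hq
  exact pow_ne_zero _ (by exact_mod_cast (by omega : q ≠ 0))

/-- the power series of the counting function -/
noncomputable def B (m : ℕ) (χ : G →* ℂ) : PowerSeries ℂ := PowerSeries.mk (Z.b m χ)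

noncomputable def YY (m : ℕ) (χ : G →* ℂ) : PowerSeries ℂ :=
  PowerSeries.mk fun k => Z.Y m χ (k + 1)

theorem deriv_B {m : ℕ} {χ : G →* ℂ} (hm : 0 < m) (hχ : ∀ x, χ ((φ ^ m) x) = χ x) :
    PowerSeries.derivative ℂ (Z.B m χ) = Z.YY m χ * Z.B m χ := by
  ext n
  rw [PowerSeries.coeff_derivative, PowerSeries.coeff_mul, B, PowerSeries.coeff_mk]
  have h := Z.recur m χ hm hχ (n + 1)
  rw [mul_comm, ← Nat.cast_succ, Nat.succ_eq_add_one, h,
    Finset.Nat.sum_antidiagonal_eq_sum_range_succ_mk]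
  apply Finset.sum_congr rfl
  intro k hk
  rw [YY, PowerSeries.coeff_mk, PowerSeries.coeff_mk]
  congr 2

/-- coefficients of the numerator of the zeta function -/
noncomputable def pc (m n : ℕ) : ℂ :=
  Z.b m 1 n - (q : ℂ) ^ m * (if n = 0 then 0 else Z.b m 1 (n - 1))

/-- numerator of the zeta function -/
noncomputable def P (m : ℕ) : Polynomial ℂ :=
  ∑ n ∈ range (2 * g + 1), Polynomial.monomial n (Z.pc m n)

theorem P_coeff (m n : ℕ) : (Z.P m).coeff n = if n < 2 * g + 1 then Z.pc m n else 0 := by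
  rw [P, Polynomial.finsetSum_coeff]
  simp_rw [Polynomial.coeff_monomial]
  rw [Finset.sum_ite_eq']
  simp only [Finset.mem_range]

theorem b_large {m : ℕ} (hm : 0 < m) {n : ℕ} (hn : 2 * g ≤ n) :
    Z.b m 1 n = Z.N m * ((q : ℂ) ^ m) ^ (n - g) := by
  rw [Z.count' hm (fun _ => rfl), Z.N_eq hm]
  simp [Z.v_large hn]

theorem pc_large {m : ℕ} (hm : 0 < m) {n : ℕ} (hn : 2 * g + 1 ≤ n) : Z.pc m n = 0 := by
  unfold pc
  rw [if_neg (by omega), Z.b_large hm (by omega), Z.b_large hm (by omega)]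
  have : n - g = (n - 1 - g) + 1 := by omega
  rw [this, pow_succ]; ring

theorem coe_P {m : ℕ} (hm : 0 < m) : (Z.P m : PowerSeries ℂ) =
    ((1 - Polynomial.C ((q : ℂ) ^ m) * Polynomial.X : Polynomial ℂ) : PowerSeries ℂ) *
      Z.B m 1 := by
  ext n
  rw [Polynomial.coeff_coe, P_coeff]
  have h1 : (PowerSeries.coeff n) (((1 - Polynomial.C ((q : ℂ) ^ m) * Polynomial.X :
      Polynomial ℂ) : PowerSeries ℂ) * Z.B m 1) = Z.pc m n := by
    rw [Polynomial.coe_sub, Polynomial.coe_mul, Polynomial.coe_one, Polynomial.coe_C,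
      Polynomial.coe_X, sub_mul, one_mul, mul_assoc, map_sub, PowerSeries.coeff_C_mul]
    cases n with
    | zero => simp [pc, B]
    | succ n =>
      rw [PowerSeries.coeff_succ_X_mul]
      simp [pc, B]
  rw [h1]
  split_ifs with h
  · rfl
  · rw [Z.pc_large hm (by omega)]

theorem P_coeff_zero {m : ℕ} (hm : 0 < m) : (Z.P m).coeff 0 = 1 := by
  rw [P_coeff, if_pos (by omega), pc, if_pos rfl, Z.b_zero m 1 hm (fun _ => rfl)]
  ring

theorem deriv_P {m : ℕ} (hm : 0 < m) : PowerSeries.derivative ℂ (Z.P m : PowerSeries ℂ) =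
    (Z.YY m 1 - geo ((q : ℂ) ^ m)) * (Z.P m : PowerSeries ℂ) := by
  rw [Z.coe_P hm, Derivation.leibniz, Z.deriv_B hm (fun _ => rfl)]
  have h1 : PowerSeries.derivative ℂ
      ((1 - Polynomial.C ((q : ℂ) ^ m) * Polynomial.X : Polynomial ℂ) : PowerSeries ℂ)
      = - PowerSeries.C ((q : ℂ) ^ m) := by
    rw [PowerSeries.derivative_coe, Polynomial.derivative_sub, Polynomial.derivative_mul,
      Polynomial.derivative_C, Polynomial.derivative_X, Polynomial.derivative_one, zero_mul,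
      mul_one, zero_add, zero_sub, Polynomial.coe_neg, Polynomial.coe_C]
  rw [h1, ← one_sub_mul_geo ((q : ℂ) ^ m)]
  simp only [smul_eq_mul]
  ring

theorem P_eval_one {m : ℕ} (hm : 0 < m) : (Z.P m).eval 1 = Z.N m := by
  have hQ : (q : ℂ) ^ m - 1 ≠ 0 := sub_ne_zero.2 (Z.Q_ne_one hm)
  have h1 : (Z.P m).eval 1 = (∑ n ∈ range (2 * g + 1), Z.b m 1 n) -
      (q : ℂ) ^ m * ∑ n ∈ range (2 * g), Z.b m 1 n := by
    rw [P, Polynomial.eval_finsetSum]
    simp only [Polynomial.eval_monomial, one_pow, mul_one]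
    unfold pc
    rw [Finset.sum_sub_distrib, ← Finset.mul_sum]
    congr 2
    rw [Finset.sum_range_succ' (fun n => if n = 0 then (0 : ℂ) else Z.b m 1 (n - 1))]
    simp
  apply mul_right_cancel₀ hQ
  rw [h1]
  have hb : ∀ n, Z.b m 1 n = ∑ c ∈ (Z.fin m hm).toFinset, Z.v ((q : ℂ) ^ m) c n := by
    intro n
    rw [Z.count' (χ := 1) hm (fun _ => rfl)]
    simp only [MonoidHom.one_apply, one_mul]
  simp_rw [hb]
  rw [Finset.sum_comm, Finset.sum_comm (s := range (2 * g)), sub_mul, mul_assoc, Finset.sum_mul,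
    Finset.sum_mul, Finset.mul_sum, ← Finset.sum_sub_distrib]
  have : ∀ c ∈ (Z.fin m hm).toFinset, (∑ i ∈ range (2 * g + 1), Z.v ((q : ℂ) ^ m) c i) *
      ((q : ℂ) ^ m - 1) - (q : ℂ) ^ m * ((∑ i ∈ range (2 * g), Z.v ((q : ℂ) ^ m) c i) *
      ((q : ℂ) ^ m - 1)) = (q : ℂ) ^ m - 1 := by
    intro c _
    rw [Z.sum_v_mul, Z.sum_v_mul]
    have e1 := Z.cnt_large (c := c) (n := 2 * g + 1) (by omega)
    have e2 := Z.cnt_large (c := c) (n := 2 * g) (by omega)
    have e3 : Z.cnt c (2 * g + 1) = Z.cnt c (2 * g) + 1 := by omega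
    rw [e3, pow_succ]; ring
  rw [Finset.sum_congr rfl this, Finset.sum_const, Z.N_eq hm, nsmul_eq_mul]

theorem P_eval_inv {m : ℕ} (hm : 0 < m) : (Z.P m).eval ((q : ℂ) ^ m)⁻¹ ≠ 0 := by
  have hQ0 : (q : ℂ) ^ m ≠ 0 := Z.Q_ne_zero m
  have h1 : (Z.P m).eval ((q : ℂ) ^ m)⁻¹ = Z.b m 1 (2 * g) * ((q : ℂ) ^ m)⁻¹ ^ (2 * g) := by
    rw [P, Polynomial.eval_finsetSum]
    simp only [Polynomial.eval_monomial]
    have : ∀ n : ℕ, ∑ i ∈ range (n + 1), Z.pc m i * ((q : ℂ) ^ m)⁻¹ ^ i =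
        Z.b m 1 n * ((q : ℂ) ^ m)⁻¹ ^ n := by
      intro n
      induction n with
      | zero => simp [pc]
      | succ n ih =>
        rw [Finset.sum_range_succ, ih, pc, if_neg (by omega), Nat.add_sub_cancel, pow_succ]
        field_simp
        ring
    exact this (2 * g)
  rw [h1, Z.b_large hm le_rfl]
  have hN := Z.N_pos hm
  refine mul_ne_zero (mul_ne_zero ?_ (pow_ne_zero _ hQ0)) (pow_ne_zero _ (inv_ne_zero hQ0))
  exact_mod_cast hN.ne'

theorem natDegree_P_le (m : ℕ) : (Z.P m).natDegree ≤ 2 * g := by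
  rw [Polynomial.natDegree_le_iff_coeff_eq_zero]
  intro n hn
  rw [P_coeff, if_neg (by omega)]

theorem P_coeff_top : (Z.P 1).coeff (2 * g) = (q : ℂ) ^ g := by
  classical
  rcases Nat.eq_zero_or_pos g with hg | hg
  · have h0 := Z.P_coeff_zero one_pos
    have e1 : 2 * g = 0 := by omega
    have e2 : (q : ℂ) ^ g = 1 := by rw [hg, pow_zero]
    rw [e1, e2]; exact h0
  · obtain ⟨c₀, hc₀, hc₁, hc₂⟩ := Z.D_can hg
    rw [P_coeff, if_pos (by omega), pc, if_neg (by omega), Z.b_large one_pos le_rfl,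
      Z.count' one_pos (fun _ => rfl), Z.N_eq one_pos]
    simp only [MonoidHom.one_apply, one_mul, pow_one (q : ℂ)]
    have hmem : c₀ ∈ (Z.fin 1 one_pos).toFinset := by simp [hc₀]
    have h1 : ∀ c ∈ (Z.fin 1 one_pos).toFinset, (q : ℂ) * Z.v (q : ℂ) c (2 * g - 1) =
        (q : ℂ) ^ g - if c = c₀ then (q : ℂ) ^ g else 0 := by
      intro c _
      have e1 := Z.cnt_large (c := c) (n := 2 * g) le_rfl
      have e0 : 2 * g = 2 * g - 1 + 1 := by omega
      split_ifs with h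
      · subst h
        rw [v, if_neg hc₁]; ring
      · have h2 := hc₂ c h
        have e2 := Z.cnt_succ_of_mem h2
        rw [← e0] at e2
        rw [v, if_pos h2, sub_zero, mul_comm, ← pow_succ]
        congr 1
        omega
    rw [Finset.mul_sum, Finset.sum_congr rfl h1, Finset.sum_sub_distrib, Finset.sum_const,
      Finset.sum_ite_eq' _ c₀, if_pos hmem, nsmul_eq_mul]
    have : 2 * g - g = g := by omega
    rw [this]; ring

theorem natDegree_P : (Z.P 1).natDegree = 2 * g := by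
  apply le_antisymm (Z.natDegree_P_le 1)
  apply Polynomial.le_natDegree_of_ne_zero
  rw [P_coeff_top]
  have := Z.Q_ne_zero g
  exact this

theorem exists_roots : ∃ s : Multiset ℂ, Multiset.card s = 2 * g ∧ Z.P 1 = rp s ∧
    (Z.P 1).reverse = (s.map fun α => Polynomial.X - Polynomial.C α).prod := by
  obtain ⟨s, h1, h2, h3⟩ := exists_rp _ (Z.P_coeff_zero one_pos)
  exact ⟨s, h3.trans Z.natDegree_P, h1, h2⟩

/-- the inverse roots of the zeta function -/
noncomputable def roots : Multiset ℂ := Z.exists_roots.choose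

theorem card_roots : Multiset.card Z.roots = 2 * g := Z.exists_roots.choose_spec.1

theorem P_one : Z.P 1 = rp Z.roots := Z.exists_roots.choose_spec.2.1

theorem reverse_P : (Z.P 1).reverse = (Z.roots.map fun α => Polynomial.X - Polynomial.C α).prod :=
  Z.exists_roots.choose_spec.2.2

theorem P_ne_zero {m : ℕ} (hm : 0 < m) : (Z.P m : PowerSeries ℂ) ≠ 0 := by
  intro h
  have := Z.P_coeff_zero hm
  rw [← Polynomial.coeff_coe, h] at this
  simp at this

theorem YY_one : Z.YY 1 1 = geo (q : ℂ) - (Z.roots.map geo).sum := by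
  have h1 := Z.deriv_P one_pos
  have h2 := deriv_rp Z.roots
  rw [← Z.P_one] at h2
  rw [h2, pow_one] at h1
  have h3 := mul_right_cancel₀ (Z.P_ne_zero one_pos) h1
  rw [eq_comm, sub_eq_iff_eq_add] at h3
  rw [h3]; ring

theorem geo_coeff (α : ℂ) (k : ℕ) : PowerSeries.coeff k (geo α) = α ^ (k + 1) := by
  simp [geo]

theorem sum_geo_coeff (s : Multiset ℂ) (k : ℕ) :
    PowerSeries.coeff k (s.map geo).sum = (s.map fun α => α ^ (k + 1)).sum := by
  induction s using Multiset.induction_on with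
  | empty => simp
  | cons α s ih => simp only [Multiset.map_cons, Multiset.sum_cons, map_add, ih, geo_coeff]

theorem Y_eq (k : ℕ) : Z.Y 1 1 (k + 1) = (q : ℂ) ^ (k + 1) -
    (Z.roots.map fun α => α ^ (k + 1)).sum := by
  have h := congrArg (PowerSeries.coeff k) Z.YY_one
  rw [map_sub, geo_coeff, sum_geo_coeff] at h
  rw [← h]
  simp [YY]

theorem YY_eq {m : ℕ} (hm : 0 < m) : Z.YY m 1 = geo ((q : ℂ) ^ m) -
    ((Z.roots.map (fun α => α ^ m)).map geo).sum := by
  ext k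
  rw [map_sub, geo_coeff, sum_geo_coeff, Multiset.map_map]
  have h1 : PowerSeries.coeff k (Z.YY m 1) = Z.Y m 1 (k + 1) := by simp [YY]
  rw [h1, Z.Y_one m (k + 1) hm (Nat.succ_pos _)]
  obtain ⟨j, hj⟩ : ∃ j, m * (k + 1) = j + 1 := ⟨m * (k + 1) - 1, by
    have : 0 < m * (k + 1) := Nat.mul_pos hm (Nat.succ_pos _)
    omega⟩
  rw [hj, Y_eq, ← hj, pow_mul]
  congr 2
  apply Multiset.map_congr rfl
  intro α _
  rw [Function.comp, pow_mul]

theorem P_eq {m : ℕ} (hm : 0 < m) : Z.P m = rp (Z.roots.map (fun α => α ^ m)) := by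
  have : (Z.P m : PowerSeries ℂ) = (rp (Z.roots.map (fun α => α ^ m)) : PowerSeries ℂ) := by
    refine ode_unique _ _ _ (Z.deriv_P hm) ?_ ?_
    · rw [deriv_rp, Z.YY_eq hm]; ring
    · rw [Polynomial.coeff_coe, Polynomial.coeff_coe, Z.P_coeff_zero hm, rp_coeff_zero]
  exact_mod_cast this

/-- the class number formula -/
theorem N_eq_prod {m : ℕ} (hm : 0 < m) : (Z.N m : ℂ) = (Z.roots.map fun α => 1 - α ^ m).prod := by
  rw [← Z.P_eval_one hm, Z.P_eq hm, rp_eval, Multiset.map_map]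
  simp

theorem root_pow_ne {m : ℕ} (hm : 0 < m) {α : ℂ} (hα : α ∈ Z.roots) : α ^ m ≠ (q : ℂ) ^ m := by
  intro h
  apply Z.P_eval_inv hm
  rw [Z.P_eq hm, rp_eval, Multiset.map_map, Multiset.prod_eq_zero_iff, Multiset.mem_map]
  refine ⟨α, hα, ?_⟩
  rw [Function.comp, h, mul_inv_cancel₀ (Z.Q_ne_zero m), sub_self]

end ZetaPackage

end Fermat.Agent.S27
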