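import Mathlib
import Fermat.Agent.S27.Zeta

set_option autoImplicit false

namespace Fermat.Agent.S27

/-- if `x` is rational and integral it is an integer -/
theorem exists_int_of_integral {x : ℂ} (hx : IsIntegral ℤ x) {a b : ℤ} (hb : b ≠ 0)
    (h : x * b = a) : ∃ z : ℤ, x = z := by
  have hb' : (b : ℂ) ≠ 0 := by exact_mod_cast hb
  have h1 : x = algebraMap ℚ ℂ ((a : ℚ) / b) := by
    rw [map_div₀]
    simp only [map_intCast]
    rw [eq_div_iff hb', h]
  rw [h1, isIntegral_algebraMap_iff (algebraMap ℚ ℂ).injective] at hx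
  obtain ⟨z, hz⟩ := IsIntegrallyClosed.isIntegral_iff.1 hx
  refine ⟨z, ?_⟩
  rw [h1, ← hz]
  simp

theorem integral_natCast (n : ℕ) : IsIntegral ℤ (n : ℂ) := by
  have := isIntegral_algebraMap (R := ℤ) (A := ℂ) (x := (n : ℤ))
  simpa using this

theorem integral_intCast (n : ℤ) : IsIntegral ℤ (n : ℂ) := by
  have := isIntegral_algebraMap (R := ℤ) (A := ℂ) (x := n)
  simpa using this

/-- powers of an algebraic integer are eventually congruent mod `n` -/
theorem exists_pow_congr (α : ℂ) (hα : IsIntegral ℤ α) (n : ℕ) (hn : 0 < n) :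
    ∃ i j : ℕ, i < j ∧ IsIntegral ℤ ((α ^ j - α ^ i) / (n : ℂ)) := by
  set A := Algebra.adjoin ℤ {α} with hA
  have hfin : Module.Finite ℤ A := Algebra.finite_adjoin_simple_of_isIntegral hα
  have hint : ∀ a : A, IsIntegral ℤ (a : ℂ) := fun a =>
    (Algebra.IsIntegral.of_finite ℤ A).isIntegral a |>.algebraMap
  let I : Ideal A := Ideal.span {(n : A)}
  have hfinQ : Finite (A ⧸ I) := by
    have : Module.Finite ℤ (A ⧸ I) := inferInstance
    apply Module.finite_of_fg_torsion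
    intro x
    refine ⟨⟨(n : ℤ), by simpa using hn.ne'⟩, ?_⟩
    obtain ⟨a, rfl⟩ := Ideal.Quotient.mk_surjective x
    rw [Submonoid.mk_smul, ← Ideal.Quotient.mkₐ_eq_mk ℤ, ← map_smul, Ideal.Quotient.mkₐ_eq_mk,
      Ideal.Quotient.eq_zero_iff_mem, zsmul_eq_mul]
    apply Ideal.mul_mem_right
    apply Ideal.subset_span
    simp
  let a : A := ⟨α, Algebra.self_mem_adjoin_singleton ℤ α⟩
  obtain ⟨i, j, hij, h⟩ := Finite.exists_ne_map_eq_of_infinite
    (fun i : ℕ => Ideal.Quotient.mk I (a ^ i))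
  have key : ∀ i j : ℕ, Ideal.Quotient.mk I (a ^ i) = Ideal.Quotient.mk I (a ^ j) →
      IsIntegral ℤ ((α ^ j - α ^ i) / (n : ℂ)) := by
    intro i j h
    rw [eq_comm, Ideal.Quotient.mk_eq_mk_iff_sub_mem, Ideal.mem_span_singleton'] at h
    obtain ⟨c, hc⟩ := h
    have hc' : (c : ℂ) * n = α ^ j - α ^ i := by
      have := congrArg (Subtype.val) hc
      simpa [a] using this
    rw [← hc', mul_div_assoc, div_self (by exact_mod_cast hn.ne'), mul_one]
    exact hint c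
  rcases lt_or_gt_of_ne hij with h1 | h1
  · exact ⟨i, j, h1, key i j h⟩
  · exact ⟨j, i, h1, key j i h.symm⟩

theorem exists_pow_congr_one (α β : ℂ) (hα : IsIntegral ℤ α) (hβ : IsIntegral ℤ β) (n N : ℕ)
    (hn : 0 < n) (hαβ : α * β = N) (hcop : Nat.Coprime N n) :
    ∃ m : ℕ, 0 < m ∧ IsIntegral ℤ ((α ^ m - 1) / (n : ℂ)) := by
  obtain ⟨i, j, hij, h⟩ := exists_pow_congr α hα n hn
  refine ⟨j - i, by omega, ?_⟩
  have hn' : (n : ℂ) ≠ 0 := by exact_mod_cast hn.ne'
  have hcop' : IsCoprime ((N : ℤ) ^ i) (n : ℤ) := by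
    apply IsCoprime.pow_left
    exact Nat.isCoprime_iff_coprime.2 hcop
  obtain ⟨u, w, huw⟩ := hcop'
  have huw' : (u : ℂ) * (N : ℂ) ^ i + w * n = 1 := by exact_mod_cast huw
  have e : (α ^ (j - i) - 1) / (n : ℂ) = u * (β ^ i * ((α ^ j - α ^ i) / n)) +
      w * (α ^ (j - i) - 1) := by
    have h1 : α ^ j = α ^ i * α ^ (j - i) := by rw [← pow_add]; congr 1; omega
    have h2 : (N : ℂ) ^ i = α ^ i * β ^ i := by rw [← hαβ, mul_pow]
    rw [h1]
    field_simp
    linear_combination (-(α ^ (j - i) - 1)) * huw' + u * (α ^ (j - i) - 1) * h2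
  rw [e]
  refine IsIntegral.add (IsIntegral.mul (integral_intCast u) (IsIntegral.mul (hβ.pow i) h)) ?_
  exact (integral_intCast w).mul ((hα.pow _).sub isIntegral_one)

theorem geom_congr (x : ℂ) (n : ℕ) (hx : IsIntegral ℤ ((x - 1) / (n : ℂ))) (hxi : IsIntegral ℤ x)
    (s : ℕ) :
    IsIntegral ℤ ((∑ i ∈ Finset.range s, x ^ i - s) / (n : ℂ)) := by
  have h1 : ∀ i : ℕ, IsIntegral ℤ ((x ^ i - 1) / (n : ℂ)) := by
    intro i
    have : (x ^ i - 1) / (n : ℂ) = (∑ j ∈ Finset.range i, x ^ j) * ((x - 1) / n) := by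
      rw [← mul_div_assoc, geom_sum_mul]
    rw [this]
    exact (IsIntegral.sum _ fun j _ => hxi.pow j).mul hx
  have : (∑ i ∈ Finset.range s, x ^ i - s) / (n : ℂ) =
      ∑ i ∈ Finset.range s, (x ^ i - 1) / (n : ℂ) := by
    rw [← Finset.sum_div, Finset.sum_sub_distrib]
    simp
  rw [this]
  exact IsIntegral.sum _ fun i _ => h1 i

theorem prod_congr_pow (s : Multiset ℂ) (f : ℂ → ℂ) (n : ℕ) (hn : (n : ℂ) ≠ 0) (c : ℂ)
    (hc : IsIntegral ℤ c)
    (hf : ∀ α ∈ s, IsIntegral ℤ ((f α - c) / (n : ℂ))) :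
    IsIntegral ℤ (((s.map f).prod - c ^ (Multiset.card s)) / (n : ℂ)) := by
  induction s using Multiset.induction_on with
  | empty => simpa using isIntegral_zero
  | cons α s ih =>
    have h1 := hf α (Multiset.mem_cons_self _ _)
    have h2 := ih (fun a ha => hf a (Multiset.mem_cons_of_mem ha))
    rw [Multiset.map_cons, Multiset.prod_cons, Multiset.card_cons, pow_succ']
    have hfα : IsIntegral ℤ (f α) := by
      have : f α = (f α - c) / n * n + c := by field_simp; ring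
      rw [this]
      exact (h1.mul (integral_natCast n)).add hc
    have : (f α * (s.map f).prod - c * c ^ (Multiset.card s)) / (n : ℂ) =
        f α * (((s.map f).prod - c ^ (Multiset.card s)) / n) +
          c ^ (Multiset.card s) * ((f α - c) / n) := by ring
    rw [this]
    exact (hfα.mul h2).add ((hc.pow _).mul h1)


namespace ZetaPackage

variable {G : Type*} [CommGroup G] {φ : MulAut G} {q g : ℕ} (Z : ZetaPackage G φ q g)

theorem b_nat {m : ℕ} (hm : 0 < m) (n : ℕ) : ∃ z : ℤ, Z.b m 1 n = z := by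
  classical
  refine ⟨∑ c ∈ (Z.fin m hm).toFinset, if n ∈ Z.D c then ((q : ℤ) ^ m) ^ Z.cnt c n else 0, ?_⟩
  rw [Z.count' (χ := 1) hm (fun _ => rfl)]
  push_cast
  apply Finset.sum_congr rfl
  intro c _
  rw [MonoidHom.one_apply, one_mul, v]

theorem P_coeff_int (n : ℕ) : ∃ z : ℤ, (Z.P 1).coeff n = z := by
  rw [P_coeff]
  split_ifs
  · obtain ⟨z1, h1⟩ := Z.b_nat one_pos n
    obtain ⟨z2, h2⟩ := Z.b_nat one_pos (n - 1)
    refine ⟨z1 - q * (if n = 0 then 0 else z2), ?_⟩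
    rw [pc, h1, h2, pow_one]
    push_cast
    rfl
  · exact ⟨0, by simp⟩

theorem exists_int_poly : ∃ C : Polynomial ℤ, C.Monic ∧
    C.map (Int.castRingHom ℂ) = (Z.roots.map fun α => Polynomial.X - Polynomial.C α).prod := by
  have h1 : (Z.P 1).reverse ∈ Polynomial.lifts (Int.castRingHom ℂ) := by
    rw [Polynomial.lifts_iff_coeff_lifts]
    intro n
    rw [Polynomial.coeff_reverse]
    obtain ⟨z, hz⟩ := Z.P_coeff_int (Polynomial.revAt (Z.P 1).natDegree n)
    exact ⟨z, by rw [hz]; simp⟩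
  have hmon : (Z.P 1).reverse.Monic := by
    rw [Z.reverse_P]
    exact Polynomial.monic_multiset_prod_of_monic _ _ (fun α _ => Polynomial.monic_X_sub_C α)
  obtain ⟨C, hC, -, hC2⟩ := Polynomial.lifts_and_natDegree_eq_and_monic h1 hmon
  exact ⟨C, hC2, hC.trans Z.reverse_P⟩

theorem root_integral {α : ℂ} (hα : α ∈ Z.roots) : IsIntegral ℤ α := by
  obtain ⟨C, hC1, hC2⟩ := Z.exists_int_poly
  refine ⟨C, hC1, ?_⟩
  have : algebraMap ℤ ℂ = Int.castRingHom ℂ := rfl
  rw [this, ← Polynomial.eval_map, hC2, Polynomial.eval_multiset_prod, Multiset.map_map,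
    Multiset.prod_eq_zero_iff, Multiset.mem_map]
  exact ⟨α, hα, by simp⟩

theorem prod_roots : Z.roots.prod = (q : ℂ) ^ g := by
  have h1 : (Z.P 1).reverse.coeff 0 = (q : ℂ) ^ g := by
    rw [Polynomial.coeff_zero_reverse, Polynomial.leadingCoeff, Z.natDegree_P, Z.P_coeff_top]
  rw [Z.reverse_P, Polynomial.coeff_zero_eq_eval_zero, Polynomial.eval_multiset_prod,
    Multiset.map_map] at h1
  have h2 : (Z.roots.map ((fun x => Polynomial.eval 0 x) ∘ fun α =>
      (Polynomial.X - Polynomial.C α : Polynomial ℂ))).prod = (Z.roots.map (fun α => -α)).prod := by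
    congr 1
    apply Multiset.map_congr rfl
    intro α _
    simp
  rw [h2, Multiset.prod_map_neg, Z.card_roots, pow_mul] at h1
  simpa using h1

theorem exists_m₀ {n : ℕ} (hn : 0 < n) (hcop : Nat.Coprime q n) :
    ∃ m₀ : ℕ, 0 < m₀ ∧ ∀ m, m₀ ∣ m → ∀ α ∈ Z.roots, IsIntegral ℤ ((α ^ m - 1) / (n : ℂ)) := by
  have key : ∀ s : Multiset ℂ, s ≤ Z.roots → ∃ m₀ : ℕ, 0 < m₀ ∧ ∀ α ∈ s,
      ∃ m₁, m₁ ∣ m₀ ∧ IsIntegral ℤ ((α ^ m₁ - 1) / (n : ℂ)) := by
    intro s
    induction s using Multiset.induction_on with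
    | empty => intro _; exact ⟨1, one_pos, by simp⟩
    | cons α s ih =>
      intro hs
      obtain ⟨m₀, hm₀, h⟩ := ih ((Multiset.le_cons_self s α).trans hs)
      have hα : α ∈ Z.roots := Multiset.mem_of_le hs (Multiset.mem_cons_self _ _)
      obtain ⟨t, ht⟩ := Multiset.exists_cons_of_mem hα
      have hti : ∀ β ∈ t, IsIntegral ℤ β := fun β hβ =>
        Z.root_integral (by rw [ht]; exact Multiset.mem_cons_of_mem hβ)
      have hprod : α * t.prod = ((q ^ g : ℕ) : ℂ) := by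
        have := Z.prod_roots
        rw [ht, Multiset.prod_cons] at this
        rw [this]; push_cast; rfl
      obtain ⟨m₁, hm₁, h1⟩ := exists_pow_congr_one α t.prod (Z.root_integral hα)
        (IsIntegral.multiset_prod hti) n (q ^ g) hn hprod (Nat.Coprime.pow_left g hcop)
      refine ⟨m₀ * m₁, Nat.mul_pos hm₀ hm₁, ?_⟩
      intro β hβ
      rcases Multiset.mem_cons.1 hβ with rfl | hβ
      · exact ⟨m₁, Dvd.intro_left _ rfl, h1⟩
      · obtain ⟨m₂, h2, h3⟩ := h β hβ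
        exact ⟨m₂, h2.trans (Dvd.intro _ rfl), h3⟩
  obtain ⟨m₀, hm₀, h⟩ := key _ le_rfl
  refine ⟨m₀, hm₀, fun m hm α hα => ?_⟩
  obtain ⟨m₁, h1, h2⟩ := h α hα
  obtain ⟨t, rfl⟩ := h1.trans hm
  have e : (α ^ (m₁ * t) - 1) / (n : ℂ) =
      (∑ i ∈ Finset.range t, (α ^ m₁) ^ i) * ((α ^ m₁ - 1) / n) := by
    rw [← mul_div_assoc, geom_sum_mul, pow_mul]
  rw [e]
  exact (IsIntegral.sum _ fun i _ => ((Z.root_integral hα).pow _).pow _).mul h2

theorem N_mul {m s : ℕ} (hm : 0 < m) (hs : 0 < s) : (Z.N (m * s) : ℂ) =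
    Z.N m * (Z.roots.map fun α => ∑ i ∈ Finset.range s, (α ^ m) ^ i).prod := by
  rw [Z.N_eq_prod (Nat.mul_pos hm hs), Z.N_eq_prod hm, ← Multiset.prod_map_mul]
  congr 1
  apply Multiset.map_congr rfl
  intro α _
  have := mul_geom_sum (α ^ m) s
  rw [pow_mul]
  linear_combination this

/-- for all `m` divisible by `m₀` the `ℓ`-adic valuation of the class number is known to grow -/
theorem exists_val (ℓ : ℕ) [hℓ : Fact ℓ.Prime] (hℓq : ¬ ℓ ∣ q) :
    ∃ m₀ : ℕ, 0 < m₀ ∧ ∀ m, 0 < m → m₀ ∣ m →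
      padicValNat ℓ (Z.N (m * ℓ)) = padicValNat ℓ (Z.N m) + 2 * g ∧
      ∀ s, 0 < s → ¬ ℓ ∣ s → padicValNat ℓ (Z.N (m * s)) = padicValNat ℓ (Z.N m) := by
  have hℓ0 : 0 < ℓ := hℓ.out.pos
  have hℓC : (ℓ : ℂ) ≠ 0 := by exact_mod_cast hℓ0.ne'
  have hcop : Nat.Coprime q (ℓ ^ 2) := by
    apply Nat.Coprime.pow_right
    exact ((Nat.Prime.coprime_iff_not_dvd hℓ.out).2 hℓq).symm
  obtain ⟨m₀, hm₀, h⟩ := Z.exists_m₀ (pow_pos hℓ0 2) hcop
  refine ⟨m₀, hm₀, fun m hm hd => ?_⟩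
  have hx : ∀ α ∈ Z.roots, IsIntegral ℤ ((α ^ m - 1) / ((ℓ ^ 2 : ℕ) : ℂ)) := h m hd
  have hNm := Z.N_pos hm
  -- general congruence for the geometric sums
  have hgeo : ∀ s, ∀ α ∈ Z.roots, IsIntegral ℤ
      ((∑ i ∈ Finset.range s, (α ^ m) ^ i - s) / ((ℓ ^ 2 : ℕ) : ℂ)) := fun s α hα =>
    geom_congr (α ^ m) (ℓ ^ 2) (hx α hα) ((Z.root_integral hα).pow m) s
  constructor
  · -- the case `s = ℓ`
    set f : ℂ → ℂ := fun α => (∑ i ∈ Finset.range ℓ, (α ^ m) ^ i) / ℓ with hf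
    have h1 : ∀ α ∈ Z.roots, IsIntegral ℤ ((f α - 1) / (ℓ : ℂ)) := by
      intro α hα
      have := hgeo ℓ α hα
      have e : (f α - 1) / (ℓ : ℂ) =
        ((∑ i ∈ Finset.range ℓ, (α ^ m) ^ i - ℓ) / ((ℓ ^ 2 : ℕ) : ℂ)) := by
        rw [hf]; push_cast; field_simp
      rw [e]; exact this
    have h2 := prod_congr_pow Z.roots f ℓ hℓC 1 isIntegral_one h1
    rw [one_pow] at h2
    set w := (Z.roots.map f).prod with hw
    have hwN : w * ((Z.N m * ℓ ^ (2 * g) : ℕ) : ℂ) = Z.N (m * ℓ) := by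
      rw [Z.N_mul hm hℓ0]
      have e2 : (Z.roots.map fun α => ∑ i ∈ Finset.range ℓ, (α ^ m) ^ i).prod =
          w * (ℓ : ℂ) ^ (2 * g) := by
        rw [hw, ← Z.card_roots, ← Multiset.prod_replicate, ← Multiset.map_const',
          ← Multiset.prod_map_mul]
        congr 1
        apply Multiset.map_congr rfl
        intro α _
        rw [hf]; field_simp
      rw [e2]; push_cast; ring
    have hwint : IsIntegral ℤ w := by
      have : w = (w - 1) / ℓ * ℓ + 1 := by field_simp; ring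
      rw [this]
      exact (h2.mul (integral_natCast ℓ)).add isIntegral_one
    have hb : ((Z.N m * ℓ ^ (2 * g) : ℕ) : ℤ) ≠ 0 := by positivity
    obtain ⟨z, hz⟩ := exists_int_of_integral hwint (a := (Z.N (m * ℓ) : ℤ)) hb (by
      push_cast; push_cast at hwN; exact hwN)
    obtain ⟨t, ht⟩ := exists_int_of_integral (x := (w - 1) / ℓ) h2 (a := z - 1) (b := (ℓ : ℤ))
      (by exact_mod_cast hℓ0.ne') (by rw [hz]; push_cast; field_simp)
    have hzt : z = 1 + ℓ * t := by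
      have : (z : ℂ) = 1 + ℓ * t := by
        rw [← ht, ← hz]; field_simp; ring
      exact_mod_cast this
    have hfin : (Z.N (m * ℓ) : ℤ) = (Z.N m * ℓ ^ (2 * g) : ℕ) * z := by
      have : ((Z.N (m * ℓ) : ℤ) : ℂ) = (((Z.N m * ℓ ^ (2 * g) : ℕ) * z : ℤ) : ℂ) := by
        push_cast; push_cast at hwN; rw [← hwN, hz]; ring
      exact_mod_cast this
    have hz0 : 0 < z := by
      have h5 : (0 : ℤ) < (Z.N (m * ℓ) : ℤ) := by exact_mod_cast Z.N_pos (Nat.mul_pos hm hℓ0)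
      rw [hfin] at h5
      exact (mul_pos_iff_of_pos_left (by positivity)).1 h5
    lift z to ℕ using hz0.le
    have hfin' : Z.N (m * ℓ) = Z.N m * ℓ ^ (2 * g) * z := by exact_mod_cast hfin
    have hndvd : ¬ ℓ ∣ z := by
      intro hd2
      have : (ℓ : ℤ) ∣ 1 := by
        have h6 : (ℓ : ℤ) ∣ (z : ℤ) := by exact_mod_cast hd2
        rw [hzt] at h6
        exact (Int.dvd_add_left (Dvd.intro _ rfl)).1 h6
      have := Int.le_of_dvd one_pos this
      have := hℓ.out.two_le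
      omega
    have hz1 : z ≠ 0 := by rintro rfl; exact hndvd (dvd_zero _)
    rw [hfin', padicValNat.mul (by positivity) hz1, padicValNat.mul hNm.ne' (by positivity),
      padicValNat.prime_pow, padicValNat.eq_zero_of_not_dvd hndvd, add_zero]
  · intro s hs hℓs
    set f : ℂ → ℂ := fun α => (∑ i ∈ Finset.range s, (α ^ m) ^ i) with hf
    have h1 : ∀ α ∈ Z.roots, IsIntegral ℤ ((f α - s) / (ℓ : ℂ)) := by
      intro α hα
      have := hgeo s α hα
      have e : (f α - s) / (ℓ : ℂ) =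
        ((∑ i ∈ Finset.range s, (α ^ m) ^ i - s) / ((ℓ ^ 2 : ℕ) : ℂ)) * ℓ := by
        rw [hf]; push_cast; field_simp
      rw [e]; exact this.mul (integral_natCast ℓ)
    have h2 := prod_congr_pow Z.roots f ℓ hℓC s (integral_natCast s) h1
    set w := (Z.roots.map f).prod with hw
    rw [Z.card_roots] at h2
    have hwN : (Z.N (m * s) : ℂ) = Z.N m * w := Z.N_mul hm hs
    have hwint : IsIntegral ℤ w := by
      apply IsIntegral.multiset_prod
      intro x hx
      rw [Multiset.mem_map] at hx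
      obtain ⟨α, hα, rfl⟩ := hx
      exact IsIntegral.sum _ fun i _ => ((Z.root_integral hα).pow _).pow _
    obtain ⟨z, hz⟩ := exists_int_of_integral hwint (a := (Z.N (m * s) : ℤ)) (b := (Z.N m : ℤ))
      (by exact_mod_cast hNm.ne') (by push_cast; rw [hwN]; ring)
    obtain ⟨t, ht⟩ := exists_int_of_integral (x := (w - (s : ℂ) ^ (2 * g)) / ℓ) h2
      (a := z - s ^ (2 * g)) (b := (ℓ : ℤ))
      (by exact_mod_cast hℓ0.ne') (by rw [hz]; push_cast; field_simp)
    have hzt : z = s ^ (2 * g) + ℓ * t := by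
      have : (z : ℂ) = s ^ (2 * g) + ℓ * t := by
        rw [← ht, ← hz]; field_simp; ring
      exact_mod_cast this
    have hfin : (Z.N (m * s) : ℤ) = Z.N m * z := by
      have : ((Z.N (m * s) : ℤ) : ℂ) = ((Z.N m * z : ℤ) : ℂ) := by
        push_cast; rw [hwN, hz]
      exact_mod_cast this
    have hz0 : 0 < z := by
      have h5 : (0 : ℤ) < (Z.N (m * s) : ℤ) := by exact_mod_cast Z.N_pos (Nat.mul_pos hm hs)
      rw [hfin] at h5
      exact (mul_pos_iff_of_pos_left (by positivity)).1 h5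
    lift z to ℕ using hz0.le
    have hfin' : Z.N (m * s) = Z.N m * z := by exact_mod_cast hfin
    have hndvd : ¬ ℓ ∣ z := by
      intro hd2
      have h7 : (ℓ : ℤ) ∣ (s : ℤ) ^ (2 * g) := by
        have h6 : (ℓ : ℤ) ∣ (z : ℤ) := by exact_mod_cast hd2
        rw [hzt] at h6
        exact (Int.dvd_add_left (Dvd.intro _ rfl)).1 h6
      have h8 : ℓ ∣ s ^ (2 * g) := by exact_mod_cast h7
      exact hℓs (hℓ.out.dvd_of_dvd_pow h8)
    have hz1 : z ≠ 0 := by rintro rfl; exact hndvd (dvd_zero _)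
    rw [hfin', padicValNat.mul hNm.ne' hz1, padicValNat.eq_zero_of_not_dvd hndvd, add_zero]

end ZetaPackage

end Fermat.Agent.S27
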