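import Mathlib
import Fermat.Agent.S27.NVal
import Fermat.Agent.S27.Grp3

set_option autoImplicit false

namespace Fermat.Agent.S27

open Finset

namespace ZetaPackage

variable {G : Type*} [CommGroup G] {φ : MulAut G} {q g : ℕ} (Z : ZetaPackage G φ q g)

theorem sum_char_eq_zero {m : ℕ} (hm : 0 < m) (χ : G →* ℂ) (x : G) (hx : (φ ^ m) x = x)
    (hχ : χ x ≠ 1) : ∑ c ∈ (Z.fin m hm).toFinset, χ c = 0 := by
  have h1 : ∑ c ∈ (Z.fin m hm).toFinset, χ (x * c) = ∑ c ∈ (Z.fin m hm).toFinset, χ c := by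
    apply Finset.sum_nbij' (fun c => x * c) (fun c => x⁻¹ * c)
    · intro c hc
      rw [Set.Finite.mem_toFinset] at hc ⊢
      show (φ ^ m) (x * c) = x * c
      rw [map_mul, hx, show (φ ^ m) c = c from hc]
    · intro c hc
      rw [Set.Finite.mem_toFinset] at hc ⊢
      show (φ ^ m) (x⁻¹ * c) = x⁻¹ * c
      rw [map_mul, map_inv, hx, show (φ ^ m) c = c from hc]
    · intro c _; simp
    · intro c _; simp
    · intro c _; rfl
  simp_rw [map_mul] at h1
  rw [← Finset.mul_sum] at h1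
  have h2 : (χ x - 1) * ∑ c ∈ (Z.fin m hm).toFinset, χ c = 0 := by rw [sub_mul, h1]; ring
  rcases mul_eq_zero.1 h2 with h | h
  · exact absurd (sub_eq_zero.1 h) hχ
  · exact h

theorem b_char_large {m : ℕ} (hm : 0 < m) (χ : G →* ℂ) (hχ : ∀ x, χ ((φ ^ m) x) = χ x)
    (x : G) (hx : (φ ^ m) x = x) (hχx : χ x ≠ 1) {n : ℕ} (hn : 2 * g ≤ n) : Z.b m χ n = 0 := by
  rw [Z.count' hm hχ]
  simp_rw [Z.v_large hn]
  rw [← Finset.sum_mul, Z.sum_char_eq_zero hm χ x hx hχx, zero_mul]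

include Z in
/-- no invariant character of order `ℓ` is nontrivial on fixed points -/
theorem no_char {m : ℕ} (hm : 0 < m) (ℓ : ℕ) (hℓ : 0 < ℓ) (χ : G →* ℂ)
    (hχ : ∀ x, χ ((φ ^ m) x) = χ x) (hχℓ : ∀ x, χ x ^ ℓ = 1)
    (x : G) (hx : (φ ^ m) x = x) (hχx : χ x ≠ 1) : False := by
  -- the L-function is a polynomial
  let L : Polynomial ℂ := ∑ n ∈ range (2 * g), Polynomial.monomial n (Z.b m χ n)
  have hLcoeff : ∀ n, L.coeff n = Z.b m χ n := by
    intro n
    simp only [L]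
    rw [Polynomial.finsetSum_coeff]
    simp_rw [Polynomial.coeff_monomial]
    rw [Finset.sum_ite_eq']
    split_ifs with h
    · rfl
    · rw [Z.b_char_large hm χ hχ x hx hχx]
      simpa using h
  have hL : (L : PowerSeries ℂ) = Z.B m χ := by
    ext n; rw [Polynomial.coeff_coe, hLcoeff, B, PowerSeries.coeff_mk]
  have hL0 : L.coeff 0 = 1 := by rw [hLcoeff, Z.b_zero m χ hm hχ]
  obtain ⟨t, ht, -, -⟩ := exists_rp L hL0
  have hd1 := Z.deriv_B hm hχ
  rw [← hL, ht, deriv_rp] at hd1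
  have hne : (rp t : PowerSeries ℂ) ≠ 0 := by
    intro h
    have := rp_coeff_zero t
    rw [← Polynomial.coeff_coe, h] at this
    simp at this
  have hYY : Z.YY m χ = -(t.map geo).sum := (mul_right_cancel₀ hne hd1).symm
  have hY : ∀ k, Z.Y m χ (k + 1) = -(t.map fun α => α ^ (k + 1)).sum := by
    intro k
    have h := congrArg (PowerSeries.coeff k) hYY
    rw [map_neg, sum_geo_coeff] at h
    rw [← h]; simp [YY]
  have hY1 : ∀ k, Z.Y m 1 (k + 1) = ((q : ℂ) ^ m) ^ (k + 1) -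
      (Z.roots.map fun α => (α ^ m) ^ (k + 1)).sum := by
    intro k
    have h := congrArg (PowerSeries.coeff k) (Z.YY_eq hm)
    rw [map_sub, geo_coeff, sum_geo_coeff, Multiset.map_map] at h
    have h2 : PowerSeries.coeff k (Z.YY m 1) = Z.Y m 1 (k + 1) := by simp [YY]
    rw [← h2, h]; rfl
  -- compare
  have hcmp : ∀ k, (t.map fun α => (α ^ ℓ) ^ (k + 1)).sum + (((q : ℂ) ^ m) ^ ℓ) ^ (k + 1) =
      (Z.roots.map fun α => (α ^ (m * ℓ)) ^ (k + 1)).sum := by
    intro k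
    obtain ⟨j, hj⟩ : ∃ j, ℓ * (k + 1) = j + 1 := ⟨ℓ * (k + 1) - 1, by
      have : 0 < ℓ * (k + 1) := Nat.mul_pos hℓ (Nat.succ_pos _)
      omega⟩
    have h1 := Z.Y_tors m χ ℓ (j + 1) hm hχ hχℓ (hj ▸ Dvd.intro _ rfl) (Nat.succ_pos _)
    rw [hY, hY1, ← hj] at h1
    have e1 : (t.map fun α => (α ^ ℓ) ^ (k + 1)) = t.map fun α => α ^ (ℓ * (k + 1)) :=
      Multiset.map_congr rfl fun α _ => (pow_mul α ℓ (k + 1)).symm
    have e2 : (Z.roots.map fun α => (α ^ (m * ℓ)) ^ (k + 1)) =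
        Z.roots.map fun α => (α ^ m) ^ (ℓ * (k + 1)) :=
      Multiset.map_congr rfl fun α _ => by rw [← pow_mul, ← pow_mul]; ring_nf
    rw [e1, e2, ← pow_mul]
    linear_combination -h1
  have hEq : rp (t.map (fun α => α ^ ℓ) + {((q : ℂ) ^ m) ^ ℓ}) =
      rp (Z.roots.map (fun α => α ^ (m * ℓ))) := by
    have : (rp (t.map (fun α => α ^ ℓ) + {((q : ℂ) ^ m) ^ ℓ}) : PowerSeries ℂ) =
      (rp (Z.roots.map (fun α => α ^ (m * ℓ))) : PowerSeries ℂ) := by
      refine ode_unique _ _ _ (deriv_rp _) ?_ ?_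
      · rw [deriv_rp]
        congr 2
        ext k
        rw [sum_geo_coeff, sum_geo_coeff, Multiset.map_map, Multiset.map_add, Multiset.sum_add,
          Multiset.map_map, Multiset.map_singleton, Multiset.sum_singleton]
        exact (hcmp k).symm
      · rw [Polynomial.coeff_coe, Polynomial.coeff_coe, rp_coeff_zero, rp_coeff_zero]
    exact_mod_cast this
  have hmℓ : 0 < m * ℓ := Nat.mul_pos hm hℓ
  apply Z.P_eval_inv hmℓ
  rw [Z.P_eq hmℓ, ← hEq, rp_add, Polynomial.eval_mul]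
  have : (rp {((q : ℂ) ^ m) ^ ℓ}).eval ((q : ℂ) ^ (m * ℓ))⁻¹ = 0 := by
    rw [rp_eval, Multiset.map_singleton, Multiset.prod_singleton, ← pow_mul,
      mul_inv_cancel₀ (Z.Q_ne_zero _), sub_self]
  rw [this, mul_zero]

/-- the endomorphism of `Additive G` -/
noncomputable def fEnd (φ : MulAut G) : Module.End ℤ (Additive G) :=
  (MonoidHom.toAdditive (φ : G →* G)).toIntLinearMap

theorem fEnd_pow (m : ℕ) (x : Additive G) :
    (fEnd φ ^ m) x = Additive.ofMul ((φ ^ m) (Additive.toMul x)) := by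
  induction m generalizing x with
  | zero => rfl
  | succ m ih =>
    rw [pow_succ, Module.End.mul_apply, ih, pow_succ]
    rfl

theorem card_HH (m : ℕ) : Nat.card (HH (fEnd φ) m) = Z.N m := by
  unfold N
  apply Nat.card_congr
  refine (Additive.toMul (α := G)).subtypeEquiv ?_
  intro x
  rw [mem_HH, fEnd_pow]
  exact (Equiv.eq_symm_apply (Additive.toMul (α := G))).symm.trans Iff.rfl

include Z in
theorem valHyp (ℓ : ℕ) [hℓ : Fact ℓ.Prime] (hℓq : ¬ ℓ ∣ q) : ValHyp (fEnd φ) ℓ (2 * g) where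
  loc x := by
    obtain ⟨m, hm, h⟩ := Z.locfin (Additive.toMul x)
    exact ⟨m, hm, by rw [fEnd_pow, h]; rfl⟩
  fin m hm := by
    apply Nat.finite_of_card_ne_zero
    rw [Z.card_HH]
    exact (Z.N_pos hm).ne'
  val := by
    obtain ⟨m₀, hm₀, h⟩ := Z.exists_val ℓ hℓq
    refine ⟨m₀, hm₀, fun m hm hd => ?_⟩
    simp_rw [Z.card_HH]
    exact h m hm hd

include Z in
theorem divisible (ℓ : ℕ) [hℓ : Fact ℓ.Prime] (hℓq : ¬ ℓ ∣ q) (x : Additive G) :
    ∃ y : Additive G, ℓ • y = x := by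
  by_contra hcon
  push Not at hcon
  have h := Z.valHyp ℓ hℓq
  obtain ⟨m, hm, χ, h1, h2, x, hx, hx2⟩ := exists_char h.loc h.fin h.finite_torsion ⟨x, hcon⟩
  let χ' : G →* ℂ :=
    { toFun := fun x => χ (Additive.ofMul x)
      map_one' := by rw [ofMul_one, AddChar.map_zero_eq_one]
      map_mul' := fun a b => by rw [ofMul_mul, AddChar.map_add_eq_mul] }
  refine Z.no_char hm ℓ hℓ.out.pos χ' ?_ ?_ (Additive.toMul x) ?_ ?_
  · intro y
    have := h1 (Additive.ofMul y)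
    rwa [fEnd_pow] at this
  · intro y; exact h2 _
  · rw [fEnd_pow] at hx
    exact Additive.ofMul.injective hx
  · exact hx2

include Z in
/-- **main theorem on zeta packages** -/
theorem card_torsion (ℓ : ℕ) [hℓ : Fact ℓ.Prime] (hℓq : ¬ ℓ ∣ q) (j : ℕ) :
    Nat.card {x : G // x ^ (ℓ ^ j) = 1} = ℓ ^ (2 * g * j) := by
  have h := Z.valHyp ℓ hℓq
  have hf := h.finite_torsion
  have h1 := h.card_torsion (Z.divisible ℓ hℓq)
  obtain ⟨-, h2⟩ := card_torsion_pow (Z.divisible ℓ hℓq) j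
  rw [h1, ← pow_mul] at h2
  rw [← h2]
  apply Nat.card_congr
  refine (Additive.ofMul (α := G)).subtypeEquiv ?_
  intro x
  rw [← ofMul_pow]
  exact (Additive.ofMul.injective.eq_iff (b := 1)).symm

include Z in
theorem exists_pow_eq (ℓ : ℕ) [hℓ : Fact ℓ.Prime] (hℓq : ¬ ℓ ∣ q) (x : G) : ∃ y : G, y ^ ℓ = x := by
  obtain ⟨y, hy⟩ := Z.divisible ℓ hℓq (Additive.ofMul x)
  exact ⟨Additive.toMul y, by rw [← toMul_nsmul, hy]; rfl⟩

end ZetaPackage

end Fermat.Agent.S27
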