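import Mathlib
import Fermat.Agent.S27.Package
import Fermat.Agent.S27.ZetaMain
import Fermat.Agent.S27.TorsCount

set_option autoImplicit false
set_option linter.style.haveILetI false

/-!
# [P3]: torsion and divisibility of the class group over the algebraic closure of a finite field
-/

namespace Fermat.Agent.S27

namespace GapAlg

section

variable {k B : Type*} [Field k] [IsAlgClosed k] [CommRing B] [Algebra k B] {S : AddSubmonoid ℕ}
  [Cofin S] (G : GapAlg k B S) [IsIntegrallyClosed B]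
  (p : ℕ) [Fact p.Prime] [CharP k p] (q f : ℕ) (hq : q = p ^ f) (hf : 0 < f)
  (σ : k ≃+* k) (hσ : ∀ x, σ x = x ^ q)
  (halg : ∀ x : k, ∃ m, 0 < m ∧ x ^ (q ^ m) = x)
  (φ : B ≃+* B) (hφ : Semi G G σ φ) (l : ℕ) [Fact l.Prime] (hl : l ≠ p)

include hq hf hσ halg hφ hl

/-- [P3], torsion in the class group -/
theorem card_torsion_frob (j : ℕ) :
    haveI := G.isDedekindDomain
    Nat.card {x : ClassGroup B // x ^ (l ^ j) = 1} = l ^ (2 * gaps S * j) := by
  haveI := G.isDedekindDomain
  subst hq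
  have hlq : ¬ l ∣ p ^ f := by
    intro h
    have h1 := (Fact.out : l.Prime).dvd_of_dvd_pow h
    exact hl ((Nat.prime_dvd_prime_iff_eq Fact.out Fact.out).1 h1)
  have halg' : ∀ x : k, ∃ m, 0 < m ∧ ((σ : RingAut k) ^ m) x = x := by
    intro x
    obtain ⟨m, hm, hmx⟩ := halg x
    refine ⟨m, hm, ?_⟩
    rw [pow_apply_frob (σ := (σ : RingAut k)) hσ]
    exact hmx
  exact (zetaPackage (σ := (σ : RingAut k)) (Φ := (φ : RingAut B)) hφ hf hσ halg').card_torsion
    l hlq j

/-- [P3], divisibility of the class group -/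
theorem exists_pow_eq_frob :
    haveI := G.isDedekindDomain
    ∀ x : ClassGroup B, ∃ y, y ^ l = x := by
  haveI := G.isDedekindDomain
  subst hq
  have hlq : ¬ l ∣ p ^ f := by
    intro h
    have h1 := (Fact.out : l.Prime).dvd_of_dvd_pow h
    exact hl ((Nat.prime_dvd_prime_iff_eq Fact.out Fact.out).1 h1)
  have halg' : ∀ x : k, ∃ m, 0 < m ∧ ((σ : RingAut k) ^ m) x = x := by
    intro x
    obtain ⟨m, hm, hmx⟩ := halg x
    refine ⟨m, hm, ?_⟩
    rw [pow_apply_frob (σ := (σ : RingAut k)) hσ]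
    exact hmx
  exact (zetaPackage (σ := (σ : RingAut k)) (Φ := (φ : RingAut B)) hφ hf hσ halg').exists_pow_eq
    l hlq

/-- [P3] in terms of `TorsCount` -/
theorem torsCount_frob (j : ℕ) : TorsCount B (l ^ j) (l ^ (2 * gaps S * j)) := by
  haveI := G.isDedekindDomain
  have hl0 : 0 < l := (Fact.out : l.Prime).pos
  rw [torsCount_iff (pow_pos hl0 _) _ (pow_pos hl0 _)]
  exact G.card_torsion_frob p q f hq hf σ hσ halg φ hφ l hl j

end

end GapAlg

end Fermat.Agent.S27
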