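import Fermat.Agent.S27.UltraTors

set_option autoImplicit false
set_option linter.style.haveILetI false
set_option linter.deprecated false
set_option linter.unusedSectionVars false

/-! Transfer of `TorsCount` to ultraproducts (2). -/

namespace Fermat.Agent.S27

open Module TensorProduct Filter nonZeroDivisors

/-- data realising `TorsCount` -/
def TorsData {A : Type*} [CommRing A] (n N : ℕ) (I : Fin N → Ideal A) : Prop :=
  (∀ r, I r ≠ ⊥) ∧ (∀ r, (I r ^ n).IsPrincipal) ∧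
    (∀ r s, r ≠ s → ¬ (I r * I s ^ (n - 1)).IsPrincipal) ∧
    ∀ J : Ideal A, J ≠ ⊥ → (J ^ n).IsPrincipal → ∃ r, (J * I r ^ (n - 1)).IsPrincipal

theorem torsCount_def {A : Type*} [CommRing A] {n N : ℕ} :
    TorsCount A n N ↔ ∃ I : Fin N → Ideal A, TorsData n N I := Iff.rfl

namespace GapAlg

section reps

variable {k B : Type*} [Field k] [IsAlgClosed k] [CommRing B] [Algebra k B] {S : AddSubmonoid ℕ}
  [Cofin S] (G : GapAlg k B S)

/-- change the representatives of the torsion classes -/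
theorem TorsData.congr {A : Type*} [CommRing A] [IsDedekindDomain A] {n N : ℕ}
    {I I' : Fin N → (Ideal A)⁰} (h : TorsData n N (fun r => (I r : Ideal A)))
    (hI : ∀ r, ClassGroup.mk0 (I r) = ClassGroup.mk0 (I' r)) :
    TorsData n N (fun r => (I' r : Ideal A)) := by
  obtain ⟨h0, h1, h2, h3⟩ := h
  refine ⟨fun r => nonZeroDivisors.coe_ne_zero _, fun r => ?_, fun r s hrs => ?_, fun J hJ hJn => ?_⟩
  · rw [← mk0_pow_eq_one_iff, ← hI, mk0_pow_eq_one_iff]
    exact h1 r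
  · rw [← mk0_mul_pow_eq_one_iff, ← hI, ← hI, mk0_mul_pow_eq_one_iff]
    exact h2 r s hrs
  · obtain ⟨r, hr⟩ := h3 J hJ hJn
    refine ⟨r, ?_⟩
    let J' : (Ideal A)⁰ := ⟨J, mem_nonZeroDivisors_iff_ne_zero.mpr hJ⟩
    have := (mk0_mul_pow_eq_one_iff J' (I r) (n - 1)).mpr hr
    rw [hI] at this
    exact (mk0_mul_pow_eq_one_iff J' (I' r) (n - 1)).mp this

include G in
theorem exists_reps [IsDedekindDomain B] {n N : ℕ} (h : TorsCount B n N) :
    ∃ I : Fin N → Ideal B, TorsData n N I ∧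
      ∀ r, codim ((I r).restrictScalars k) = 2 * gaps S := by
  obtain ⟨I, hI⟩ := torsCount_def.mp h
  let I₁ : Fin N → (Ideal B)⁰ := fun r => ⟨I r, mem_nonZeroDivisors_iff_ne_zero.mpr (hI.1 r)⟩
  choose I' hI' hd using fun r => G.mem_D_of_le (ClassGroup.mk0 (I₁ r)) (le_refl (2 * gaps S))
  exact ⟨fun r => (I' r : Ideal B), TorsData.congr (I := I₁) hI (fun r => (hI' r).symm), hd⟩

end reps

section ultra

variable {R B : Type*} [CommRing R] [CommRing B] [Algebra R B] {S : AddSubmonoid ℕ} [Cofin S]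
  (G : GapAlg R B S) {ι : Type*} {U : Ultrafilter ι} {k : ι → Type*} [∀ i, Field (k i)]
  [∀ i, Algebra R (k i)] [∀ i, IsAlgClosed (k i)]

include G in
theorem Psi_pow {I : ∀ i, Ideal (k i ⊗[R] B)} {d : ℕ}
    (hDed : ∀ᶠ i in (U : Filter ι), IsIntegrallyClosed (k i ⊗[R] B))
    [IsIntegrallyClosed (Star U k ⊗[R] B)]
    (hI : ∀ᶠ i in (U : Filter ι), I i ≠ ⊥)
    (hd : ∀ᶠ i in (U : Filter ι), codim ((I i).restrictScalars (k i)) ≤ d) (m : ℕ) :
    (∀ᶠ i in (U : Filter ι), I i ^ m ≠ ⊥) ∧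
    (∀ᶠ i in (U : Filter ι), codim ((I i ^ m).restrictScalars (k i)) ≤ m * d) ∧
    Psi U k (fun i => I i ^ m) = Psi U k I ^ m := by
  induction m with
  | zero =>
    refine ⟨?_, ?_, ?_⟩
    · refine Eventually.of_forall fun i => ?_
      haveI := (G.baseChange (k i)).nontrivial
      rw [pow_zero, Ideal.one_eq_top]
      exact top_ne_bot
    · refine Eventually.of_forall fun i => ?_
      haveI := (G.baseChange (k i)).nontrivial
      rw [pow_zero, Ideal.one_eq_top, ((G.baseChange (k i)).codim_eq_zero_iff top_ne_bot).mpr rfl]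
      exact Nat.zero_le _
    · rw [pow_zero, Ideal.one_eq_top, Ideal.eq_top_iff_one,
        ← map_one (qq (R := R) (B := B) U k), G.qq_mem_Psi]
      refine Eventually.of_forall fun i => ?_
      rw [pow_zero, Ideal.one_eq_top]
      trivial
  | succ m ih =>
    obtain ⟨h1, h2, h3⟩ := ih
    obtain ⟨h4, h5, h6⟩ := G.Psi_mul hDed h1 h2 hI hd
    simp only [pow_succ]
    refine ⟨h4, ?_, ?_⟩
    · filter_upwards [h5] with i hi
      calc _ ≤ m * d + d := hi
        _ = (m + 1) * d := by ring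
    · rw [h6, h3]

include G in
theorem torsCount_star [Algebra.FinitePresentation R B] {n N : ℕ}
    (hDed : ∀ᶠ i in (U : Filter ι), IsIntegrallyClosed (k i ⊗[R] B))
    [IsIntegrallyClosed (Star U k ⊗[R] B)]
    (h : ∀ᶠ i in (U : Filter ι), TorsCount (k i ⊗[R] B) n N) :
    TorsCount (Star U k ⊗[R] B) n N := by
  classical
  have hex : ∀ i, ∃ I : Fin N → Ideal (k i ⊗[R] B), IsIntegrallyClosed (k i ⊗[R] B) →
      TorsCount (k i ⊗[R] B) n N → TorsData n N I ∧
      ∀ r, codim ((I r).restrictScalars (k i)) = 2 * gaps S := by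
    intro i
    by_cases h1 : IsIntegrallyClosed (k i ⊗[R] B) ∧ TorsCount (k i ⊗[R] B) n N
    · haveI := h1.1
      haveI := (G.baseChange (k i)).isDedekindDomain
      obtain ⟨I, hI⟩ := (G.baseChange (k i)).exists_reps h1.2
      exact ⟨I, fun _ _ => hI⟩
    · exact ⟨fun _ => ⊤, fun h2 h3 => absurd ⟨h2, h3⟩ h1⟩
  choose I hI using hex
  have hev : ∀ᶠ i in (U : Filter ι), TorsData n N (I i) ∧
      ∀ r, codim ((I i r).restrictScalars (k i)) = 2 * gaps S := by
    filter_upwards [hDed, h] with i h1 h2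
    exact hI i h1 h2
  have h0 : ∀ r, ∀ᶠ i in (U : Filter ι), I i r ≠ ⊥ := fun r => by
    filter_upwards [hev] with i hi
    exact hi.1.1 r
  have hd : ∀ r, ∀ᶠ i in (U : Filter ι), codim ((I i r).restrictScalars (k i)) ≤ 2 * gaps S :=
    fun r => by
      filter_upwards [hev] with i hi
      exact (hi.2 r).le
  refine ⟨fun r => Psi U k (fun i => I i r), fun r => G.Psi_ne_bot (h0 r) (hd r), fun r => ?_,
    fun r s hrs hp => ?_, fun J hJ hJn => ?_⟩
  · obtain ⟨h1, h2, h3⟩ := G.Psi_pow hDed (h0 r) (hd r) n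
    obtain ⟨i, h4, h5⟩ := ((G.isPrincipal_Psi_iff h1 h2).and hev).exists
    rw [← h3, ← h4]
    exact h5.1.2.1 r
  · obtain ⟨h1, h2, h3⟩ := G.Psi_pow hDed (h0 s) (hd s) (n - 1)
    obtain ⟨h4, h5, h6⟩ := G.Psi_mul hDed (h0 r) (hd r) h1 h2
    obtain ⟨i, h7, h8⟩ := ((G.isPrincipal_Psi_iff h4 h5).and hev).exists
    rw [h6, h3] at h7
    exact h8.1.2.2.1 r s hrs (h7.mpr hp)
  · obtain ⟨K, d, hK, hdK, rfl⟩ := G.good_of_ne_bot hDed J hJ
    obtain ⟨h1, h2, h3⟩ := G.Psi_pow hDed hK hdK n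
    have h4 : ∀ᶠ i in (U : Filter ι), ∃ r, (K i * I i r ^ (n - 1)).IsPrincipal := by
      filter_upwards [G.isPrincipal_Psi_iff h1 h2, hev, hK] with i h5 h6 h7
      rw [h3] at h5
      exact h6.1.2.2.2 (K i) h7 (h5.mpr hJn)
    have h5 : ∃ r, ∀ᶠ i in (U : Filter ι), (K i * I i r ^ (n - 1)).IsPrincipal := by
      have := (Ultrafilter.eventually_exists_iff (f := U)
        (P := fun (r : Fin N) i => (K i * I i r ^ (n - 1)).IsPrincipal)).mp h4
      exact this
    obtain ⟨r, hr⟩ := h5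
    refine ⟨r, ?_⟩
    obtain ⟨h6, h7, h8⟩ := G.Psi_pow hDed (h0 r) (hd r) (n - 1)
    obtain ⟨h9, h10, h11⟩ := G.Psi_mul hDed hK hdK h6 h7
    obtain ⟨i, h12, h13⟩ := ((G.isPrincipal_Psi_iff h9 h10).and hr).exists
    rw [h11, h8] at h12
    exact h12.mp h13

end ultra

end GapAlg

end Fermat.Agent.S27
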