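import Mathlib
import Fermat.Agent.S27.P3
import Fermat.Agent.S27.UltraCount

set_option autoImplicit false
set_option linter.unusedSectionVars false
set_option linter.style.haveILetI false

/-!
# Residue fields of rings of finite type over `ℤ`
-/

namespace Fermat.Agent.S27

open Module TensorProduct Filter

theorem isJacobsonRing_int : IsJacobsonRing ℤ := by
  rw [isJacobsonRing_iff_prime_eq]
  intro P hP
  by_cases h0 : P = ⊥
  · subst h0
    apply le_antisymm _ Ideal.le_jacobson
    intro n hn
    by_contra hn0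
    have hn0' : n ≠ 0 := hn0
    obtain ⟨p, hp, hpp⟩ := Nat.exists_infinite_primes (n.natAbs + 1)
    have hmax : (Ideal.span {(p : ℤ)}).IsMaximal :=
      PrincipalIdealRing.isMaximal_of_irreducible (Nat.prime_iff_prime_int.1 hpp).irreducible
    have h1 : n ∈ Ideal.span {(p : ℤ)} := by
      rw [Ideal.jacobson, Ideal.mem_sInf] at hn
      exact hn ⟨bot_le, hmax⟩
    rw [Ideal.mem_span_singleton] at h1
    have h2 := Int.natAbs_dvd_natAbs.2 h1
    rw [Int.natAbs_natCast] at h2
    have h3 := Nat.le_of_dvd (Int.natAbs_pos.2 hn0') h2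
    omega
  · have : P.IsMaximal := hP.isMaximal h0
    exact Ideal.jacobson_eq_self_of_isMaximal

theorem finite_of_field_of_finiteType_int (F : Type*) [Field F] [Algebra.FiniteType ℤ F] :
    Finite F := by
  haveI := isJacobsonRing_int
  have hfin : Module.Finite ℤ F := finite_of_finite_type_of_isJacobsonRing ℤ F
  have hchar : ¬ CharZero F := by
    intro hc
    have hint : Algebra.IsIntegral ℤ F := Algebra.IsIntegral.of_finite ℤ F
    have hinj : Function.Injective (algebraMap ℤ F) := by
      rw [algebraMap_int_eq]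
      exact RingHom.injective_int _
    have h1 : IsField ℤ := isField_of_isIntegral_of_isField hinj (Field.toIsField F)
    exact Int.not_isField h1
  obtain ⟨p, hp⟩ := CharP.exists F
  have hp0 : p ≠ 0 := by
    rintro rfl
    exact hchar (CharP.charP_to_charZero F)
  haveI : Fact p.Prime := ⟨(CharP.char_is_prime_or_zero F p).resolve_right hp0⟩
  letI := ZMod.algebra F p
  haveI : Module.Finite (ZMod p) F := Module.Finite.of_restrictScalars_finite ℤ (ZMod p) F
  exact Module.finite_of_finite (ZMod p)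

/-- `k` is an algebraic closure of a finite field, with a Frobenius fixing the image of `R` -/
structure IsFbar (R k : Type*) [CommRing R] [Field k] [Algebra R k] : Prop where
  isAlgClosed : IsAlgClosed k
  frob : ∃ p f, p.Prime ∧ CharP k p ∧ 0 < f ∧
    (∀ x : k, ∃ m, 0 < m ∧ x ^ ((p ^ f) ^ m) = x) ∧
    ∀ r : R, (algebraMap R k r) ^ (p ^ f) = algebraMap R k r

theorem exists_isFbar_of_finite (F : Type*) [Field F] [Finite F] :
    IsFbar F (AlgebraicClosure F) := by
  classical
  haveI := Fintype.ofFinite F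
  obtain ⟨p, hp⟩ := CharP.exists F
  haveI : Fact p.Prime := ⟨CharP.char_is_prime F p⟩
  obtain ⟨f, hf, hcard⟩ := FiniteField.card F p
  refine ⟨inferInstance, p, f, Fact.out, charP_of_injective_algebraMap
    (algebraMap F (AlgebraicClosure F)).injective p, f.pos, ?_, ?_⟩
  · intro x
    -- x lies in the finite field F(x)
    have hx : IsIntegral F x := Algebra.IsIntegral.isIntegral x
    haveI : FiniteDimensional F (IntermediateField.adjoin F {x}) :=
      IntermediateField.adjoin.finiteDimensional hx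
    haveI : Finite (IntermediateField.adjoin F {x}) := Module.finite_of_finite F
    haveI := Fintype.ofFinite (IntermediateField.adjoin F {x})
    have h1 : Fintype.card (IntermediateField.adjoin F {x}) =
        Fintype.card F ^ Module.finrank F (IntermediateField.adjoin F {x}) :=
      Module.card_eq_pow_finrank
    refine ⟨Module.finrank F (IntermediateField.adjoin F {x}), Module.finrank_pos, ?_⟩
    have h2 := FiniteField.pow_card (K := IntermediateField.adjoin F {x})
      ⟨x, IntermediateField.mem_adjoin_simple_self F x⟩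
    rw [h1, hcard] at h2
    exact congrArg Subtype.val h2
  · intro r
    rw [← map_pow, ← hcard, FiniteField.pow_card]

theorem IsFbar.of_tower {R F k : Type*} [CommRing R] [CommRing F] [Field k] [Algebra R F]
    [Algebra F k] [Algebra R k] [IsScalarTower R F k] (h : IsFbar F k) : IsFbar R k := by
  obtain ⟨h1, p, f, hp, hc, hf, h2, h3⟩ := h
  refine ⟨h1, p, f, hp, hc, hf, h2, fun r => ?_⟩
  rw [IsScalarTower.algebraMap_apply R F k]
  exact h3 _

section

variable {R k B : Type*} [CommRing R] [Field k] [Algebra R k] [CommRing B] [Algebra R B]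
  {S : AddSubmonoid ℕ} [Cofin S] (G : GapAlg R B S)

include G in
/-- the Frobenius data on `k ⊗ B` -/
theorem IsFbar.exists_semi (h : IsFbar R k) : ∃ (p f : ℕ) (σ : k ≃+* k)
    (φ : (k ⊗[R] B) ≃+* (k ⊗[R] B)), p.Prime ∧ CharP k p ∧ 0 < f ∧ (∀ x, σ x = x ^ (p ^ f)) ∧
      (∀ x : k, ∃ m, 0 < m ∧ x ^ ((p ^ f) ^ m) = x) ∧
      GapAlg.Semi (G.baseChange k) (G.baseChange k) σ φ := by
  obtain ⟨h1, p, f, hp, hc, hf, h2, h3⟩ := h
  haveI : Fact p.Prime := ⟨hp⟩
  let fr : k →ₐ[R] k := { iterateFrobenius k p f with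
    commutes' := fun r => by
      change iterateFrobenius k p f (algebraMap R k r) = _
      rw [iterateFrobenius_def]
      exact h3 r }
  have hfr : ∀ x, fr x = x ^ (p ^ f) := fun x => iterateFrobenius_def p f x
  have hbij : Function.Bijective fr := by
    refine ⟨fr.toRingHom.injective, fun x => ?_⟩
    obtain ⟨m, hm, hmx⟩ := h2 x
    obtain ⟨m, rfl⟩ : ∃ m', m = m' + 1 := ⟨m - 1, by omega⟩
    refine ⟨x ^ ((p ^ f) ^ m), ?_⟩
    rw [hfr, ← pow_mul, ← pow_succ]
    exact hmx
  let σ : k ≃ₐ[R] k := AlgEquiv.ofBijective fr hbij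
  exact ⟨p, f, σ, GapAlg.bcEquiv B σ, hp, hc, hf, fun x => hfr x, h2, G.semi_bcEquiv σ⟩

include G in
/-- [P3] for `k ⊗ B` -/
theorem IsFbar.torsCount (h : IsFbar R k) [IsIntegrallyClosed (k ⊗[R] B)] (l : ℕ) [Fact l.Prime]
    (hl : (l : k) ≠ 0) (j : ℕ) : TorsCount (k ⊗[R] B) (l ^ j) (l ^ (2 * gaps S * j)) := by
  haveI := h.isAlgClosed
  obtain ⟨p, f, σ, φ, hp, hc, hf, hσ, halg, hφ⟩ := h.exists_semi G
  haveI : Fact p.Prime := ⟨hp⟩
  exact (G.baseChange k).torsCount_frob p (p ^ f) f rfl hf σ hσ halg φ hφ l (by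
    rintro rfl
    exact hl (CharP.cast_eq_zero k l)) j

include G in
/-- divisibility for `k ⊗ B` -/
theorem IsFbar.exists_pow_eq (h : IsFbar R k) [IsIntegrallyClosed (k ⊗[R] B)] (l : ℕ)
    [Fact l.Prime] (hl : (l : k) ≠ 0) :
    haveI := h.isAlgClosed
    haveI := (G.baseChange k).isDedekindDomain
    ∀ x : ClassGroup (k ⊗[R] B), ∃ y, y ^ l = x := by
  haveI := h.isAlgClosed
  obtain ⟨p, f, σ, φ, hp, hc, hf, hσ, halg, hφ⟩ := h.exists_semi G
  haveI : Fact p.Prime := ⟨hp⟩
  exact (G.baseChange k).exists_pow_eq_frob p (p ^ f) f rfl hf σ hσ halg φ hφ l (by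
    rintro rfl
    exact hl (CharP.cast_eq_zero k l))

end

end Fermat.Agent.S27
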