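import Mathlib
import Fermat.Agent.S27.Residue

set_option autoImplicit false
set_option linter.unusedSectionVars false
set_option linter.style.haveILetI false

/-!
# A system of residue fields of a field `K` of characteristic zero and the embedding of `K`
in their ultraproduct
-/

namespace Fermat.Agent.S27

open Module TensorProduct Filter

universe u

section

variable {K : Type u} [Field K] (R : Subalgebra ℤ K)

/-- finitely generated subrings containing `R` -/
structure Idx (R : Subalgebra ℤ K) : Type u where
  ring : Subalgebra ℤ K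
  fg : ring.FG
  le : R ≤ ring

instance : Preorder (Idx R) := Preorder.lift Idx.ring

variable {R}

theorem Idx.le_def {i j : Idx R} : i ≤ j ↔ i.ring ≤ j.ring := Iff.rfl

instance Idx.directed : IsDirectedOrder (Idx R) :=
  ⟨fun i j => ⟨⟨i.ring ⊔ j.ring, i.fg.sup j.fg, i.le.trans le_sup_left⟩, by
    rw [Idx.le_def]; exact le_sup_left, by rw [Idx.le_def]; exact le_sup_right⟩⟩

theorem Idx.nonempty (hR : R.FG) : Nonempty (Idx R) := ⟨⟨R, hR, le_rfl⟩⟩

theorem Idx.exists_mem (i : Idx R) (a : K) : ∃ j : Idx R, i ≤ j ∧ a ∈ j.ring :=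
  ⟨⟨i.ring ⊔ Algebra.adjoin ℤ {a}, i.fg.sup ⟨{a}, by simp⟩, i.le.trans le_sup_left⟩, by
    rw [Idx.le_def]; exact le_sup_left,
    (le_sup_right : Algebra.adjoin ℤ {a} ≤ i.ring ⊔ Algebra.adjoin ℤ {a})
      (Algebra.self_mem_adjoin_singleton ℤ a)⟩

/-- a maximal ideal -/
noncomputable def Idx.max (i : Idx R) : Ideal i.ring := (Ideal.exists_maximal i.ring).choose

instance Idx.max_isMaximal (i : Idx R) : i.max.IsMaximal :=
  (Ideal.exists_maximal i.ring).choose_spec

/-- residue field -/
def Idx.res (i : Idx R) : Type u := i.ring ⧸ i.max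

noncomputable instance (i : Idx R) : Field i.res := Ideal.Quotient.field i.max

/-- reduction -/
noncomputable def Idx.red (i : Idx R) : i.ring →+* i.res := Ideal.Quotient.mk i.max

noncomputable instance (i : Idx R) : Algebra i.ring i.res := i.red.toAlgebra

instance (i : Idx R) : Finite i.res := by
  haveI : Algebra.FiniteType ℤ i.ring := (Subalgebra.fg_iff_finiteType _).1 i.fg
  haveI : Algebra.FiniteType ℤ i.res :=
    Algebra.FiniteType.of_surjective (i.red.toIntAlgHom) (by exact Ideal.Quotient.mk_surjective)
  exact finite_of_field_of_finiteType_int i.res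

/-- algebraic closure of the residue field -/
def Idx.k (i : Idx R) : Type u := AlgebraicClosure i.res

noncomputable instance (i : Idx R) : Field i.k := inferInstanceAs (Field (AlgebraicClosure i.res))

noncomputable instance (i : Idx R) : Algebra i.res i.k :=
  inferInstanceAs (Algebra i.res (AlgebraicClosure i.res))

/-- the map from the ring to `k` -/
noncomputable def Idx.toK (i : Idx R) : i.ring →+* i.k := (algebraMap i.res i.k).comp i.red

noncomputable instance (i : Idx R) : Algebra R i.k :=
  (i.toK.comp (Subalgebra.inclusion i.le : R →ₐ[ℤ] i.ring).toRingHom).toAlgebra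

theorem Idx.algebraMap_k (i : Idx R) (r : R) :
    algebraMap R i.k r = i.toK ⟨r, i.le r.2⟩ := rfl

theorem Idx.isFbar (i : Idx R) : IsFbar R i.k := by
  have h : IsFbar i.res i.k := exists_isFbar_of_finite i.res
  letI : Algebra R i.res :=
    (i.red.comp (Subalgebra.inclusion i.le : R →ₐ[ℤ] i.ring).toRingHom).toAlgebra
  haveI : IsScalarTower R i.res i.k := IsScalarTower.of_algebraMap_eq fun r => rfl
  exact IsFbar.of_tower h

instance (i : Idx R) : IsAlgClosed i.k := i.isFbar.isAlgClosed

open Classical in
/-- extension by zero to `K` -/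
noncomputable def Idx.ext (i : Idx R) (a : K) : i.k := if h : a ∈ i.ring then i.toK ⟨a, h⟩ else 0

theorem Idx.ext_of_mem (i : Idx R) {a : K} (h : a ∈ i.ring) : i.ext a = i.toK ⟨a, h⟩ := dif_pos h

/-- an ultrafilter containing all cones -/
noncomputable def idxU (hR : R.FG) : Ultrafilter (Idx R) :=
  haveI := Idx.nonempty hR
  Ultrafilter.of (atTop : Filter (Idx R))

theorem eventually_mem (hR : R.FG) (a : K) :
    ∀ᶠ i in (idxU hR : Filter (Idx R)), a ∈ i.ring := by
  haveI := Idx.nonempty hR
  have h : ∀ᶠ i in (atTop : Filter (Idx R)), a ∈ i.ring := by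
    obtain ⟨j, -, hj⟩ := Idx.exists_mem (Classical.arbitrary (Idx R)) a
    filter_upwards [eventually_ge_atTop j] with i hi
    exact hi hj
  exact Ultrafilter.of_le _ h

/-- embedding of `K` into the ultraproduct -/
noncomputable def toStar (hR : R.FG) : K →+* Star (idxU hR) (fun i : Idx R => i.k) where
  toFun a := Star.mk _ _ (fun i => i.ext a)
  map_one' := by
    rw [← map_one (Star.mk (idxU hR) (fun i : Idx R => i.k)), Star.mk_eq_iff]
    refine Eventually.of_forall fun i => ?_
    rw [i.ext_of_mem (one_mem _)]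
    exact map_one i.toK
  map_zero' := by
    rw [Star.mk_eq_zero_iff]
    refine Eventually.of_forall fun i => ?_
    rw [i.ext_of_mem (zero_mem _)]
    exact map_zero i.toK
  map_mul' a b := by
    rw [← map_mul, Star.mk_eq_iff]
    filter_upwards [eventually_mem hR a, eventually_mem hR b] with i ha hb
    rw [Pi.mul_apply, i.ext_of_mem ha, i.ext_of_mem hb, i.ext_of_mem (mul_mem ha hb), ← map_mul]
    rfl
  map_add' a b := by
    rw [← map_add, Star.mk_eq_iff]
    filter_upwards [eventually_mem hR a, eventually_mem hR b] with i ha hb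
    rw [Pi.add_apply, i.ext_of_mem ha, i.ext_of_mem hb, i.ext_of_mem (add_mem ha hb), ← map_add]
    rfl

/-- embedding of `K` into the ultraproduct, as `R`-algebra map -/
noncomputable def toStarₐ (hR : R.FG) : K →ₐ[R] Star (idxU hR) (fun i : Idx R => i.k) :=
  { toStar hR with
    commutes' := fun r => by
      change Star.mk _ _ (fun i : Idx R => i.ext (r : K)) = _
      rw [Star.algebraMap_apply]
      congr 1
      funext i
      rw [i.ext_of_mem (i.le r.2)]
      rfl }

theorem Idx.natCast_ne_zero (i : Idx R) {l : ℕ} (h : ∃ r : R, (l : R) * r = 1) :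
    (l : i.k) ≠ 0 := by
  obtain ⟨r, hr⟩ := h
  intro h0
  have h1 := congrArg (algebraMap R i.k) hr
  rw [map_mul, map_natCast, h0, zero_mul, map_one] at h1
  exact zero_ne_one h1

end

/-- the residue system of a field -/
theorem exists_residue_system {K : Type u} [Field K] (R : Subalgebra ℤ K) (hR : R.FG) :
    ∃ (ι : Type u) (U : Ultrafilter ι) (k : ι → Type u) (_ : ∀ i, Field (k i))
      (_ : ∀ i, Algebra R (k i)) (_ : K →ₐ[R] Star U k), ∀ i, IsFbar R (k i) :=
  ⟨Idx R, idxU hR, fun i => i.k, inferInstance, inferInstance, toStarₐ hR, fun i => i.isFbar⟩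

end Fermat.Agent.S27
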