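import Fermat.Agent.S27.UltraReg
import Fermat.Agent.S27.System
import Fermat.Agent.S27.Model2

set_option autoImplicit false
set_option linter.style.haveILetI false
set_option linter.deprecated false
set_option linter.unusedSectionVars false

/-! # [P4]: torsion and divisibility of the class group of a `GapAlg` over an algebraically closed
field. -/

namespace Fermat.Agent.S27

open Module TensorProduct Filter nonZeroDivisors

universe u

section transport

variable {A A' : Type*} [CommRing A] [CommRing A'] (e : A ≃+* A')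

theorem isPrincipal_map_of {I : Ideal A} (h : I.IsPrincipal) :
    (I.map (e : A →+* A')).IsPrincipal := by
  obtain ⟨x, rfl⟩ := h
  refine ⟨e x, ?_⟩
  show Ideal.map (e : A →+* A') (Ideal.span {x}) = Ideal.span {e x}
  rw [Ideal.map_span, Set.image_singleton]; rfl

theorem map_map_symm (I : Ideal A) :
    (I.map (e : A →+* A')).map (e.symm : A' →+* A) = I := by
  rw [Ideal.map_map]
  convert Ideal.map_id I
  ext x
  simp

theorem isPrincipal_map_iff {I : Ideal A} :
    (I.map (e : A →+* A')).IsPrincipal ↔ I.IsPrincipal := by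
  constructor
  · intro h
    rw [← map_map_symm e I]
    exact isPrincipal_map_of e.symm h
  · exact isPrincipal_map_of e

theorem map_ne_bot_of {I : Ideal A} (h : I ≠ ⊥) : I.map (e : A →+* A') ≠ ⊥ := by
  intro h'
  apply h
  rw [← map_map_symm e I, h', Ideal.map_bot]

include e in
theorem TorsCount.of_ringEquiv {n N : ℕ} (h : TorsCount A n N) : TorsCount A' n N := by
  obtain ⟨I, h0, h1, h2, h3⟩ := h
  refine ⟨fun r => (I r).map (e : A →+* A'), fun r => map_ne_bot_of e (h0 r), fun r => ?_,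
    fun r s hrs hp => ?_, fun J hJ hJn => ?_⟩
  · rw [← Ideal.map_pow, isPrincipal_map_iff]
    exact h1 r
  · rw [← Ideal.map_pow, ← Ideal.map_mul, isPrincipal_map_iff] at hp
    exact h2 r s hrs hp
  · obtain ⟨J, rfl⟩ : ∃ J', J = Ideal.map (e : A →+* A') J' := by
      refine ⟨J.map (e.symm : A' →+* A), ?_⟩
      exact (map_map_symm e.symm J).symm
    rw [← Ideal.map_pow, isPrincipal_map_iff] at hJn
    obtain ⟨r, hr⟩ := h3 J (by rintro rfl; exact hJ Ideal.map_bot) hJn
    refine ⟨r, ?_⟩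
    rw [← Ideal.map_pow, ← Ideal.map_mul, isPrincipal_map_iff]
    exact hr

include e in
theorem DivBy.of_ringEquiv {n : ℕ} (h : DivBy A n) : DivBy A' n := by
  intro J hJ
  obtain ⟨J, rfl⟩ : ∃ J', J = Ideal.map (e : A →+* A') J' := by
    refine ⟨J.map (e.symm : A' →+* A), ?_⟩
    exact (map_map_symm e.symm J).symm
  obtain ⟨I, hI, hp⟩ := h J (by rintro rfl; exact hJ Ideal.map_bot)
  refine ⟨I.map (e : A →+* A'), map_ne_bot_of e hI, ?_⟩
  rw [← Ideal.map_pow, ← Ideal.map_mul, isPrincipal_map_iff]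
  exact hp

end transport

theorem divBy_of_exists_pow_eq {A : Type*} [CommRing A] [IsDedekindDomain A] {n : ℕ}
    (h : ∀ x : ClassGroup A, ∃ y, y ^ n = x) : DivBy A n := by
  intro J hJ
  obtain ⟨y, hy⟩ := h (ClassGroup.mk0 (GapAlg.nz J hJ))⁻¹
  obtain ⟨I, rfl⟩ := ClassGroup.mk0_surjective y
  refine ⟨I, nonZeroDivisors.coe_ne_zero I, ?_⟩
  refine (mk0_mul_pow_eq_one_iff (GapAlg.nz J hJ) I n).mp ?_
  rw [hy, mul_inv_cancel]

theorem exists_pow_of_divBy {A : Type*} [CommRing A] [IsDedekindDomain A] {n : ℕ}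
    (h : DivBy A n) (x : ClassGroup A) : ∃ y, y ^ n = x := by
  obtain ⟨J, rfl⟩ := ClassGroup.mk0_surjective x
  obtain ⟨I, hI, hp⟩ := h J (nonZeroDivisors.coe_ne_zero J)
  refine ⟨(ClassGroup.mk0 (GapAlg.nz I hI))⁻¹, ?_⟩
  have := (mk0_mul_pow_eq_one_iff J (GapAlg.nz I hI) n).mpr hp
  rw [inv_pow, inv_eq_iff_mul_eq_one, mul_comm]
  exact this

theorem exists_pow_pow {C : Type*} [CommGroup C] {l : ℕ} (h : ∀ x : C, ∃ y, y ^ l = x) (j : ℕ) :
    ∀ x : C, ∃ y, y ^ (l ^ j) = x := by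
  induction j with
  | zero => intro x; exact ⟨x, by simp⟩
  | succ j ih =>
    intro x
    obtain ⟨y, hy⟩ := ih x
    obtain ⟨z, hz⟩ := h y
    refine ⟨z, ?_⟩
    rw [pow_succ', pow_mul, hz, hy]

section core

variable {K : Type*} [Field K] [IsAlgClosed K] {R : Type*} [CommRing R] [Algebra R K]
  {ι : Type*} {U : Ultrafilter ι} {k : ι → Type*} [∀ i, Field (k i)] [∀ i, Algebra R (k i)]
  (f : K →ₐ[R] Star U k) (hF : ∀ i, IsFbar R (k i))
  {B : Type*} [CommRing B] [Algebra R B] [Algebra.FinitePresentation R B]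
  {S : AddSubmonoid ℕ} [Cofin S] (G : GapAlg R B S) [IsIntegrallyClosed (K ⊗[R] B)]
  (l : ℕ) [Fact l.Prime]

include f hF G in
theorem p4_core (hl : ∀ i, (l : k i) ≠ 0) (j : ℕ) :
    TorsCount (K ⊗[R] B) (l ^ j) (l ^ (2 * gaps S * j)) ∧ DivBy (K ⊗[R] B) (l ^ j) := by
  have hl0 : 0 < l := (Fact.out : l.Prime).pos
  haveI := fun i => (hF i).isAlgClosed
  letI : Algebra K (Star U k) := f.toRingHom.toAlgebra
  haveI : IsScalarTower R K (Star U k) :=
    IsScalarTower.of_algebraMap_eq fun r => (f.commutes r).symm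
  let e : Star U k ⊗[K] (K ⊗[R] B) ≃+* Star U k ⊗[R] B :=
    (Algebra.TensorProduct.cancelBaseChange R K (Star U k) (Star U k) B).toRingEquiv
  haveI h1 : IsIntegrallyClosed (Star U k ⊗[K] (K ⊗[R] B)) :=
    (G.baseChange K).isIntegrallyClosed_baseChange (L := Star U k)
  haveI h2 : IsIntegrallyClosed (Star U k ⊗[R] B) := IsIntegrallyClosed.of_equiv e
  have h3 : ∀ᶠ i in (U : Filter ι), IsIntegrallyClosed (k i ⊗[R] B) :=
    G.eventually_isIntegrallyClosed
  have h4 : ∀ᶠ i in (U : Filter ι), TorsCount (k i ⊗[R] B) (l ^ j) (l ^ (2 * gaps S * j)) := by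
    filter_upwards [h3] with i hi
    exact (hF i).torsCount G l (hl i) j
  have h5 : ∀ᶠ i in (U : Filter ι), DivBy (k i ⊗[R] B) (l ^ j) := by
    filter_upwards [h3] with i hi
    haveI := (G.baseChange (k i)).isDedekindDomain
    apply divBy_of_exists_pow_eq
    apply exists_pow_pow
    exact (hF i).exists_pow_eq G l (hl i)
  have h6 := G.torsCount_star h3 h4
  have h7 := G.divBy_star h3 h5
  haveI := ((G.baseChange K).baseChange (Star U k)).isDedekindDomain
  have h8 := TorsCount.of_ringEquiv e.symm h6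
  have h9 := DivBy.of_ringEquiv e.symm h7
  exact ⟨(G.baseChange K).torsCount_descend (pow_pos hl0 _) (pow_pos hl0 _) h8,
    (G.baseChange K).divBy_descend (pow_pos hl0 _) (pow_pos hl0 _) h8 h9⟩

end core

namespace GapAlg

variable {K : Type u} [Field K] [IsAlgClosed K] {A : Type*} [CommRing A] [Algebra K A]
  {S : AddSubmonoid ℕ} [Cofin S] (G : GapAlg K A S) [IsIntegrallyClosed A]
  (l : ℕ) [Fact l.Prime]

include G in
/-- **[P4]** -/
theorem p4 (hl : (l : K) ≠ 0) (j : ℕ) :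
    TorsCount A (l ^ j) (l ^ (2 * gaps S * j)) ∧ DivBy A (l ^ j) := by
  obtain ⟨R, B, G', hR, hT, -, hfp, ⟨e⟩⟩ := exists_model G {(l : K)⁻¹} (Set.finite_singleton _)
  haveI : IsIntegrallyClosed (K ⊗[R] B) := IsIntegrallyClosed.of_equiv e.symm.toRingEquiv
  have hl' : ∃ r : R, (l : R) * r = 1 := by
    refine ⟨⟨(l : K)⁻¹, hT rfl⟩, ?_⟩
    apply Subtype.ext
    show ((l : R) : K) * (l : K)⁻¹ = 1
    rw [show (((l : ℕ) : R) : K) = (l : K) by simp, mul_inv_cancel₀ hl]
  obtain ⟨h1, h2⟩ := p4_core (toStarₐ hR) (fun i => i.isFbar) G' l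
    (fun i => i.natCast_ne_zero hl') j
  exact ⟨TorsCount.of_ringEquiv e.toRingEquiv h1, DivBy.of_ringEquiv e.toRingEquiv h2⟩

end GapAlg

end Fermat.Agent.S27
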