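import Fermat.Agent.S27.P1
import Fermat.Agent.S27.P4

set_option autoImplicit false
set_option linter.unusedSectionVars false

/-!
# Torsion and divisibility of `Pic0` of a curve over an algebraically closed field, away from
the characteristic
-/

open AlgebraicCurve

namespace Fermat.Agent.S27

variable (K F : Type*) [Field K] [Field F] [Algebra K F] [IsAlgClosed K]

theorem pic0_primePow [FF.IsFF K F] (l : ℕ) [Fact l.Prime] (hl : (l : K) ≠ 0) (j : ℕ) :
    Nat.card (Pic0.torsion K F (l ^ j)) = l ^ (2 * genusFF K F * j) ∧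
      ∀ x : Pic0 K F, ∃ y, (l ^ j) • y = x := by
  obtain ⟨A, S, hS, G, hic, hg, htors, hdiv⟩ := exists_gapAlg K F
  have hl0 : 0 < l := (Fact.out : l.Prime).pos
  rw [← hg]
  have h := G.p4 l hl j
  exact ⟨htors _ _ (pow_pos hl0 _) (pow_pos hl0 _) h.1, hdiv _ h.2⟩

/-- abstract counting lemma: if `G` is `m`-divisible then `#G[mn] = #G[m] * #G[n]`. -/
theorem natCard_torsion_mul {G : Type*} [AddCommGroup G] (m n : ℕ)
    (hdiv : ∀ x : G, ∃ y, m • y = x) :
    Nat.card {x : G // (m * n) • x = 0} = Nat.card {x : G // m • x = 0} *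
      Nat.card {x : G // n • x = 0} := by
  let T : ℕ → AddSubgroup G := fun k => (zsmulAddGroupHom (α := G) (k : ℤ)).ker
  have hT : ∀ k x, x ∈ T k ↔ k • x = 0 := by
    intro k x
    change (k : ℤ) • x = 0 ↔ _
    rw [natCast_zsmul]
  let f : T (m * n) →+ T n :=
    { toFun := fun x => ⟨m • (x : G), by
        rw [hT, ← mul_smul, mul_comm]
        exact (hT _ _).1 x.2⟩
      map_zero' := Subtype.ext (smul_zero m)
      map_add' := fun x y => Subtype.ext (smul_add m (x : G) y) }
  have hf : Function.Surjective f := by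
    rintro ⟨y, hy⟩
    obtain ⟨x, hx⟩ := hdiv y
    refine ⟨⟨x, ?_⟩, Subtype.ext hx⟩
    rw [hT, mul_comm, mul_smul, hx]
    exact (hT _ _).1 hy
  have hker : Nat.card f.ker = Nat.card (T m) := by
    refine Nat.card_congr ⟨fun x => ⟨(x.1 : G), ?_⟩, fun x => ⟨⟨(x : G), ?_⟩, ?_⟩, ?_, ?_⟩
    · rw [hT]; exact congrArg Subtype.val x.2
    · rw [hT, mul_comm, mul_smul, (hT _ _).1 x.2, smul_zero]
    · exact Subtype.ext ((hT _ _).1 x.2)
    · intro x; rfl
    · intro x; rfl
  have h1 := AddSubgroup.card_eq_card_quotient_mul_card_addSubgroup f.ker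
  have h2 : Nat.card (T (m * n) ⧸ f.ker) = Nat.card (T n) :=
    Nat.card_congr (QuotientAddGroup.quotientKerEquivOfSurjective f hf).toEquiv
  rw [h2, hker] at h1
  have h3 : ∀ k, Nat.card {x : G // k • x = 0} = Nat.card (T k) := fun k =>
    Nat.card_congr (Equiv.subtypeEquivRight fun x => (hT k x).symm)
  rw [h3, h3, h3, h1, mul_comm]

theorem natCard_pic0_torsion (n : ℕ) :
    Nat.card (Pic0.torsion K F n) = Nat.card {x : Pic0 K F // n • x = 0} :=
  Nat.card_congr (Equiv.subtypeEquivRight fun x => by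
    rw [Pic0.mem_torsion, natCast_zsmul])

/-- **the torsion of the Jacobian away from the characteristic**, and divisibility. -/
theorem pic0_torsion_divisible [FF.IsFF K F] (n : ℕ) (hn : (n : K) ≠ 0) :
    Nat.card (Pic0.torsion K F n) = n ^ (2 * genusFF K F) ∧
      ∀ x : Pic0 K F, ∃ y, n • y = x := by
  induction n using Nat.recOnMul with
  | zero => exact absurd Nat.cast_zero hn
  | one =>
    refine ⟨?_, fun x => ⟨x, one_smul _ _⟩⟩
    rw [natCard_pic0_torsion, one_pow]
    have : Unique {x : Pic0 K F // 1 • x = 0} :=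
      ⟨⟨⟨0, smul_zero _⟩⟩, fun x => Subtype.ext (by
        have h := x.2
        rwa [one_smul] at h)⟩
    exact Nat.card_unique
  | prime p hp =>
    haveI : Fact p.Prime := ⟨hp⟩
    have h := pic0_primePow K F p hn 1
    rwa [pow_one, mul_one] at h
  | mul a b iha ihb =>
    rw [Nat.cast_mul] at hn
    obtain ⟨h1, h2⟩ := iha (left_ne_zero_of_mul hn)
    obtain ⟨h3, h4⟩ := ihb (right_ne_zero_of_mul hn)
    rw [natCard_pic0_torsion] at h1 h3 ⊢
    refine ⟨by rw [natCard_torsion_mul a b h2, h1, h3, mul_pow], fun x => ?_⟩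
    obtain ⟨y, rfl⟩ := h2 x
    obtain ⟨z, rfl⟩ := h4 y
    exact ⟨z, mul_smul _ _ _⟩

theorem finite_pic0_torsion [FF.IsFF K F] (n : ℕ) (hn : (n : K) ≠ 0) :
    Finite (Pic0.torsion K F n) := by
  apply Nat.finite_of_card_ne_zero
  rw [(pic0_torsion_divisible K F n hn).1]
  apply pow_ne_zero
  rintro rfl
  exact hn Nat.cast_zero

end Fermat.Agent.S27
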