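import Fermat.Agent.S27.P1Basis
import Fermat.Agent.FF.Extension

/-!
# The number of gaps is the genus
-/

set_option autoImplicit false

noncomputable section

open AlgebraicCurve Module IntermediateField WithZero

namespace Fermat.Agent.S27

theorem finite_of_card_filter {P : ℕ → Prop} [DecidablePred P] {g n₀ : ℕ}
    (h : ∀ n, n₀ ≤ n → ((Finset.range (n + 1)).filter P).card = g) :
    {n | P n}.Finite ∧ {n | P n}.ncard = g := by
  have h1 : {n | P n} = ((Finset.range (n₀ + 1)).filter P : Set ℕ) := by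
    ext m
    simp only [Finset.coe_filter, Finset.mem_range]
    constructor
    · intro hm
      refine ⟨?_, hm⟩
      by_contra hlt
      push Not at hlt
      have h2 : ((Finset.range (n₀ + 1)).filter P) ⊂ ((Finset.range (m + 1)).filter P) := by
        rw [Finset.ssubset_iff_of_subset]
        · exact ⟨m, by simpa using hm, by simp; omega⟩
        · intro k hk
          simp only [Finset.mem_filter, Finset.mem_range] at hk ⊢
          exact ⟨by omega, hk.2⟩
      have h3 := Finset.card_lt_card h2
      rw [h n₀ le_rfl, h m (by omega)] at h3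
      exact lt_irrefl _ h3
    · intro hm
      exact hm.2
  rw [h1]
  refine ⟨Finset.finite_toSet _, ?_⟩
  rw [Set.ncard_coe_finset]
  exact h n₀ le_rfl

variable {K F : Type*} [Field K] [Field F] [Algebra K F] [IsAlgClosed K] [FF.IsFF K F]
  (v₀ : Place K F)

omit [IsAlgClosed K] [FF.IsFF K F] in
theorem mem_riemannRochSpace_single {n : ℕ} {f : F} :
    f ∈ riemannRochSpace (Finsupp.single v₀ (n : ℤ)) ↔
      f ∈ regOff v₀ ∧ v₀.adicValuation f ≤ exp (n : ℤ) := by
  classical
  show (∀ v : Place K F, v.adicValuation f ≤ exp ((Finsupp.single v₀ (n : ℤ)) v)) ↔ _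
  constructor
  · intro h
    refine ⟨fun w hw => ?_, ?_⟩
    · have := h w
      rw [Finsupp.single_eq_of_ne hw, exp_zero] at this
      exact (FF.mem_iff_val_le_one w).2 this
    · have := h v₀
      rwa [Finsupp.single_eq_same] at this
  · rintro ⟨h1, h2⟩ w
    by_cases hw : w = v₀
    · subst hw
      rwa [Finsupp.single_eq_same]
    · rw [Finsupp.single_eq_of_ne hw, exp_zero]
      exact (FF.mem_iff_val_le_one w).1 (h1 w hw)

open scoped Classical in
theorem ell_single (n : ℕ) :
    RR.ell (Finsupp.single v₀ (n : ℤ)) =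
      ((Finset.range (n + 1)).filter (· ∈ poleSemi v₀)).card := by
  obtain ⟨π, hπ⟩ := FF.exists_val_uniformizer v₀
  obtain ⟨e, he0, he⟩ := exists_monic_family (v₀ := v₀) hπ
  set ι := {u : poleSemi v₀ // (u : ℕ) < n + 1} with hι
  have hfin : Finite ι := by
    refine Finite.of_injective (β := Fin (n + 1)) (fun u => ⟨(u.1 : ℕ), u.2⟩) ?_
    rintro ⟨⟨a, _⟩, _⟩ ⟨⟨b, _⟩, _⟩ h
    simp only [Fin.mk.injEq] at h
    subst h
    rfl
  have : Fintype ι := Fintype.ofFinite ι
  let b : ι → F := fun u => (e u.1 : F)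
  have hb : LinearIndependent K b := by
    have h1 := linearIndependent_of_monic e hπ he
    have h2 := h1.comp (fun u : ι => u.1) Subtype.val_injective
    exact h2.map' (regOff v₀).val.toLinearMap (LinearMap.ker_eq_bot.2 Subtype.val_injective)
  have hspan : Submodule.span K (Set.range b) = riemannRochSpace (Finsupp.single v₀ (n : ℤ)) := by
    have hlt : ∀ f : F, v₀.adicValuation f ≤ exp (n : ℤ) ↔
        v₀.adicValuation f < exp (((n + 1 : ℕ)) : ℤ) := by
      intro f
      by_cases hf : f = 0
      · subst hf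
        simp
      · rw [Place.adicValuation_eq_exp_neg_ord _ hf, exp_le_exp, exp_lt_exp]
        push_cast
        omega
    have himg : Submodule.span K (Set.range b) =
        (Submodule.span K (e '' {u | (u : ℕ) < n + 1})).map (regOff v₀).val.toLinearMap := by
      rw [Submodule.map_span]
      congr 1
      ext x
      constructor
      · rintro ⟨u, rfl⟩
        exact ⟨e u.1, ⟨u.1, u.2, rfl⟩, rfl⟩
      · rintro ⟨_, ⟨u, hu, rfl⟩, rfl⟩
        exact ⟨⟨u, hu⟩, rfl⟩
    rw [himg]
    ext f
    rw [mem_riemannRochSpace_single, hlt]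
    constructor
    · rintro ⟨g, hg, rfl⟩
      exact ⟨g.2, mem_of_span_lt e hπ he (n + 1) g hg⟩
    · rintro ⟨h1, h2⟩
      exact ⟨⟨f, h1⟩, mem_span_of_lt e hπ he (n + 1) ⟨f, h1⟩ h2, rfl⟩
  have hcard : RR.ell (Finsupp.single v₀ (n : ℤ)) = Fintype.card ι := by
    rw [RR.ell, ← hspan, finrank_span_eq_card hb]
  rw [hcard, ← Fintype.card_coe]
  refine Fintype.card_congr ?_
  exact
    { toFun := fun u => ⟨(u.1 : ℕ), Finset.mem_filter.2 ⟨Finset.mem_range.2 u.2, u.1.2⟩⟩
      invFun := fun x => ⟨⟨x.1, (Finset.mem_filter.1 x.2).2⟩,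
        Finset.mem_range.1 (Finset.mem_filter.1 x.2).1⟩
      left_inv := fun _ => rfl
      right_inv := fun _ => rfl }

open scoped Classical in
theorem card_gaps_le (n : ℕ) (hn : 2 * genusFF K F ≤ n) :
    ((Finset.range (n + 1)).filter (· ∉ poleSemi v₀)).card = genusFF K F := by
  obtain ⟨x, hx⟩ := FF.IsFF.exists_transcendental (K := K) (F := F)
  have := FF.IsFF.finite_adjoin x hx
  have h0 : RR.ell (0 : Divisor K F) = 1 := RR.ell_zero
  have hdeg : Divisor.degree (Finsupp.single v₀ (n : ℤ)) = (n : ℤ) := by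
    rw [Divisor.degree_single, FF.deg_eq_one]
    simp
  have h1 := RR.ell_eq (K := K) x hx (D := Finsupp.single v₀ (n : ℤ)) (by
    rw [h0, hdeg]
    push_cast
    omega)
  rw [h0, hdeg, ell_single] at h1
  have h2 := Finset.card_filter_add_card_filter_not (s := Finset.range (n + 1))
    (· ∈ poleSemi v₀)
  rw [Finset.card_range] at h2
  have h3 : ((Finset.range (n + 1)).filter (fun a => ¬ (a ∈ poleSemi v₀))).card =
    ((Finset.range (n + 1)).filter (· ∉ poleSemi v₀)).card := rfl
  omega

instance cofin_poleSemi : Cofin (poleSemi v₀) := by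
  classical
  exact ⟨(finite_of_card_filter (P := (· ∉ poleSemi v₀)) (card_gaps_le v₀)).1⟩

theorem gaps_poleSemi : gaps (poleSemi v₀) = genusFF K F := by
  classical
  exact (finite_of_card_filter (P := (· ∉ poleSemi v₀)) (card_gaps_le v₀)).2

end Fermat.Agent.S27
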