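import Fermat.Agent.FF.AlgClosed
import Fermat.Prelude.Def_AlgebraicCurve_IsCurveOver

/-!
# A curve in the sense of differentials is an algebraic function field
-/

set_option autoImplicit false

noncomputable section

open AlgebraicCurve Module IntermediateField

namespace Fermat.Agent.S27

variable (K F : Type*) [Field K] [Field F] [Algebra K F]

theorem isFF_of_isCurveOver [IsAlgClosed K] [IsCurveOver K F] [Algebra.EssFiniteType K F] :
    FF.IsFF K F := by
  have h1 : finrank F Ω[F⁄K] = 1 := IsCurveOver.finrank_kaehler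
  obtain ⟨x, hx⟩ : ∃ x : F, KaehlerDifferential.D K F x ≠ 0 := by
    by_contra h
    push Not at h
    have h2 : (⊤ : Submodule F Ω[F⁄K]) = ⊥ := by
      rw [← KaehlerDifferential.span_range_derivation, Submodule.span_eq_bot]
      rintro _ ⟨x, rfl⟩
      exact h x
    have h3 := finrank_top F Ω[F⁄K]
    rw [h2, finrank_bot] at h3
    omega
  have hxt : Transcendental K x := by
    intro halg
    obtain ⟨c, rfl⟩ := FF.mem_range_of_isAlgebraic halg
    exact hx (Derivation.map_algebraMap _ c)
  have h4 : Subsingleton Ω[F⁄K⟮x⟯] := by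
    refine subsingleton_of_forall_eq 0 fun ω => ?_
    obtain ⟨η, rfl⟩ := KaehlerDifferential.map_surjective K K⟮x⟯ F ω
    obtain ⟨c, rfl⟩ := (finrank_eq_one_iff_of_nonzero' _ hx).1 h1 η
    rw [map_smul, KaehlerDifferential.map_D]
    have : algebraMap F F x = algebraMap K⟮x⟯ F (AdjoinSimple.gen K x) := rfl
    rw [this, Derivation.map_algebraMap, smul_zero]
  have h5 : Algebra.FormallyUnramified K⟮x⟯ F := ⟨h4⟩
  have h6 : Algebra.EssFiniteType K⟮x⟯ F := Algebra.EssFiniteType.of_comp K K⟮x⟯ F
  have h7 : Algebra.IsSeparable K⟮x⟯ F := Algebra.FormallyUnramified.isSeparable K⟮x⟯ F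
  have h8 : FiniteDimensional K⟮x⟯ F := FF.finiteDimensional_of_essFiniteType K⟮x⟯ F
  exact FF.IsFF.of_finite hxt

end Fermat.Agent.S27
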