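import Fermat.Agent.S27.P1Class
import Fermat.Agent.S27.P1Gaps
import Fermat.Agent.S27.P1Field
import Fermat.Agent.S27.TorsCount

/-!
# Existence of the one-point gap algebra of a curve
-/

set_option autoImplicit false

noncomputable section

open AlgebraicCurve Module IntermediateField WithZero nonZeroDivisors IsDedekindDomain

namespace Fermat.Agent.S27

section

variable {K F : Type*} [Field K] [Field F] [Algebra K F] [IsAlgClosed K] [FF.IsFF K F]
  (v₀ : Place K F)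

theorem natCard_torsion_eq (n : ℕ) :
    Nat.card (Pic0.torsion K F n) = Nat.card {x : ClassGroup (regOff v₀) // x ^ n = 1} := by
  refine Nat.card_congr ((pic0Equiv v₀).toEquiv.subtypeEquiv fun x => ?_)
  rw [Pic0.mem_torsion]
  have h : ((n : ℤ) • x = 0) ↔ (pic0Equiv v₀ ((n : ℤ) • x) = 0) := by
    rw [map_eq_zero_iff _ (pic0Equiv v₀).injective]
  rw [h, map_zsmul, natCast_zsmul]
  exact Iff.rfl

theorem natCard_torsion_of_torsCount {n N : ℕ} (hn : 0 < n) (hN : 0 < N)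
    (h : TorsCount (regOff v₀) n N) : Nat.card (Pic0.torsion K F n) = N := by
  rw [natCard_torsion_eq v₀, ← torsCount_iff hn N hN]
  exact h

theorem exists_nsmul_eq_of_div {n : ℕ}
    (h : ∀ I : Ideal (regOff v₀), I ≠ ⊥ → ∃ J : Ideal (regOff v₀), J ≠ ⊥ ∧ (I * J ^ n).IsPrincipal)
    (x : Pic0 K F) : ∃ y : Pic0 K F, n • y = x := by
  obtain ⟨I, hI⟩ := ClassGroup.mk0_surjective (pic0Equiv v₀ x).toMul
  obtain ⟨J, hJ0, hJ⟩ := h I (nonZeroDivisors.coe_ne_zero I)
  let J' : (Ideal (regOff v₀))⁰ := ⟨J, mem_nonZeroDivisors_iff_ne_zero.mpr hJ0⟩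
  have h1 : ClassGroup.mk0 I * ClassGroup.mk0 J' ^ n = 1 :=
    (mk0_mul_pow_eq_one_iff I J' n).mpr hJ
  refine ⟨(pic0Equiv v₀).symm (Additive.ofMul (ClassGroup.mk0 J')⁻¹), ?_⟩
  apply (pic0Equiv v₀).injective
  rw [map_nsmul, AddEquiv.apply_symm_apply]
  apply Additive.toMul.injective
  rw [← hI, toMul_nsmul, toMul_ofMul, inv_pow]
  exact (eq_inv_of_mul_eq_one_left h1).symm

end

variable (K F : Type*) [Field K] [Field F] [Algebra K F] [IsAlgClosed K]

theorem exists_gapAlg [FF.IsFF K F] :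
    ∃ (A : Subalgebra K F) (S : AddSubmonoid ℕ) (_ : Cofin S) (_ : GapAlg K A S),
      IsIntegrallyClosed A ∧ gaps S = genusFF K F ∧
      (∀ n N, 0 < n → 0 < N → TorsCount A n N → Nat.card (Pic0.torsion K F n) = N) ∧
      (∀ n, (∀ I : Ideal A, I ≠ ⊥ → ∃ J : Ideal A, J ≠ ⊥ ∧ (I * J ^ n).IsPrincipal) →
        ∀ x : Pic0 K F, ∃ y, n • y = x) := by
  obtain ⟨v₀⟩ := FF.exists_place (K := K) (F := F)
  obtain ⟨G⟩ := nonempty_gapAlg v₀
  exact ⟨regOff v₀, poleSemi v₀, inferInstance, G, inferInstance, gaps_poleSemi v₀,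
    fun n N hn hN h => natCard_torsion_of_torsCount v₀ hn hN h,
    fun n h x => exists_nsmul_eq_of_div v₀ h x⟩

/-- the same for the hypotheses of S27. -/
theorem exists_gapAlg_of_isCurveOver [IsCurveOver K F] [Algebra.EssFiniteType K F] :
    ∃ (A : Subalgebra K F) (S : AddSubmonoid ℕ) (_ : Cofin S) (_ : GapAlg K A S),
      IsIntegrallyClosed A ∧ gaps S = genusFF K F ∧
      (∀ n N, 0 < n → 0 < N → TorsCount A n N → Nat.card (Pic0.torsion K F n) = N) ∧
      (∀ n, (∀ I : Ideal A, I ≠ ⊥ → ∃ J : Ideal A, J ≠ ⊥ ∧ (I * J ^ n).IsPrincipal) →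
        ∀ x : Pic0 K F, ∃ y, n • y = x) := by
  have := isFF_of_isCurveOver K F
  exact exists_gapAlg K F

end Fermat.Agent.S27
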