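import Mathlib

set_option autoImplicit false
set_option linter.style.haveILetI false
set_option linter.deprecated false
set_option linter.unusedSectionVars false

/-! Automorphisms of an algebraically closed field translating a transcendental element. -/

namespace Fermat.Agent.S27

open MvPolynomial

section

variable {K L : Type*} [Field K] [Field L] [Algebra K L] [IsAlgClosed L]

/-- translation of the variables of a polynomial ring -/
noncomputable def transEquiv {ι : Type*} (a : ι → K) : MvPolynomial ι K ≃ₐ[K] MvPolynomial ι K :=
  AlgEquiv.ofAlgHom (aeval (fun i => X i + C (a i))) (aeval (fun i => X i - C (a i)))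
    (by ext i; simp) (by ext i; simp)

theorem transEquiv_X {ι : Type*} (a : ι → K) (i : ι) : transEquiv a (X i) = X i + C (a i) := by
  simp [transEquiv]

theorem exists_aut {x : L} (hx : Transcendental K x) (c : K) :
    ∃ σ : L ≃ₐ[K] L, σ x = x + algebraMap K L c := by
  classical
  have h1 : AlgebraicIndepOn K id ({x} : Set L) := by
    refine algebraicIndependent_unique_type_iff.mpr ?_
    exact hx
  obtain ⟨t, hxt, ht⟩ := exists_isTranscendenceBasis_superset h1
  letI := IsAlgClosed.isAlgClosure_of_transcendence_basis ((↑) : t → L) ht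
  let A := Algebra.adjoin K (Set.range ((↑) : t → L))
  let e : A ≃ₐ[K] A := ht.1.aevalEquiv.symm.trans ((transEquiv (fun _ : t => c)).trans
    ht.1.aevalEquiv)
  let s : L ≃+* L := IsAlgClosure.equivOfEquiv L L e.toRingEquiv
  have hs : ∀ a : A, s (algebraMap A L a) = algebraMap A L (e a) :=
    fun a => IsAlgClosure.equivOfEquiv_algebraMap L L e.toRingEquiv a
  have hK : ∀ r : K, s (algebraMap K L r) = algebraMap K L r := by
    intro r
    have := hs (algebraMap K A r)
    rw [e.commutes] at this
    exact this
  refine ⟨AlgEquiv.ofRingEquiv (f := s) hK, ?_⟩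
  show s x = _
  have hxa : algebraMap A L (ht.1.aevalEquiv (X ⟨x, hxt rfl⟩)) = x := by
    rw [ht.1.algebraMap_aevalEquiv, aeval_X]
  have h2 := hs (ht.1.aevalEquiv (X ⟨x, hxt rfl⟩))
  rw [hxa] at h2
  rw [h2]
  show algebraMap A L (ht.1.aevalEquiv (transEquiv _ (ht.1.aevalEquiv.symm _))) = _
  rw [AlgEquiv.symm_apply_apply, transEquiv_X, ht.1.algebraMap_aevalEquiv, map_add, aeval_X,
    aeval_C]

theorem mem_range_of_finite_orbit [IsAlgClosed K] {x : L}
    (h : (Set.range fun σ : L ≃ₐ[K] L => σ x).Finite) : x ∈ Set.range (algebraMap K L) := by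
  by_contra hx
  have htr : Transcendental K x := by
    intro halg
    apply hx
    exact minpoly.mem_range_of_degree_eq_one K x
      (IsAlgClosed.degree_eq_one_of_irreducible K (minpoly.irreducible halg.isIntegral))
  choose σ hσ using fun c => exists_aut htr c
  have hinj : Function.Injective (fun c : K => x + algebraMap K L c) := by
    intro c d hcd
    exact (algebraMap K L).injective (add_left_cancel hcd)
  have := Set.infinite_range_of_injective hinj
  apply this
  refine h.subset ?_
  rintro _ ⟨c, rfl⟩
  exact ⟨σ c, hσ c⟩

end

end Fermat.Agent.S27
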