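import Mathlib

set_option autoImplicit false

/-!
# One-point rings with an adapted basis

`GapAlg R B S` : an `R`-algebra `B` with a basis `e s`, `s ∈ S` (`S` a numerical semigroup),
such that `e s * e t = e (s+t) + lower`.
-/

namespace Fermat.Agent.S27

open Module

/-- `R`-algebra with a basis indexed by a numerical semigroup, with leading coefficients `1`. -/
structure GapAlg (R B : Type*) [CommRing R] [CommRing B] [Algebra R B] (S : AddSubmonoid ℕ) where
  e : Basis S R B
  e_zero : e 0 = 1
  e_mul : ∀ s t : S, e s * e t - e (s + t) ∈ Submodule.span R (e '' {u | u < s + t})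

/-- finite complement -/
class Cofin (S : AddSubmonoid ℕ) : Prop where
  fin : {n : ℕ | n ∉ S}.Finite

/-- number of gaps -/
noncomputable def gaps (S : AddSubmonoid ℕ) : ℕ := {n : ℕ | n ∉ S}.ncard

namespace GapAlg

section general

variable {R B : Type*} [CommRing R] [CommRing B] [Algebra R B] {S : AddSubmonoid ℕ}
  (G : GapAlg R B S)

/-- coefficient at `n` (zero if `n ∉ S`) -/
noncomputable def coeff (n : ℕ) : B →ₗ[R] R :=
  letI := Classical.dec (n ∈ S)
  if h : n ∈ S then G.e.coord ⟨n, h⟩ else 0

theorem coeff_of_mem {n : ℕ} (h : n ∈ S) (b : B) : G.coeff n b = G.e.repr b ⟨n, h⟩ := by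
  simp [coeff, h]

theorem coeff_of_notMem {n : ℕ} (h : n ∉ S) (b : B) : G.coeff n b = 0 := by
  simp [coeff, h]

theorem ext_coeff {a b : B} (h : ∀ n, G.coeff n a = G.coeff n b) : a = b := by
  apply G.e.repr.injective
  ext s
  have := h s
  rwa [G.coeff_of_mem s.2, G.coeff_of_mem s.2] at this

theorem coeff_e (s : S) (n : ℕ) : G.coeff n (G.e s) = if n = s then 1 else 0 := by
  classical
  by_cases h : n ∈ S
  · rw [G.coeff_of_mem h, Basis.repr_self, Finsupp.single_apply]
    congr 1
    simp only [eq_iff_iff]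
    constructor
    · rintro rfl; rfl
    · intro h'; exact Subtype.ext h'.symm
  · rw [G.coeff_of_notMem h, if_neg]
    rintro rfl; exact h s.2

/-- degree, with `deg 0 = 0` -/
noncomputable def deg (b : B) : ℕ := (G.e.repr b).support.sup (fun s => (s : ℕ))

theorem coeff_eq_zero_of_deg_lt {b : B} {n : ℕ} (h : G.deg b < n) : G.coeff n b = 0 := by
  by_contra hne
  by_cases hn : n ∈ S
  · rw [G.coeff_of_mem hn] at hne
    have : (n : ℕ) ≤ G.deg b :=
      Finset.le_sup (f := fun s : S => (s : ℕ)) (b := (⟨n, hn⟩ : S)) (Finsupp.mem_support_iff.mpr hne)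
    omega
  · exact hne (G.coeff_of_notMem hn b)

theorem deg_le_iff {b : B} {n : ℕ} : G.deg b ≤ n ↔ ∀ m, n < m → G.coeff m b = 0 := by
  constructor
  · intro h m hm
    exact G.coeff_eq_zero_of_deg_lt (lt_of_le_of_lt h hm)
  · intro h
    refine Finset.sup_le fun s hs => ?_
    by_contra hlt
    push Not at hlt
    have := h s hlt
    rw [G.coeff_of_mem s.2] at this
    exact (Finsupp.mem_support_iff.mp hs) this

theorem coeff_deg_ne_zero {b : B} (hb : b ≠ 0) : G.coeff (G.deg b) b ≠ 0 := by
  have hne : (G.e.repr b).support.Nonempty := by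
    rw [Finsupp.support_nonempty_iff]
    simpa using hb
  obtain ⟨s, hs, hmax⟩ := Finset.exists_mem_eq_sup _ hne (fun s : S => (s : ℕ))
  have : G.deg b = s := hmax
  rw [this, G.coeff_of_mem s.2]
  exact Finsupp.mem_support_iff.mp hs

theorem deg_mem (b : B) : G.deg b ∈ S := by
  by_cases hb : b = 0
  · subst hb
    simp [deg]
  · by_contra h
    exact G.coeff_deg_ne_zero hb (G.coeff_of_notMem h b)

theorem deg_zero : G.deg 0 = 0 := by simp [deg]

theorem deg_add_le (a b : B) : G.deg (a + b) ≤ max (G.deg a) (G.deg b) := by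
  rw [G.deg_le_iff]
  intro m hm
  rw [map_add, G.coeff_eq_zero_of_deg_lt (lt_of_le_of_lt (le_max_left _ _) hm),
    G.coeff_eq_zero_of_deg_lt (lt_of_le_of_lt (le_max_right _ _) hm), add_zero]

theorem deg_smul_le (c : R) (a : B) : G.deg (c • a) ≤ G.deg a := by
  rw [G.deg_le_iff]
  intro m hm
  rw [map_smul, G.coeff_eq_zero_of_deg_lt hm, smul_zero]

theorem deg_neg (a : B) : G.deg (-a) = G.deg a := by
  apply le_antisymm
  · rw [G.deg_le_iff]; intro m hm; rw [map_neg, G.coeff_eq_zero_of_deg_lt hm, neg_zero]
  · rw [G.deg_le_iff]; intro m hm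
    have := G.coeff_eq_zero_of_deg_lt hm
    rwa [map_neg, neg_eq_zero] at this

theorem deg_sub_le (a b : B) : G.deg (a - b) ≤ max (G.deg a) (G.deg b) := by
  rw [sub_eq_add_neg]; simpa [G.deg_neg] using G.deg_add_le a (-b)

/-- elements of degree `≤ n` -/
def le (n : ℕ) : Submodule R B where
  carrier := {b | G.deg b ≤ n}
  zero_mem' := by simp [G.deg_zero]
  add_mem' := fun {a b} ha hb => (G.deg_add_le a b).trans (max_le ha hb)
  smul_mem' := fun c a ha => (G.deg_smul_le c a).trans ha

theorem mem_le {n : ℕ} {b : B} : b ∈ G.le n ↔ G.deg b ≤ n := Iff.rfl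

theorem le_mono {m n : ℕ} (h : m ≤ n) : G.le m ≤ G.le n := fun _ hb => le_trans hb h

theorem deg_e (s : S) [Nontrivial R] : G.deg (G.e s) = s := by
  apply le_antisymm
  · rw [G.deg_le_iff]; intro m hm; rw [G.coeff_e, if_neg (by omega)]
  · by_contra hlt
    push Not at hlt
    have := G.coeff_eq_zero_of_deg_lt hlt
    rw [G.coeff_e, if_pos rfl] at this
    exact one_ne_zero this

theorem deg_e_le (s : S) : G.deg (G.e s) ≤ s := by
  rw [G.deg_le_iff]; intro m hm; rw [G.coeff_e, if_neg (by omega)]

theorem deg_le_of_mem_span {s : ℕ} {b : B}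
    (hb : b ∈ Submodule.span R (G.e '' {u | (u : ℕ) < s})) : ∀ m, s ≤ m → G.coeff m b = 0 := by
  intro m hm
  induction hb using Submodule.span_induction with
  | mem x hx =>
    obtain ⟨u, hu, rfl⟩ := hx
    rw [G.coeff_e, if_neg]
    have : (u : ℕ) < s := hu
    omega
  | zero => simp
  | add x y _ _ hx hy => rw [map_add, hx, hy, add_zero]
  | smul c x _ hx => rw [map_smul, hx, smul_zero]

theorem coeff_mul_e_e (s t : S) : G.coeff (s + t : ℕ) (G.e s * G.e t) = 1 := by
  have h := G.deg_le_of_mem_span (s := (s + t : ℕ)) (b := G.e s * G.e t - G.e (s + t)) (by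
    refine Submodule.span_mono (Set.image_mono ?_) (G.e_mul s t)
    intro u hu
    exact hu) (s + t) le_rfl
  rw [map_sub, G.coeff_e, sub_eq_zero] at h
  simpa using h

theorem deg_mul_e_e_le (s t : S) : G.deg (G.e s * G.e t) ≤ s + t := by
  rw [G.deg_le_iff]
  intro m hm
  have h := G.deg_le_of_mem_span (s := (s + t : ℕ)) (b := G.e s * G.e t - G.e (s + t)) (by
    refine Submodule.span_mono (Set.image_mono ?_) (G.e_mul s t)
    intro u hu
    exact hu) m hm.le
  rw [map_sub, G.coeff_e, sub_eq_zero] at h
  rw [h, if_neg]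
  push_cast
  omega

theorem eq_sum (b : B) : b = ∑ s ∈ (G.e.repr b).support, G.e.repr b s • G.e s := by
  conv_lhs => rw [← G.e.linearCombination_repr b]
  rw [Finsupp.linearCombination_apply, Finsupp.sum]

theorem deg_mul_le (a b : B) : G.deg (a * b) ≤ G.deg a + G.deg b := by
  have : ∑ i ∈ (G.e.repr a).support,
      (G.e.repr a) i • G.e i * ∑ s ∈ (G.e.repr b).support, (G.e.repr b) s • G.e s ∈
      G.le (G.deg a + G.deg b) := by
    refine Submodule.sum_mem _ fun i hi => ?_
    rw [Finset.mul_sum]
    refine Submodule.sum_mem _ fun j hj => ?_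
    rw [smul_mul_smul_comm]
    refine Submodule.smul_mem _ _ ?_
    refine (G.deg_mul_e_e_le i j).trans ?_
    exact add_le_add (Finset.le_sup (f := fun s : S => (s : ℕ)) hi)
      (Finset.le_sup (f := fun s : S => (s : ℕ)) hj)
  rw [← Finset.sum_mul, ← G.eq_sum, ← G.eq_sum] at this
  exact this

/-- the part of `b` of degree `< n` has degree `< n`. -/
theorem coeff_mul_deg (a b : B) :
    G.coeff (G.deg a + G.deg b) (a * b) = G.coeff (G.deg a) a * G.coeff (G.deg b) b := by
  have key : ∀ a b : B, ∀ m n : ℕ, G.deg a ≤ m → G.deg b ≤ n →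
      G.coeff (m + n) (a * b) = G.coeff m a * G.coeff n b := by
    intro a b m n ha hb
    have hm : ∀ a b : B, ∀ m n : ℕ, G.deg a ≤ m → G.deg b ≤ n → m + n ∉ S ∨ m ∉ S ∨ n ∉ S →
        G.coeff m a * G.coeff n b = 0 := by
      intro a b m n ha hb h
      rcases h with h | h | h
      · by_contra hne
        apply h
        have h1 : m ∈ S := by
          by_contra h1; rw [G.coeff_of_notMem h1] at hne; simp at hne
        have h2 : n ∈ S := by
          by_contra h1; rw [G.coeff_of_notMem h1] at hne; simp at hne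
        exact S.add_mem h1 h2
      · rw [G.coeff_of_notMem h]; simp
      · rw [G.coeff_of_notMem h]; simp
    conv_lhs => rw [G.eq_sum a, G.eq_sum b, Finset.sum_mul, map_sum]
    have : ∀ i ∈ (G.e.repr a).support, G.coeff (m + n)
        ((G.e.repr a) i • G.e i * ∑ s ∈ (G.e.repr b).support, (G.e.repr b) s • G.e s)
        = ((G.e.repr a) i * if (i : ℕ) = m then 1 else 0) * G.coeff n b := by
      intro i hi
      have hi' : (i : ℕ) ≤ m := le_trans (Finset.le_sup (f := fun s : S => (s : ℕ)) hi) ha
      rw [Finset.mul_sum, map_sum]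
      have h2 : ∀ j ∈ (G.e.repr b).support, G.coeff (m + n)
          ((G.e.repr a) i • G.e i * (G.e.repr b) j • G.e j) =
          ((G.e.repr a) i * if (i : ℕ) = m then 1 else 0) *
            ((G.e.repr b) j * if (j : ℕ) = n then 1 else 0) := by
        intro j hj
        have hj' : (j : ℕ) ≤ n := le_trans (Finset.le_sup (f := fun s : S => (s : ℕ)) hj) hb
        rw [smul_mul_smul_comm, map_smul, smul_eq_mul]
        by_cases h1 : (i : ℕ) = m
        · by_cases h2 : (j : ℕ) = n
          · rw [← h1, ← h2, G.coeff_mul_e_e]; simp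
          · rw [if_pos h1, if_neg h2,
              G.coeff_eq_zero_of_deg_lt (lt_of_le_of_lt (G.deg_mul_e_e_le i j) (by omega))]
            simp
        · rw [if_neg h1,
            G.coeff_eq_zero_of_deg_lt (lt_of_le_of_lt (G.deg_mul_e_e_le i j) (by omega))]
          simp
      rw [Finset.sum_congr rfl h2, ← Finset.mul_sum]
      congr 1
      by_cases hn : n ∈ S
      · rw [G.coeff_of_mem hn]
        by_cases hn' : (⟨n, hn⟩ : S) ∈ (G.e.repr b).support
        · rw [Finset.sum_eq_single_of_mem _ hn']
          · simp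
          · intro j _ hj
            rw [if_neg, mul_zero]
            intro h; apply hj; exact Subtype.ext h
        · rw [Finsupp.notMem_support_iff.mp hn']
          refine Finset.sum_eq_zero fun j hj => ?_
          rw [if_neg, mul_zero]
          rintro h
          apply hn'
          convert hj
          exact h.symm
      · rw [G.coeff_of_notMem hn]
        refine Finset.sum_eq_zero fun j hj => ?_
        rw [if_neg, mul_zero]
        rintro h
        exact hn (h ▸ j.2)
    rw [Finset.sum_congr rfl this, ← Finset.sum_mul]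
    congr 1
    by_cases hn : m ∈ S
    · rw [G.coeff_of_mem hn]
      by_cases hn' : (⟨m, hn⟩ : S) ∈ (G.e.repr a).support
      · rw [Finset.sum_eq_single_of_mem _ hn']
        · simp
        · intro j _ hj
          rw [if_neg, mul_zero]
          intro h; apply hj; exact Subtype.ext h
      · rw [Finsupp.notMem_support_iff.mp hn']
        refine Finset.sum_eq_zero fun j hj => ?_
        rw [if_neg, mul_zero]
        rintro h
        apply hn'
        convert hj
        exact h.symm
    · rw [G.coeff_of_notMem hn]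
      refine Finset.sum_eq_zero fun j hj => ?_
      rw [if_neg, mul_zero]
      rintro h
      exact hn (h ▸ j.2)
  exact key a b _ _ le_rfl le_rfl

end general

end GapAlg

end Fermat.Agent.S27
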