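import Fermat.Agent.S27.GapSing
import Fermat.Agent.S27.AutField

set_option autoImplicit false
set_option linter.style.haveILetI false
set_option linter.deprecated false
set_option linter.unusedSectionVars false

/-! Extension of ideals to a bigger field, and descent of ideals with finite Galois orbit. -/

namespace Fermat.Agent.S27

open Module TensorProduct nonZeroDivisors

namespace GapAlg

section ext

variable (K A L : Type*) [Field K] [CommRing A] [Algebra K A] [Field L] [Algebra K L]

/-- the inclusion -/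
noncomputable def inc : A →ₐ[K] L ⊗[K] A := Algebra.TensorProduct.includeRight

variable {K A}

/-- extension of ideals -/
noncomputable def extI (I : Ideal A) : Ideal (L ⊗[K] A) := I.map (inc K A L : A →+* L ⊗[K] A)

theorem extI_mul (I J : Ideal A) : extI (K := K) L (I * J) = extI L I * extI L J :=
  Ideal.map_mul _ _ _

theorem extI_pow (I : Ideal A) (n : ℕ) : extI (K := K) L (I ^ n) = extI L I ^ n :=
  Ideal.map_pow _ _ _

theorem inc_apply (a : A) : inc K A L a = 1 ⊗ₜ a := rfl

theorem inc_mem_extI {I : Ideal A} {a : A} (ha : a ∈ I) : inc K A L a ∈ extI (K := K) L I :=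
  Ideal.mem_map_of_mem _ ha

variable {L}

/-- contraction with a functional -/
noncomputable def pr (A : Type*) [CommRing A] [Algebra K A] (f : L →ₗ[K] K) :
    L ⊗[K] A →ₗ[K] A := (TensorProduct.lid K A).toLinearMap ∘ₗ (f.rTensor A)

theorem pr_tmul (f : L →ₗ[K] K) (l : L) (a : A) : pr A f (l ⊗ₜ a) = f l • a := rfl

theorem pr_mem {I : Ideal A} {b : L ⊗[K] A} (hb : b ∈ extI (K := K) L I) :
    ∀ f : L →ₗ[K] K, pr A f b ∈ I := by
  refine Submodule.span_induction ?_ ?_ ?_ ?_ hb
  · rintro _ ⟨a, ha, rfl⟩ f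
    show pr A f (1 ⊗ₜ a) ∈ I
    rw [pr_tmul, Algebra.smul_def]
    exact I.mul_mem_left _ ha
  · intro f; rw [map_zero]; exact I.zero_mem
  · intro x y _ _ hx hy f
    rw [map_add]; exact I.add_mem (hx f) (hy f)
  · intro x y _ hy
    induction x using TensorProduct.induction_on with
    | zero => intro f; rw [zero_smul, map_zero]; exact I.zero_mem
    | tmul l a =>
      intro f
      have key : ∀ y : L ⊗[K] A, pr A f ((l ⊗ₜ[K] a) • y) =
          a * pr A (f ∘ₗ LinearMap.mulLeft K l) y := by
        intro y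
        induction y using TensorProduct.induction_on with
        | zero => simp
        | tmul l' a' =>
          rw [smul_eq_mul, Algebra.TensorProduct.tmul_mul_tmul, pr_tmul, pr_tmul,
            mul_smul_comm]
          rfl
        | add y z hy hz => rw [smul_add, map_add, map_add, hy, hz, mul_add]
      rw [key]
      exact I.mul_mem_left _ (hy _)
    | add x z hx hz => intro f; rw [add_smul, map_add]; exact I.add_mem (hx f) (hz f)

variable {S : AddSubmonoid ℕ} (G : GapAlg K A S)

theorem coeff_inc (n : ℕ) (a : A) :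
    (G.baseChange L).coeff n (inc K A L a) = algebraMap K L (G.coeff n a) := by
  rw [inc_apply, coeff_tmul, one_mul]

theorem coeff_pr (f : L →ₗ[K] K) (n : ℕ) (b : L ⊗[K] A) :
    G.coeff n (pr A f b) = f ((G.baseChange L).coeff n b) := by
  induction b using TensorProduct.induction_on with
  | zero => simp
  | tmul l a =>
    rw [pr_tmul, (G.coeff n).map_smul, coeff_tmul, smul_eq_mul, mul_comm l, ← Algebra.smul_def,
      map_smul, smul_eq_mul, mul_comm]
  | add x y hx hy => rw [map_add, map_add, hx, hy, map_add, map_add]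

theorem deg_inc (a : A) : (G.baseChange L).deg (inc K A L a) = G.deg a := by
  apply le_antisymm
  · rw [GapAlg.deg_le_iff]
    intro m hm
    rw [coeff_inc, GapAlg.coeff_eq_zero_of_deg_lt _ hm, map_zero]
  · rw [GapAlg.deg_le_iff]
    intro m hm
    have := GapAlg.coeff_eq_zero_of_deg_lt _ hm
    rw [coeff_inc] at this
    simpa using this

include G in
theorem inc_injective : Function.Injective (inc K A L) := by
  intro x y hxy
  apply G.ext_coeff
  intro n
  apply (algebraMap K L).injective
  rw [← coeff_inc, ← coeff_inc, hxy]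

theorem exists_functional_ne {c : L} (hc : c ≠ 0) : ∃ f : L →ₗ[K] K, f c ≠ 0 := by
  by_contra h
  push Not at h
  exact hc ((Module.forall_dual_apply_eq_zero_iff K c).mp h)

theorem deg_pr {f : L →ₗ[K] K} {v : L ⊗[K] A}
    (hf : f ((G.baseChange L).coeff ((G.baseChange L).deg v) v) ≠ 0) :
    G.deg (pr A f v) = (G.baseChange L).deg v := by
  apply le_antisymm
  · rw [GapAlg.deg_le_iff]
    intro m hm
    rw [coeff_pr, GapAlg.coeff_eq_zero_of_deg_lt _ hm, map_zero]
  · by_contra h
    push Not at h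
    apply hf
    rw [← coeff_pr]
    exact GapAlg.coeff_eq_zero_of_deg_lt _ h

theorem degSet_extI (I : Ideal A) :
    (G.baseChange L).degSet ((extI (K := K) L I).restrictScalars L) =
      G.degSet (I.restrictScalars K) := by
  ext n
  constructor
  · rintro ⟨v, hv, hv0, rfl⟩
    obtain ⟨f, hf⟩ := exists_functional_ne (K := K)
      (GapAlg.coeff_deg_ne_zero (G.baseChange L) hv0)
    refine ⟨pr A f v, pr_mem hv f, ?_, G.deg_pr hf⟩
    intro h
    apply hf
    rw [← coeff_pr, h, map_zero]
  · rintro ⟨v, hv, hv0, rfl⟩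
    refine ⟨inc K A L v, inc_mem_extI L hv, ?_, G.deg_inc v⟩
    intro h
    apply hv0
    apply G.inc_injective (L := L)
    rw [h, map_zero]

include G in
theorem codim_extI (I : Ideal A) :
    codim ((extI (K := K) L I).restrictScalars L) = codim (I.restrictScalars K) := by
  rw [(G.baseChange L).codim_eq_ncard, G.codim_eq_ncard, G.degSet_extI]

include G in
theorem extI_ne_bot_iff [Cofin S] (I : Ideal A) : extI (K := K) L I ≠ ⊥ ↔ I ≠ ⊥ := by
  rw [(G.baseChange L).ne_bot_iff_degSet, G.ne_bot_iff_degSet, G.degSet_extI]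

include G in
theorem isPrincipal_extI_iff [Cofin S] {I : Ideal A} (hI : I ≠ ⊥) :
    (extI (K := K) L I).IsPrincipal ↔ I.IsPrincipal := by
  rw [(G.baseChange L).isPrincipal_iff' ((G.extI_ne_bot_iff I).mpr hI), G.isPrincipal_iff' hI,
    G.degSet_extI, G.codim_extI]

/-! ### descent by coefficients -/

theorem exists_of_coeff' (c : ℕ → K) (N : ℕ) (hN : ∀ n, N < n → c n = 0)
    (hS : ∀ n, n ∉ S → c n = 0) : ∃ x : A, ∀ n, G.coeff n x = c n := by
  classical
  refine ⟨∑ n ∈ Finset.range (N + 1), if h : n ∈ S then c n • G.e ⟨n, h⟩ else 0,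
    fun n => ?_⟩
  rw [map_sum]
  have : ∀ m ∈ Finset.range (N + 1), G.coeff n
      (if h : m ∈ S then c m • G.e ⟨m, h⟩ else 0) = if n = m then c n else 0 := by
    intro m _
    by_cases h : m ∈ S
    · rw [dif_pos h, map_smul, GapAlg.coeff_e, smul_eq_mul]
      by_cases hnm : n = m
      · subst hnm; simp
      · simp [hnm]
    · rw [dif_neg h, map_zero]
      split_ifs with hnm
      · subst hnm; rw [hS _ h]
      · rfl
  rw [Finset.sum_congr rfl this, Finset.sum_ite_eq]
  split_ifs with h
  · rfl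
  · rw [hN]; simpa using h

theorem exists_inc_eq {b : L ⊗[K] A}
    (hb : ∀ n, (G.baseChange L).coeff n b ∈ Set.range (algebraMap K L)) :
    ∃ a : A, inc K A L a = b := by
  choose c hc using hb
  obtain ⟨a, ha⟩ := G.exists_of_coeff' c ((G.baseChange L).deg b)
    (fun n hn => by
      apply (algebraMap K L).injective
      rw [hc, GapAlg.coeff_eq_zero_of_deg_lt _ hn, map_zero])
    (fun n hn => by
      apply (algebraMap K L).injective
      rw [hc, GapAlg.coeff_of_notMem _ hn, map_zero])
  refine ⟨a, ?_⟩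
  apply (G.baseChange L).ext_coeff
  intro n
  rw [coeff_inc, ha, hc]

theorem eq_extI_of_coeff {J : Ideal (L ⊗[K] A)}
    (h : ∀ n m, (G.baseChange L).coeff m ((G.baseChange L).ech (J.restrictScalars L) n) ∈
      Set.range (algebraMap K L)) :
    J = extI L (J.comap (inc K A L : A →+* L ⊗[K] A)) := by
  apply le_antisymm
  · intro b hb
    rw [(G.baseChange L).eq_sum_ech (V := J.restrictScalars L) hb]
    refine Ideal.sum_mem _ fun n _ => ?_
    split_ifs with hn
    · obtain ⟨a, ha⟩ := G.exists_inc_eq (h n)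
      rw [Algebra.smul_def]
      apply Ideal.mul_mem_left
      rw [← ha]
      apply inc_mem_extI
      rw [Ideal.mem_comap]
      show inc K A L a ∈ J
      rw [ha]
      exact (G.baseChange L).ech_mem (J.restrictScalars L) n
    · exact Ideal.zero_mem _
  · exact Ideal.map_comap_le

/-- action of automorphisms on ideals -/
noncomputable def act (σ : L ≃ₐ[K] L) (J : Ideal (L ⊗[K] A)) : Ideal (L ⊗[K] A) :=
  J.map ((bcEquiv A σ : L ⊗[K] A ≃+* L ⊗[K] A) : L ⊗[K] A →+* L ⊗[K] A)

theorem mem_act (σ : L ≃ₐ[K] L) (J : Ideal (L ⊗[K] A)) (b : L ⊗[K] A) :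
    b ∈ J ↔ (bcEquiv A σ : L ⊗[K] A ≃+* L ⊗[K] A) b ∈ act σ J :=
  Semi.mem_map_ideal b

theorem act_mul (σ : L ≃ₐ[K] L) (I J : Ideal (L ⊗[K] A)) : act σ (I * J) = act σ I * act σ J :=
  Ideal.map_mul _ _ _

theorem act_pow (σ : L ≃ₐ[K] L) (I : Ideal (L ⊗[K] A)) (n : ℕ) :
    act σ (I ^ n) = act σ I ^ n :=
  Ideal.map_pow _ _ _

theorem act_span (σ : L ≃ₐ[K] L) (x : L ⊗[K] A) :
    act σ (Ideal.span {x}) = Ideal.span {(bcEquiv A σ : L ⊗[K] A ≃+* L ⊗[K] A) x} := by
  rw [act, Ideal.map_span, Set.image_singleton]; rfl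

theorem act_extI (σ : L ≃ₐ[K] L) (I : Ideal A) : act σ (extI (K := K) L I) = extI L I := by
  rw [act, extI, Ideal.map_map]
  congr 1
  ext a
  show bcMap A (σ : L →ₐ[K] L) (1 ⊗ₜ a) = 1 ⊗ₜ a
  rw [bcMap_tmul, map_one]

include G in
theorem codim_act (σ : L ≃ₐ[K] L) (J : Ideal (L ⊗[K] A)) :
    codim ((act σ J).restrictScalars L) = codim (J.restrictScalars L) :=
  (G.semi_bcEquiv σ).codim_map J

theorem act_ne_bot {σ : L ≃ₐ[K] L} {J : Ideal (L ⊗[K] A)} (hJ : J ≠ ⊥) : act σ J ≠ ⊥ := by
  intro h
  apply hJ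
  rw [eq_bot_iff]
  intro b hb
  have := (mem_act σ J b).mp hb
  rw [h, Ideal.mem_bot] at this
  rw [Ideal.mem_bot]
  simpa using this

theorem ech_act (σ : L ≃ₐ[K] L) (J : Ideal (L ⊗[K] A)) (n m : ℕ) :
    σ ((G.baseChange L).coeff m ((G.baseChange L).ech (J.restrictScalars L) n)) =
      (G.baseChange L).coeff m ((G.baseChange L).ech ((act σ J).restrictScalars L) n) := by
  have h1 := (G.semi_bcEquiv σ).ech_eq (V := J.restrictScalars L)
    (V' := (act σ J).restrictScalars L) (fun b => mem_act σ J b) n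
  rw [← h1, (G.semi_bcEquiv σ).coeff]
  rfl

include G in
theorem eq_extI_of_finite_orbit [IsAlgClosed K] [IsAlgClosed L] {J : Ideal (L ⊗[K] A)}
    (h : (Set.range fun σ : L ≃ₐ[K] L => act σ J).Finite) :
    J = extI L (J.comap (inc K A L : A →+* L ⊗[K] A)) := by
  apply G.eq_extI_of_coeff
  intro n m
  apply mem_range_of_finite_orbit
  refine (h.image (fun J' => (G.baseChange L).coeff m
    ((G.baseChange L).ech (Submodule.restrictScalars L J') n))).subset ?_
  rintro _ ⟨σ, rfl⟩
  exact ⟨_, ⟨σ, rfl⟩, (G.ech_act σ J n m).symm⟩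

end ext

end GapAlg

end Fermat.Agent.S27
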