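import Fermat.Agent.S27.GapDescent

set_option autoImplicit false
set_option linter.style.haveILetI false
set_option linter.deprecated false
set_option linter.unusedSectionVars false

/-! Extension of the base field: regularity, descent of torsion and of divisibility. -/

namespace Fermat.Agent.S27

open Module TensorProduct nonZeroDivisors

/-- every ideal class of `A` is an `n`-th power -/
def DivBy (A : Type*) [CommRing A] (n : ℕ) : Prop :=
  ∀ J : Ideal A, J ≠ ⊥ → ∃ I : Ideal A, I ≠ ⊥ ∧ (J * I ^ n).IsPrincipal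

namespace GapAlg

section one

variable {k B : Type*} [Field k] [CommRing B] [Algebra k B] {S : AddSubmonoid ℕ}
  [Cofin S] (G : GapAlg k B S)

include G in
theorem codim_top : codim ((⊤ : Ideal B).restrictScalars k) = 0 := by
  haveI := G.nontrivial
  exact (G.codim_eq_zero_iff top_ne_bot).mpr rfl

include G in
theorem isMaximal_of_codim_eq_one {P : Ideal B} (hP0 : P ≠ ⊥)
    (h : codim (P.restrictScalars k) = 1) : P.IsMaximal := by
  haveI := G.finite_ideal hP0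
  rw [Ideal.isMaximal_def]
  constructor
  · rintro rfl
    rw [G.codim_top] at h
    omega
  · intro Q hQ
    have hQ0 : Q ≠ ⊥ := ne_bot_of_le_ne_bot hP0 hQ.le
    rw [← G.codim_eq_zero_iff hQ0]
    by_contra h0
    have : P.restrictScalars k = Q.restrictScalars k := by
      apply G.eq_of_le_of_codim_eq hQ.le
      rw [h]; omega
    exact hQ.ne (Submodule.restrictScalars_injective k B B this)

end one

section reg

variable {K A L : Type*} [Field K] [CommRing A] [Algebra K A] [Field L] [Algebra K L]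
  {S : AddSubmonoid ℕ} [Cofin S] (G : GapAlg K A S) [IsAlgClosed K] [IsAlgClosed L]

include G in
theorem act_mem_sing {P : Ideal (L ⊗[K] A)} (hP : P ∈ Sing L (L ⊗[K] A)) (σ : L ≃ₐ[K] L) :
    act σ P ∈ Sing L (L ⊗[K] A) := by
  obtain ⟨h1, h2, h3⟩ := hP
  refine ⟨(G.baseChange L).isMaximal_of_codim_eq_one (act_ne_bot h2) ?_, act_ne_bot h2, ?_⟩
  · rw [G.codim_act, (G.baseChange L).codim_isMaximal h1 h2]
  · rw [← act_pow, G.codim_act]
    exact h3

include G in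
theorem isIntegrallyClosed_baseChange [IsIntegrallyClosed A] :
    IsIntegrallyClosed (L ⊗[K] A) := by
  apply (G.baseChange L).isIntegrallyClosed_of_sing
  rw [Set.eq_empty_iff_forall_notMem]
  intro P hP
  have hfin : (Set.range fun σ : L ≃ₐ[K] L => act σ P).Finite :=
    (G.baseChange L).finite_sing.subset (by rintro _ ⟨σ, rfl⟩; exact G.act_mem_sing hP σ)
  have hP0 := G.eq_extI_of_finite_orbit hfin
  set P₀ := P.comap (inc K A L : A →+* L ⊗[K] A)
  obtain ⟨h1, h2, h3⟩ := hP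
  have h2' : P₀ ≠ ⊥ := by rwa [hP0, G.extI_ne_bot_iff] at h2
  apply G.sing_eq_empty_of_isIntegrallyClosed (P := P₀)
  refine ⟨G.isMaximal_of_codim_eq_one h2' ?_, h2', ?_⟩
  · rw [← G.codim_extI (L := L), ← hP0, (G.baseChange L).codim_isMaximal h1 h2]
  · rw [← G.codim_extI (L := L), extI_pow, ← hP0]
    exact h3

end reg

section tors

variable {K A L : Type*} [Field K] [CommRing A] [Algebra K A] [Field L] [Algebra K L]
  {S : AddSubmonoid ℕ} [Cofin S] (G : GapAlg K A S) [IsAlgClosed K] [IsAlgClosed L]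
  [IsDedekindDomain (L ⊗[K] A)]

/-- nonzero ideals -/
def nz {R : Type*} [CommRing R] [IsDomain R] (I : Ideal R) (h : I ≠ ⊥) : (Ideal R)⁰ :=
  ⟨I, mem_nonZeroDivisors_iff_ne_zero.mpr h⟩

theorem mk0_nz_mul_pow_iff {R : Type*} [CommRing R] [IsDedekindDomain R] {I J : Ideal R}
    (hI : I ≠ ⊥) (hJ : J ≠ ⊥) (m : ℕ) :
    ClassGroup.mk0 (nz I hI) * ClassGroup.mk0 (nz J hJ) ^ m = 1 ↔ (I * J ^ m).IsPrincipal :=
  mk0_mul_pow_eq_one_iff _ _ _

theorem mk0_nz_pow_iff {R : Type*} [CommRing R] [IsDedekindDomain R] {I : Ideal R}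
    (hI : I ≠ ⊥) (m : ℕ) :
    ClassGroup.mk0 (nz I hI) ^ m = 1 ↔ (I ^ m).IsPrincipal :=
  mk0_pow_eq_one_iff _

/-- action on nonzero ideals -/
noncomputable def act' (σ : L ≃ₐ[K] L) (J : (Ideal (L ⊗[K] A))⁰) : (Ideal (L ⊗[K] A))⁰ :=
  nz (act σ J) (act_ne_bot (ne_bot_of_nzd J))

theorem coe_act' (σ : L ≃ₐ[K] L) (J : (Ideal (L ⊗[K] A))⁰) :
    (act' σ J : Ideal (L ⊗[K] A)) = act σ J := rfl

theorem act'_mul (σ : L ≃ₐ[K] L) (I J : (Ideal (L ⊗[K] A))⁰) :
    act' σ (I * J) = act' σ I * act' σ J :=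
  Subtype.ext (act_mul σ _ _)

theorem act'_pow (σ : L ≃ₐ[K] L) (I : (Ideal (L ⊗[K] A))⁰) (n : ℕ) :
    act' σ (I ^ n) = act' σ I ^ n :=
  Subtype.ext (by
    rw [coe_act', SubmonoidClass.coe_pow, SubmonoidClass.coe_pow, act_pow]; rfl)

theorem mk0_act'_eq {σ : L ≃ₐ[K] L} {I J : (Ideal (L ⊗[K] A))⁰}
    (h : ClassGroup.mk0 I = ClassGroup.mk0 J) :
    ClassGroup.mk0 (act' σ I) = ClassGroup.mk0 (act' σ J) := by
  rw [ClassGroup.mk0_eq_mk0_iff] at h ⊢
  obtain ⟨x, y, hx, hy, h⟩ := h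
  refine ⟨(bcEquiv A σ : L ⊗[K] A ≃+* L ⊗[K] A) x, (bcEquiv A σ : L ⊗[K] A ≃+* L ⊗[K] A) y,
    by simpa using hx, by simpa using hy, ?_⟩
  rw [← act_span, ← act_span, coe_act', coe_act', ← act_mul, ← act_mul, h]

theorem exists_aut_inv (σ : L ≃ₐ[K] L) (J : (Ideal (L ⊗[K] A))⁰) : act' σ (act' σ.symm J) = J := by
  apply Subtype.ext
  rw [coe_act', coe_act', act, act, Ideal.map_map]
  convert Ideal.map_id (J : Ideal (L ⊗[K] A))
  apply RingHom.ext
  intro b
  show bcMap A (σ : L →ₐ[K] L) (bcMap A (σ.symm : L →ₐ[K] L) b) = b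
  induction b using TensorProduct.induction_on with
  | zero => simp
  | tmul l a => rw [bcMap_tmul, bcMap_tmul]; simp
  | add x y hx hy => rw [map_add, map_add, hx, hy]

include G in
theorem minimal_act' {J : (Ideal (L ⊗[K] A))⁰} (σ : L ≃ₐ[K] L)
    (hmin : ∀ n ∈ (G.baseChange L).D (ClassGroup.mk0 J),
      codim ((J : Ideal (L ⊗[K] A)).restrictScalars L) ≤ n) :
    ∀ n ∈ (G.baseChange L).D (ClassGroup.mk0 (act' σ J)),
      codim ((act' σ J : Ideal (L ⊗[K] A)).restrictScalars L) ≤ n := by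
  rintro _ ⟨I, hI, rfl⟩
  rw [coe_act', G.codim_act]
  have h1 : ClassGroup.mk0 (act' σ.symm I) = ClassGroup.mk0 J := by
    rw [mk0_act'_eq hI]
    congr 1
    exact exists_aut_inv σ.symm J
  have := hmin _ ⟨_, h1, rfl⟩
  rwa [coe_act', G.codim_act] at this

include G in
/-- a class with finite orbit comes from the base -/
theorem exists_descend {J : (Ideal (L ⊗[K] A))⁰}
    (h : (Set.range fun σ : L ≃ₐ[K] L => ClassGroup.mk0 (act' σ J)).Finite) :
    ∃ I₀ : Ideal A, ∃ h0 : I₀ ≠ ⊥, ClassGroup.mk0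
      (nz (extI (K := K) L I₀) ((G.extI_ne_bot_iff I₀).mpr h0)) = ClassGroup.mk0 J := by
  obtain ⟨I, hI, hmin⟩ := (G.baseChange L).exists_minimal (ClassGroup.mk0 J)
  rw [← hI] at hmin
  have hfin : (Set.range fun σ : L ≃ₐ[K] L => act σ (I : Ideal (L ⊗[K] A))).Finite := by
    have h2 : (Set.range fun σ : L ≃ₐ[K] L => ClassGroup.mk0 (act' σ I)).Finite := by
      convert h using 3 with σ
      exact mk0_act'_eq hI
    -- the map class ↦ ideal
    refine Set.Finite.of_surjOn (s := Set.range fun σ : L ≃ₐ[K] L => ClassGroup.mk0 (act' σ I))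
      (f := fun c => ((((G.baseChange L).exists_minimal c).choose : (Ideal (L ⊗[K] A))⁰) :
        Ideal (L ⊗[K] A))) ?_ h2
    rintro _ ⟨σ, rfl⟩
    refine ⟨_, ⟨σ, rfl⟩, ?_⟩
    have hs := ((G.baseChange L).exists_minimal (ClassGroup.mk0 (act' σ I))).choose_spec
    set I' := ((G.baseChange L).exists_minimal (ClassGroup.mk0 (act' σ I))).choose
    have hmin' := G.minimal_act' σ hmin
    have : I' = act' σ I := by
      apply (G.baseChange L).eq_of_minimal hs.1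
      · apply le_antisymm
        · exact hs.2 _ ⟨_, rfl, rfl⟩
        · exact hmin' _ ⟨_, hs.1, rfl⟩
      · rw [hs.1]; exact hs.2
    show (I' : Ideal (L ⊗[K] A)) = _
    rw [this]; rfl
  have hext := G.eq_extI_of_finite_orbit hfin
  have h0 : (I : Ideal (L ⊗[K] A)).comap (inc K A L : A →+* L ⊗[K] A) ≠ ⊥ := by
    have := ne_bot_of_nzd I
    rwa [hext, G.extI_ne_bot_iff] at this
  refine ⟨_, h0, ?_⟩
  rw [← hI]
  congr 1
  exact Subtype.ext hext.symm

theorem finite_tors {C : Type*} [CommGroup C] {n N : ℕ} (hN : 0 < N)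
    (h : Nat.card {x : C // x ^ n = 1} = N) (c : C) : {x : C | x ^ n = c}.Finite := by
  haveI : Finite {x : C // x ^ n = 1} := Nat.finite_of_card_ne_zero (by omega)
  by_cases hc : ∃ y : C, y ^ n = c
  · obtain ⟨y, hy⟩ := hc
    refine (Set.finite_range (fun x : {x : C // x ^ n = 1} => x.1 * y)).subset ?_
    intro x hx
    refine ⟨⟨x * y⁻¹, ?_⟩, by simp⟩
    rw [mul_pow, inv_pow, hy, hx, mul_inv_cancel]
  · convert Set.finite_empty
    rw [Set.eq_empty_iff_forall_notMem]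
    intro x hx
    exact hc ⟨x, hx⟩

include G in
theorem torsCount_descend {n N : ℕ} (hn : 0 < n) (hN : 0 < N) (h : TorsCount (L ⊗[K] A) n N) :
    TorsCount A n N := by
  have hcard := (torsCount_iff hn N hN).mp h
  obtain ⟨I, h0, h1, h2, h3⟩ := h
  have hex : ∀ r, ∃ I₀ : Ideal A, ∃ h0' : I₀ ≠ ⊥, ClassGroup.mk0
      (nz (extI (K := K) L I₀) ((G.extI_ne_bot_iff I₀).mpr h0')) =
        ClassGroup.mk0 (nz (I r) (h0 r)) := by
    intro r
    apply G.exists_descend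
    refine (finite_tors hN hcard 1).subset ?_
    rintro _ ⟨σ, rfl⟩
    show _ ^ n = 1
    rw [← map_pow, ← act'_pow]
    rw [ClassGroup.mk0_eq_one_iff, coe_act', SubmonoidClass.coe_pow]
    obtain ⟨x, hx⟩ := h1 r
    refine ⟨(bcEquiv A σ : L ⊗[K] A ≃+* L ⊗[K] A) x, ?_⟩
    show act σ (I r ^ n) = _
    rw [hx]
    exact act_span σ x
  choose I₀ hI₀ hcl using hex
  have hmul : ∀ {I J : Ideal A}, I ≠ ⊥ → J ≠ ⊥ → I * J ≠ ⊥ := fun h h' => G.mul_ne_bot h h'
  have hpow : ∀ {I : Ideal A} (m : ℕ), I ≠ ⊥ → I ^ m ≠ ⊥ := fun m h => by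
    haveI := G.isDomain
    exact pow_ne_zero m h
  have hE : ∀ {I : Ideal A}, I ≠ ⊥ → extI (K := K) L I ≠ ⊥ := fun h => (G.extI_ne_bot_iff _).mpr h
  refine ⟨I₀, hI₀, fun r => ?_, fun r s hrs hp => ?_, fun J hJ hJn => ?_⟩
  · rw [← G.isPrincipal_extI_iff (L := L) (hpow n (hI₀ r)), extI_pow, ← mk0_nz_pow_iff (hE (hI₀ r)),
      hcl, mk0_nz_pow_iff]
    exact h1 r
  · rw [← G.isPrincipal_extI_iff (L := L) (hmul (hI₀ r) (hpow _ (hI₀ s))), extI_mul,
      extI_pow, ← mk0_nz_mul_pow_iff (hE (hI₀ r)) (hE (hI₀ s)), hcl, hcl, mk0_nz_mul_pow_iff] at hp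
    exact h2 r s hrs hp
  · have hJn' : (extI (K := K) L J ^ n).IsPrincipal := by
      rw [← extI_pow, G.isPrincipal_extI_iff (hpow n hJ)]
      exact hJn
    obtain ⟨r, hr⟩ := h3 (extI (K := K) L J) (hE hJ) hJn'
    refine ⟨r, ?_⟩
    rw [← G.isPrincipal_extI_iff (L := L) (hmul hJ (hpow _ (hI₀ r))), extI_mul, extI_pow,
      ← mk0_nz_mul_pow_iff (hE hJ) (hE (hI₀ r)), hcl, mk0_nz_mul_pow_iff]
    exact hr

include G in
theorem divBy_descend {n N : ℕ} (hn : 0 < n) (hN : 0 < N) (h : TorsCount (L ⊗[K] A) n N)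
    (hd : DivBy (L ⊗[K] A) n) : DivBy A n := by
  have hcard := (torsCount_iff hn N hN).mp h
  have hE : ∀ {I : Ideal A}, I ≠ ⊥ → extI (K := K) L I ≠ ⊥ := fun h => (G.extI_ne_bot_iff _).mpr h
  intro J hJ
  obtain ⟨I, hI, hp⟩ := hd (extI (K := K) L J) (hE hJ)
  have hfin : (Set.range fun σ : L ≃ₐ[K] L => ClassGroup.mk0 (act' σ (nz I hI))).Finite := by
    refine (finite_tors hN hcard (ClassGroup.mk0 (nz (extI (K := K) L J) (hE hJ)))⁻¹).subset ?_
    rintro _ ⟨σ, rfl⟩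
    show _ ^ n = _
    rw [eq_inv_iff_mul_eq_one, mul_comm]
    refine (mk0_nz_mul_pow_iff (hE hJ) (act_ne_bot hI) n).mpr ?_
    obtain ⟨x, hx⟩ := hp
    refine ⟨(bcEquiv A σ : L ⊗[K] A ≃+* L ⊗[K] A) x, ?_⟩
    have h6 : act σ (extI (K := K) L J * I ^ n) = act σ (Ideal.span {x}) := by
      rw [hx]
    rw [act_span, act_mul, act_extI, act_pow] at h6
    exact h6
  obtain ⟨I₀, hI₀, hcl⟩ := G.exists_descend hfin
  refine ⟨I₀, hI₀, ?_⟩
  haveI := G.isDomain
  rw [← G.isPrincipal_extI_iff (L := L) (G.mul_ne_bot hJ (pow_ne_zero n hI₀)), extI_mul, extI_pow,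
    ← mk0_nz_mul_pow_iff (hE hJ) (hE hI₀), hcl, mk0_nz_mul_pow_iff]
  exact hp

end tors

end GapAlg

end Fermat.Agent.S27
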