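import Fermat.Agent.S27.GapDed

set_option autoImplicit false
set_option linter.style.haveILetI false
set_option linter.deprecated false
set_option linter.unusedSectionVars false

/-! The degree on the fraction field. -/

namespace Fermat.Agent.S27

open Module nonZeroDivisors

theorem exists_bound_cofin (S : AddSubmonoid ℕ) [Cofin S] : ∃ N : ℕ, ∀ n, N ≤ n → n ∈ S := by
  obtain ⟨N, hN⟩ := (Cofin.fin (S := S)).bddAbove
  refine ⟨N + 1, fun n hn => ?_⟩
  by_contra h
  have := hN h
  omega

theorem gaps_inter_le (S : AddSubmonoid ℕ) [Cofin S] (N : ℕ) :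
    N + 1 ≤ {n | n ∈ S ∧ n ≤ N}.ncard + gaps S := by
  have h1 : ((Finset.range (N + 1) : Finset ℕ) : Set ℕ) ⊆ {n | n ∈ S ∧ n ≤ N} ∪ {n | n ∉ S} := by
    intro n hn
    simp only [Finset.coe_range, Set.mem_Iio] at hn
    by_cases h : n ∈ S
    · exact Or.inl ⟨h, by omega⟩
    · exact Or.inr h
  have hfin : {n | n ∈ S ∧ n ≤ N}.Finite := (Set.finite_Iic N).subset (fun n hn => hn.2)
  have h2 := Set.ncard_le_ncard h1 (hfin.union Cofin.fin)
  rw [Set.ncard_coe_finset, Finset.card_range] at h2
  exact h2.trans (Set.ncard_union_le _ _)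

namespace GapAlg

section

variable {k B : Type*} [Field k] [CommRing B] [Algebra k B] {S : AddSubmonoid ℕ} [Cofin S]
  (G : GapAlg k B S)

theorem le_eq_span (N : ℕ) : G.le N = Submodule.span k (G.e '' {s : S | (s : ℕ) ≤ N}) := by
  ext b
  rw [Basis.mem_span_image, G.mem_le, G.deg_le_iff]
  constructor
  · intro h s hs
    by_contra hlt
    have := h s (by simpa using hlt)
    rw [G.coeff_of_mem s.2] at this
    exact (Finsupp.mem_support_iff.mp hs) this
  · intro h m hm
    by_cases hS : m ∈ S
    · rw [G.coeff_of_mem hS]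
      by_contra hne
      have : m ≤ N := h (Finsupp.mem_support_iff.mpr hne)
      omega
    · exact G.coeff_of_notMem hS b

theorem finite_setOf_le (N : ℕ) : {s : S | (s : ℕ) ≤ N}.Finite := by
  apply Set.Finite.of_finite_image (f := Subtype.val) _ Subtype.val_injective.injOn
  exact (Set.finite_Iic N).subset (by rintro _ ⟨s, hs, rfl⟩; exact hs)

theorem ncard_setOf_le (N : ℕ) : {s : S | (s : ℕ) ≤ N}.ncard = {n | n ∈ S ∧ n ≤ N}.ncard := by
  rw [← Set.ncard_image_of_injective _ (Subtype.val_injective (p := fun n => n ∈ S))]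
  congr 1
  ext n
  simp only [Set.mem_image, Set.mem_setOf_eq, Subtype.exists, exists_and_right, exists_eq_right]
  constructor
  · rintro ⟨h, h'⟩; exact ⟨h, h'⟩
  · rintro ⟨h, h'⟩; exact ⟨h, h'⟩

theorem finite_le (N : ℕ) : Module.Finite k (G.le N) := by
  rw [G.le_eq_span]
  exact Module.Finite.span_of_finite k ((finite_setOf_le N).image _)

theorem finrank_le (N : ℕ) : Module.finrank k (G.le N) = {n | n ∈ S ∧ n ≤ N}.ncard := by
  rw [G.le_eq_span, Set.image_eq_range]
  haveI := (finite_setOf_le (S := S) N).to_subtype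
  have : LinearIndependent k (fun s : {s : S | (s : ℕ) ≤ N} => G.e s) :=
    G.e.linearIndependent.comp _ Subtype.val_injective
  rw [Module.finrank_eq_nat_card_basis (Basis.span this), Nat.card_coe_set_eq, ncard_setOf_le]

theorem le_finrank_le (N : ℕ) : N + 1 ≤ Module.finrank k (G.le N) + gaps S := by
  rw [G.finrank_le]; exact gaps_inter_le S N

end

section frac

variable {k B F : Type*} [Field k] [CommRing B] [Algebra k B] {S : AddSubmonoid ℕ} [Cofin S]
  (G : GapAlg k B S) [Field F] [Algebra B F] [IsFractionRing B F] [Algebra k F]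
  [IsScalarTower k B F]

/-- degree on the fraction field (junk at `0`) -/
noncomputable def fdeg (x : F) : ℤ :=
  (G.deg (IsFractionRing.div_surjective B x).choose : ℤ) -
    G.deg (IsFractionRing.div_surjective B x).choose_spec.choose

include G in
theorem algebraMap_ne_zero {a : B} (ha : a ≠ 0) : algebraMap B F a ≠ 0 := by
  intro h
  exact ha ((IsFractionRing.injective B F) (by rw [h, map_zero]))

theorem fdeg_div {a b : B} (ha : a ≠ 0) (hb : b ≠ 0) :
    G.fdeg (algebraMap B F a / algebraMap B F b) = G.deg a - G.deg b := by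
  haveI := G.isDomain
  have key : ∀ a' b' : B, b' ∈ B⁰ →
      algebraMap B F a' / algebraMap B F b' = algebraMap B F a / algebraMap B F b →
      (G.deg a' : ℤ) - G.deg b' = G.deg a - G.deg b := by
    intro a' b' hb' h
    have hb'0 : b' ≠ 0 := nonZeroDivisors.ne_zero hb'
    have ha'0 : a' ≠ 0 := by
      rintro rfl
      rw [map_zero, zero_div] at h
      exact div_ne_zero (G.algebraMap_ne_zero ha) (G.algebraMap_ne_zero hb) h.symm
    have hcross : a' * b = a * b' := by
      apply IsFractionRing.injective B F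
      rw [map_mul, map_mul]
      rwa [div_eq_div_iff (G.algebraMap_ne_zero hb'0) (G.algebraMap_ne_zero hb)] at h
    have hd := congrArg G.deg hcross
    rw [G.deg_mul ha'0 hb, G.deg_mul ha hb'0] at hd
    omega
  exact key _ _ (IsFractionRing.div_surjective B _).choose_spec.choose_spec.1
    (IsFractionRing.div_surjective B _).choose_spec.choose_spec.2

include G in
theorem exists_rep {x : F} (hx : x ≠ 0) :
    ∃ a b : B, a ≠ 0 ∧ b ≠ 0 ∧ x = algebraMap B F a / algebraMap B F b := by
  haveI := G.isDomain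
  obtain ⟨a, b, hb, rfl⟩ := IsFractionRing.div_surjective B x
  refine ⟨a, b, ?_, nonZeroDivisors.ne_zero hb, rfl⟩
  rintro rfl
  simp at hx

theorem fdeg_mul {x y : F} (hx : x ≠ 0) (hy : y ≠ 0) : G.fdeg (x * y) = G.fdeg x + G.fdeg y := by
  obtain ⟨a, b, ha, hb, rfl⟩ := G.exists_rep hx
  obtain ⟨c, d, hc, hd, rfl⟩ := G.exists_rep hy
  rw [div_mul_div_comm, ← map_mul, ← map_mul, G.fdeg_div (G.mul_ne_zero' ha hc)
    (G.mul_ne_zero' hb hd), G.fdeg_div ha hb, G.fdeg_div hc hd, G.deg_mul ha hc, G.deg_mul hb hd]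
  push_cast
  ring

theorem fdeg_algebraMap {a : B} (ha : a ≠ 0) : G.fdeg (algebraMap B F a) = G.deg a := by
  haveI := G.nontrivial
  have := G.fdeg_div (F := F) ha one_ne_zero
  rw [map_one, div_one, G.deg_one] at this
  simpa using this

theorem fdeg_one : G.fdeg (1 : F) = 0 := by
  haveI := G.nontrivial
  have := G.fdeg_algebraMap (F := F) (a := 1) one_ne_zero
  rwa [map_one, G.deg_one] at this

theorem fdeg_inv {x : F} (hx : x ≠ 0) : G.fdeg x⁻¹ = - G.fdeg x := by
  have := G.fdeg_mul hx (inv_ne_zero hx)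
  rw [mul_inv_cancel₀ hx, G.fdeg_one] at this
  omega

theorem fdeg_div' {x y : F} (hx : x ≠ 0) (hy : y ≠ 0) : G.fdeg (x / y) = G.fdeg x - G.fdeg y := by
  rw [div_eq_mul_inv, G.fdeg_mul hx (inv_ne_zero hy), G.fdeg_inv hy]; ring

include G in
theorem exists_common (x y : F) :
    ∃ a b c : B, c ≠ 0 ∧ x = algebraMap B F a / algebraMap B F c ∧
      y = algebraMap B F b / algebraMap B F c := by
  haveI := G.isDomain
  obtain ⟨a, b, hb, rfl⟩ := IsFractionRing.div_surjective B x
  obtain ⟨c, d, hd, rfl⟩ := IsFractionRing.div_surjective B y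
  have hb0 := nonZeroDivisors.ne_zero hb
  have hd0 := nonZeroDivisors.ne_zero hd
  have hb' := G.algebraMap_ne_zero (F := F) hb0
  have hd' := G.algebraMap_ne_zero (F := F) hd0
  refine ⟨a * d, c * b, b * d, G.mul_ne_zero' hb0 hd0, ?_, ?_⟩
  · rw [map_mul, map_mul]; field_simp
  · rw [map_mul, map_mul]; field_simp

/-- elements of degree `< n` (and zero) -/
def FL (n : ℤ) : Submodule k F where
  carrier := {x | x = 0 ∨ G.fdeg x < n}
  zero_mem' := Or.inl rfl
  add_mem' := by
    intro x y hx hy
    obtain ⟨a, b, c, hc, rfl, rfl⟩ := G.exists_common x y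
    rw [Set.mem_setOf_eq] at hx hy ⊢
    have hc' := G.algebraMap_ne_zero (F := F) hc
    by_cases ha : a = 0
    · subst ha; simpa using hy
    by_cases hb : b = 0
    · subst hb; simpa using hx
    rw [← add_div, ← map_add]
    by_cases hab : a + b = 0
    · left; rw [hab]; simp
    · right
      rw [G.fdeg_div hab hc]
      rw [G.fdeg_div ha hc] at hx
      rw [G.fdeg_div hb hc] at hy
      have h1 : (G.deg a : ℤ) - G.deg c < n := by
        rcases hx with h | h
        · exact absurd h (div_ne_zero (G.algebraMap_ne_zero ha) hc')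
        · exact h
      have h2 : (G.deg b : ℤ) - G.deg c < n := by
        rcases hy with h | h
        · exact absurd h (div_ne_zero (G.algebraMap_ne_zero hb) hc')
        · exact h
      have h3 := G.deg_add_le a b
      rcases le_max_iff.mp h3 with h4 | h4 <;> omega
  smul_mem' := by
    intro c x hx
    rw [Set.mem_setOf_eq] at hx ⊢
    by_cases hc : c = 0
    · subst hc; simp
    by_cases hx0 : x = 0
    · subst hx0; simp
    right
    rcases hx with h | h
    · exact absurd h hx0
    have hcB : algebraMap k B c ≠ 0 := by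
      intro h0
      have h1 := congrArg (algebraMap B F) h0
      rw [← IsScalarTower.algebraMap_apply, map_zero] at h1
      exact hc ((algebraMap k F).injective (by rw [h1, map_zero]))
    rw [Algebra.smul_def, IsScalarTower.algebraMap_apply k B F,
      G.fdeg_mul (G.algebraMap_ne_zero hcB) hx0, G.fdeg_algebraMap hcB, G.deg_algebraMap]
    simpa using h

theorem mem_FL {n : ℤ} {x : F} : x ∈ G.FL n ↔ x = 0 ∨ G.fdeg x < n := Iff.rfl

theorem FL_mono {m n : ℤ} (h : m ≤ n) : (G.FL m : Submodule k F) ≤ G.FL n := by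
  rintro x (hx | hx)
  · exact Or.inl hx
  · exact Or.inr (lt_of_lt_of_le hx h)

theorem exists_sub_smul_mem_FL {x z : F} {n : ℤ} (hx : x ∈ (G.FL (n + 1) : Submodule k F))
    (hz : z ≠ 0) (hzn : G.fdeg z = n) : ∃ c : k, x - c • z ∈ (G.FL n : Submodule k F) := by
  obtain ⟨a, b, c, hc, rfl, rfl⟩ := G.exists_common x z
  have hc' := G.algebraMap_ne_zero (F := F) hc
  have hb : b ≠ 0 := by rintro rfl; simp at hz
  rw [G.fdeg_div hb hc] at hzn
  have ha' : G.deg a ≤ G.deg b := by
    by_cases ha : a = 0
    · subst ha; rw [G.deg_zero]; exact Nat.zero_le _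
    rcases hx with h | h
    · exact absurd h (div_ne_zero (G.algebraMap_ne_zero ha) hc')
    · rw [G.fdeg_div ha hc] at h; omega
  obtain ⟨t, -, ht⟩ := G.exists_sub_smul ha' hb rfl
  refine ⟨t, ?_⟩
  have h1 : algebraMap B F a / algebraMap B F c - t • (algebraMap B F b / algebraMap B F c) =
      algebraMap B F (a - t • b) / algebraMap B F c := by
    rw [Algebra.smul_def, Algebra.smul_def, map_sub, map_mul, ← IsScalarTower.algebraMap_apply]
    ring
  rw [h1]
  rcases ht with ht | ht
  · rw [ht]; left; simp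
  · by_cases h0 : a - t • b = 0
    · rw [h0]; left; simp
    · right
      rw [G.fdeg_div h0 hc]
      omega

include G in
theorem exists_fdeg_eq (F : Type*) [Field F] [Algebra B F] [IsFractionRing B F] [Algebra k F]
    [IsScalarTower k B F] (n : ℤ) :
    ∃ z : F, z ≠ 0 ∧ G.fdeg z = n := by
  obtain ⟨N, hN⟩ := exists_bound_cofin S
  refine ⟨algebraMap B F (G.e ⟨N + n.toNat, hN _ (by omega)⟩) /
    algebraMap B F (G.e ⟨N + (-n).toNat, hN _ (by omega)⟩), ?_, ?_⟩
  · exact div_ne_zero (G.algebraMap_ne_zero (G.e.ne_zero _)) (G.algebraMap_ne_zero (G.e.ne_zero _))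
  · rw [G.fdeg_div (G.e.ne_zero _) (G.e.ne_zero _), G.deg_e, G.deg_e]
    push_cast
    omega

/-- the image of `B` in `F` as a subspace -/
def BF (_G : GapAlg k B S) (F : Type*) [Field F] [Algebra B F] [Algebra k F]
    [IsScalarTower k B F] : Submodule k F :=
  LinearMap.range (IsScalarTower.toAlgHom k B F).toLinearMap

theorem mem_BF {x : F} : x ∈ G.BF F ↔ ∃ b : B, algebraMap B F b = x := by
  simp [BF]

theorem algebraMap_mem_BF (b : B) : algebraMap B F b ∈ G.BF F := G.mem_BF.mpr ⟨b, rfl⟩

/-- existence of functionals with prescribed order -/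
theorem exists_functional (F : Type*) [Field F] [Algebra B F] [IsFractionRing B F] [Algebra k F]
    [IsScalarTower k B F] {m : ℤ} (hm : ∀ s ∈ S, (s : ℤ) ≠ m) :
    ∃ l : F →ₗ[k] k, (∀ b : B, l (algebraMap B F b) = 0) ∧
      (∀ x ∈ (G.FL m : Submodule k F), l x = 0) ∧ (∀ x, x ≠ 0 → G.fdeg x = m → l x ≠ 0) := by
  obtain ⟨z, hz0, hz⟩ := G.exists_fdeg_eq F m
  have hnot : z ∉ G.BF F ⊔ G.FL m := by
    intro h
    obtain ⟨y, hy, w, hw, hyw⟩ := Submodule.mem_sup.mp h
    obtain ⟨b, rfl⟩ := G.mem_BF.mp hy
    have hb0 : b ≠ 0 := by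
      rintro rfl
      rw [map_zero, zero_add] at hyw
      rcases hw with hw | hw
      · exact hz0 (by rw [← hyw, hw])
      · rw [hyw] at hw; omega
    have hb : algebraMap B F b ∈ (G.FL (m + 1) : Submodule k F) := by
      have h1 : z ∈ (G.FL (m + 1) : Submodule k F) := Or.inr (by omega)
      have h2 := Submodule.sub_mem _ h1 (G.FL_mono (show m ≤ m + 1 by omega) hw)
      rwa [← hyw, add_sub_cancel_right] at h2
    have hb' : ¬ algebraMap B F b ∈ (G.FL m : Submodule k F) := by
      intro h1
      have h2 := Submodule.add_mem _ h1 hw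
      rw [hyw] at h2
      rcases h2 with h2 | h2
      · exact hz0 h2
      · omega
    have h3 : G.fdeg (algebraMap B F b) = m := by
      have hne := G.algebraMap_ne_zero (F := F) hb0
      have h4 : ¬ G.fdeg (algebraMap B F b) < m := fun h => hb' (Or.inr h)
      rcases hb with h5 | h5
      · exact absurd h5 hne
      · omega
    rw [G.fdeg_algebraMap hb0] at h3
    exact hm _ (G.deg_mem b) h3
  obtain ⟨l, hl, hle⟩ := Submodule.exists_le_ker_of_notMem hnot
  refine ⟨l, fun b => ?_, fun x hx => ?_, fun x hx0 hx => ?_⟩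
  · exact hle (Submodule.mem_sup_left (G.algebraMap_mem_BF b))
  · exact hle (Submodule.mem_sup_right hx)
  · obtain ⟨c, hc⟩ := G.exists_sub_smul_mem_FL (x := z) (z := x) (n := m)
      (Or.inr (by omega)) hx0 hx
    have h1 : l (z - c • x) = 0 := hle (Submodule.mem_sup_right hc)
    rw [map_sub, map_smul, sub_eq_zero] at h1
    intro h2
    rw [h2, smul_zero] at h1
    exact hl h1

open Classical in
/-- integers in `[M, c)` not in `S` -/
noncomputable def gapFin (S : AddSubmonoid ℕ) (M c : ℤ) : Finset ℤ :=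
  (Finset.Ico M c).filter (fun j => ∀ s ∈ S, (s : ℤ) ≠ j)

theorem card_gapFin_le (M c : ℤ) : (gapFin S M c).card ≤ gaps S + (-M).toNat := by
  classical
  have h1 : gapFin S M c ⊆ (Finset.Ico M 0) ∪ Finset.image (fun n : ℕ => (n : ℤ)) (Cofin.fin (S := S)).toFinset := by
    intro j hj
    simp only [gapFin, Finset.mem_filter, Finset.mem_Ico] at hj
    simp only [Finset.mem_union, Finset.mem_Ico, Finset.mem_image, Set.Finite.mem_toFinset,
      Set.mem_setOf_eq]
    by_cases h : j < 0
    · left; omega
    · right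
      refine ⟨j.toNat, fun hs => hj.2 _ hs (by omega), by omega⟩
  have h2 := Finset.card_le_card h1
  have h3 := Finset.card_union_le (Finset.Ico M 0)
    (Finset.image (fun n : ℕ => (n : ℤ)) (Cofin.fin (S := S)).toFinset)
  have h4 : (Finset.image (fun n : ℕ => (n : ℤ)) (Cofin.fin (S := S)).toFinset).card ≤ gaps S := by
    refine Finset.card_image_le.trans ?_
    rw [gaps, Set.ncard_eq_toFinset_card _ (Cofin.fin (S := S))]
  rw [Int.card_Ico] at h3
  have : (0 - M).toNat = (-M).toNat := by congr 1; ring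
  omega

theorem finite_quot_aux (F : Type*) [Field F] [Algebra B F] [IsFractionRing B F] [Algebra k F]
    [IsScalarTower k B F] (M : ℤ) :
    Module.Finite k (F ⧸ (G.BF F ⊔ G.FL M)) ∧
      Module.finrank k (F ⧸ (G.BF F ⊔ G.FL M)) ≤ gaps S + (-M).toNat := by
  classical
  obtain ⟨N, hN⟩ := exists_bound_cofin S
  choose z hz0 hz using G.exists_fdeg_eq F
  set W : Submodule k F := G.BF F ⊔ G.FL M with hW
  set T := (gapFin S M N).image (fun j => W.mkQ (z j)) with hT
  have key : ∀ n : ℕ, ∀ x : F, x ∈ (G.FL (M + n) : Submodule k F) →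
      W.mkQ x ∈ Submodule.span k (T : Set (F ⧸ W)) := by
    intro n
    induction n with
    | zero =>
      intro x hx
      have : W.mkQ x = 0 := by
        rw [Submodule.mkQ_apply, Submodule.Quotient.mk_eq_zero]
        exact Submodule.mem_sup_right (by simpa using hx)
      rw [this]; exact Submodule.zero_mem _
    | succ n ih =>
      intro x hx
      have hx' : x ∈ (G.FL ((M + n) + 1) : Submodule k F) := by
        convert hx using 2; push_cast; ring
      by_cases hS : ∃ s ∈ S, (s : ℤ) = M + n
      · obtain ⟨s, hs, hsn⟩ := hS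
        obtain ⟨c, hc⟩ := G.exists_sub_smul_mem_FL hx' (z := algebraMap B F (G.e ⟨s, hs⟩))
          (G.algebraMap_ne_zero (G.e.ne_zero _))
          (by rw [G.fdeg_algebraMap (G.e.ne_zero _), G.deg_e]; exact hsn)
        have h1 := ih _ hc
        rw [map_sub] at h1
        have h2 : W.mkQ (c • algebraMap B F (G.e ⟨s, hs⟩)) = 0 := by
          rw [Submodule.mkQ_apply, Submodule.Quotient.mk_eq_zero]
          exact Submodule.smul_mem _ _ (Submodule.mem_sup_left (G.algebraMap_mem_BF _))
        rwa [h2, sub_zero] at h1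
      · obtain ⟨c, hc⟩ := G.exists_sub_smul_mem_FL hx' (hz0 (M + n)) (hz (M + n))
        have h1 := ih _ hc
        rw [map_sub, map_smul] at h1
        have hmem : M + n ∈ gapFin S M N := by
          simp only [gapFin, Finset.mem_filter, Finset.mem_Ico]
          push Not at hS
          refine ⟨⟨by omega, ?_⟩, hS⟩
          by_contra hlt
          push Not at hlt
          exact hS (M + n).toNat (hN _ (by omega)) (by omega)
        have h2 : c • W.mkQ (z (M + n)) ∈ Submodule.span k (T : Set (F ⧸ W)) := by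
          apply Submodule.smul_mem
          apply Submodule.subset_span
          rw [hT, Finset.coe_image]
          exact ⟨_, hmem, rfl⟩
        have := Submodule.add_mem _ h1 h2
        simpa using this
  have hspan : Submodule.span k (T : Set (F ⧸ W)) = ⊤ := by
    rw [eq_top_iff]
    intro y _
    obtain ⟨x, rfl⟩ := Submodule.mkQ_surjective W y
    by_cases hx0 : x = 0
    · rw [hx0, map_zero]; exact Submodule.zero_mem _
    apply key (G.fdeg x + 1 - M).toNat
    right
    omega
  have hfin : Module.Finite k (F ⧸ W) := ⟨⟨T, hspan⟩⟩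
  refine ⟨hfin, ?_⟩
  have h1 := finrank_span_finset_le_card (R := k) T
  rw [Set.finrank, hspan, finrank_top] at h1
  refine h1.trans (Finset.card_image_le.trans (card_gapFin_le M N))

end frac

end GapAlg

end Fermat.Agent.S27
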