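import Fermat.Agent.S27.UltraGap

set_option autoImplicit false
set_option linter.style.haveILetI false
set_option linter.deprecated false
set_option linter.unusedSectionVars false

/-! Regularity of `GapAlg`s over algebraically closed fields in terms of codimensions. -/

namespace Fermat.Agent.S27

open Module

namespace GapAlg

section lin

variable {k B : Type*} [Field k] [AddCommGroup B] [Module k B]

theorem finrank_quot_inf {V W : Submodule k B} (h : V ⊔ W = ⊤) [Module.Finite k (B ⧸ V)]
    [Module.Finite k (B ⧸ W)] :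
    Module.finrank k (B ⧸ (V ⊓ W)) = Module.finrank k (B ⧸ V) + Module.finrank k (B ⧸ W) := by
  have hker : LinearMap.ker (V.mkQ.prod W.mkQ) = V ⊓ W := by
    rw [LinearMap.ker_prod, Submodule.ker_mkQ, Submodule.ker_mkQ]
  have hsurj : Function.Surjective (V.mkQ.prod W.mkQ) := by
    rw [← LinearMap.range_eq_top, LinearMap.range_prod_eq, Submodule.range_mkQ,
      Submodule.range_mkQ, Submodule.prod_top]
    rw [Submodule.ker_mkQ, Submodule.ker_mkQ, h]
  have e := LinearMap.quotKerEquivOfSurjective _ hsurj
  rw [← Module.finrank_prod, ← e.finrank_eq, hker]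

end lin

section mul

variable {k B : Type*} [Field k] [CommRing B] [Algebra k B] {S : AddSubmonoid ℕ}
  [Cofin S] (G : GapAlg k B S)

theorem add_mem_degSet_mul {I J : Ideal B} {m n : ℕ} (hm : m ∈ G.degSet (I.restrictScalars k))
    (hn : n ∈ G.degSet (J.restrictScalars k)) :
    m + n ∈ G.degSet ((I * J).restrictScalars k) := by
  obtain ⟨v, hv, hv0, rfl⟩ := hm
  obtain ⟨w, hw, hw0, rfl⟩ := hn
  exact ⟨v * w, Ideal.mul_mem_mul hv hw, G.mul_ne_zero' hv0 hw0, G.deg_mul hv0 hw0⟩

include G in
theorem mul_ne_bot {I J : Ideal B} (hI : I ≠ ⊥) (hJ : J ≠ ⊥) : I * J ≠ ⊥ := by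
  haveI := G.isDomain
  exact mul_ne_zero hI hJ

include G in
theorem codim_mul_le {I J : Ideal B} (hI : I ≠ ⊥) (hJ : J ≠ ⊥) :
    codim ((I * J).restrictScalars k) ≤
      gaps S + codim (I.restrictScalars k) + codim (J.restrictScalars k) := by
  haveI := G.finite_ideal hI
  haveI := G.finite_ideal hJ
  haveI := G.finite_ideal (G.mul_ne_bot hI hJ)
  have hf1 := G.finite_notMem_degSet (I.restrictScalars k)
  have hf2 := G.finite_notMem_degSet (J.restrictScalars k)
  have key : {n | n ∉ G.degSet ((I * J).restrictScalars k)} ⊆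
      ((Finset.range (2 * gaps S + codim (I.restrictScalars k) + codim (J.restrictScalars k)) :
        Finset ℕ) : Set ℕ) := by
    intro n hn
    rw [Finset.coe_range, Set.mem_Iio]
    have hcov : ((Finset.range (n + 1) : Finset ℕ) : Set ℕ) ⊆
        {i | i ∉ G.degSet (I.restrictScalars k)} ∪
        (fun i => n - i) '' {i | i ∉ G.degSet (J.restrictScalars k)} := by
      intro i hi
      simp only [Finset.coe_range, Set.mem_Iio] at hi
      by_cases h1 : i ∈ G.degSet (I.restrictScalars k)
      · right
        refine ⟨n - i, ?_, by simp; omega⟩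
        intro h2
        apply hn
        have := G.add_mem_degSet_mul h1 h2
        rwa [Nat.add_sub_cancel' (by omega)] at this
      · exact Or.inl h1
    have h2 := Set.ncard_le_ncard hcov (hf1.union (hf2.image _))
    rw [Set.ncard_coe_finset, Finset.card_range] at h2
    have h3 := Set.ncard_union_le {i | i ∉ G.degSet (I.restrictScalars k)}
      ((fun i => n - i) '' {i | i ∉ G.degSet (J.restrictScalars k)})
    have h4 := Set.ncard_image_le (f := fun i => n - i) hf2
    rw [G.ncard_notMem_degSet] at h3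
    rw [G.ncard_notMem_degSet] at h4
    omega
  have h := Set.ncard_le_ncard key (Finset.finite_toSet _)
  rw [Set.ncard_coe_finset, Finset.card_range, G.ncard_notMem_degSet] at h
  omega

include G in
theorem codim_mul_of_coprime {I J : Ideal B} (hI : I ≠ ⊥) (hJ : J ≠ ⊥) (h : I ⊔ J = ⊤) :
    codim ((I * J).restrictScalars k) =
      codim (I.restrictScalars k) + codim (J.restrictScalars k) := by
  haveI := G.finite_ideal hI
  haveI := G.finite_ideal hJ
  have h1 : (I * J).restrictScalars k = I.restrictScalars k ⊓ J.restrictScalars k := by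
    rw [Ideal.mul_eq_inf_of_coprime h]; rfl
  have h2 : I.restrictScalars k ⊔ J.restrictScalars k = ⊤ := by
    rw [eq_top_iff]
    intro x _
    have : x ∈ I ⊔ J := by rw [h]; trivial
    obtain ⟨y, hy, z, hz, rfl⟩ := Submodule.mem_sup.mp this
    exact Submodule.add_mem_sup hy hz
  rw [h1]
  exact finrank_quot_inf h2

include G in
theorem prod_ne_bot {ι : Type*} (T : Finset ι) (I : ι → Ideal B) (h0 : ∀ i ∈ T, I i ≠ ⊥) :
    ∏ i ∈ T, I i ≠ ⊥ := by
  haveI := G.isDomain
  have : ∏ i ∈ T, I i ≠ 0 := Finset.prod_ne_zero_iff.mpr h0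
  exact this

include G in
theorem codim_prod_of_coprime {ι : Type*} (T : Finset ι) (I : ι → Ideal B)
    (h0 : ∀ i ∈ T, I i ≠ ⊥) (h : ∀ i ∈ T, ∀ j ∈ T, i ≠ j → IsCoprime (I i) (I j)) :
    codim ((∏ i ∈ T, I i).restrictScalars k) = ∑ i ∈ T, codim ((I i).restrictScalars k) := by
  classical
  induction T using Finset.induction_on with
  | empty =>
    rw [Finset.prod_empty, Finset.sum_empty, Ideal.one_eq_top]
    haveI := G.nontrivial
    exact (G.codim_eq_zero_iff top_ne_bot).mpr rfl
  | insert a T ha ih =>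
    rw [Finset.prod_insert ha, Finset.sum_insert ha, G.codim_mul_of_coprime, ih]
    · intro i hi; exact h0 i (Finset.mem_insert_of_mem hi)
    · intro i hi j hj; exact h i (Finset.mem_insert_of_mem hi) j (Finset.mem_insert_of_mem hj)
    · exact h0 a (Finset.mem_insert_self _ _)
    · exact G.prod_ne_bot T I (fun i hi => h0 i (Finset.mem_insert_of_mem hi))
    · rw [← Ideal.isCoprime_iff_sup_eq]
      apply IsCoprime.prod_right
      intro i hi
      apply h a (Finset.mem_insert_self _ _) i (Finset.mem_insert_of_mem hi)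
      rintro rfl; exact ha hi

end mul

section sing

variable {k B : Type*} [Field k] [IsAlgClosed k] [CommRing B] [Algebra k B] {S : AddSubmonoid ℕ}
  [Cofin S] (G : GapAlg k B S)

include G in
theorem codim_isMaximal {P : Ideal B} (hP : P.IsMaximal) (hP0 : P ≠ ⊥) :
    codim (P.restrictScalars k) = 1 := by
  haveI := G.finite_ideal hP0
  have h1 : (1 : B) ∉ P.restrictScalars k := fun h => hP.ne_top (P.eq_top_iff_one.mpr h)
  have h2 : (⊤ : Submodule k B) = P.restrictScalars k ⊔ Submodule.span k {1} := by
    apply le_antisymm _ le_top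
    intro b _
    obtain ⟨c, hc⟩ := G.exists_sub_mem_of_isMaximal hP hP0 b
    have : b = (b - algebraMap k B c) + c • (1 : B) := by
      rw [Algebra.smul_def, mul_one]; ring
    rw [this]
    exact Submodule.add_mem_sup hc (Submodule.smul_mem _ _ (Submodule.mem_span_singleton_self _))
  have := finrank_quot_succ h2 h1
  rw [codim, this]
  have h3 : Module.finrank k (B ⧸ (⊤ : Submodule k B)) = 0 := by
    haveI : Subsingleton (B ⧸ (⊤ : Submodule k B)) := by infer_instance
    exact Module.finrank_zero_of_subsingleton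
  rw [h3]

variable (k B) in
/-- the singular maximal ideals -/
def Sing : Set (Ideal B) :=
  {P | P.IsMaximal ∧ P ≠ ⊥ ∧ 3 ≤ codim ((P ^ 2).restrictScalars k)}

include G in
theorem card_le_of_subset_sing (T : Finset (Ideal B)) (hT : (T : Set (Ideal B)) ⊆ Sing k B) :
    T.card ≤ gaps S := by
  have h0 : ∀ i ∈ T, i ≠ ⊥ := fun i hi => (hT hi).2.1
  have h02 : ∀ i ∈ T, i ^ 2 ≠ ⊥ := fun i hi => by
    rw [pow_two]; exact G.mul_ne_bot (h0 i hi) (h0 i hi)
  have hc : ∀ i ∈ T, ∀ j ∈ T, i ≠ j → IsCoprime i j := fun i hi j hj hij => by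
    rw [Ideal.isCoprime_iff_sup_eq]
    exact Ideal.IsMaximal.coprime_of_ne (hT hi).1 (hT hj).1 hij
  have h1 := G.codim_prod_of_coprime T (fun i => i) h0 hc
  have h2 := G.codim_prod_of_coprime T (fun i => i ^ 2) h02
    (fun i hi j hj hij => (hc i hi j hj hij).pow)
  have h3 : ∏ i ∈ T, i ^ 2 = (∏ i ∈ T, i) * (∏ i ∈ T, i) := by
    rw [Finset.prod_pow, pow_two]
  rw [h3] at h2
  have h4 := G.codim_mul_le (G.prod_ne_bot T (fun i => i) h0) (G.prod_ne_bot T (fun i => i) h0)
  have h5 : ∑ i ∈ T, codim (i.restrictScalars k) = T.card := by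
    rw [Finset.sum_congr rfl (fun i hi => G.codim_isMaximal (hT hi).1 (hT hi).2.1)]
    simp
  have h6 : T.card * 3 ≤ ∑ i ∈ T, codim ((i ^ 2).restrictScalars k) := by
    rw [← smul_eq_mul]
    exact Finset.card_nsmul_le_sum _ _ _ (fun i hi => (hT hi).2.2)
  omega

include G in
theorem finite_sing : (Sing k B).Finite := by
  by_contra h
  have h' : (Sing k B).Infinite := h
  obtain ⟨T, hT, hcard⟩ := h'.exists_subset_card_eq (gaps S + 1)
  have := G.card_le_of_subset_sing T hT
  omega

include G in
theorem sing_eq_empty_of_isIntegrallyClosed [IsIntegrallyClosed B] {P : Ideal B}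
    (hP : P ∈ Sing k B) : False := by
  haveI := G.isDedekindDomain
  have h := G.codim_pow hP.2.1 2
  rw [G.codim_isMaximal hP.1 hP.2.1] at h
  have := hP.2.2
  omega

include G in
theorem exists_eq_sq_sup {P : Ideal B} (hP : P.IsMaximal) (hP0 : P ≠ ⊥)
    (h : codim ((P ^ 2).restrictScalars k) ≤ 2) : ∃ t ∈ P, P = P ^ 2 ⊔ Ideal.span {t} := by
  have hle : P ^ 2 ≤ P := Ideal.pow_le_self two_ne_zero
  by_cases hPP : P ≤ P ^ 2
  · refine ⟨0, P.zero_mem, ?_⟩
    rw [Ideal.span_singleton_zero, sup_bot_eq]
    exact le_antisymm hPP hle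
  · obtain ⟨t, ht, ht2⟩ := Set.not_subset.mp hPP
    refine ⟨t, ht, le_antisymm ?_ (sup_le hle ((Ideal.span_singleton_le_iff_mem P).mpr ht))⟩
    have h20 : P ^ 2 ≠ ⊥ := by rw [pow_two]; exact G.mul_ne_bot hP0 hP0
    haveI := G.finite_ideal h20
    have h1 := finrank_quot_succ (k := k) (V := (P ^ 2).restrictScalars k)
      (W := (P ^ 2).restrictScalars k ⊔ Submodule.span k {t}) (x := t) rfl
      (by rw [Submodule.restrictScalars_mem]; exact ht2)
    haveI := finite_of_le (k := k) (V := (P ^ 2).restrictScalars k)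
      (W := (P ^ 2).restrictScalars k ⊔ Submodule.span k {t}) le_sup_left
    have h2 : (P ^ 2).restrictScalars k ⊔ Submodule.span k {t} = P.restrictScalars k := by
      apply G.eq_of_le_of_codim_eq
      · refine sup_le hle ?_
        rw [Submodule.span_singleton_le_iff_mem]
        exact ht
      · rw [G.codim_isMaximal hP hP0]
        unfold codim at h ⊢
        omega
    intro x hx
    have : x ∈ (P ^ 2).restrictScalars k ⊔ Submodule.span k {t} := by rw [h2]; exact hx
    obtain ⟨y, hy, z, hz, rfl⟩ := Submodule.mem_sup.mp this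
    obtain ⟨c, rfl⟩ := Submodule.mem_span_singleton.mp hz
    refine Submodule.add_mem_sup hy ?_
    rw [Algebra.smul_def]
    exact Ideal.mul_mem_left _ _ (Ideal.mem_span_singleton_self t)

include G in
/-- regularity criterion -/
theorem isIntegrallyClosed_of_sing (h : Sing k B = ∅) : IsIntegrallyClosed B := by
  haveI := G.isDomain
  haveI := G.isNoetherianRing
  haveI : IsDedekindDomainDvr B := { is_dvr_at_nonzero_prime := ?_ }
  · infer_instance
  intro P hP0 hP
  have hPm : P.IsMaximal := G.isMaximal_of_isPrime hP0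
  have h2 : codim ((P ^ 2).restrictScalars k) ≤ 2 := by
    by_contra h'
    have : P ∈ Sing k B := ⟨hPm, hP0, by omega⟩
    rw [h] at this
    exact this
  obtain ⟨t, ht, htP⟩ := G.exists_eq_sq_sup hPm hP0 h2
  haveI : IsNoetherianRing (Localization.AtPrime P) :=
    IsLocalization.isNoetherianRing P.primeCompl _ inferInstance
  haveI : IsDomain (Localization.AtPrime P) := inferInstance
  have hmax : P.map (algebraMap B (Localization.AtPrime P)) =
      IsLocalRing.maximalIdeal (Localization.AtPrime P) :=
    IsLocalization.AtPrime.map_eq_maximalIdeal P _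
  have hnf : ¬ IsField (Localization.AtPrime P) := by
    intro hf
    rw [IsLocalRing.isField_iff_maximalIdeal_eq, ← hmax,
      Ideal.map_eq_bot_iff_of_injective] at hf
    · exact hP0 hf
    · exact IsLocalization.injective _ P.primeCompl_le_nonZeroDivisors
  refine ((IsDiscreteValuationRing.TFAE (Localization.AtPrime P) hnf).out 0 4).mpr ?_
  have h3 : IsLocalRing.maximalIdeal (Localization.AtPrime P) ≤
      Ideal.span {algebraMap B (Localization.AtPrime P) t} ⊔
        IsLocalRing.maximalIdeal (Localization.AtPrime P) •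
          IsLocalRing.maximalIdeal (Localization.AtPrime P) := by
    have h5 : P.map (algebraMap B (Localization.AtPrime P)) =
        (P ^ 2 ⊔ Ideal.span {t}).map (algebraMap B (Localization.AtPrime P)) :=
      congrArg (fun Q : Ideal B => Q.map (algebraMap B (Localization.AtPrime P))) htP
    rw [Ideal.map_sup, Ideal.map_pow, Ideal.map_span, Set.image_singleton, hmax, sup_comm] at h5
    rw [smul_eq_mul, ← pow_two]
    exact h5.le
  have h4 := Submodule.le_of_le_smul_of_le_jacobson_bot (IsNoetherian.noetherian _)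
    (IsLocalRing.maximalIdeal_le_jacobson _) h3
  refine ⟨algebraMap B (Localization.AtPrime P) t, le_antisymm h4 ?_⟩
  rw [← hmax]
  exact (Ideal.span_singleton_le_iff_mem _).mpr (Ideal.mem_map_of_mem _ ht)

end sing

end GapAlg

end Fermat.Agent.S27
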