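import Fermat.Agent.S27.P1Ring

/-!
# The adapted basis of the one-point ring
-/

set_option autoImplicit false

noncomputable section

open AlgebraicCurve Module IntermediateField WithZero

namespace Fermat.Agent.S27

variable {K F : Type*} [Field K] [Field F] [Algebra K F] [IsAlgClosed K] [FF.IsFF K F]
  {v₀ : Place K F} {π : F}

theorem exists_monic_family (hπ : v₀.adicValuation π = exp (-1 : ℤ)) :
    ∃ e : poleSemi v₀ → regOff v₀, e 0 = 1 ∧ ∀ s : poleSemi v₀, MonicAt v₀ π (s : ℕ) (e s : F) := by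
  classical
  have h : ∀ s : poleSemi v₀, ∃ f : regOff v₀, MonicAt v₀ π (s : ℕ) (f : F) := by
    rintro ⟨n, f, hf, hf0, hfo⟩
    obtain ⟨c, hc, hm⟩ := exists_monicAt hπ hf0 hfo
    exact ⟨⟨c⁻¹ • f, (regOff v₀).smul_mem hf _⟩, hm⟩
  choose e he using h
  refine ⟨fun s => if s = 0 then 1 else e s, by simp, fun s => ?_⟩
  by_cases hs : s = 0
  · subst hs
    simpa using MonicAt.one
  · simpa [hs] using he s

variable (e : poleSemi v₀ → regOff v₀)

omit [IsAlgClosed K] [FF.IsFF K F] in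
theorem linearIndependent_of_monic (hπ : v₀.adicValuation π = exp (-1 : ℤ))
    (he : ∀ s : poleSemi v₀, MonicAt v₀ π (s : ℕ) (e s : F)) :
    LinearIndependent K e := by
  classical
  rw [linearIndependent_iff']
  intro s g hg
  by_contra hcon
  push Not at hcon
  obtain ⟨i, hi, hgi⟩ := hcon
  set t := s.filter fun i => g i ≠ 0 with ht
  have htne : t.Nonempty := ⟨i, Finset.mem_filter.2 ⟨hi, hgi⟩⟩
  obtain ⟨m, hm, hmax⟩ := t.exists_max_image (fun i => (i : ℕ)) htne
  have hgm : g m ≠ 0 := (Finset.mem_filter.1 hm).2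
  have h1 : ∑ i ∈ t, algebraMap K F (g i) * (e i : F) = 0 := by
    have h2 : ((∑ i ∈ s, g i • e i : regOff v₀) : F) = 0 := by rw [hg]; rfl
    rw [AddSubmonoidClass.coe_finsetSum] at h2
    rw [ht, Finset.sum_filter_of_ne]
    · simpa [Algebra.smul_def] using h2
    · intro x _ hx hgx
      rw [hgx, map_zero, zero_mul] at hx
      exact hx rfl
  have hc : ∀ c : K, c ≠ 0 → v₀.adicValuation (algebraMap K F c) = 1 := by
    intro c hc
    rw [Place.adicValuation_eq_exp_neg_ord _ (by simpa using hc), FF.ord_algebraMap]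
    simp
  have h3 : algebraMap K F (g m) * (e m : F) =
      -∑ i ∈ t.erase m, algebraMap K F (g i) * (e i : F) := by
    rw [← Finset.add_sum_erase t _ hm] at h1
    exact eq_neg_of_add_eq_zero_left h1
  have h4 : v₀.adicValuation (algebraMap K F (g m) * (e m : F)) = exp ((m : ℕ) : ℤ) := by
    rw [map_mul, hc _ hgm, one_mul, (he m).val_eq hπ]
  have h5 : v₀.adicValuation (-∑ i ∈ t.erase m, algebraMap K F (g i) * (e i : F)) <
      exp ((m : ℕ) : ℤ) := by
    rw [Valuation.map_neg]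
    refine Valuation.map_sum_lt _ exp_ne_zero fun j hj => ?_
    have hjt := Finset.mem_of_mem_erase hj
    have hjm := Finset.ne_of_mem_erase hj
    rw [map_mul, hc _ (Finset.mem_filter.1 hjt).2, one_mul, (he j).val_eq hπ, exp_lt_exp]
    have h6 := hmax j hjt
    have h7 : (j : ℕ) ≠ (m : ℕ) := fun h => hjm (Subtype.ext h)
    have h8 : (j : ℕ) < (m : ℕ) := lt_of_le_of_ne h6 h7
    exact_mod_cast h8
  rw [← h3, h4] at h5
  exact lt_irrefl _ h5

theorem mem_span_of_lt (hπ : v₀.adicValuation π = exp (-1 : ℤ))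
    (he : ∀ s : poleSemi v₀, MonicAt v₀ π (s : ℕ) (e s : F)) (n : ℕ) (g : regOff v₀)
    (hg : v₀.adicValuation (g : F) < exp (n : ℤ)) :
    g ∈ Submodule.span K (e '' {u | (u : ℕ) < n}) := by
  induction n using Nat.strong_induction_on generalizing g with
  | _ n ih =>
  by_cases hg0 : g = 0
  · rw [hg0]
    exact zero_mem _
  have hg0' : (g : F) ≠ 0 := by
    intro h
    exact hg0 (Subtype.ext h)
  obtain ⟨m, hm⟩ : ∃ m : ℕ, v₀.ord (g : F) = -(m : ℤ) := by
    have := ord_nonpos_of_mem_regOff g.2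
    exact ⟨(-v₀.ord (g : F)).toNat, by rw [Int.toNat_of_nonneg (by omega)]; ring⟩
  have hmS : m ∈ poleSemi v₀ := ⟨g, g.2, hg0', hm⟩
  have hval : v₀.adicValuation (g : F) = exp (m : ℤ) := by
    rw [Place.adicValuation_eq_exp_neg_ord _ hg0', hm, neg_neg]
  have hmn : m < n := by
    rw [hval, exp_lt_exp] at hg
    exact_mod_cast hg
  obtain ⟨c, hc, hmon⟩ := exists_monicAt hπ hg0' hm
  have h1 : v₀.adicValuation (((c⁻¹ • g - e ⟨m, hmS⟩ : regOff v₀) : F)) < exp (m : ℤ) :=
    hmon.sub_lt hπ (he ⟨m, hmS⟩)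
  have h2 := ih m hmn _ h1
  have h3 : g = c • (c⁻¹ • g - e ⟨m, hmS⟩) + c • e ⟨m, hmS⟩ := by
    rw [smul_sub, smul_smul, mul_inv_cancel₀ hc, one_smul]
    ring
  rw [h3]
  refine add_mem (Submodule.smul_mem _ _ ?_) (Submodule.smul_mem _ _ (Submodule.subset_span ?_))
  · refine Submodule.span_mono (Set.image_mono ?_) h2
    intro u hu
    exact lt_trans hu hmn
  · exact ⟨⟨m, hmS⟩, hmn, rfl⟩

omit [IsAlgClosed K] [FF.IsFF K F] in
theorem mem_of_span_lt (hπ : v₀.adicValuation π = exp (-1 : ℤ))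
    (he : ∀ s : poleSemi v₀, MonicAt v₀ π (s : ℕ) (e s : F)) (n : ℕ) (g : regOff v₀)
    (hg : g ∈ Submodule.span K (e '' {u | (u : ℕ) < n})) :
    v₀.adicValuation (g : F) < exp (n : ℤ) := by
  induction hg using Submodule.span_induction with
  | mem x hx =>
    obtain ⟨u, hu, rfl⟩ := hx
    rw [(he u).val_eq hπ, exp_lt_exp]
    exact_mod_cast hu
  | zero => simp
  | add x y _ _ hx hy =>
    exact Valuation.map_add_lt _ hx hy
  | smul c x _ hx =>
    refine lt_of_le_of_lt ?_ hx
    show v₀.adicValuation ((c • x : regOff v₀) : F) ≤ _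
    rw [show ((c • x : regOff v₀) : F) = c • (x : F) from rfl, Algebra.smul_def, map_mul]
    exact mul_le_of_le_one_left' (v₀.adicValuation_algebraMap_le_one c)

/-- the adapted basis. -/
def adaptedBasis (hπ : v₀.adicValuation π = exp (-1 : ℤ))
    (he : ∀ s : poleSemi v₀, MonicAt v₀ π (s : ℕ) (e s : F)) : Basis (poleSemi v₀) K (regOff v₀) :=
  Basis.mk (linearIndependent_of_monic e hπ he) (by
    intro g _
    have h : v₀.adicValuation (g : F) < exp (((-v₀.ord (g : F)).toNat + 1 : ℕ) : ℤ) := by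
      by_cases hg0 : (g : F) = 0
      · rw [hg0]; simp
      · rw [Place.adicValuation_eq_exp_neg_ord _ hg0, exp_lt_exp]
        have := Int.self_le_toNat (-v₀.ord (g : F))
        push_cast
        omega
    exact Submodule.span_mono (Set.image_subset_range _ _) (mem_span_of_lt e hπ he _ g h))

/-- the one-point ring is a gap algebra. -/
def gapAlgOff (hπ : v₀.adicValuation π = exp (-1 : ℤ))
    (he0 : e 0 = 1) (he : ∀ s : poleSemi v₀, MonicAt v₀ π (s : ℕ) (e s : F)) :
    GapAlg K (regOff v₀) (poleSemi v₀) where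
  e := adaptedBasis e hπ he
  e_zero := by
    rw [adaptedBasis, Basis.mk_apply]
    exact he0
  e_mul s t := by
    have hb : ∀ u, adaptedBasis e hπ he u = e u := fun u => by rw [adaptedBasis, Basis.mk_apply]
    have himg : (adaptedBasis e hπ he '' {u | u < s + t}) = e '' {u | (u : ℕ) < ((s + t : poleSemi v₀) : ℕ)} := by
      ext x
      constructor
      · rintro ⟨u, hu, rfl⟩
        exact ⟨u, hu, (hb u).symm⟩
      · rintro ⟨u, hu, rfl⟩
        exact ⟨u, hu, hb u⟩
    rw [himg, hb, hb, hb]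
    apply mem_span_of_lt e hπ he
    exact ((he s).mul (he t)).sub_lt hπ (he (s + t))

variable (v₀) in
theorem nonempty_gapAlg : Nonempty (GapAlg K (regOff v₀) (poleSemi v₀)) := by
  obtain ⟨π, hπ⟩ := FF.exists_val_uniformizer v₀
  obtain ⟨e, he0, he⟩ := exists_monic_family (v₀ := v₀) hπ
  exact ⟨gapAlgOff e hπ he0 he⟩

end Fermat.Agent.S27
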