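import Fermat.Agent.S27.P1Ring
import Fermat.Agent.FF.Fundamental
import Mathlib.RingTheory.DedekindDomain.Factorization

/-!
# `Pic⁰` is the class group of the one-point ring
-/

set_option autoImplicit false

noncomputable section

open AlgebraicCurve Module IntermediateField WithZero nonZeroDivisors IsDedekindDomain

namespace Fermat.Agent.S27

section General

variable {R L : Type*} [CommRing R] [IsDedekindDomain R] [Field L] [Algebra R L]
  [IsFractionRing R L]

theorem valuation_eq_count_algebraMap (P : HeightOneSpectrum R) {r : R} (hr : r ≠ 0) :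
    P.valuation L (algebraMap R L r) =
      exp (-(FractionalIdeal.count L P (FractionalIdeal.spanSingleton R⁰ (algebraMap R L r)))) := by
  classical
  rw [HeightOneSpectrum.valuation_of_algebraMap, HeightOneSpectrum.intValuation_if_neg _ hr,
    ← FractionalIdeal.coeIdeal_span_singleton, FractionalIdeal.count_coe]
  simpa using hr

omit [IsDedekindDomain R] in
theorem spanSingleton_ne_zero {f : L} (hf : f ≠ 0) :
    FractionalIdeal.spanSingleton R⁰ f ≠ 0 :=
  FractionalIdeal.spanSingleton_ne_zero_iff.2 hf

theorem valuation_eq_count (P : HeightOneSpectrum R) {f : L} (hf : f ≠ 0) :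
    P.valuation L f =
      exp (-(FractionalIdeal.count L P (FractionalIdeal.spanSingleton R⁰ f))) := by
  obtain ⟨a, s, hs, rfl⟩ := IsFractionRing.div_surjective (A := R) f
  have hs0 : s ≠ 0 := nonZeroDivisors.ne_zero hs
  have ha0 : a ≠ 0 := by
    rintro rfl
    simp at hf
  have ha' : algebraMap R L a ≠ 0 := by simpa using ha0
  have hs' : algebraMap R L s ≠ 0 := by simpa using hs0
  rw [map_div₀, valuation_eq_count_algebraMap P ha0, valuation_eq_count_algebraMap P hs0,
    div_eq_mul_inv, div_eq_mul_inv, ← FractionalIdeal.spanSingleton_mul_spanSingleton,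
    FractionalIdeal.count_mul _ _ (spanSingleton_ne_zero ha')
      (spanSingleton_ne_zero (inv_ne_zero hs')), ← FractionalIdeal.spanSingleton_inv,
    FractionalIdeal.count_inv, ← exp_neg, ← exp_add]
  congr 1
  ring

theorem fractionalIdeal_ext {I J : FractionalIdeal R⁰ L} (hI : I ≠ 0) (hJ : J ≠ 0)
    (h : ∀ P : HeightOneSpectrum R, FractionalIdeal.count L P I = FractionalIdeal.count L P J) :
    I = J := by
  rw [← FractionalIdeal.finprod_heightOneSpectrum_factorization' L hI,
    ← FractionalIdeal.finprod_heightOneSpectrum_factorization' L hJ]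
  exact finprod_congr fun P => by rw [h P]

/-- the multiplicity as a homomorphism. -/
def countHom (L : Type*) [Field L] [Algebra R L] [IsFractionRing R L] (P : HeightOneSpectrum R) :
    Additive (FractionalIdeal R⁰ L)ˣ →+ ℤ where
  toFun I := FractionalIdeal.count L P (I.toMul : FractionalIdeal R⁰ L)
  map_zero' := by
    show FractionalIdeal.count L P (1 : FractionalIdeal R⁰ L) = 0
    exact FractionalIdeal.count_one L P
  map_add' I J := by
    show FractionalIdeal.count L P (((I.toMul * J.toMul : (FractionalIdeal R⁰ L)ˣ)) :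
      FractionalIdeal R⁰ L) = _
    rw [Units.val_mul, FractionalIdeal.count_mul L P I.toMul.ne_zero J.toMul.ne_zero]

theorem countHom_apply (P : HeightOneSpectrum R) (I : Additive (FractionalIdeal R⁰ L)ˣ) :
    countHom L P I = FractionalIdeal.count L P (I.toMul : FractionalIdeal R⁰ L) := rfl

/-- a prime as an invertible fractional ideal. -/
def uid (L : Type*) [Field L] [Algebra R L] [IsFractionRing R L] (P : HeightOneSpectrum R) :
    (FractionalIdeal R⁰ L)ˣ :=
  Units.mk0 (P.asIdeal : FractionalIdeal R⁰ L) (FractionalIdeal.coeIdeal_ne_zero.2 P.ne_bot)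

theorem countHom_uid (P : HeightOneSpectrum R) :
    countHom L P (Additive.ofMul (uid L P)) = 1 := by
  rw [countHom_apply]
  exact FractionalIdeal.count_self L P

theorem countHom_uid_ne {P Q : HeightOneSpectrum R} (h : Q ≠ P) :
    countHom L P (Additive.ofMul (uid L Q)) = 0 := by
  rw [countHom_apply]
  exact FractionalIdeal.count_maximal_coprime L P h

end General

variable {K F : Type*} [Field K] [Field F] [Algebra K F] [FF.IsFF K F] (v₀ : Place K F)

/-- the prime of the one-point ring attached to a place. -/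
def hos (v : Place K F) (hv : v ≠ v₀) : HeightOneSpectrum (regOff v₀) :=
  FFOrb.centerHOS (regOff v₀) v (fun b => b.2 v hv)

variable {v₀} in
/-- the place attached to a prime of the one-point ring. -/
def pls (P : HeightOneSpectrum (regOff v₀)) : Place K F := Place.ofHeightOneSpectrum P

variable {v₀} in
theorem pls_ne (P : HeightOneSpectrum (regOff v₀)) : pls P ≠ v₀ := by
  intro h
  obtain ⟨y, hyt, hy⟩ := exists_pole_function v₀
  have h1 : y ∈ regOff v₀ := fun w hw => (hy w).2 hw
  have h2 := FFFund.algebraMap_mem_ofHeightOneSpectrum (K := K) (F := F) P ⟨y, h1⟩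
  exact (hy (pls P)).1 h2 h

theorem pls_hos (v : Place K F) (hv : v ≠ v₀) : pls (hos v₀ v hv) = v :=
  (FFFund.eq_ofHeightOneSpectrum v (fun b => b.2 v hv)).symm

theorem hos_pls (P : HeightOneSpectrum (regOff v₀)) : hos v₀ (pls P) (pls_ne P) = P :=
  FFFund.centerHOS_ofHeightOneSpectrum P

theorem hos_congr {v w : Place K F} (h : v = w) (hv : v ≠ v₀) :
    hos v₀ v hv = hos v₀ w (h ▸ hv) := by
  subst h; rfl

theorem ord_pls (P : HeightOneSpectrum (regOff v₀)) {f : F} (hf : f ≠ 0) :
    (pls P).ord f = FractionalIdeal.count F P (FractionalIdeal.spanSingleton (regOff v₀)⁰ f) := by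
  have h1 := FFFund.ord_ofHeightOneSpectrum (K := K) P hf
  rw [valuation_eq_count P hf, exp_inj] at h1
  have h2 : (pls P).ord f = (Place.ofHeightOneSpectrum (K := K) (F := F) P).ord f := rfl
  omega

open scoped Classical in
/-- the fractional ideal attached to a place. -/
def fac (v : Place K F) : (FractionalIdeal (regOff v₀)⁰ F)ˣ :=
  if h : v ≠ v₀ then uid F (hos v₀ v h) else 1

/-- the fractional ideal attached to a divisor. -/
def psiHom : Divisor K F →+ Additive (FractionalIdeal (regOff v₀)⁰ F)ˣ :=
  Finsupp.liftAddHom fun v => zmultiplesHom _ (Additive.ofMul (fac v₀ v))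

theorem psiHom_single (v : Place K F) (n : ℤ) :
    psiHom v₀ (Finsupp.single v n) = n • Additive.ofMul (fac v₀ v) := by
  rw [psiHom, Finsupp.liftAddHom_apply_single, zmultiplesHom_apply]

theorem count_psiHom (D : Divisor K F) (P : HeightOneSpectrum (regOff v₀)) :
    countHom F P (psiHom v₀ D) = D (pls P) := by
  classical
  induction D using Finsupp.induction with
  | zero => simp
  | single_add v n D _ _ ih =>
    rw [map_add, map_add, ih, Finsupp.add_apply, psiHom_single, map_zsmul]
    congr 1
    by_cases hv : v = v₀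
    · have h1 : fac v₀ v = 1 := by rw [fac, dif_neg (not_not.2 hv)]
      rw [h1, ofMul_one, map_zero, smul_zero, Finsupp.single_eq_of_ne]
      rw [hv]
      exact pls_ne P
    · have h1 : fac v₀ v = uid F (hos v₀ v hv) := by rw [fac, dif_pos hv]
      rw [h1]
      by_cases hP : pls P = v
      · have h2 : hos v₀ v hv = P := by
          rw [hos_congr v₀ hP.symm hv]
          exact hos_pls v₀ P
        rw [h2, countHom_uid, hP, Finsupp.single_eq_same, smul_eq_mul, mul_one]
      · have h2 : hos v₀ v hv ≠ P := by
          rintro rfl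
          exact hP (pls_hos v₀ v hv)
        rw [countHom_uid_ne h2, smul_zero, Finsupp.single_eq_of_ne hP]

theorem pls_injective : Function.Injective (pls (v₀ := v₀)) := by
  intro P Q h
  rw [← hos_pls v₀ P, ← hos_pls v₀ Q]
  exact hos_congr v₀ h _

theorem psiHom_eq_of_count (D : Divisor K F) (I : (FractionalIdeal (regOff v₀)⁰ F)ˣ)
    (h : ∀ P : HeightOneSpectrum (regOff v₀), D (pls P) =
      FractionalIdeal.count F P (I : FractionalIdeal (regOff v₀)⁰ F)) :
    psiHom v₀ D = Additive.ofMul I := by
  apply Additive.toMul.injective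
  rw [toMul_ofMul]
  apply Units.ext
  refine fractionalIdeal_ext (Units.ne_zero _) (Units.ne_zero _) fun P => ?_
  rw [← h P, ← count_psiHom v₀ D P, countHom_apply]

theorem exists_psiHom_eq (I : (FractionalIdeal (regOff v₀)⁰ F)ˣ) :
    ∃ D : Divisor K F, psiHom v₀ D = Additive.ofMul I := by
  classical
  have hfin : (Function.support fun P : HeightOneSpectrum (regOff v₀) =>
      FractionalIdeal.count F P (I : FractionalIdeal (regOff v₀)⁰ F)).Finite :=
    FractionalIdeal.finite_factors (I : FractionalIdeal (regOff v₀)⁰ F)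
  refine ⟨∑ Q ∈ hfin.toFinset, Finsupp.single (pls Q)
    (FractionalIdeal.count F Q (I : FractionalIdeal (regOff v₀)⁰ F)), ?_⟩
  apply psiHom_eq_of_count
  intro P
  rw [Finsupp.finsetSum_apply]
  by_cases hP : P ∈ hfin.toFinset
  · rw [Finset.sum_eq_single_of_mem P hP, Finsupp.single_eq_same]
    intro Q _ hQ
    rw [Finsupp.single_eq_of_ne]
    exact fun h => hQ (pls_injective v₀ h).symm
  · rw [Finset.sum_eq_zero]
    · have h0 : FractionalIdeal.count F P (I : FractionalIdeal (regOff v₀)⁰ F) = 0 := by
        simpa using hP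
      exact h0.symm
    · intro Q hQ
      rw [Finsupp.single_eq_of_ne]
      intro h
      rw [pls_injective v₀ h] at hP
      exact hP hQ

theorem div_apply_eq (f : F) (v : Place K F) : (RR.div f : Divisor K F) v = v.ord f :=
  RR.div_apply f v

theorem psiHom_div {f : F} (hf : f ≠ 0) :
    psiHom v₀ (RR.div f) = Additive.ofMul (toPrincipalIdeal (regOff v₀) F (Units.mk0 f hf)) := by
  apply psiHom_eq_of_count
  intro P
  rw [RR.div_apply, ord_pls v₀ P hf, coe_toPrincipalIdeal]
  rfl

variable [IsAlgClosed K]

theorem degree_eq_apply_of_support {D : Divisor K F} (h : ∀ v, v ≠ v₀ → D v = 0) :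
    Divisor.degree D = D v₀ := by
  have h1 : D = Finsupp.single v₀ (D v₀) := by
    ext v
    by_cases hv : v = v₀
    · rw [hv, Finsupp.single_eq_same]
    · rw [h v hv, Finsupp.single_eq_of_ne hv]
  conv_lhs => rw [h1]
  rw [Divisor.degree_single, FF.deg_eq_one]
  simp

/-- a divisor as a divisor class. -/
def clHom : Divisor.degZero (K := K) (F := F) →+ Additive (ClassGroup (regOff v₀)) :=
  (MonoidHom.toAdditive (ClassGroup.mk (R := regOff v₀) (K := F))).comp
    ((psiHom v₀).comp (Divisor.degZero (K := K) (F := F)).subtype)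

omit [IsAlgClosed K] in
theorem clHom_apply (D : Divisor.degZero (K := K) (F := F)) :
    clHom v₀ D = Additive.ofMul (ClassGroup.mk (R := regOff v₀) (K := F)
      (psiHom v₀ (D : Divisor K F)).toMul) := rfl

theorem clHom_surjective : Function.Surjective (clHom v₀) := by
  intro c
  obtain ⟨J, hJ⟩ := ClassGroup.mk0_surjective c.toMul
  obtain ⟨D, hD⟩ := exists_psiHom_eq v₀ (FractionalIdeal.mk0 F J)
  have h1 : fac v₀ v₀ = 1 := by rw [fac, dif_neg (not_not.2 rfl)]
  refine ⟨⟨D - Finsupp.single v₀ (Divisor.degree D), ?_⟩, ?_⟩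
  · rw [Divisor.mem_degZero, map_sub, Divisor.degree_single, FF.deg_eq_one]
    simp
  · rw [clHom_apply, map_sub, hD, psiHom_single, h1, ofMul_one, smul_zero, sub_zero,
      toMul_ofMul, ClassGroup.mk_mk0, hJ]
    rfl

theorem clHom_eq_zero_iff (D : Divisor.degZero (K := K) (F := F)) :
    clHom v₀ D = 0 ↔ Divisor.IsPrincipal (D : Divisor K F) := by
  rw [clHom_apply]
  constructor
  · intro h
    have h1 : ClassGroup.mk (R := regOff v₀) (K := F)
      (psiHom v₀ (D : Divisor K F)).toMul = 1 := h
    rw [ClassGroup.mk_eq_one_iff] at h1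
    obtain ⟨⟨x, hx⟩⟩ := h1
    have hx' : ((psiHom v₀ (D : Divisor K F)).toMul : FractionalIdeal (regOff v₀)⁰ F) =
        FractionalIdeal.spanSingleton (regOff v₀)⁰ x := by
      apply FractionalIdeal.coeToSubmodule_injective
      show ((((psiHom v₀ (D : Divisor K F)).toMul : (FractionalIdeal (regOff v₀)⁰ F)ˣ) :
        FractionalIdeal (regOff v₀)⁰ F) : Submodule (regOff v₀) F) =
        ((FractionalIdeal.spanSingleton (regOff v₀)⁰ x : FractionalIdeal (regOff v₀)⁰ F) :
          Submodule (regOff v₀) F)
      rw [FractionalIdeal.coe_spanSingleton]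
      exact hx
    have hx0 : x ≠ 0 := by
      rintro rfl
      rw [FractionalIdeal.spanSingleton_zero] at hx'
      exact Units.ne_zero _ hx'
    have h2 : ∀ v, v ≠ v₀ → (D : Divisor K F) v = v.ord x := by
      intro v hv
      have h3 := count_psiHom v₀ (D : Divisor K F) (hos v₀ v hv)
      rw [countHom_apply, hx', ← ord_pls v₀ _ hx0, pls_hos] at h3
      exact h3.symm
    refine ⟨x, hx0, fun v => ?_⟩
    by_cases hv : v = v₀
    · have h4 := degree_eq_apply_of_support v₀ (D := (D : Divisor K F) - RR.div x) (by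
        intro w hw
        rw [Finsupp.sub_apply, h2 w hw, RR.div_apply, sub_self])
      rw [map_sub, RR.degree_div, (Divisor.mem_degZero.1 D.2), Finsupp.sub_apply,
        RR.div_apply] at h4
      rw [hv]
      omega
    · exact h2 v hv
  · rintro ⟨f, hf, hD⟩
    have h1 : (D : Divisor K F) = RR.div f := by
      ext v
      rw [hD v, RR.div_apply]
    rw [h1, psiHom_div v₀ hf, toMul_ofMul]
    have h2 : ClassGroup.mk (R := regOff v₀) (K := F)
        (toPrincipalIdeal (regOff v₀) F (Units.mk0 f hf)) = 1 := by
      rw [ClassGroup.mk_eq_one_iff]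
      refine ⟨⟨f, ?_⟩⟩
      rw [coe_toPrincipalIdeal, FractionalIdeal.coe_spanSingleton]
      rfl
    rw [h2]
    rfl

/-- **`Pic⁰` is the class group of the one-point ring.** -/
def pic0Equiv : Pic0 K F ≃+ Additive (ClassGroup (regOff v₀)) :=
  (QuotientAddGroup.quotientAddEquivOfEq (by
    ext D
    rw [AddSubgroup.mem_addSubgroupOf, Divisor.mem_principal, AddMonoidHom.mem_ker,
      clHom_eq_zero_iff])).trans
  (QuotientAddGroup.quotientKerEquivOfSurjective (clHom v₀) (clHom_surjective v₀))

theorem pic0Equiv_mk (D : Divisor.degZero (K := K) (F := F)) :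
    pic0Equiv v₀ (Pic0.mk D) = clHom v₀ D := rfl

end Fermat.Agent.S27
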