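import Fermat.Agent.S27.Gap
import Fermat.Agent.FF.PolyClosure
import Fermat.Agent.RR.Weil

/-!
# The ring of functions regular away from one place
-/

set_option autoImplicit false

noncomputable section

open AlgebraicCurve Module IntermediateField WithZero

namespace Fermat.Agent.S27

variable {K F : Type*} [Field K] [Field F] [Algebra K F]

/-- functions regular away from `v₀`. -/
def regOff (v₀ : Place K F) : Subalgebra K F where
  carrier := {f | ∀ w : Place K F, w ≠ v₀ → f ∈ w.toValuationSubring}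
  mul_mem' := fun ha hb w hw => mul_mem (ha w hw) (hb w hw)
  add_mem' := fun ha hb w hw => add_mem (ha w hw) (hb w hw)
  algebraMap_mem' := fun c w _ => w.algebraMap_mem' c

theorem mem_regOff {v₀ : Place K F} {f : F} :
    f ∈ regOff v₀ ↔ ∀ w : Place K F, w ≠ v₀ → f ∈ w.toValuationSubring := Iff.rfl

section Ring

variable [FF.IsFF K F] (v₀ : Place K F)

/-- a function whose only pole is at `v₀`. -/
theorem exists_pole_function : ∃ y : F, Transcendental K y ∧
    ∀ w : Place K F, y ∈ w.toValuationSubring ↔ w ≠ v₀ := by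
  obtain ⟨x, hx, hv⟩ := FF.exists_single_zero v₀
  refine ⟨x⁻¹, FF.transcendental_inv hx, fun w => ?_⟩
  have hx0 : x⁻¹ ≠ 0 := by
    intro h
    rw [inv_eq_zero] at h
    subst h
    exact hx (isAlgebraic_zero)
  rw [FF.mem_iff_ord_nonneg w hx0, w.ord_inv, ← not_iff_not, not_not, ← hv w]
  omega

theorem regOff_eq {y : F} (hy : ∀ w : Place K F, y ∈ w.toValuationSubring ↔ w ≠ v₀) :
    regOff v₀ = (integralClosure (Algebra.adjoin K {y}) F).restrictScalars K := by
  ext f
  rw [mem_regOff, Subalgebra.mem_restrictScalars, FF.mem_integralClosure_adjoin_iff]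
  simp only [hy]

instance isDedekindDomain_regOff : IsDedekindDomain (regOff v₀) := by
  obtain ⟨y, hyt, hy⟩ := exists_pole_function v₀
  rw [regOff_eq v₀ hy]
  exact FF.isDedekindDomain_integralClosure_adjoin hyt

instance isFractionRing_regOff : IsFractionRing (regOff v₀) F := by
  obtain ⟨y, hyt, hy⟩ := exists_pole_function v₀
  rw [regOff_eq v₀ hy]
  exact FF.isFractionRing_integralClosure_adjoin hyt

end Ring

section Order

variable [IsAlgClosed K] [FF.IsFF K F] {v₀ : Place K F}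

theorem ord_nonpos_of_mem_regOff {f : F} (hf : f ∈ regOff v₀) : v₀.ord f ≤ 0 := by
  by_contra h
  push Not at h
  have hf0 : f ≠ 0 := by
    rintro rfl
    simp at h
  have h1 : ∀ v : Place K F, 0 ≤ v.ord f := by
    intro v
    by_cases hv : v = v₀
    · subst hv
      exact h.le
    · exact (FF.mem_iff_ord_nonneg v hf0).1 (hf v hv)
  obtain ⟨c, rfl⟩ := FF.mem_range_of_isAlgebraic (FF.isAlgebraic_of_forall_ord_nonneg h1)
  rw [FF.ord_algebraMap] at h
  exact lt_irrefl _ h

variable (v₀) in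
/-- the semigroup of pole orders. -/
def poleSemi : AddSubmonoid ℕ where
  carrier := {n | ∃ f ∈ regOff v₀, f ≠ 0 ∧ v₀.ord f = -(n : ℤ)}
  zero_mem' := ⟨1, one_mem _, one_ne_zero, by simp⟩
  add_mem' := by
    rintro m n ⟨f, hf, hf0, hfo⟩ ⟨g, hg, hg0, hgo⟩
    exact ⟨f * g, mul_mem hf hg, mul_ne_zero hf0 hg0, by
      rw [v₀.ord_mul hf0 hg0, hfo, hgo]; push_cast; ring⟩

omit [IsAlgClosed K] [FF.IsFF K F] in
theorem mem_poleSemi {n : ℕ} :
    n ∈ poleSemi v₀ ↔ ∃ f ∈ regOff v₀, f ≠ 0 ∧ v₀.ord f = -(n : ℤ) := Iff.rfl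

theorem toNat_mem_poleSemi {f : F} (hf : f ∈ regOff v₀) (hf0 : f ≠ 0) :
    (-v₀.ord f).toNat ∈ poleSemi v₀ := by
  refine ⟨f, hf, hf0, ?_⟩
  have := ord_nonpos_of_mem_regOff hf
  rw [Int.toNat_of_nonneg (by omega)]
  ring

end Order

section Monic

variable {v₀ : Place K F} {π : F}

/-- `f` has a pole of order `n` with leading coefficient one (with respect to `π`). -/
def MonicAt (v₀ : Place K F) (π : F) (n : ℕ) (f : F) : Prop :=
  v₀.adicValuation (f * π ^ n - 1) < 1

theorem MonicAt.one : MonicAt v₀ π 0 1 := by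
  unfold MonicAt
  simp

theorem MonicAt.val {n : ℕ} {f : F} (h : MonicAt v₀ π n f) :
    v₀.adicValuation (f * π ^ n) = 1 := by
  have h1 : f * π ^ n = 1 + (f * π ^ n - 1) := by ring
  rw [h1]
  have h2 := Valuation.map_one_add_of_lt (v := v₀.adicValuation) h
  exact h2

theorem MonicAt.val_eq (hπ : v₀.adicValuation π = exp (-1 : ℤ)) {n : ℕ} {f : F}
    (h : MonicAt v₀ π n f) : v₀.adicValuation f = exp (n : ℤ) := by
  have h1 := h.val
  rw [map_mul, map_pow, hπ, ← exp_nsmul] at h1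
  have h2 : exp (n • (-1 : ℤ)) * exp (n : ℤ) = 1 := by
    rw [← exp_add]
    simp
  calc v₀.adicValuation f = v₀.adicValuation f * (exp (n • (-1 : ℤ)) * exp (n : ℤ)) := by
        rw [h2, mul_one]
    _ = exp (n : ℤ) := by rw [← mul_assoc, h1, one_mul]

theorem MonicAt.ne_zero {n : ℕ} {f : F} (h : MonicAt v₀ π n f) : f ≠ 0 := by
  rintro rfl
  unfold MonicAt at h
  simp at h

theorem MonicAt.ord_eq (hπ : v₀.adicValuation π = exp (-1 : ℤ)) {n : ℕ} {f : F}
    (h : MonicAt v₀ π n f) : v₀.ord f = -(n : ℤ) := by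
  have h1 := h.val_eq hπ
  rw [Place.adicValuation_eq_exp_neg_ord _ h.ne_zero, exp_inj] at h1
  omega

theorem MonicAt.mul {m n : ℕ} {f g : F} (hf : MonicAt v₀ π m f) (hg : MonicAt v₀ π n g) :
    MonicAt v₀ π (m + n) (f * g) := by
  have h1 : f * g * π ^ (m + n) - 1 = (f * π ^ m - 1) * (g * π ^ n) + (g * π ^ n - 1) := by ring
  unfold MonicAt at *
  rw [h1]
  refine Valuation.map_add_lt _ ?_ hg
  rw [map_mul, MonicAt.val hg, mul_one]
  exact hf

theorem MonicAt.sub_lt (hπ : v₀.adicValuation π = exp (-1 : ℤ)) {n : ℕ} {f g : F}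
    (hf : MonicAt v₀ π n f) (hg : MonicAt v₀ π n g) :
    v₀.adicValuation (f - g) < exp (n : ℤ) := by
  have h1 : (f - g) * π ^ n = (f * π ^ n - 1) - (g * π ^ n - 1) := by ring
  have h2 : v₀.adicValuation ((f - g) * π ^ n) < 1 := by
    rw [h1]
    exact Valuation.map_sub_lt _ hf hg
  rw [map_mul, map_pow, hπ, ← exp_nsmul] at h2
  have h3 : exp (n • (-1 : ℤ)) * exp (n : ℤ) = 1 := by
    rw [← exp_add]
    simp
  calc v₀.adicValuation (f - g) =
        (v₀.adicValuation (f - g) * exp (n • (-1 : ℤ))) * exp (n : ℤ) := by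
        rw [mul_assoc, h3, mul_one]
    _ < 1 * exp (n : ℤ) := mul_lt_mul_of_pos_right h2 exp_pos
    _ = exp (n : ℤ) := one_mul _

variable [IsAlgClosed K] [FF.IsFF K F]

/-- every nonzero function has a leading coefficient. -/
theorem exists_monicAt (hπ : v₀.adicValuation π = exp (-1 : ℤ)) {n : ℕ} {f : F} (hf0 : f ≠ 0)
    (hf : v₀.ord f = -(n : ℤ)) : ∃ c : K, c ≠ 0 ∧ MonicAt v₀ π n (c⁻¹ • f) := by
  have h1 : v₀.adicValuation (f * π ^ n) = 1 := by
    rw [map_mul, map_pow, hπ, ← exp_nsmul, Place.adicValuation_eq_exp_neg_ord _ hf0, hf,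
      ← exp_add]
    simp
  have h2 : f * π ^ n ∈ v₀.toValuationSubring := (FF.mem_iff_val_le_one v₀).2 h1.le
  set u : v₀.toValuationSubring := ⟨f * π ^ n, h2⟩ with hu
  have hu1 : IsUnit u := (v₀.adicValuation_coe_eq_one_iff u).1 h1
  obtain ⟨c, hc⟩ := (FF.algebraMap_residueField_bijective (K := K) v₀).2
    (IsLocalRing.residue _ u)
  have hc0 : c ≠ 0 := by
    rintro rfl
    rw [map_zero] at hc
    have := (IsLocalRing.residue_eq_zero_iff u).1 hc.symm
    exact (IsLocalRing.mem_maximalIdeal u).1 this hu1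
  have h3 : IsLocalRing.residue _ (u - algebraMap K v₀.toValuationSubring c) = 0 := by
    rw [map_sub, ← hc, sub_eq_zero]
    rfl
  have h4 : v₀.adicValuation (f * π ^ n - algebraMap K F c) < 1 := by
    rw [IsLocalRing.residue_eq_zero_iff, IsLocalRing.mem_maximalIdeal, mem_nonunits_iff,
      ← v₀.adicValuation_coe_eq_one_iff] at h3
    exact lt_of_le_of_ne ((FF.mem_iff_val_le_one v₀).1
      (u - algebraMap K v₀.toValuationSubring c).2) h3
  refine ⟨c, hc0, ?_⟩
  have h5 : v₀.adicValuation (algebraMap K F c⁻¹) = 1 := by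
    rw [Place.adicValuation_eq_exp_neg_ord _ (by simpa using hc0), FF.ord_algebraMap]
    simp
  have h6 : c⁻¹ • f * π ^ n - 1 = algebraMap K F c⁻¹ * (f * π ^ n - algebraMap K F c) := by
    rw [Algebra.smul_def, mul_sub, ← map_mul, inv_mul_cancel₀ hc0, map_one]
    ring
  unfold MonicAt
  rw [h6, map_mul, h5, one_mul]
  exact h4

end Monic

end Fermat.Agent.S27
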