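import Mathlib

set_option autoImplicit false
set_option linter.style.haveILetI false

/-! Ultraproducts of fields, as quotient rings. -/

namespace Fermat.Agent.S27

open Filter

section

variable {ι : Type*} (U : Ultrafilter ι) (k : ι → Type*) [∀ i, Field (k i)]

/-- the ideal of sequences vanishing `U`-almost everywhere -/
def ulIdeal : Ideal (∀ i, k i) where
  carrier := {x | ∀ᶠ i in (U : Filter ι), x i = 0}
  zero_mem' := Eventually.of_forall fun _ => rfl
  add_mem' := by
    intro x y hx hy
    filter_upwards [hx, hy] with i h1 h2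
    rw [Pi.add_apply, h1, h2, add_zero]
  smul_mem' := by
    intro c x hx
    filter_upwards [hx] with i h1
    rw [Pi.smul_apply', h1, smul_zero]

theorem mem_ulIdeal {x : ∀ i, k i} : x ∈ ulIdeal U k ↔ ∀ᶠ i in (U : Filter ι), x i = 0 := Iff.rfl

instance ulIdeal_isMaximal : (ulIdeal U k).IsMaximal := by
  rw [Ideal.isMaximal_iff]
  constructor
  · intro h
    have h' : ∀ᶠ i in (U : Filter ι), (1 : ∀ i, k i) i = 0 := h
    obtain ⟨i, hi⟩ := h'.exists
    exact one_ne_zero hi
  · intro J x hJ hx hxJ
    rw [mem_ulIdeal, ← Ultrafilter.frequently_iff_eventually, not_frequently] at hx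
    have h1 : (1 : ∀ i, k i) - (fun i => (x i)⁻¹) * x ∈ ulIdeal U k := by
      rw [mem_ulIdeal]
      filter_upwards [hx] with i hi
      simp [inv_mul_cancel₀ hi]
    have h2 := J.add_mem (hJ h1) (J.mul_mem_left (fun i => (x i)⁻¹) hxJ)
    simpa using h2

/-- The ultraproduct. -/
def Star : Type _ := (∀ i, k i) ⧸ ulIdeal U k

noncomputable instance : Field (Star U k) := Ideal.Quotient.field (ulIdeal U k)

/-- the projection -/
noncomputable def Star.mk : (∀ i, k i) →+* Star U k := Ideal.Quotient.mk (ulIdeal U k)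

theorem Star.mk_surjective : Function.Surjective (Star.mk U k) := Ideal.Quotient.mk_surjective

theorem Star.mk_eq_zero_iff {x : ∀ i, k i} :
    Star.mk U k x = 0 ↔ ∀ᶠ i in (U : Filter ι), x i = 0 :=
  Ideal.Quotient.eq_zero_iff_mem

theorem Star.mk_eq_iff {x y : ∀ i, k i} :
    Star.mk U k x = Star.mk U k y ↔ ∀ᶠ i in (U : Filter ι), x i = y i := by
  rw [← sub_eq_zero, ← map_sub, Star.mk_eq_zero_iff]
  simp only [Pi.sub_apply, sub_eq_zero]

noncomputable instance {R : Type*} [CommRing R] [∀ i, Algebra R (k i)] : Algebra R (Star U k) :=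
  ((Star.mk U k).comp (algebraMap R (∀ i, k i))).toAlgebra

/-- the projection as algebra map -/
noncomputable def Star.mkₐ (R : Type*) [CommRing R] [∀ i, Algebra R (k i)] :
    (∀ i, k i) →ₐ[R] Star U k :=
  { Star.mk U k with commutes' := fun _ => rfl }

theorem Star.mkₐ_apply (R : Type*) [CommRing R] [∀ i, Algebra R (k i)] (x : ∀ i, k i) :
    Star.mkₐ U k R x = Star.mk U k x := rfl

theorem Star.algebraMap_apply (R : Type*) [CommRing R] [∀ i, Algebra R (k i)] (r : R) :
    algebraMap R (Star U k) r = Star.mk U k (fun i => algebraMap R (k i) r) := rfl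

instance Star.isAlgClosed [∀ i, IsAlgClosed (k i)] : IsAlgClosed (Star U k) := by
  apply IsAlgClosed.of_exists_root
  intro p hp hirr
  have hl : p ∈ Polynomial.lifts (Star.mk U k) := by
    rw [Polynomial.mem_lifts]
    exact Polynomial.map_surjective _ (Star.mk_surjective U k) p
  obtain ⟨P, hPmap, hPdeg, hPmonic⟩ := Polynomial.lifts_and_natDegree_eq_and_monic hl hp
  have hdeg : p.natDegree ≠ 0 := by
    intro h
    have := hp.natDegree_eq_zero.mp h
    rw [this] at hirr
    exact hirr.not_isUnit isUnit_one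
  have hroot : ∀ i, ∃ x : k i, (P.map (Pi.evalRingHom k i)).eval x = 0 := by
    intro i
    obtain ⟨x, hx⟩ := IsAlgClosed.exists_root (P.map (Pi.evalRingHom k i)) (by
      intro h
      have h1 := (hPmonic.map (Pi.evalRingHom k i))
      have h2 : (P.map (Pi.evalRingHom k i)).natDegree = P.natDegree := hPmonic.natDegree_map _
      have h3 : (P.map (Pi.evalRingHom k i)).natDegree = 0 :=
        Polynomial.natDegree_eq_of_degree_eq_some h
      omega)
    exact ⟨x, hx⟩
  choose x hx using hroot
  refine ⟨Star.mk U k x, ?_⟩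
  rw [← hPmap, Polynomial.eval_map, Polynomial.eval₂_hom]
  have : P.eval x = 0 := by
    funext i
    have h1 := hx i
    rw [Polynomial.eval_map] at h1
    have h2 : (Pi.evalRingHom k i) (P.eval x) = P.eval₂ (Pi.evalRingHom k i) (x i) := by
      rw [← Polynomial.eval₂_id, Polynomial.hom_eval₂]; rfl
    rw [h1] at h2
    exact h2
  rw [this, map_zero]

end

end Fermat.Agent.S27
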