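import Fermat.Agent.S27.GapBC
import Fermat.Agent.S27.Ultra
import Fermat.Agent.S27.TorsCount

set_option autoImplicit false
set_option linter.style.haveILetI false
set_option linter.deprecated false
set_option linter.unusedSectionVars false

/-! Ultraproducts of `GapAlg`s over fields. -/

namespace Fermat.Agent.S27

open Module TensorProduct Filter nonZeroDivisors

namespace GapAlg

section bound

variable {k B : Type*} [Field k] [CommRing B] [Algebra k B] {S : AddSubmonoid ℕ} [Cofin S]
  (G : GapAlg k B S)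

theorem add_mem_degSet {I : Ideal B} {m s : ℕ} (hm : m ∈ G.degSet (I.restrictScalars k))
    (hs : s ∈ S) : m + s ∈ G.degSet (I.restrictScalars k) := by
  obtain ⟨v, hv, hv0, rfl⟩ := hm
  refine ⟨v * G.e ⟨s, hs⟩, I.mul_mem_right _ hv, G.mul_ne_zero' hv0 (G.e.ne_zero _), ?_⟩
  rw [G.deg_mul hv0 (G.e.ne_zero _), G.deg_e]

/-- sharp elementary bound: all large degrees occur in a nonzero ideal -/
theorem mem_degSet_of_le {I : Ideal B} (hI : I ≠ ⊥) {n : ℕ}
    (hn : 2 * gaps S + codim (I.restrictScalars k) ≤ n) : n ∈ G.degSet (I.restrictScalars k) := by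
  haveI := G.finite_ideal hI
  by_contra h
  have hcov : ((Finset.range (n + 1) : Finset ℕ) : Set ℕ) ⊆
      {i | i ∉ G.degSet (I.restrictScalars k)} ∪
      (fun i => n - i) '' {i | i ∉ S} := by
    intro i hi
    simp only [Finset.coe_range, Set.mem_Iio] at hi
    by_cases h1 : i ∈ G.degSet (I.restrictScalars k)
    · right
      refine ⟨n - i, ?_, by simp; omega⟩
      intro h2
      apply h
      have := G.add_mem_degSet h1 h2
      rwa [Nat.add_sub_cancel' (by omega)] at this
    · exact Or.inl h1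
  have hf1 := G.finite_notMem_degSet (I.restrictScalars k)
  have hf2 := Cofin.fin (S := S)
  have h2 := Set.ncard_le_ncard hcov (hf1.union (hf2.image _))
  rw [Set.ncard_coe_finset, Finset.card_range] at h2
  have h3 := Set.ncard_union_le {i | i ∉ G.degSet (I.restrictScalars k)}
    ((fun i => n - i) '' {i | i ∉ S})
  have h4 := Set.ncard_image_le (f := fun i => n - i) hf2
  rw [G.ncard_notMem_degSet] at h3
  have h5 : {i | i ∉ S}.ncard = gaps S := rfl
  omega

theorem isPrincipal_iff' {I : Ideal B} (hI : I ≠ ⊥) :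
    I.IsPrincipal ↔ ∃ n ∈ G.degSet (I.restrictScalars k), n ≤ codim (I.restrictScalars k) := by
  rw [G.isPrincipal_iff hI]
  constructor
  · rintro ⟨a, ha, ha0, h⟩
    exact ⟨_, ⟨a, ha, ha0, rfl⟩, h⟩
  · rintro ⟨n, ⟨a, ha, ha0, rfl⟩, h⟩
    exact ⟨a, ha, ha0, h⟩

theorem ne_bot_iff_degSet {I : Ideal B} :
    I ≠ ⊥ ↔ (G.degSet (I.restrictScalars k)).Nonempty := by
  constructor
  · intro h
    obtain ⟨a, ha, ha0⟩ := Submodule.exists_mem_ne_zero_of_ne_bot h
    exact ⟨_, a, ha, ha0, rfl⟩
  · rintro ⟨n, a, ha, ha0, -⟩ rfl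
    exact ha0 (by simpa using ha)

omit [Cofin S] in
theorem deg_eq_of_coeff_iff {k' B' : Type*} [Field k'] [CommRing B'] [Algebra k' B']
    (G' : GapAlg k' B' S) {a : B} {b : B'} (h : ∀ n, G.coeff n a = 0 ↔ G'.coeff n b = 0) :
    G.deg a = G'.deg b := by
  apply le_antisymm
  · rw [G.deg_le_iff]
    intro m hm
    rw [h]
    exact G'.coeff_eq_zero_of_deg_lt hm
  · rw [G'.deg_le_iff]
    intro m hm
    rw [← h]
    exact G.coeff_eq_zero_of_deg_lt hm

end bound

section ultra

variable {R B : Type*} [CommRing R] [CommRing B] [Algebra R B] {S : AddSubmonoid ℕ}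
  (G : GapAlg R B S) {ι : Type*} (U : Ultrafilter ι) (k : ι → Type*) [∀ i, Field (k i)]
  [∀ i, Algebra R (k i)]

/-- evaluation at `i` -/
noncomputable def ev (i : ι) : (∀ i, k i) ⊗[R] B →ₐ[R] k i ⊗[R] B :=
  bcMap B (Pi.evalAlgHom R k i)

/-- projection to the ultraproduct -/
noncomputable def qq : (∀ i, k i) ⊗[R] B →ₐ[R] Star U k ⊗[R] B :=
  bcMap B (Star.mkₐ U k R)

theorem qq_surjective : Function.Surjective (qq (R := R) (B := B) U k) :=
  bcMap_surjective (Star.mk_surjective U k)

theorem coeff_ev (i : ι) (n : ℕ) (x : (∀ i, k i) ⊗[R] B) :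
    (G.baseChange (k i)).coeff n (ev k i x) = (G.baseChange (∀ i, k i)).coeff n x i :=
  G.coeff_bcMap _ _ _

theorem coeff_qq (n : ℕ) (x : (∀ i, k i) ⊗[R] B) :
    (G.baseChange (Star U k)).coeff n (qq U k x) =
      Star.mk U k ((G.baseChange (∀ i, k i)).coeff n x) :=
  G.coeff_bcMap _ _ _

include G in
/-- eventually the vanishing pattern of coefficients agrees -/
theorem eventually_coeff_iff (x : (∀ i, k i) ⊗[R] B) :
    ∀ᶠ i in (U : Filter ι), ∀ n, (G.baseChange (k i)).coeff n (ev k i x) = 0 ↔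
      (G.baseChange (Star U k)).coeff n (qq U k x) = 0 := by
  have h1 : ∀ n, ∀ᶠ i in (U : Filter ι), ((G.baseChange (k i)).coeff n (ev k i x) = 0 ↔
      (G.baseChange (Star U k)).coeff n (qq U k x) = 0) := by
    intro n
    rw [G.coeff_qq, Star.mk_eq_zero_iff]
    simp only [G.coeff_ev]
    by_cases h : ∀ᶠ i in (U : Filter ι), (G.baseChange (∀ i, k i)).coeff n x i = 0
    · filter_upwards [h] with i hi
      simp [hi, h]
    · have h' := h
      rw [← Ultrafilter.frequently_iff_eventually, not_frequently] at h'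
      filter_upwards [h'] with i hi
      simp [hi, h]
  have h2 : ∀ᶠ i in (U : Filter ι), ∀ n ∈ Finset.range ((G.baseChange (∀ i, k i)).deg x + 1),
      ((G.baseChange (k i)).coeff n (ev k i x) = 0 ↔
      (G.baseChange (Star U k)).coeff n (qq U k x) = 0) := by
    rw [Finset.eventually_all]
    exact fun n _ => h1 n
  filter_upwards [h2] with i hi
  intro n
  by_cases hn : n ∈ Finset.range ((G.baseChange (∀ i, k i)).deg x + 1)
  · exact hi n hn
  · have h3 : (G.baseChange (∀ i, k i)).deg x < n := by simpa using hn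
    rw [G.coeff_ev, G.coeff_qq, GapAlg.coeff_eq_zero_of_deg_lt _ h3]
    simp

include G in
theorem qq_eq_zero_iff (x : (∀ i, k i) ⊗[R] B) :
    qq U k x = 0 ↔ ∀ᶠ i in (U : Filter ι), ev k i x = 0 := by
  have h := G.eventually_coeff_iff U k x
  constructor
  · intro h0
    filter_upwards [h] with i hi
    apply (G.baseChange (k i)).ext_coeff
    intro n
    rw [(hi n).mpr (by rw [h0, map_zero]), map_zero]
  · intro h0
    obtain ⟨i, hi, hi0⟩ := (h.and h0).exists
    apply (G.baseChange (Star U k)).ext_coeff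
    intro n
    rw [(hi n).mp (by rw [hi0, map_zero]), map_zero]

theorem eventually_deg_eq (x : (∀ i, k i) ⊗[R] B) :
    ∀ᶠ i in (U : Filter ι), (G.baseChange (k i)).deg (ev k i x) =
      (G.baseChange (Star U k)).deg (qq U k x) := by
  filter_upwards [G.eventually_coeff_iff U k x] with i hi
  exact (G.baseChange (k i)).deg_eq_of_coeff_iff (G.baseChange (Star U k)) hi

include G in
/-- bounded sequences lift -/
theorem exists_lift (a : ∀ i, k i ⊗[R] B) (N : ℕ) (h : ∀ i, (G.baseChange (k i)).deg (a i) ≤ N) :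
    ∃ x : (∀ i, k i) ⊗[R] B, ∀ i, ev k i x = a i := by
  obtain ⟨x, hx⟩ := G.exists_of_coeff (∀ i, k i)
    (fun n i => (G.baseChange (k i)).coeff n (a i)) N
    (fun n hn => by
      funext i
      exact GapAlg.coeff_eq_zero_of_deg_lt _ (lt_of_le_of_lt (h i) hn))
    (fun n hn => by
      funext i
      exact GapAlg.coeff_of_notMem _ hn _)
  refine ⟨x, fun i => ?_⟩
  apply (G.baseChange (k i)).ext_coeff
  intro n
  rw [G.coeff_ev, hx]

include G in
theorem exists_lift' (a : ∀ i, k i ⊗[R] B) (N : ℕ)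
    (h : ∀ᶠ i in (U : Filter ι), (G.baseChange (k i)).deg (a i) ≤ N) :
    ∃ x : (∀ i, k i) ⊗[R] B, ∀ᶠ i in (U : Filter ι), ev k i x = a i := by
  classical
  obtain ⟨x, hx⟩ := G.exists_lift k
    (fun i => if (G.baseChange (k i)).deg (a i) ≤ N then a i else 0) N (fun i => by
      split_ifs with h
      · exact h
      · rw [GapAlg.deg_zero]; exact Nat.zero_le _)
  refine ⟨x, ?_⟩
  filter_upwards [h] with i hi
  rw [hx, if_pos hi]

/-- preimage ideal -/
def psiPre (I : ∀ i, Ideal (k i ⊗[R] B)) : Ideal ((∀ i, k i) ⊗[R] B) where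
  carrier := {x | ∀ᶠ i in (U : Filter ι), ev k i x ∈ I i}
  zero_mem' := Eventually.of_forall fun i => by rw [map_zero]; exact (I i).zero_mem
  add_mem' := by
    intro x y hx hy
    filter_upwards [hx, hy] with i h1 h2
    rw [map_add]
    exact (I i).add_mem h1 h2
  smul_mem' := by
    intro c x hx
    filter_upwards [hx] with i h1
    rw [smul_eq_mul, map_mul]
    exact (I i).mul_mem_left _ h1

/-- The ultraproduct of a family of ideals. -/
noncomputable def Psi (I : ∀ i, Ideal (k i ⊗[R] B)) : Ideal (Star U k ⊗[R] B) :=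
  (psiPre U k I).map (qq (R := R) (B := B) U k)

variable {U k}

include G in
theorem qq_mem_Psi {I : ∀ i, Ideal (k i ⊗[R] B)} {x : (∀ i, k i) ⊗[R] B} :
    qq U k x ∈ Psi U k I ↔ ∀ᶠ i in (U : Filter ι), ev k i x ∈ I i := by
  constructor
  · intro h
    obtain ⟨y, hy, hyx⟩ := (Ideal.mem_map_iff_of_surjective
      (qq (R := R) (B := B) U k) (qq_surjective U k)).mp h
    have h1 : qq U k (x - y) = 0 := by
      rw [map_sub, sub_eq_zero]; exact hyx.symm
    rw [G.qq_eq_zero_iff] at h1
    have hy' : ∀ᶠ i in (U : Filter ι), ev k i y ∈ I i := hy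
    filter_upwards [h1, hy'] with i h2 h3
    rw [map_sub, sub_eq_zero] at h2
    rwa [h2]
  · intro h
    exact Ideal.mem_map_of_mem (qq (R := R) (B := B) U k) (show x ∈ psiPre U k I from h)

theorem mem_degSet_Psi {I : ∀ i, Ideal (k i ⊗[R] B)} {n : ℕ} :
    n ∈ (G.baseChange (Star U k)).degSet ((Psi U k I).restrictScalars (Star U k)) ↔
      ∀ᶠ i in (U : Filter ι), n ∈ (G.baseChange (k i)).degSet ((I i).restrictScalars (k i)) := by
  classical
  constructor
  · rintro ⟨v, hv, hv0, rfl⟩
    obtain ⟨x, rfl⟩ := qq_surjective U k v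
    have h1 := (G.qq_mem_Psi).mp hv
    have h2 : ∀ᶠ i in (U : Filter ι), ev k i x ≠ 0 := by
      rw [ne_eq, G.qq_eq_zero_iff, ← Ultrafilter.frequently_iff_eventually, not_frequently] at hv0
      exact hv0
    filter_upwards [h1, h2, G.eventually_deg_eq U k x] with i h3 h4 h5
    exact ⟨_, h3, h4, h5⟩
  · intro h
    obtain ⟨x, hx⟩ := G.exists_lift' U k (fun i => if n ∈ (G.baseChange (k i)).degSet
      ((I i).restrictScalars (k i)) then (G.baseChange (k i)).ech ((I i).restrictScalars (k i)) n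
      else 0) n (by
        filter_upwards [h] with i hi
        rw [if_pos hi, GapAlg.deg_ech _ hi])
    have hx' : ∀ᶠ i in (U : Filter ι), ev k i x =
        (G.baseChange (k i)).ech ((I i).restrictScalars (k i)) n := by
      filter_upwards [h, hx] with i h1 h2
      rw [h2, if_pos h1]
    refine ⟨qq (R := R) (B := B) U k x, ?_, ?_, ?_⟩
    · rw [Submodule.restrictScalars_mem, G.qq_mem_Psi]
      filter_upwards [hx'] with i hi
      rw [hi]
      exact (G.baseChange (k i)).ech_mem ((I i).restrictScalars (k i)) n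
    · intro h0
      rw [G.qq_eq_zero_iff] at h0
      obtain ⟨i, h1, h2, h3⟩ := (h.and (hx'.and h0)).exists
      rw [h2] at h3
      exact GapAlg.ech_ne_zero _ h1 h3
    · obtain ⟨i, h1, h2, h3⟩ := (h.and (hx'.and (G.eventually_deg_eq U k x))).exists
      rw [← h3, h2, GapAlg.deg_ech _ h1]

theorem eventually_degSet_eq [Cofin S] {I : ∀ i, Ideal (k i ⊗[R] B)} {d : ℕ}
    (hI : ∀ᶠ i in (U : Filter ι), I i ≠ ⊥)
    (hd : ∀ᶠ i in (U : Filter ι), codim ((I i).restrictScalars (k i)) ≤ d) :
    ∀ᶠ i in (U : Filter ι), (G.baseChange (k i)).degSet ((I i).restrictScalars (k i)) =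
      (G.baseChange (Star U k)).degSet ((Psi U k I).restrictScalars (Star U k)) := by
  have h1 : ∀ n, ∀ᶠ i in (U : Filter ι),
      (n ∈ (G.baseChange (k i)).degSet ((I i).restrictScalars (k i)) ↔
      n ∈ (G.baseChange (Star U k)).degSet ((Psi U k I).restrictScalars (Star U k))) := by
    intro n
    rw [G.mem_degSet_Psi]
    by_cases h : ∀ᶠ i in (U : Filter ι),
      n ∈ (G.baseChange (k i)).degSet ((I i).restrictScalars (k i))
    · filter_upwards [h] with i hi
      simp [hi, h]
    · have h' := h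
      rw [← Ultrafilter.frequently_iff_eventually, not_frequently] at h'
      filter_upwards [h'] with i hi
      simp [hi, h]
  have hbig : ∀ n, 2 * gaps S + d ≤ n → ∀ᶠ i in (U : Filter ι),
      n ∈ (G.baseChange (k i)).degSet ((I i).restrictScalars (k i)) := by
    intro n hn
    filter_upwards [hI, hd] with i h2 h3
    exact GapAlg.mem_degSet_of_le _ h2 (by omega)
  have h2 : ∀ᶠ i in (U : Filter ι), ∀ n ∈ Finset.range (2 * gaps S + d),
      (n ∈ (G.baseChange (k i)).degSet ((I i).restrictScalars (k i)) ↔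
      n ∈ (G.baseChange (Star U k)).degSet ((Psi U k I).restrictScalars (Star U k))) := by
    rw [Finset.eventually_all]
    exact fun n _ => h1 n
  filter_upwards [h2, hI, hd] with i h3 h4 h5
  ext n
  by_cases hn : n ∈ Finset.range (2 * gaps S + d)
  · exact h3 n hn
  · have hn' : 2 * gaps S + d ≤ n := by simpa using hn
    have h6 : n ∈ (G.baseChange (k i)).degSet ((I i).restrictScalars (k i)) :=
      GapAlg.mem_degSet_of_le _ h4 (by omega)
    have h7 := (G.mem_degSet_Psi (U := U) (I := I)).mpr (hbig n hn')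
    simp [h6, h7]

include G in
theorem eventually_codim_eq [Cofin S] {I : ∀ i, Ideal (k i ⊗[R] B)} {d : ℕ}
    (hI : ∀ᶠ i in (U : Filter ι), I i ≠ ⊥)
    (hd : ∀ᶠ i in (U : Filter ι), codim ((I i).restrictScalars (k i)) ≤ d) :
    ∀ᶠ i in (U : Filter ι), codim ((I i).restrictScalars (k i)) =
      codim ((Psi U k I).restrictScalars (Star U k)) := by
  filter_upwards [G.eventually_degSet_eq hI hd] with i hi
  rw [(G.baseChange (k i)).codim_eq_ncard, (G.baseChange (Star U k)).codim_eq_ncard, hi]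

include G in
theorem Psi_ne_bot [Cofin S] {I : ∀ i, Ideal (k i ⊗[R] B)} {d : ℕ}
    (hI : ∀ᶠ i in (U : Filter ι), I i ≠ ⊥)
    (hd : ∀ᶠ i in (U : Filter ι), codim ((I i).restrictScalars (k i)) ≤ d) : Psi U k I ≠ ⊥ := by
  obtain ⟨i, h1, h2⟩ := (hI.and (G.eventually_degSet_eq hI hd)).exists
  rw [(G.baseChange (k i)).ne_bot_iff_degSet, h2] at h1
  exact ((G.baseChange (Star U k)).ne_bot_iff_degSet).mpr h1

include G in
theorem isPrincipal_Psi_iff [Cofin S] {I : ∀ i, Ideal (k i ⊗[R] B)} {d : ℕ}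
    (hI : ∀ᶠ i in (U : Filter ι), I i ≠ ⊥)
    (hd : ∀ᶠ i in (U : Filter ι), codim ((I i).restrictScalars (k i)) ≤ d) :
    ∀ᶠ i in (U : Filter ι), ((I i).IsPrincipal ↔ (Psi U k I).IsPrincipal) := by
  filter_upwards [hI, G.eventually_degSet_eq hI hd, G.eventually_codim_eq hI hd] with i h1 h2 h3
  rw [(G.baseChange (k i)).isPrincipal_iff' h1,
    (G.baseChange (Star U k)).isPrincipal_iff' (G.Psi_ne_bot hI hd), h2, h3]

end ultra

end GapAlg

end Fermat.Agent.S27
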