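import Fermat.Agent.S27.UltraCount
import Fermat.Agent.S27.GapDescent2

set_option autoImplicit false
set_option linter.style.haveILetI false
set_option linter.deprecated false
set_option linter.unusedSectionVars false

/-! Regularity and divisibility in ultraproducts. -/

namespace Fermat.Agent.S27

open Module TensorProduct Filter nonZeroDivisors

namespace GapAlg

section ultra

variable {R B : Type*} [CommRing R] [CommRing B] [Algebra R B] {S : AddSubmonoid ℕ} [Cofin S]
  (G : GapAlg R B S) {ι : Type*} {U : Ultrafilter ι} {k : ι → Type*} [∀ i, Field (k i)]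
  [∀ i, Algebra R (k i)] [∀ i, IsAlgClosed (k i)]

include G in
/-- if the ultraproduct is regular, then almost all members are -/
theorem eventually_isIntegrallyClosed [IsIntegrallyClosed (Star U k ⊗[R] B)] :
    ∀ᶠ i in (U : Filter ι), IsIntegrallyClosed (k i ⊗[R] B) := by
  classical
  by_contra hcon
  rw [← Ultrafilter.frequently_iff_eventually, not_frequently] at hcon
  have h1 : ∀ᶠ i in (U : Filter ι), ∃ P, P ∈ Sing (k i) (k i ⊗[R] B) := by
    filter_upwards [hcon] with i hi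
    by_contra h
    apply hi
    apply (G.baseChange (k i)).isIntegrallyClosed_of_sing
    rw [Set.eq_empty_iff_forall_notMem]
    intro P hP
    exact h ⟨P, hP⟩
  let P : ∀ i, Ideal (k i ⊗[R] B) := fun i =>
    if h : ∃ P, P ∈ Sing (k i) (k i ⊗[R] B) then h.choose else ⊤
  have hP : ∀ᶠ i in (U : Filter ι), P i ∈ Sing (k i) (k i ⊗[R] B) := by
    filter_upwards [h1] with i hi
    show (if h : ∃ P, P ∈ Sing (k i) (k i ⊗[R] B) then h.choose else ⊤) ∈ _
    rw [dif_pos hi]
    exact hi.choose_spec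
  have hP0 : ∀ᶠ i in (U : Filter ι), P i ≠ ⊥ := by
    filter_upwards [hP] with i hi
    exact hi.2.1
  have hPc : ∀ᶠ i in (U : Filter ι), codim ((P i).restrictScalars (k i)) = 1 := by
    filter_upwards [hP] with i hi
    exact (G.baseChange (k i)).codim_isMaximal hi.1 hi.2.1
  have hPc' : ∀ᶠ i in (U : Filter ι), codim ((P i).restrictScalars (k i)) ≤ 1 := by
    filter_upwards [hPc] with i hi
    exact hi.le
  have hQ0 : ∀ᶠ i in (U : Filter ι), P i ^ 2 ≠ ⊥ := by
    filter_upwards [hP0] with i hi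
    rw [pow_two]
    exact (G.baseChange (k i)).mul_ne_bot hi hi
  have hQc : ∀ᶠ i in (U : Filter ι), codim ((P i ^ 2).restrictScalars (k i)) ≤
      gaps S + 1 + 1 := by
    filter_upwards [hP0, hPc] with i hi hi'
    have := (G.baseChange (k i)).codim_mul_le hi hi
    rw [hi', ← pow_two] at this
    exact this
  haveI := (G.baseChange (Star U k)).isDedekindDomain
  have h2 := (G.baseChange (Star U k)).codim_pow (G.Psi_ne_bot hP0 hPc') 2
  obtain ⟨i, h3, h4, h5, h6⟩ := ((G.eventually_codim_eq hP0 hPc').and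
    ((G.eventually_codim_eq hQ0 hQc).and (hP.and hPc))).exists
  rw [← h3, h6] at h2
  have hle : Psi U k P ^ 2 ≤ Psi U k (fun i => P i ^ 2) := by
    rw [pow_two, Ideal.mul_le]
    intro x hx y hy
    obtain ⟨x', rfl⟩ := qq_surjective U k x
    obtain ⟨y', rfl⟩ := qq_surjective U k y
    rw [← map_mul, G.qq_mem_Psi]
    filter_upwards [G.qq_mem_Psi.mp hx, G.qq_mem_Psi.mp hy] with j hj hj'
    rw [map_mul, pow_two]
    exact Ideal.mul_mem_mul hj hj'
  haveI := (G.baseChange (Star U k)).finite_ideal (I := Psi U k P ^ 2)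
    (pow_ne_zero 2 (G.Psi_ne_bot hP0 hPc'))
  have h7 := codim_anti (k := Star U k)
    (V := (Psi U k P ^ 2).restrictScalars (Star U k))
    (W := (Psi U k (fun i => P i ^ 2)).restrictScalars (Star U k)) (fun x hx => by
      rw [Submodule.restrictScalars_mem] at hx ⊢; exact hle hx)
  rw [h2, ← h4] at h7
  have h8 := h5.2.2
  omega

include G in
theorem divBy_star [Algebra.FinitePresentation R B] {n : ℕ}
    (hDed : ∀ᶠ i in (U : Filter ι), IsIntegrallyClosed (k i ⊗[R] B))
    [IsIntegrallyClosed (Star U k ⊗[R] B)]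
    (h : ∀ᶠ i in (U : Filter ι), DivBy (k i ⊗[R] B) n) :
    DivBy (Star U k ⊗[R] B) n := by
  classical
  intro J hJ
  obtain ⟨J', d, hJ0, hJd, rfl⟩ := G.good_of_ne_bot hDed J hJ
  have hex : ∀ i, ∃ I : Ideal (k i ⊗[R] B), IsIntegrallyClosed (k i ⊗[R] B) →
      DivBy (k i ⊗[R] B) n → J' i ≠ ⊥ → I ≠ ⊥ ∧
        codim (I.restrictScalars (k i)) = 2 * gaps S ∧ (J' i * I ^ n).IsPrincipal := by
    intro i
    by_cases h1 : IsIntegrallyClosed (k i ⊗[R] B) ∧ DivBy (k i ⊗[R] B) n ∧ J' i ≠ ⊥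
    · haveI := h1.1
      haveI := (G.baseChange (k i)).isDedekindDomain
      obtain ⟨I, hI0, hI⟩ := h1.2.1 (J' i) h1.2.2
      obtain ⟨I', hI', hd⟩ := (G.baseChange (k i)).mem_D_of_le (ClassGroup.mk0 (nz I hI0))
        (le_refl (2 * gaps S))
      refine ⟨I', fun _ _ _ => ⟨ne_bot_of_nzd I', hd, ?_⟩⟩
      rw [← mk0_nz_mul_pow_iff h1.2.2 hI0, ← hI'] at hI
      rw [← mk0_nz_mul_pow_iff h1.2.2 (ne_bot_of_nzd I')]
      exact hI
    · exact ⟨⊤, fun h2 h3 h4 => absurd ⟨h2, h3, h4⟩ h1⟩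
  choose I hI using hex
  have hev : ∀ᶠ i in (U : Filter ι), I i ≠ ⊥ ∧
        codim ((I i).restrictScalars (k i)) = 2 * gaps S ∧ (J' i * (I i) ^ n).IsPrincipal := by
    filter_upwards [hDed, h, hJ0] with i h1 h2 h3
    exact hI i h1 h2 h3
  have h0 : ∀ᶠ i in (U : Filter ι), I i ≠ ⊥ := by
    filter_upwards [hev] with i hi
    exact hi.1
  have hd : ∀ᶠ i in (U : Filter ι), codim ((I i).restrictScalars (k i)) ≤ 2 * gaps S := by
    filter_upwards [hev] with i hi
    exact hi.2.1.le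
  refine ⟨Psi U k I, G.Psi_ne_bot h0 hd, ?_⟩
  obtain ⟨h1, h2, h3⟩ := G.Psi_pow hDed h0 hd n
  obtain ⟨h4, h5, h6⟩ := G.Psi_mul hDed hJ0 hJd h1 h2
  obtain ⟨i, h7, h8⟩ := ((G.isPrincipal_Psi_iff h4 h5).and hev).exists
  rw [h6, h3] at h7
  exact h7.mp h8.2.2

end ultra

end GapAlg

end Fermat.Agent.S27
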