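import Fermat.Agent.S27.UltraGap

set_option autoImplicit false
set_option linter.style.haveILetI false
set_option linter.deprecated false
set_option linter.unusedSectionVars false

/-! Transfer of `TorsCount` to ultraproducts. -/

namespace Fermat.Agent.S27

open Module TensorProduct Filter nonZeroDivisors

namespace GapAlg

section pt

variable {R B k : Type*} [CommRing R] [CommRing B] [Algebra R B] [CommRing k] [Algebra R k]

/-- the ideal generated by `1 ⊗ b - y b ⊗ 1` -/
def ptIdeal (y : B → k) : Ideal (k ⊗[R] B) :=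
  Ideal.span (Set.range fun b => (1 : k) ⊗ₜ[R] b - y b ⊗ₜ[R] (1 : B))

theorem sub_mem_ptIdeal (y : B → k) (x : k ⊗[R] B) :
    ∃ c : k, x - c ⊗ₜ[R] (1 : B) ∈ ptIdeal (R := R) y := by
  induction x using TensorProduct.induction_on with
  | zero => exact ⟨0, by simp⟩
  | tmul c b =>
    refine ⟨c * y b, ?_⟩
    have : c ⊗ₜ[R] b - (c * y b) ⊗ₜ[R] (1 : B) =
        (c ⊗ₜ[R] (1 : B)) * ((1 : k) ⊗ₜ[R] b - y b ⊗ₜ[R] (1 : B)) := by
      rw [mul_sub, Algebra.TensorProduct.tmul_mul_tmul, Algebra.TensorProduct.tmul_mul_tmul,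
        mul_one, one_mul, one_mul]
    rw [this]
    exact Ideal.mul_mem_left _ _ (Ideal.subset_span ⟨b, rfl⟩)
  | add x x' hx hx' =>
    obtain ⟨c, hc⟩ := hx
    obtain ⟨c', hc'⟩ := hx'
    refine ⟨c + c', ?_⟩
    have : x + x' - (c + c') ⊗ₜ[R] (1 : B) = (x - c ⊗ₜ[R] (1 : B)) + (x' - c' ⊗ₜ[R] (1 : B)) := by
      rw [TensorProduct.add_tmul]; ring
    rw [this]
    exact Ideal.add_mem _ hc hc'

theorem ptIdeal_ne_top [Nontrivial k] (f : B →ₐ[R] k) : ptIdeal (R := R) (f : B → k) ≠ ⊤ := by
  intro h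
  let F : k ⊗[R] B →ₐ[R] k :=
    Algebra.TensorProduct.lift (AlgHom.id R k) f (fun _ _ => Commute.all _ _)
  have h1 : ptIdeal (R := R) (f : B → k) ≤ RingHom.ker F := by
    rw [ptIdeal, Ideal.span_le]
    rintro _ ⟨b, rfl⟩
    simp [F]
  rw [h] at h1
  have : (1 : k ⊗[R] B) ∈ RingHom.ker F := h1 trivial
  rw [RingHom.mem_ker, map_one] at this
  exact one_ne_zero this

end pt

section field

variable {R B k : Type*} [CommRing R] [CommRing B] [Algebra R B] {S : AddSubmonoid ℕ}
  (G : GapAlg R B S) [Field k] [Algebra R k]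

include G in
theorem codim_ptIdeal_le (y : B → k) : codim ((ptIdeal (R := R) y).restrictScalars k) ≤ 1 := by
  rw [codim]
  apply finrank_le_one (Submodule.Quotient.mk (1 : k ⊗[R] B))
  intro w
  obtain ⟨x, rfl⟩ := Submodule.Quotient.mk_surjective _ w
  obtain ⟨c, hc⟩ := sub_mem_ptIdeal (R := R) y x
  refine ⟨c, ?_⟩
  rw [← Submodule.Quotient.mk_smul, eq_comm, Submodule.Quotient.eq]
  have : c • (1 : k ⊗[R] B) = c ⊗ₜ[R] (1 : B) := by
    rw [Algebra.TensorProduct.one_def, TensorProduct.smul_tmul', smul_eq_mul, mul_one]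
  rw [this]
  exact hc

include G in
theorem ptIdeal_ne_bot [Cofin S] (y : B → k) : ptIdeal (R := R) y ≠ ⊥ := by
  intro h
  obtain ⟨N, hN⟩ := (Cofin.fin (S := S)).bddAbove
  have hs : N + 1 ∈ S := by
    by_contra h1
    have := hN h1
    omega
  have h1 : (1 : k) ⊗ₜ[R] G.e ⟨N + 1, hs⟩ - y (G.e ⟨N + 1, hs⟩) ⊗ₜ[R] (1 : B) ∈
      ptIdeal (R := R) y := Ideal.subset_span ⟨_, rfl⟩
  rw [h, Ideal.mem_bot] at h1
  have h2 := congrArg ((G.baseChange k).coeff (N + 1)) h1
  rw [map_sub, coeff_tmul, coeff_tmul, map_zero, ← G.e_zero, G.coeff_e, G.coeff_e, if_pos rfl,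
    if_neg (by simp)] at h2
  simp at h2

end field

section ultra

variable {R B : Type*} [CommRing R] [CommRing B] [Algebra R B] {S : AddSubmonoid ℕ} [Cofin S]
  (G : GapAlg R B S) {ι : Type*} {U : Ultrafilter ι} {k : ι → Type*} [∀ i, Field (k i)]
  [∀ i, Algebra R (k i)] [∀ i, IsAlgClosed (k i)]

include G in
theorem Psi_mul {I J : ∀ i, Ideal (k i ⊗[R] B)} {d d' : ℕ}
    (hDed : ∀ᶠ i in (U : Filter ι), IsIntegrallyClosed (k i ⊗[R] B))
    [IsIntegrallyClosed (Star U k ⊗[R] B)]
    (hI : ∀ᶠ i in (U : Filter ι), I i ≠ ⊥)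
    (hd : ∀ᶠ i in (U : Filter ι), codim ((I i).restrictScalars (k i)) ≤ d)
    (hJ : ∀ᶠ i in (U : Filter ι), J i ≠ ⊥)
    (hd' : ∀ᶠ i in (U : Filter ι), codim ((J i).restrictScalars (k i)) ≤ d') :
    (∀ᶠ i in (U : Filter ι), I i * J i ≠ ⊥) ∧
    (∀ᶠ i in (U : Filter ι), codim ((I i * J i).restrictScalars (k i)) ≤ d + d') ∧
    Psi U k (fun i => I i * J i) = Psi U k I * Psi U k J := by
  have h1 : ∀ᶠ i in (U : Filter ι), I i * J i ≠ ⊥ := by
    filter_upwards [hI, hJ, hDed] with i h1 h2 h3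
    haveI := (G.baseChange (k i)).isDedekindDomain
    exact mul_ne_zero h1 h2
  have h2 : ∀ᶠ i in (U : Filter ι), codim ((I i * J i).restrictScalars (k i)) =
      codim ((I i).restrictScalars (k i)) + codim ((J i).restrictScalars (k i)) := by
    filter_upwards [hI, hJ, hDed] with i h1 h2 h3
    haveI := (G.baseChange (k i)).isDedekindDomain
    exact (G.baseChange (k i)).codim_mul h1 h2
  have h3 : ∀ᶠ i in (U : Filter ι), codim ((I i * J i).restrictScalars (k i)) ≤ d + d' := by
    filter_upwards [h2, hd, hd'] with i h1 h2 h3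
    omega
  refine ⟨h1, h3, ?_⟩
  haveI := (G.baseChange (Star U k)).isDedekindDomain
  have hle : Psi U k I * Psi U k J ≤ Psi U k (fun i => I i * J i) := by
    rw [Ideal.mul_le]
    intro r hr s hs
    obtain ⟨x, rfl⟩ := qq_surjective U k r
    obtain ⟨y, rfl⟩ := qq_surjective U k s
    rw [← map_mul, G.qq_mem_Psi]
    filter_upwards [(G.qq_mem_Psi).mp hr, (G.qq_mem_Psi).mp hs] with i h4 h5
    rw [map_mul]
    exact Ideal.mul_mem_mul h4 h5
  have hI0 := G.Psi_ne_bot hI hd
  have hJ0 := G.Psi_ne_bot hJ hd'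
  haveI := (G.baseChange (Star U k)).finite_ideal (mul_ne_zero hI0 hJ0)
  have heq := (G.baseChange (Star U k)).eq_of_le_of_codim_eq
    (V := (Psi U k I * Psi U k J).restrictScalars (Star U k))
    (W := (Psi U k (fun i => I i * J i)).restrictScalars (Star U k)) hle (by
      rw [(G.baseChange (Star U k)).codim_mul hI0 hJ0]
      obtain ⟨i, h4, h5, h6, h7⟩ := ((G.eventually_codim_eq hI hd).and
        ((G.eventually_codim_eq hJ hd').and ((G.eventually_codim_eq h1 h3).and h2))).exists
      omega)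
  exact (Submodule.restrictScalars_injective _ _ _ heq).symm

variable (U k) in
/-- the ideals which are ultraproducts of bounded families -/
def Good (𝔞 : Ideal (Star U k ⊗[R] B)) : Prop :=
  ∃ (I : ∀ i, Ideal (k i ⊗[R] B)) (d : ℕ), (∀ᶠ i in (U : Filter ι), I i ≠ ⊥) ∧
    (∀ᶠ i in (U : Filter ι), codim ((I i).restrictScalars (k i)) ≤ d) ∧ Psi U k I = 𝔞

include G in
theorem good_top : Good U k (⊤ : Ideal (Star U k ⊗[R] B)) := by
  refine ⟨fun i => ⊤, 0, ?_, ?_, ?_⟩
  · refine Eventually.of_forall fun i => ?_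
    haveI := (G.baseChange (k i)).nontrivial
    exact top_ne_bot
  · refine Eventually.of_forall fun i => ?_
    haveI := (G.baseChange (k i)).nontrivial
    exact (((G.baseChange (k i)).codim_eq_zero_iff top_ne_bot).mpr rfl).le
  · rw [Ideal.eq_top_iff_one, ← map_one (qq (R := R) (B := B) U k), G.qq_mem_Psi]
    exact Eventually.of_forall fun i => trivial

/-- lifting points, using finite presentation -/
theorem exists_lift_point [Algebra.FinitePresentation R B] (h : B →ₐ[R] Star U k) :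
    ∃ y : ∀ i, B → k i, (∀ᶠ i in (U : Filter ι), ∃ f : B →ₐ[R] k i, (f : B → k i) = y i) ∧
      ∀ b, Star.mk U k (fun i => y i b) = h b := by
  obtain ⟨n, π, hπ, hker⟩ := Algebra.FinitePresentation.out (R := R) (A := B)
  choose t ht using fun j : Fin n => Star.mk_surjective U k (h (π (MvPolynomial.X j)))
  let ψ : ∀ i, MvPolynomial (Fin n) R →ₐ[R] k i := fun i => MvPolynomial.aeval (fun j => t j i)
  have hψ : ∀ p, Star.mk U k (fun i => ψ i p) = h (π p) := by
    intro p
    have h1 : (Star.mkₐ U k R).comp (Pi.algHom R k ψ) = h.comp π := by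
      apply MvPolynomial.algHom_ext
      intro j
      rw [AlgHom.comp_apply, AlgHom.comp_apply, ← ht j, Star.mkₐ_apply]
      congr 1
      funext i
      simp [ψ]
    exact congrArg (fun f => f p) h1
  obtain ⟨s, hs'⟩ := hker
  have hs : Ideal.span (s : Set (MvPolynomial (Fin n) R)) = RingHom.ker π := hs'
  have hgood : ∀ᶠ i in (U : Filter ι), RingHom.ker π ≤ RingHom.ker (ψ i) := by
    have h1 : ∀ᶠ i in (U : Filter ι), ∀ p ∈ s, ψ i p = 0 := by
      rw [Finset.eventually_all]
      intro p hp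
      have h2 : π p = 0 := by
        have : p ∈ RingHom.ker π := by rw [← hs]; exact Ideal.subset_span hp
        exact this
      rw [← Star.mk_eq_zero_iff U k, hψ, h2, map_zero]
    filter_upwards [h1] with i hi
    rw [← hs, Ideal.span_le]
    intro p hp
    exact hi p hp
  refine ⟨fun i b => ψ i (hπ b).choose, ?_, ?_⟩
  · filter_upwards [hgood] with i hi
    have hcompat : ∀ p, ψ i p = ψ i (hπ (π p)).choose := by
      intro p
      rw [← sub_eq_zero, ← map_sub]
      apply hi
      rw [RingHom.mem_ker, map_sub, (hπ (π p)).choose_spec, sub_self]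
    refine ⟨{ toFun := fun b => ψ i (hπ b).choose
              map_one' := ?_, map_mul' := ?_, map_zero' := ?_, map_add' := ?_, commutes' := ?_ }, rfl⟩
    · have := hcompat 1
      rw [map_one, map_one] at this
      exact this.symm
    · intro a b
      obtain ⟨p, rfl⟩ := hπ a
      obtain ⟨q, rfl⟩ := hπ b
      rw [← map_mul, ← hcompat, ← hcompat, ← hcompat, map_mul]
    · have := hcompat 0
      rw [map_zero, map_zero] at this
      exact this.symm
    · intro a b
      obtain ⟨p, rfl⟩ := hπ a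
      obtain ⟨q, rfl⟩ := hπ b
      rw [← map_add, ← hcompat, ← hcompat, ← hcompat, map_add]
    · intro r
      have := hcompat (algebraMap _ _ r)
      rw [AlgHom.commutes, AlgHom.commutes] at this
      exact this.symm
  · intro b
    rw [hψ, (hπ b).choose_spec]

include G in
theorem good_maximal [Algebra.FinitePresentation R B] {𝔪 : Ideal (Star U k ⊗[R] B)}
    (hm : 𝔪.IsMaximal) (hm0 : 𝔪 ≠ ⊥) : Good U k 𝔪 := by
  -- the point
  have hex := fun x : Star U k ⊗[R] B =>
    (G.baseChange (Star U k)).exists_sub_mem_of_isMaximal hm hm0 x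
  have huniq : ∀ c : Star U k, algebraMap (Star U k) (Star U k ⊗[R] B) c ∈ 𝔪 → c = 0 := by
    intro c hc
    by_contra h0
    apply hm.ne_top
    exact Ideal.eq_top_of_isUnit_mem _ hc ((isUnit_iff_ne_zero.mpr h0).map _)
  choose hf hhf using hex
  have heq : ∀ x c, x - algebraMap (Star U k) (Star U k ⊗[R] B) c ∈ 𝔪 → hf x = c := by
    intro x c hx
    rw [← sub_eq_zero]
    apply huniq
    have := 𝔪.sub_mem hx (hhf x)
    rw [map_sub]
    convert this using 1
    ring
  let ir : B →ₐ[R] Star U k ⊗[R] B := Algebra.TensorProduct.includeRight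
  let h : B →ₐ[R] Star U k :=
    { toFun := fun b => hf (ir b)
      map_one' := by
        apply heq
        rw [map_one, map_one, sub_self]
        exact 𝔪.zero_mem
      map_zero' := by
        apply heq
        rw [map_zero, map_zero, sub_zero]
        exact 𝔪.zero_mem
      map_mul' := by
        intro a b
        apply heq
        rw [map_mul, map_mul]
        have h2 := 𝔪.add_mem (𝔪.mul_mem_left (ir a) (hhf (ir b)))
          (𝔪.mul_mem_right (algebraMap _ _ (hf (ir b))) (hhf (ir a)))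
        convert h2 using 1
        ring
      map_add' := by
        intro a b
        apply heq
        rw [map_add, map_add]
        have h2 := 𝔪.add_mem (hhf (ir a)) (hhf (ir b))
        convert h2 using 1
        ring
      commutes' := by
        intro r
        apply heq
        rw [AlgHom.commutes, IsScalarTower.algebraMap_apply R (Star U k) (Star U k ⊗[R] B), sub_self]
        exact 𝔪.zero_mem }
  obtain ⟨y, hy1, hy2⟩ := exists_lift_point h
  refine ⟨fun i => ptIdeal (y i), 1, ?_, ?_, ?_⟩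
  · exact Eventually.of_forall fun i => G.ptIdeal_ne_bot (y i)
  · exact Eventually.of_forall fun i => G.codim_ptIdeal_le (y i)
  · -- `𝔪 ≤ Psi`
    have hle1 : ptIdeal (R := R) (fun b => h b) ≤ Psi U k (fun i => ptIdeal (y i)) := by
      rw [ptIdeal, Ideal.span_le]
      rintro _ ⟨b, rfl⟩
      have h1 : (1 : Star U k) ⊗ₜ[R] b - h b ⊗ₜ[R] (1 : B) =
          qq U k ((1 : ∀ i, k i) ⊗ₜ[R] b - (fun i => y i b) ⊗ₜ[R] (1 : B)) := by
        rw [map_sub, ← hy2 b]
        rfl
      simp only [SetLike.mem_coe]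
      rw [h1, G.qq_mem_Psi]
      refine Eventually.of_forall fun i => ?_
      exact Ideal.subset_span ⟨b, rfl⟩
    have hle2 : ptIdeal (R := R) (fun b => h b) ≤ 𝔪 := by
      rw [ptIdeal, Ideal.span_le]
      rintro _ ⟨b, rfl⟩
      exact hhf ((1 : Star U k) ⊗ₜ[R] b)
    have hle : 𝔪 ≤ Psi U k (fun i => ptIdeal (y i)) := by
      intro x hx
      obtain ⟨c, hc⟩ := sub_mem_ptIdeal (R := R) (fun b => h b) x
      have h1 : c = 0 := by
        apply huniq
        have := 𝔪.sub_mem hx (hle2 hc)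
        convert this using 1
        rw [Algebra.TensorProduct.algebraMap_apply, Algebra.algebraMap_self_apply]
        ring
      rw [h1, TensorProduct.zero_tmul, sub_zero] at hc
      exact hle1 hc
    symm
    apply hm.eq_of_le _ hle
    intro htop
    rw [Ideal.eq_top_iff_one, ← map_one (qq (R := R) (B := B) U k), G.qq_mem_Psi] at htop
    obtain ⟨i, hi1, f, hf⟩ := (htop.and hy1).exists
    rw [map_one, ← Ideal.eq_top_iff_one, ← hf] at hi1
    exact ptIdeal_ne_top f hi1

include G in
theorem good_of_ne_bot [Algebra.FinitePresentation R B]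
    (hDed : ∀ᶠ i in (U : Filter ι), IsIntegrallyClosed (k i ⊗[R] B))
    [IsIntegrallyClosed (Star U k ⊗[R] B)] (𝔞 : Ideal (Star U k ⊗[R] B)) (h0 : 𝔞 ≠ ⊥) :
    Good U k 𝔞 := by
  haveI := (G.baseChange (Star U k)).isDedekindDomain
  revert h0
  refine UniqueFactorizationMonoid.induction_on_prime 𝔞 ?_ ?_ ?_
  · intro h; exact absurd rfl h
  · intro u hu _
    rw [Ideal.isUnit_iff.mp hu]
    exact G.good_top
  · intro a p ha hp ih _
    obtain ⟨J, d', hJ, hd', hJa⟩ := ih ha
    have hp0 : p ≠ ⊥ := hp.ne_zero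
    have hpm : p.IsMaximal := (Ideal.isPrime_of_prime hp).isMaximal hp0
    obtain ⟨I, d, hI, hd, hIp⟩ := G.good_maximal hpm hp0
    obtain ⟨h1, h2, h3⟩ := G.Psi_mul hDed hI hd hJ hd'
    exact ⟨_, _, h1, h2, by rw [h3, hIp, hJa]⟩

end ultra

end GapAlg

end Fermat.Agent.S27
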